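import Fermat.Agent.Catalan.KoChao

/-!
# Catalan's equation `x^p - y^q = 1`: factorisation and the easy half of Cassels' theorem
-/

set_option autoImplicit false

namespace FA.Catalan

open Finset

/-- The equation is symmetric under `(p, q, x, y) ↦ (q, p, -y, -x)`. -/
theorem catalan_symm {p q : ℕ} (hp : Odd p) (hq : Odd q) {x y : ℤ} (h : x ^ p - y ^ q = 1) :
    (-y) ^ q - (-x) ^ p = 1 := by rw [hp.neg_pow, hq.neg_pow]; linear_combination h

/-- The geometric sum in `1 + w`, to second order. -/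
theorem exists_geom_sum_one_add (w : ℤ) : ∀ n : ℕ,
    ∃ K : ℤ, ∑ i ∈ range n, (1 + w) ^ i = n + (n.choose 2 : ℤ) * w + w ^ 2 * K
  | 0 => ⟨0, by simp⟩
  | n + 1 => by
    obtain ⟨K, hK⟩ := exists_geom_sum_one_add w n
    refine ⟨(1 + w) * K + (n.choose 2 : ℤ), ?_⟩
    rw [geom_sum_succ, hK, Nat.choose_succ_succ', Nat.choose_one_right]
    push_cast
    ring

variable {p q : ℕ}

/-- For `p ∤ y` the number `x - 1` is a `q`-th power. -/
theorem exists_pow_of_not_dvd (hp : p.Prime) (hp2 : Odd p) (hq2 : Odd q) {x y : ℤ} (h : x ^ p - y ^ q = 1)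
    (hpy : ¬ (p : ℤ) ∣ y) : ∃ a : ℤ, x - 1 = a ^ q := by
  have hs : x ^ p + (-1 : ℤ) ^ p = y ^ q := by rw [hp2.neg_one_pow]; linear_combination h
  have hcop : IsCoprime (x + -1) (FA.Regular.sgCofactor p x (-1)) :=
    isCoprime_add_sgCofactor hp hp2 isCoprime_one_right.neg_right
      (hs ▸ fun e => hpy ((Nat.prime_iff_prime_int.mp hp).dvd_of_dvd_pow e))
  exact Int.eq_pow_of_mul_eq_pow_odd_left hcop hq2
    (by rw [mul_comm, FA.Regular.sgCofactor_mul hp2, hs])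

/-- For `p ∣ y`: `x - 1 = p^(q-1) a^q`, `y = p a v` and `v^q ≡ 1 (mod x - 1)`. -/
theorem exists_pow_of_dvd (hp : p.Prime) (hp2 : Odd p) (hq2 : Odd q) {x y : ℤ}
    (h : x ^ p - y ^ q = 1) (hpy : (p : ℤ) ∣ y) :
    ∃ a v K : ℤ, x - 1 = (p : ℤ) ^ (q - 1) * a ^ q ∧ y = p * a * v ∧ v ^ q = 1 + (x - 1) * K := by
  have hp3 : 3 ≤ p := by
    have := hp.two_le
    rw [Nat.odd_iff] at hp2
    omega
  have hq1 : 1 ≤ q := hq2.pos
  have hpI : Prime (p : ℤ) := Nat.prime_iff_prime_int.mp hp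
  have hp0 : (p : ℤ) ≠ 0 := hpI.ne_zero
  have := Fact.mk hp
  have hw : (p : ℤ) ∣ x - 1 := by
    rw [← ZMod.intCast_zmod_eq_zero_iff_dvd]
    have hy : (y : ZMod p) = 0 := (ZMod.intCast_zmod_eq_zero_iff_dvd _ _).mpr hpy
    have := congrArg (Int.cast : ℤ → ZMod p) h
    simp only [Int.cast_sub, Int.cast_pow, Int.cast_one, ZMod.pow_card, hy, zero_pow (show q ≠ 0 by omega),
      sub_zero] at this
    simp [this]
  obtain ⟨t, ht⟩ := hw
  obtain ⟨K, hK⟩ := exists_geom_sum_one_add (x - 1) p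
  obtain ⟨c, hc⟩ : (p : ℤ) ∣ (p.choose 2 : ℤ) :=
    Int.natCast_dvd_natCast.mpr (hp.dvd_choose_self two_ne_zero (by omega))
  set K' := c + t * K
  have hΦ : ∑ i ∈ range p, x ^ i = (p : ℤ) * (1 + (x - 1) * K') := by
    rw [show (1 : ℤ) + (x - 1) = x by ring] at hK
    rw [hK, hc, sq, show (x - 1) * (x - 1) = (p : ℤ) * t * (x - 1) by rw [← ht]]
    ring
  obtain ⟨y', rfl⟩ := hpy
  have hprod : (x - 1) * (1 + (x - 1) * K') = (p : ℤ) ^ (q - 1) * y' ^ q := by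
    refine mul_left_cancel₀ hp0 ?_
    rw [← mul_assoc _ ((p : ℤ) ^ (q - 1)), ← pow_succ', Nat.sub_add_cancel hq1, ← mul_pow]
    linear_combination h + geom_sum_mul x p - (x - 1) * hΦ
  have hcw : IsCoprime (x - 1) (1 + (x - 1) * K') := ⟨-K', 1, by ring⟩
  have hcp : IsCoprime ((p : ℤ) ^ (q - 1)) (1 + (x - 1) * K') :=
    (hcw.of_isCoprime_of_dvd_left ⟨t, ht⟩).pow_left
  obtain ⟨A, hA⟩ := hcp.dvd_of_dvd_mul_right ⟨y' ^ q, hprod⟩
  have hcA : IsCoprime A (1 + (x - 1) * K') :=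
    hcw.of_isCoprime_of_dvd_left ⟨(p : ℤ) ^ (q - 1), by rw [hA]; ring⟩
  obtain ⟨⟨a, ha⟩, ⟨v, hv⟩⟩ := Int.eq_pow_of_mul_eq_pow_odd (c := y') hcA hq2
    (mul_left_cancel₀ (pow_ne_zero (q - 1) hp0) (by rw [← mul_assoc, ← hA, hprod]))
  refine ⟨a, v, K', by rw [hA, ha], ?_, hv.symm⟩
  have : y' ^ q = (a * v) ^ q := by
    refine mul_left_cancel₀ (pow_ne_zero (q - 1) hp0) ?_
    rw [← hprod, mul_pow, ← hv, ← mul_assoc, ← ha, ← hA]
  rw [hq2.strictMono_pow.injective this]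
  ring

/-- **The easy half of Cassels' theorem**: `p < q` forces `p ∣ y`. -/
theorem cassels_easy (hp : p.Prime) (hp2 : Odd p) (hq2 : Odd q) (hpq : p < q) {x y : ℤ} (hx : x ≠ 0)
    (hy : y ≠ 0) (h : x ^ p - y ^ q = 1) : (p : ℤ) ∣ y := by
  by_contra hpy
  obtain ⟨a, ha⟩ := exists_pow_of_not_dvd hp hp2 hq2 h hpy
  obtain rfl : x = a ^ q + 1 := by linear_combination ha
  have hp1 : 2 ≤ p := hp.two_le
  have hsplit : ∀ A : ℤ, A ^ q = A ^ (q - p) * A ^ p := fun A => by rw [← pow_add, Nat.sub_add_cancel hpq.le]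
  have hmono := hq2.strictMono_pow (R := ℤ)
  rcases lt_trichotomy a 0 with hneg | rfl | hpos
  · obtain ⟨A, hA, rfl⟩ : ∃ A : ℤ, 0 < A ∧ a = -A := ⟨-a, by omega, by ring⟩
    rw [hq2.neg_pow] at h hx
    have hA2 : 2 ≤ A := by
      by_contra hlt
      obtain rfl : A = 1 := by omega
      simp at hx
    have hAp : (2 : ℤ) ≤ A ^ p := le_trans hA2 (le_self_pow₀ (by omega) (by omega))
    have h1 : (-y) ^ q = (A ^ q - 1) ^ p + 1 := by
      rw [show A ^ q - 1 = -(-(A ^ q) + 1) by ring, hp2.neg_pow, hq2.neg_pow]; linear_combination h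
    have hone : (1 : ℤ) ≤ A ^ (q - p) := one_le_pow₀ (by omega)
    have h2 : A ^ (q - p) * (A ^ p - 1) ≤ A ^ q - 1 := by rw [hsplit A, mul_sub, mul_one]; omega
    have h3 : (A ^ p - 1) ^ q < (-y) ^ q := by
      rw [h1]
      calc (A ^ p - 1) ^ q = (A ^ p - 1) ^ (q - p) * (A ^ p - 1) ^ p := by
            rw [← pow_add, Nat.sub_add_cancel hpq.le]
        _ ≤ (A ^ p) ^ (q - p) * (A ^ p - 1) ^ p := mul_le_mul_of_nonneg_right
              (pow_le_pow_left₀ (by omega) (by omega) _) (pow_nonneg (by omega) _)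
        _ = (A ^ (q - p) * (A ^ p - 1)) ^ p := by rw [mul_pow, ← pow_mul, ← pow_mul, mul_comm p]
        _ ≤ (A ^ q - 1) ^ p := pow_le_pow_left₀ (mul_nonneg (by omega) (by omega)) h2 p
        _ < (A ^ q - 1) ^ p + 1 := lt_add_one _
    have h4 : (-y) ^ q < (A ^ p) ^ q := by
      rw [h1, ← pow_mul, mul_comm p q, pow_mul]
      have h5 : (A ^ q - 1) ^ p + 1 < (A ^ q - 1) ^ p + (A ^ q - 1) ^ (p - 1) + 1 := by
        have : (0 : ℤ) < (A ^ q - 1) ^ (p - 1) := pow_pos (by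
          have : (2 : ℤ) ≤ A ^ q := le_trans hA2 (le_self_pow₀ (by omega) (by omega))
          omega) _
        omega
      refine lt_of_lt_of_le h5 ?_
      obtain ⟨k, rfl⟩ : ∃ k, p = k + 1 := ⟨p - 1, by omega⟩
      have h6 : (2 : ℤ) ≤ A ^ q := le_trans hA2 (le_self_pow₀ (by omega) (by omega))
      have h7 : (A ^ q - 1) ^ k ≤ (A ^ q) ^ k := pow_le_pow_left₀ (by omega) (by omega) k
      have h8 : (A ^ q - 1) ^ k < (A ^ q) ^ k := pow_lt_pow_left₀ (by omega) (by omega) (by omega)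
      rw [Nat.add_sub_cancel, pow_succ, pow_succ (A ^ q) k]
      nlinarith
    have := hmono.lt_iff_lt.mp h3
    have := hmono.lt_iff_lt.mp h4
    omega
  · rw [zero_pow hq2.pos.ne', zero_add, one_pow] at h
    exact hy ((pow_eq_zero_iff hq2.pos.ne').mp (by linear_combination -h))
  · have h1 : y ^ q = (a ^ q + 1) ^ p - 1 := by linear_combination -h
    have hA : (1 : ℤ) ≤ a ^ q := one_le_pow₀ (by omega)
    have hone : (1 : ℤ) ≤ a ^ (q - p) := one_le_pow₀ (by omega)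
    have h2 : a ^ q + 1 ≤ a ^ (q - p) * (a ^ p + 1) := by rw [hsplit a, mul_add, mul_one]; omega
    have hap : (1 : ℤ) ≤ a ^ p := one_le_pow₀ (by omega)
    have h3 : y ^ q < (a ^ p + 1) ^ q := by
      rw [h1]
      calc (a ^ q + 1) ^ p - 1 < (a ^ q + 1) ^ p := sub_one_lt _
        _ ≤ (a ^ (q - p) * (a ^ p + 1)) ^ p := pow_le_pow_left₀ (by omega) h2 p
        _ = (a ^ p) ^ (q - p) * (a ^ p + 1) ^ p := by rw [mul_pow, ← pow_mul, ← pow_mul, mul_comm p]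
        _ ≤ (a ^ p + 1) ^ (q - p) * (a ^ p + 1) ^ p := mul_le_mul_of_nonneg_right
              (pow_le_pow_left₀ (by omega) (by omega) _) (pow_nonneg (by omega) _)
        _ = (a ^ p + 1) ^ q := by rw [← pow_add, Nat.sub_add_cancel hpq.le]
    have h4 : (a ^ p) ^ q < y ^ q := by
      rw [h1, ← pow_mul, mul_comm p q, pow_mul]
      obtain ⟨k, rfl⟩ : ∃ k, p = k + 1 := ⟨p - 1, by omega⟩
      have h7 : (a ^ q) ^ k < (a ^ q + 1) ^ k := pow_lt_pow_left₀ (lt_add_one _) (by omega) (by omega)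
      have h9 : (1 : ℤ) ≤ (a ^ q) ^ k := one_le_pow₀ hA
      rw [pow_succ, pow_succ (a ^ q + 1) k]
      nlinarith
    have := hmono.lt_iff_lt.mp h3
    have := hmono.lt_iff_lt.mp h4
    omega

end FA.Catalan
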