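import Fermat.Agent.Catalan.Cassels

/-!
# The hard half of Cassels' theorem

If `x^p - y^q = 1` with `q < p` and `p ∤ y` then `x - 1 = a^q` and `y` is close to the partial sum of
`a^p (1 + a^(-q))^(p/q)`; after multiplication by a power of `q` this yields a nonzero integer of
absolute value less than one.
-/

set_option autoImplicit false

namespace FA.Catalan

open Finset

/-- The binomial coefficient of a real number as a product. -/
theorem ring_choose_eq_prod (r : ℝ) (k : ℕ) :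
    Ring.choose r k = (∏ i ∈ range k, (r - i)) / (k.factorial : ℝ) := by
  rw [Ring.choose_eq_smul, smul_eq_mul, ← div_eq_inv_mul, ← Polynomial.aeval_eq_smeval,
    Polynomial.aeval_def, ← Polynomial.eval_map, descPochhammer_map, descPochhammer_eval_eq_prod_range]

/-- The part of `k!` prime to `q` divides `∏ (p - i q)`. -/
theorem exists_prod_sub_mul_eq {q : ℕ} (hq : q.Prime) (p : ℤ) (k : ℕ) :
    ∃ N : ℤ, ∏ i ∈ range k, (p - (i : ℤ) * q) =
      ((k.factorial / q ^ k.factorial.factorization q : ℕ) : ℤ) * N := by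
  set M := k.factorial / q ^ k.factorial.factorization q with hM
  change ((M : ℤ)) ∣ _
  have : NeZero M := ⟨(Nat.ordCompl_pos q (Nat.factorial_ne_zero k)).ne'⟩
  have hqu : IsUnit ((q : ZMod M)) :=
    (ZMod.isUnit_iff_coprime q M).mpr (Nat.coprime_ordCompl hq (Nat.factorial_ne_zero k))
  set c := ((p : ZMod M) * (q : ZMod M)⁻¹).val
  have hc : (p : ZMod M) = (c : ZMod M) * q := by
    rw [ZMod.natCast_zmod_val, mul_assoc, ZMod.inv_mul_of_unit _ hqu, mul_one]
  rw [← ZMod.intCast_zmod_eq_zero_iff_dvd, Int.cast_prod]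
  have h0 : ((c.descFactorial k : ℕ) : ZMod M) = 0 := (ZMod.natCast_eq_zero_iff _ _).mpr
    ((Nat.ordCompl_dvd _ _).trans (Nat.factorial_dvd_descFactorial c k))
  rw [← descPochhammer_eval_eq_descFactorial, descPochhammer_eval_eq_prod_range] at h0
  have e : ∀ i ∈ range k, ((p - (i : ℤ) * q : ℤ) : ZMod M) = ((c : ZMod M) - i) * q := fun i _ => by
    push_cast; rw [hc]; ring
  rw [prod_congr rfl e]
  rw [prod_mul_distrib, h0, zero_mul]

/-- `|C(r, k)| ≤ 1` beyond `k = ⌊r⌋ + 1`. -/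
theorem abs_ring_choose_le_one {r : ℝ} {m : ℕ} (hm : 1 ≤ m) (hlo : (m : ℝ) - 1 ≤ r) (hhi : r ≤ m) :
    ∀ k, m ≤ k → |Ring.choose r k| ≤ 1 := by
  intro k hk
  induction k, hk using Nat.le_induction with
  | base =>
    rw [ring_choose_eq_prod, abs_div, Nat.abs_cast, div_le_one (mod_cast Nat.factorial_pos m), abs_prod,
      ← Nat.descFactorial_self, Nat.descFactorial_eq_prod_range, Nat.cast_prod]
    refine prod_le_prod (fun i _ => abs_nonneg _) fun i hi => ?_
    rw [mem_range] at hi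
    have hi' : (i : ℝ) + 1 ≤ m := by exact_mod_cast hi
    rw [Nat.cast_sub hi.le, abs_le]
    exact ⟨by linarith, by linarith⟩
  | succ k hk ih =>
    have hstep : Ring.choose r (k + 1) = Ring.choose r k * ((r - k) / ((k : ℝ) + 1)) := by
      rw [ring_choose_eq_prod, ring_choose_eq_prod, prod_range_succ, Nat.factorial_succ, Nat.cast_mul,
        Nat.cast_succ]
      field_simp
    rw [hstep, abs_mul]
    refine mul_le_one₀ ih (abs_nonneg _) ?_
    have h1 : (1 : ℝ) ≤ m := by exact_mod_cast hm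
    have h2 : (m : ℝ) ≤ k := by exact_mod_cast hk
    rw [abs_div, abs_of_pos (show (0 : ℝ) < (k : ℝ) + 1 by positivity), div_le_one (by positivity), abs_le]
    exact ⟨by linarith, by linarith⟩

/-- The tail of the binomial series. -/
theorem abs_rpow_sub_sum_le {r t : ℝ} {m : ℕ} (hm : 1 ≤ m) (hlo : (m : ℝ) - 1 ≤ r) (hhi : r ≤ m)
    (ht : |t| ≤ 1 / 2) :
    |(1 + t) ^ r - ∑ k ∈ range (m + 1), Ring.choose r k * t ^ k| ≤ 2 * |t| ^ (m + 1) := by
  have hsum : HasSum (fun k => Ring.choose r k * t ^ k) ((1 + t) ^ r) := by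
    have h := (Real.one_add_rpow_hasFPowerSeriesOnBall_zero (a := r)).hasSum_sub (y := t) (by
      rw [← ENNReal.ofReal_one, Metric.eball_ofReal, Metric.mem_ball, dist_zero_right, Real.norm_eq_abs]
      linarith)
    simpa [binomialSeries, FormalMultilinearSeries.ofScalars_apply_eq, mul_comm] using h
  have htail := (hasSum_nat_add_iff' (m + 1)).mpr hsum
  rw [← htail.tsum_eq, ← Real.norm_eq_abs]
  refine tsum_of_norm_bounded (g := fun k => |t| ^ (m + 1) * |t| ^ k) (a := |t| ^ (m + 1) * (1 - |t|)⁻¹)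
    ((hasSum_geometric_of_lt_one (abs_nonneg t) (by linarith)).mul_left _) (fun k => ?_) |>.trans ?_
  · rw [Real.norm_eq_abs, abs_mul, abs_pow, ← pow_add, add_comm (m + 1)]
    exact mul_le_of_le_one_left (pow_nonneg (abs_nonneg t) _) (abs_ring_choose_le_one hm hlo hhi _ (by omega))
  · rw [mul_comm 2]
    refine mul_le_mul_of_nonneg_left ?_ (pow_nonneg (abs_nonneg t) _)
    rw [inv_le_comm₀ (by linarith) two_pos]
    linarith

/-- Nonnegative reals whose `(n+1)`-st powers differ by one differ by at most `Y^(-n)`. -/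
theorem abs_sub_mul_pow_le {Y Z : ℝ} (hY : 0 ≤ Y) (hZ : 0 ≤ Z) (n : ℕ) :
    |Z - Y| * Y ^ n ≤ |Z ^ (n + 1) - Y ^ (n + 1)| := by
  rcases le_total Y Z with h | h
  · have h1 : Z * Y ^ n ≤ Z ^ (n + 1) := by
      rw [pow_succ' Z]; exact mul_le_mul_of_nonneg_left (pow_le_pow_left₀ hY h n) hZ
    rw [abs_of_nonneg (sub_nonneg.mpr h), abs_of_nonneg (sub_nonneg.mpr (pow_le_pow_left₀ hY h _)), pow_succ' Y]
    linarith
  · have h1 : Z ^ (n + 1) ≤ Z * Y ^ n := by
      rw [pow_succ' Z]; exact mul_le_mul_of_nonneg_left (pow_le_pow_left₀ hZ h n) hZ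
    rw [abs_of_nonpos (sub_nonpos.mpr h), abs_of_nonpos (sub_nonpos.mpr (pow_le_pow_left₀ hZ h _)), pow_succ' Y]
    linarith

/-- **Cassels' contradiction**: no `a^q = x - 1` with `|a^q| > q^p`. -/
theorem cassels_estimate {p q : ℕ} (hp : p.Prime) (hq : q.Prime) (hq3 : 3 ≤ q) (hqp : q < p) {a y : ℤ}
    (hbig : (q : ℤ) ^ p < |a ^ q|) (h : (a ^ q + 1) ^ p - y ^ q = 1) : False := by
  have hp5 : 5 ≤ p := by
    by_contra hlt
    have : p = 4 := by omega
    exact absurd hp (this ▸ by norm_num)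
  have hpodd : Odd p := hp.odd_of_ne_two (by omega)
  have hqodd : Odd q := hq.odd_of_ne_two (by omega)
  have hq0 : q ≠ 0 := hq.ne_zero
  have hqR : (0 : ℝ) < q := Nat.cast_pos.mpr hq.pos
  have := Fact.mk hq
  set A : ℝ := |(a : ℝ)| with hA
  have hAq : (q : ℝ) ^ p < A ^ q := by
    rw [hA, ← abs_pow, ← Int.cast_pow, ← Int.cast_abs]; exact_mod_cast hbig
  have hA2 : 2 ≤ A := by
    rw [hA, ← Int.cast_abs]
    suffices (2 : ℤ) ≤ |a| from mod_cast this
    by_contra hlt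
    have h1 : |a ^ q| ≤ 1 := by rw [abs_pow]; exact pow_le_one₀ (abs_nonneg a) (by omega)
    have h2 : (1 : ℤ) ≤ (q : ℤ) ^ p := one_le_pow₀ (by exact_mod_cast hq.one_le)
    omega
  have hA0 : 0 < A := by linarith
  have ha0 : (a : ℝ) ≠ 0 := fun e => by rw [hA, e, abs_zero] at hA2; linarith
  -- the exponent and the length of the partial sum
  set r : ℝ := (p : ℝ) / q with hr
  obtain ⟨m, hm⟩ : ∃ m, m = p / q + 1 := ⟨_, rfl⟩
  have hdiv := Nat.div_add_mod p q
  have hmod := Nat.mod_lt p hq.pos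
  have hmod0 : p % q ≠ 0 := fun e => by
    have := (Nat.prime_dvd_prime_iff_eq hq hp).mp (Nat.dvd_of_mod_eq_zero e)
    omega
  have hmq : q * m = q * (p / q) + q := by rw [hm, mul_add, mul_one]
  have hlo : (m : ℝ) - 1 ≤ r := by
    rw [hm, hr, le_div_iff₀ hqR]
    push_cast
    rw [add_sub_cancel_right]
    exact_mod_cast Nat.div_mul_le_self p q
  have hhi : r ≤ m := by
    rw [hr, div_le_iff₀ hqR]
    exact_mod_cast (show p ≤ m * q by rw [mul_comm]; omega)
  -- the integral multiples of the coefficients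
  set v : ℕ → ℕ := fun k => k.factorial.factorization q with hv
  choose N hN using exists_prod_sub_mul_eq hq (p : ℤ)
  have hNk : ∀ k, Ring.choose r k = (N k : ℝ) / (q : ℝ) ^ (k + v k) := by
    intro k
    set M := k.factorial / q ^ v k with hM
    have hfac : (k.factorial : ℝ) = (q : ℝ) ^ v k * M := by
      exact_mod_cast (Nat.ordProj_mul_ordCompl_eq_self k.factorial q).symm
    have hM0 : (M : ℝ) ≠ 0 := Nat.cast_ne_zero.mpr (Nat.ordCompl_pos q (Nat.factorial_ne_zero k)).ne'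
    have hP : ∏ i ∈ range k, (r - (i : ℝ)) = (M : ℝ) * N k / (q : ℝ) ^ k := by
      have e : ((∏ i ∈ range k, ((p : ℤ) - (i : ℤ) * q) : ℤ) : ℝ) = (M : ℝ) * N k := by
        rw [hN k, Int.cast_mul, Int.cast_natCast]
      rw [Int.cast_prod] at e
      simp only [Int.cast_sub, Int.cast_mul, Int.cast_natCast] at e
      rw [eq_div_iff (pow_ne_zero k hqR.ne'), ← card_range k, ← prod_const, card_range, ← prod_mul_distrib, ← e]
      exact prod_congr rfl fun i _ => by rw [hr, sub_mul, div_mul_cancel₀ _ hqR.ne']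
    rw [ring_choose_eq_prod, hP, hfac, pow_add]
    field_simp
  have hNm : ¬ (q : ℤ) ∣ N m := fun e => by
    have hqI : Prime (q : ℤ) := Nat.prime_iff_prime_int.mp hq
    have h1 : (q : ℤ) ∣ ∏ i ∈ range m, ((p : ℤ) - (i : ℤ) * q) := hN m ▸ e.mul_left _
    obtain ⟨i, -, hi⟩ := hqI.exists_mem_finset_dvd h1
    have h2 : (q : ℤ) ∣ (p : ℤ) := by simpa using hi.add (dvd_mul_left (q : ℤ) (i : ℤ))
    have := (Nat.prime_dvd_prime_iff_eq hq hp).mp (Int.natCast_dvd_natCast.mp h2)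
    omega
  -- the integer
  have hm1 : 1 ≤ m := hm ▸ Nat.le_add_left 1 _
  obtain ⟨d, hd⟩ : ∃ d, d = m + v m := ⟨_, rfl⟩
  obtain ⟨e, he⟩ : ∃ e, e = q * m - p := ⟨_, rfl⟩
  set Zi : ℤ := (q : ℤ) ^ d * (a ^ e * y) -
    ∑ k ∈ range (m + 1), N k * (q : ℤ) ^ (d - (k + v k)) * (a ^ q) ^ (m - k) with hZi
  have hvk : ∀ k, k ≤ m → v k ≤ v m := fun k hk => by
    simp only [hv]
    exact (Nat.factorization_le_iff_dvd (Nat.factorial_ne_zero k) (Nat.factorial_ne_zero m)).mpr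
      (Nat.factorial_dvd_factorial hk) q
  have hZ0 : Zi ≠ 0 := fun e0 => by
    refine hNm ?_
    rw [hZi, sum_range_succ, ← hd, Nat.sub_self, Nat.sub_self, pow_zero, pow_zero, mul_one, mul_one,
      sub_eq_zero] at e0
    refine (dvd_add_right (dvd_sum fun k hk => ?_)).mp (e0 ▸ (dvd_pow_self (q : ℤ) (show d ≠ 0 by omega)).mul_right _)
    have hk' : k < m := mem_range.mp hk
    have := hvk k hk'.le
    exact ((dvd_pow_self (q : ℤ) (show d - (k + v k) ≠ 0 by omega)).mul_left _).mul_right _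
  -- the real approximation
  set t : ℝ := ((a : ℝ) ^ q)⁻¹ with ht
  have hAt : |t| = (A ^ q)⁻¹ := by rw [ht, abs_inv, abs_pow]
  have hAq2 : 2 ≤ A ^ q := le_trans hA2 (le_self_pow₀ (by linarith) hq0)
  have ht2 : |t| ≤ 1 / 2 := by
    rw [hAt, one_div]; exact inv_anti₀ two_pos hAq2
  have h1t : 0 < 1 + t := by have := neg_abs_le t; linarith
  set Yh : ℝ := (a : ℝ) ^ p * (1 + t) ^ r with hYh
  have hYhq : Yh ^ q = ((a : ℝ) ^ q + 1) ^ p := by
    rw [hYh, mul_pow, ← Real.rpow_natCast ((1 + t) ^ r) q, ← Real.rpow_mul h1t.le, hr, div_mul_cancel₀ _ hqR.ne',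
      Real.rpow_natCast, ← pow_mul, mul_comm p q, pow_mul, ← mul_pow, ht]
    field_simp
  have hyq : (y : ℝ) ^ q = Yh ^ q - 1 := by
    rw [hYhq]
    have := congrArg (Int.cast : ℤ → ℝ) h
    push_cast at this
    linarith
  set Y : ℝ := |(y : ℝ)| with hY
  -- `|y| ≥ A^q` and `y`, `Yh` have the same sign
  have hX : A ^ q - 1 ≤ |(a : ℝ) ^ q + 1| := by
    have := abs_sub_abs_le_abs_sub ((a : ℝ) ^ q) (-1)
    rw [sub_neg_eq_add, abs_neg, abs_one, abs_pow] at this
    exact this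
  have hA1 : A ^ (q - 1) ≤ A ^ q - 1 := by
    have e : A ^ q = A ^ (q - 1) * A := by rw [← pow_succ, Nat.sub_add_cancel hq.one_le]
    have : (1 : ℝ) ≤ A ^ (q - 1) := one_le_pow₀ (by linarith)
    rw [e]
    nlinarith
  have hYh1 : (A ^ (q - 1)) ^ p ≤ |Yh| ^ q := by
    rw [← abs_pow Yh q, hYhq, abs_pow]; exact pow_le_pow_left₀ (by positivity) (hA1.trans hX) p
  have hbigY : (A ^ q) ^ q + 1 ≤ |Yh| ^ q := by
    refine le_trans ?_ hYh1
    rw [← pow_mul, ← pow_mul]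
    have h5 : q * q + 1 ≤ (q - 1) * p := by
      have : (q - 1) * (q + 2) ≤ (q - 1) * p := Nat.mul_le_mul_left _ (by
        rw [Nat.odd_iff] at hpodd hqodd; omega)
      obtain ⟨j, hj⟩ : ∃ j, q = j + 1 := ⟨q - 1, by omega⟩
      rw [hj, Nat.add_sub_cancel] at this ⊢
      nlinarith
    refine le_trans ?_ (pow_le_pow_right₀ (by linarith) h5)
    have : (1 : ℝ) ≤ A ^ (q * q) := one_le_pow₀ (by linarith)
    rw [pow_succ]
    nlinarith
  have hsign : (0 ≤ Yh ∧ 0 ≤ (y : ℝ)) ∨ (Yh ≤ 0 ∧ (y : ℝ) ≤ 0) := by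
    rcases le_total 0 Yh with hs | hs
    · refine Or.inl ⟨hs, ?_⟩
      rw [← hqodd.pow_nonneg_iff, hyq]
      rw [abs_of_nonneg hs] at hbigY
      linarith [pow_nonneg (pow_nonneg hA0.le q) q]
    · refine Or.inr ⟨hs, ?_⟩
      rw [← hqodd.pow_nonpos_iff, hyq]
      linarith [hqodd.pow_nonpos_iff.mpr hs]
  have hdiff : |(y : ℝ) - Yh| = |(|Yh|) - Y| ∧ |(|Yh|) ^ q - Y ^ q| = 1 := by
    rcases hsign with ⟨h1, h2⟩ | ⟨h1, h2⟩
    · rw [hY, abs_of_nonneg h1, abs_of_nonneg h2, hyq]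
      exact ⟨abs_sub_comm _ _, by simp⟩
    · rw [hY, abs_of_nonpos h1, abs_of_nonpos h2, hqodd.neg_pow, hqodd.neg_pow, hyq]
      exact ⟨by congr 1; ring, by rw [show -Yh ^ q - -(Yh ^ q - 1) = -1 by ring, abs_neg, abs_one]⟩
  have hYbig : A ^ q ≤ Y := by
    refine le_of_pow_le_pow_left₀ hq0 (abs_nonneg _) ?_
    have := (abs_le.mp hdiff.2.le).2
    linarith
  -- the bound
  have he2 : e + q ≤ q * (q - 1) := by
    have : q * (q - 1) ≥ q * 2 := Nat.mul_le_mul_left _ (by omega)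
    omega
  have hE1 : |(a : ℝ) ^ e * ((y : ℝ) - Yh)| ≤ (A ^ q)⁻¹ := by
    have hpow : A ^ (q * (q - 1)) ≤ Y ^ (q - 1) := by rw [pow_mul]; exact pow_le_pow_left₀ (by positivity) hYbig _
    have h2 : |(|Yh|) - Y| * Y ^ (q - 1) ≤ 1 := by
      have := abs_sub_mul_pow_le (abs_nonneg (y : ℝ)) (abs_nonneg Yh) (q - 1)
      rwa [Nat.sub_add_cancel hq.one_le, hdiff.2] at this
    rw [abs_mul, abs_pow, hdiff.1, ← one_div, le_div_iff₀ (by positivity)]
    calc A ^ e * |(|Yh|) - Y| * A ^ q = |(|Yh|) - Y| * A ^ (e + q) := by rw [pow_add]; ring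
      _ ≤ |(|Yh|) - Y| * Y ^ (q - 1) := mul_le_mul_of_nonneg_left
          ((pow_le_pow_right₀ (by linarith) he2).trans hpow) (abs_nonneg _)
      _ ≤ 1 := h2
  set S := ∑ k ∈ range (m + 1), Ring.choose r k * t ^ k with hS
  have hE2 : |((a : ℝ) ^ q) ^ m * ((1 + t) ^ r - S)| ≤ 2 * (A ^ q)⁻¹ := by
    rw [abs_mul, abs_pow, abs_pow]
    calc (A ^ q) ^ m * |(1 + t) ^ r - S| ≤ (A ^ q) ^ m * (2 * |t| ^ (m + 1)) :=
          mul_le_mul_of_nonneg_left (abs_rpow_sub_sum_le (show 1 ≤ m by omega) hlo hhi ht2) (by positivity)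
      _ = 2 * (A ^ q)⁻¹ := by rw [hAt, pow_succ, inv_pow]; field_simp
  have hval : (Zi : ℝ) =
      (q : ℝ) ^ d * ((a : ℝ) ^ e * ((y : ℝ) - Yh) + ((a : ℝ) ^ q) ^ m * ((1 + t) ^ r - S)) := by
    have hsumk : ((∑ k ∈ range (m + 1), N k * (q : ℤ) ^ (d - (k + v k)) * (a ^ q) ^ (m - k) : ℤ) : ℝ) =
        (q : ℝ) ^ d * (((a : ℝ) ^ q) ^ m * S) := by
      rw [hS, mul_sum, mul_sum]
      push_cast
      refine sum_congr rfl fun k hk => ?_
      have hk' : k ≤ m := Nat.lt_succ_iff.mp (mem_range.mp hk)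
      have := hvk k hk'
      rw [hNk k, ht, inv_pow, ← pow_sub_mul_pow (q : ℝ) (show k + v k ≤ d by omega),
        ← pow_sub_mul_pow ((a : ℝ) ^ q) hk']
      field_simp
    have hea : (a : ℝ) ^ e * Yh = ((a : ℝ) ^ q) ^ m * (1 + t) ^ r := by
      rw [hYh, ← mul_assoc, ← pow_add, ← pow_mul, show e + p = q * m by omega]
    rw [hZi, Int.cast_sub, hsumk, mul_sub ((a : ℝ) ^ e), hea]
    push_cast
    ring
  have hd' : d + 1 ≤ p := by
    have h1 : (q - 1) * v m ≤ m := by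
      simp only [hv]
      rw [Nat.factorization_def _ hq, sub_one_mul_padicValNat_factorial m]
      exact Nat.sub_le _ _
    have h2 : 2 * v m ≤ (q - 1) * v m := Nat.mul_le_mul_right _ (by omega)
    have h3 : 3 * (p / q) ≤ q * (p / q) := Nat.mul_le_mul_right _ hq3
    omega
  have hlt : |(Zi : ℝ)| < 1 := by
    have h3 : (q : ℝ) ^ d * 3 ≤ (q : ℝ) ^ p :=
      le_trans (mul_le_mul_of_nonneg_left (show (3 : ℝ) ≤ q by exact_mod_cast hq3) (by positivity))
        (by rw [← pow_succ]; exact pow_le_pow_right₀ (by exact_mod_cast hq.one_le) hd')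
    rw [hval, abs_mul, abs_of_pos (show (0 : ℝ) < (q : ℝ) ^ d by positivity)]
    calc _ ≤ (q : ℝ) ^ d * (3 * (A ^ q)⁻¹) := mul_le_mul_of_nonneg_left
          ((abs_add_le _ _).trans (by linarith)) (by positivity)
      _ ≤ (q : ℝ) ^ p * (A ^ q)⁻¹ := by
          rw [← mul_assoc]; exact mul_le_mul_of_nonneg_right h3 (by positivity)
      _ < 1 := by rw [← div_eq_mul_inv, div_lt_one (by positivity)]; exact hAq
  exact hZ0 (Int.abs_lt_one_iff.mp (by exact_mod_cast hlt))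

end FA.Catalan
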