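import Fermat.Agent.Catalan.CasselsHard

/-!
# Cassels' theorem on Catalan's equation
-/

set_option autoImplicit false

namespace FA.Catalan

/-- Powers with one exponent `n ≥ 2` differ by one only trivially. -/
theorem pow_add_one_lt_pow_nat {n u v : ℕ} (hn : 2 ≤ n) (hu : 0 < u) (huv : u < v) : u ^ n + 1 < v ^ n := by
  obtain ⟨k, rfl⟩ : ∃ k, n = k + 2 := ⟨n - 2, by omega⟩
  have h1 : (u + 1) ^ (k + 2) ≤ v ^ (k + 2) := Nat.pow_le_pow_left huv _
  have h2 : u ^ (k + 1) < (u + 1) ^ (k + 1) := Nat.pow_lt_pow_left (Nat.lt_succ_self u) (by omega)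
  have h3 : 0 < u ^ (k + 1) := pow_pos hu _
  rw [pow_succ u (k + 1), pow_succ (u + 1) (k + 1)] at *
  nlinarith

variable {p q : ℕ}

/-- Equal exponents are impossible. -/
theorem ne_of_pow_sub_pow_eq_one (hp : 2 ≤ p) (hp2 : Odd p) {x y : ℤ} (hx : x ≠ 0) (hy : y ≠ 0) :
    x ^ p - y ^ p ≠ 1 := by
  intro h
  rcases lt_or_gt_of_ne hy with hneg | hpos
  · have hx' : x < 0 := by
      have h1 : y ^ p < 0 := hp2.pow_neg hneg
      have h2 : x ^ p ≤ 0 := by omega
      exact lt_of_le_of_ne (hp2.pow_nonpos_iff.mp h2) hx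
    have := pow_add_one_lt_pow_nat hp (u := (-x).toNat) (v := (-y).toNat) (by omega) (by
      have : y < x := hp2.strictMono_pow.lt_iff_lt.mp (show y ^ p < x ^ p by omega)
      omega)
    zify at this
    rw [Int.toNat_of_nonneg (by omega), Int.toNat_of_nonneg (by omega), hp2.neg_pow, hp2.neg_pow] at this
    omega
  · have hlt : y < x := hp2.strictMono_pow.lt_iff_lt.mp (show y ^ p < x ^ p by omega)
    have := pow_add_one_lt_pow_nat hp (u := y.toNat) (v := x.toNat) (by omega) (by omega)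
    zify at this
    rw [Int.toNat_of_nonneg (by omega), Int.toNat_of_nonneg (by omega)] at this
    omega

/-- For `q < p`, `|x - 1| > q^p`. -/
theorem lt_abs_sub_one (hp : p.Prime) (hq : q.Prime) (hp2 : Odd p) (hq2 : Odd q) (hqp : q < p) {x y : ℤ}
    (hx : x ≠ 0) (hy : y ≠ 0) (h : x ^ p - y ^ q = 1) : (q : ℤ) ^ p < |x - 1| := by
  have hq3 : 3 ≤ q := by have := hq.two_le; rw [Nat.odd_iff] at hq2; omega
  have h' := catalan_symm hp2 hq2 h
  have hqx := cassels_easy hq hq2 hp2 hqp (neg_ne_zero.mpr hy) (neg_ne_zero.mpr hx) h'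
  obtain ⟨b, u, K, hb, hu, huK⟩ := exists_pow_of_dvd hq hq2 hp2 h' hqx
  set M := q ^ (p - 1) with hM
  have hM0 : (q : ℤ) ^ (p - 1) = (M : ℤ) := by rw [hM]; push_cast; rfl
  have hb0 : b ≠ 0 := by rintro rfl; simp at hu; exact hx hu
  have hu0 : u ≠ 0 := by rintro rfl; simp at hu; exact hx hu
  -- `u ≡ 1 (mod M)`
  have h1 : ((u : ZMod M)) ^ p = 1 := by
    have e := congrArg (Int.cast : ℤ → ZMod M) huK
    rw [hb, hM0] at e
    push_cast at e
    rw [e, ZMod.natCast_self, zero_mul, zero_mul, add_zero]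
  have hunit : IsUnit (u : ZMod M) := IsUnit.of_pow_eq_one h1 hp.ne_zero
  have h2 : ((u : ZMod M)) ^ M.totient = 1 := by
    obtain ⟨w, hw⟩ := hunit
    rw [← hw, ← Units.val_pow_eq_pow_val, ZMod.pow_totient, Units.val_one]
  have hg : Nat.gcd p M.totient = 1 := by
    rw [hM, Nat.totient_prime_pow hq (by omega)]
    refine (Nat.Prime.coprime_iff_not_dvd hp).mpr fun e => ?_
    rcases (Nat.Prime.dvd_mul hp).mp e with e | e
    · have := (Nat.prime_dvd_prime_iff_eq hp hq).mp (hp.dvd_of_dvd_pow e)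
      omega
    · have := Nat.le_of_dvd (by omega) e
      omega
  have h3 : ((u - 1 : ℤ) : ZMod M) = 0 := by
    have := pow_gcd_eq_one.mpr ⟨h1, h2⟩
    rw [hg, pow_one] at this
    push_cast
    rw [this, sub_self]
  obtain ⟨t, ht⟩ := (ZMod.intCast_zmod_eq_zero_iff_dvd _ _).mp h3
  -- `u > 0`
  have hmono := hq2.strictMono_pow (R := ℤ)
  have hMq : (81 : ℤ) ≤ M := by
    rw [← hM0]
    calc (81 : ℤ) = 3 ^ 4 := by norm_num
      _ ≤ (q : ℤ) ^ 4 := pow_le_pow_left₀ (by norm_num) (by exact_mod_cast hq3) 4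
      _ ≤ (q : ℤ) ^ (p - 1) := pow_le_pow_right₀ (by exact_mod_cast hq.one_le) (by
          rw [Nat.odd_iff] at hp2 hq2; omega)
  have hbp : y + 1 = -((M : ℤ) * b ^ p) := by rw [← hM0, ← hb]; ring
  have hxe : x = -((q : ℤ) * b * u) := by rw [← hu, neg_neg]
  have hqR : (0 : ℤ) < q := by exact_mod_cast hq.pos
  have hupos : 0 < u := by
    rcases lt_or_gt_of_ne hb0 with hbn | hbp'
    · have : 0 < y + 1 := by
        rw [hbp]
        nlinarith [hp2.pow_neg hbn]
      have h4 : 0 < x ^ p := by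
        have := pow_nonneg (show (0 : ℤ) ≤ y by omega) q
        omega
      have := hp2.pow_pos_iff.mp h4
      rw [hxe] at this
      by_contra hun
      nlinarith [mul_nonneg_of_nonpos_of_nonpos (mul_nonpos_of_nonneg_of_nonpos hqR.le hbn.le) (not_lt.mp hun)]
    · have : y + 1 < 0 := by
        rw [hbp]
        nlinarith [pow_pos hbp' p]
      have h4 : x ^ p < 0 := by
        have := hmono (show y < -1 by omega)
        simp only [hq2.neg_one_pow] at this
        omega
      have := hp2.pow_neg_iff.mp h4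
      rw [hxe] at this
      by_contra hun
      nlinarith [mul_nonpos_of_nonneg_of_nonpos (mul_nonneg hqR.le hbp'.le) (not_lt.mp hun)]
  -- `u ≠ 1`
  have hu1 : u ≠ 1 := by
    rintro rfl
    have e : y ^ q + 1 = (q : ℤ) * (y + 1) := by
      have h5 : x ^ p = -(((q : ℤ) * b) ^ p) := by rw [hxe, mul_one, hp2.neg_pow]
      rw [mul_pow, ← Nat.sub_add_cancel hp.one_le (n := p), pow_succ (q : ℤ), Nat.sub_add_cancel hp.one_le,
        hM0] at h5
      rw [hbp]
      linear_combination h5 - h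
    have hqM : (q : ℤ) ≤ (M : ℤ) - 1 := by
      rw [← hM0]
      have h6 : (q : ℤ) ^ 2 ≤ (q : ℤ) ^ (p - 1) := pow_le_pow_right₀ (by omega) (by omega)
      nlinarith
    have hy3 : (80 : ℤ) ≤ |y| ∧ (q : ℤ) ≤ |y| := by
      have h7 : (M : ℤ) ≤ |y + 1| := by
        rw [hbp, abs_neg, abs_mul, Nat.abs_cast, abs_pow]
        exact le_mul_of_one_le_right (by omega) (one_le_pow₀ (Int.one_le_abs hb0))
      have := abs_add_le y 1
      rw [abs_one] at this
      omega
    rcases lt_or_gt_of_ne hy with hn | hpos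
    · rw [abs_of_neg hn] at hy3
      have h8 : (-y) ^ 3 ≤ (-y) ^ q := pow_le_pow_right₀ (by omega) hq3
      rw [hq2.neg_pow] at h8
      have h9 : (q : ℤ) * (-y - 1) ≤ (-y) * (-y - 1) := mul_le_mul_of_nonneg_right hy3.2 (by omega)
      have h10 : 80 * (-y) ^ 2 ≤ (-y) ^ 3 := by
        rw [pow_succ (-y) 2, mul_comm]
        exact mul_le_mul_of_nonneg_left hy3.1 (sq_nonneg _)
      nlinarith
    · rw [abs_of_pos hpos] at hy3
      have h8 : y ^ 3 ≤ y ^ q := pow_le_pow_right₀ (by omega) hq3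
      have h9 : (q : ℤ) * (y + 1) ≤ y * (y + 1) := mul_le_mul_of_nonneg_right hy3.2 (by omega)
      have h10 : 80 * y ^ 2 ≤ y ^ 3 := by
        rw [pow_succ y 2, mul_comm]
        exact mul_le_mul_of_nonneg_left hy3.1 (sq_nonneg _)
      nlinarith
  have ht1 : 1 ≤ t := by
    by_contra hlt
    rcases (show t = 0 ∨ t ≤ -1 by omega) with rfl | hneg
    · exact hu1 (by linear_combination ht)
    · nlinarith
  have hubig : (M : ℤ) + 1 ≤ u := by nlinarith
  have hxbig : (q : ℤ) * ((M : ℤ) + 1) ≤ |x| := by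
    rw [hxe, abs_neg, abs_mul, abs_mul, Nat.abs_cast, abs_of_pos hupos]
    exact mul_le_mul (le_mul_of_one_le_right hqR.le (Int.one_le_abs hb0)) hubig (by omega)
      (mul_nonneg hqR.le (abs_nonneg b))
  have hqp' : (q : ℤ) ^ p = (q : ℤ) * (M : ℤ) := by
    rw [← hM0, ← pow_succ', Nat.sub_add_cancel hp.one_le]
  have := abs_sub_abs_le_abs_sub x 1
  rw [abs_one] at this
  rw [mul_add, mul_one] at hxbig
  omega

/-- **Cassels' theorem**, first half in both orders of the exponents: `p ∣ y`. -/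
theorem cassels_dvd (hp : p.Prime) (hq : q.Prime) (hp2 : Odd p) (hq2 : Odd q) {x y : ℤ}
    (hx : x ≠ 0) (hy : y ≠ 0) (h : x ^ p - y ^ q = 1) : (p : ℤ) ∣ y := by
  rcases lt_trichotomy p q with hlt | rfl | hgt
  · exact cassels_easy hp hp2 hq2 hlt hx hy h
  · exact absurd h (ne_of_pow_sub_pow_eq_one hp.two_le hp2 hx hy)
  · by_contra hpy
    obtain ⟨a, ha⟩ := exists_pow_of_not_dvd hp hp2 hq2 h hpy
    refine cassels_estimate hp hq ?_ hgt (a := a) (y := y) ?_ ?_
    · have := hq.two_le; rw [Nat.odd_iff] at hq2; omega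
    · rw [← ha]; exact lt_abs_sub_one hp hq hp2 hq2 hgt hx hy h
    · rw [← ha, sub_add_cancel]; exact h

end FA.Catalan
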