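import Fermat.Agent.Catalan.MihailescuMain
import Fermat.Agent.Root.SummaryCassels

/-!
# `|x| ≥ q^(2p)` for a solution of Catalan's equation

As `q² ∣ x` and `x = - q b u` with `q ∤ u`, `q` divides `b`, so `u^p ≡ 1` and then `u ≡ 1` modulo `q^(2p-1)`.
-/

set_option autoImplicit false

namespace FA.Catalan

/-- `|x| ≥ q^(2p)`. -/
theorem pow_two_mul_le_abs {p q : ℕ} (hp : p.Prime) (hq : q.Prime) (hp5 : 5 ≤ p) (hq5 : 5 ≤ q)
    (hqp : ¬ p ∣ q - 1) {x y : ℤ} (hx : x ≠ 0) (hy : y ≠ 0) (h : x ^ p - y ^ q = 1) :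
    (q : ℤ) ^ (2 * p) ≤ |x| := by
  have hp2 : Odd p := hp.odd_of_ne_two (by omega)
  have hq2 : Odd q := hq.odd_of_ne_two (by omega)
  have hne : p ≠ q := fun e => ne_of_pow_sub_pow_eq_one hp.two_le hp2 hx hy (e ▸ h)
  obtain ⟨hsq, -⟩ := mihailescu_side hp hq hp2 hq2 hx hy h
  obtain ⟨-, hybig⟩ := FA.Summary.cassels_bound hp hq hp2 hq2 hx hy h
  have h' := catalan_symm hp2 hq2 h
  obtain ⟨b, u, L, hb, hu, huL⟩ := exists_pow_of_dvd hq hq2 hp2 h'
    (cassels_dvd hq hp hq2 hp2 (neg_ne_zero.mpr hy) (neg_ne_zero.mpr hx) h')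
  have hqI : Prime (q : ℤ) := Nat.prime_iff_prime_int.mp hq
  have hqR : (5 : ℤ) ≤ q := by exact_mod_cast hq5
  have hb0 : b ≠ 0 := by rintro rfl; simp at hu; exact hx hu
  have hdvdy : (q : ℤ) ∣ -y - 1 := hb ▸ (dvd_pow_self (q : ℤ) (by omega)).mul_right _
  -- `q ∤ u`, so `q ∣ b`
  have hqu : ¬ (q : ℤ) ∣ u := fun e => hqI.not_dvd_one (by
    have h1 : (q : ℤ) ∣ u ^ p := e.trans (dvd_pow_self u hp.ne_zero)
    rw [huL] at h1
    exact (dvd_add_left (hdvdy.mul_right L)).mp h1)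
  have hqb : (q : ℤ) ∣ b := by
    have h1 : (q : ℤ) ^ 2 ∣ (q : ℤ) * b * u := hu ▸ dvd_neg.mpr hsq
    rw [sq, mul_assoc] at h1
    exact ((hqI.dvd_mul.mp ((mul_dvd_mul_iff_left hqI.ne_zero).mp h1)).resolve_right hqu)
  -- `u ≡ 1 (mod M)`
  set M := q ^ (2 * p - 1) with hM
  have hMdvd : (M : ℤ) ∣ -y - 1 := by
    rw [hb, hM, Nat.cast_pow, show 2 * p - 1 = p - 1 + p by omega, pow_add]
    exact mul_dvd_mul_left _ (pow_dvd_pow_of_dvd hqb p)
  have h1 : ((u : ZMod M)) ^ p = 1 := by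
    have e := congrArg (Int.cast : ℤ → ZMod M) huL
    push_cast at e
    rw [e, show (-(y : ZMod M) - 1) = ((-y - 1 : ℤ) : ZMod M) by push_cast; rfl,
      (ZMod.intCast_zmod_eq_zero_iff_dvd _ _).mpr hMdvd, zero_mul, add_zero]
  have h2 : ((u : ZMod M)) ^ M.totient = 1 := by
    obtain ⟨w, hw⟩ := IsUnit.of_pow_eq_one h1 hp.ne_zero
    rw [← hw, ← Units.val_pow_eq_pow_val, ZMod.pow_totient, Units.val_one]
  have hg : Nat.gcd p M.totient = 1 := by
    rw [hM, Nat.totient_prime_pow hq (by omega)]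
    refine (Nat.Prime.coprime_iff_not_dvd hp).mpr fun e => ?_
    rcases (Nat.Prime.dvd_mul hp).mp e with e | e
    · exact hne ((Nat.prime_dvd_prime_iff_eq hp hq).mp (hp.dvd_of_dvd_pow e))
    · exact hqp e
  have h3 : ((u - 1 : ℤ) : ZMod M) = 0 := by
    have := pow_gcd_eq_one.mpr ⟨h1, h2⟩
    rw [hg, pow_one] at this
    push_cast
    rw [this, sub_self]
  obtain ⟨t, ht⟩ := (ZMod.intCast_zmod_eq_zero_iff_dvd _ _).mp h3
  -- `u ≠ 1`
  have hM0 : (M : ℤ) = (q : ℤ) ^ (2 * p - 1) := by rw [hM]; push_cast; rfl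
  have hu1 : u ≠ 1 := by
    rintro rfl
    have e : y ^ q + 1 = (q : ℤ) * (y + 1) := by
      have h5 : x ^ p = -(((q : ℤ) * b) ^ p) := by
        rw [show x = -((q : ℤ) * b * 1) by rw [← hu, neg_neg], mul_one, hp2.neg_pow]
      rw [mul_pow, ← Nat.sub_add_cancel hp.one_le (n := p), pow_succ (q : ℤ), Nat.sub_add_cancel hp.one_le] at h5
      have hb' : y + 1 = -((q : ℤ) ^ (p - 1) * b ^ p) := by rw [← hb]; ring
      linear_combination h5 - h - (q : ℤ) * hb'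
    have h0 : 1 ≤ |y| := Int.one_le_abs hy
    have hy2 : (q : ℤ) + 1 ≤ y ^ 2 ∧ 2 ≤ |y| := by
      have h9 : (q : ℤ) ≤ |y + 1| := by
        refine Int.le_of_dvd (abs_pos.mpr fun e0 => ?_) ((dvd_abs _ _).mpr ?_)
        · have : (-y - 1) = 0 := by linear_combination -e0
          rw [hb] at this
          exact mul_ne_zero (pow_ne_zero _ hqI.ne_zero) (pow_ne_zero _ hb0) this
        · rw [show y + 1 = -(-y - 1) by ring]; exact dvd_neg.mpr hdvdy
      have := abs_add_le y 1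
      rw [abs_one] at this
      have h10 : (q : ℤ) - 1 ≤ |y| := by omega
      exact ⟨by nlinarith [sq_abs y], by omega⟩
    have h6 : |y| ^ 4 ≤ |y| ^ q := pow_le_pow_right₀ h0 (by omega)
    have h7 : |y ^ q + 1| ≤ (q : ℤ) * (|y| + 1) := by
      rw [e, abs_mul, Nat.abs_cast]
      exact mul_le_mul_of_nonneg_left ((abs_add_le y 1).trans (by rw [abs_one])) (by omega)
    have h8 := abs_sub_abs_le_abs_sub (y ^ q) (-1)
    rw [sub_neg_eq_add, abs_neg, abs_one, abs_pow] at h8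
    nlinarith [sq_abs y, mul_le_mul_of_nonneg_left hy2.2 (sq_nonneg |y|),
      mul_le_mul_of_nonneg_left hy2.1 (sq_nonneg |y|)]
  have hMu : (M : ℤ) ≤ |u| + 1 := by
    have h4 : (M : ℤ) ≤ |u - 1| := by
      refine Int.le_of_dvd (abs_pos.mpr (sub_ne_zero.mpr hu1)) ((dvd_abs _ _).mpr ⟨t, ht⟩)
    exact h4.trans ((abs_sub u 1).trans (by rw [abs_one]))
  have hxe : |x| = (q : ℤ) * |b| * |u| := by
    rw [← abs_neg, hu, abs_mul, abs_mul, Nat.abs_cast]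
  have hbq : (q : ℤ) ≤ |b| := Int.le_of_dvd (abs_pos.mpr hb0) ((dvd_abs _ _).mpr hqb)
  have hpow : (q : ℤ) * M = (q : ℤ) ^ (2 * p) := by
    rw [hM0, ← pow_succ', Nat.sub_add_cancel (by omega)]
  have hM5 : (q : ℤ) ≤ M := by rw [hM0]; exact le_self_pow₀ (by omega) (by omega)
  rw [hxe, ← hpow, mul_assoc]
  refine mul_le_mul_of_nonneg_left ?_ (by omega)
  calc (M : ℤ) ≤ 2 * ((M : ℤ) - 1) := by omega
    _ ≤ |b| * |u| := mul_le_mul (by omega) (by omega) (by omega) (abs_nonneg b)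

end FA.Catalan
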