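import Fermat.Agent.ExtVanish.Cyclo
import Fermat.Agent.Regular.Cyclotomic

/-!
# `ℤ[ζ_p]` modulo a prime `q ≠ p`

`t^q ≡ σ_q t (mod q)`, so `q`-th powers congruent modulo `q` are congruent modulo `q²`; and the coordinates of
a multiple of `q` in the power basis are multiples of `q`.
-/

set_option autoImplicit false

noncomputable section

open NumberField Polynomial

namespace FA.Catalan

variable (p : ℕ) [Fact p.Prime] (K : Type*) [Field K] [NumberField K] [IsCyclotomicExtension {p} ℚ K]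

/-- The product of `y - ζ^d` over the residues prime to `p`. -/
theorem prod_sub_zeta_pow (y : 𝓞 K) :
    ∏ d : (ZMod p)ˣ, (y - FA.Ext.zetaInt p K ^ (d : ZMod p).val) = ∑ i ∈ Finset.range p, y ^ i := by
  classical
  have hp : p.Prime := Fact.out
  have : NeZero p := ⟨hp.ne_zero⟩
  set z := FA.Ext.zetaInt p K
  have hz : IsPrimitiveRoot z p := FA.Ext.zetaInt_spec p K
  have hinj : Function.Injective fun d : (ZMod p)ˣ => z ^ (d : ZMod p).val := fun d e h =>
    Units.ext (ZMod.val_injective p (hz.pow_inj (ZMod.val_lt _) (ZMod.val_lt _) h))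
  have hset : (Finset.univ : Finset (ZMod p)ˣ).image (fun d : (ZMod p)ˣ => z ^ (d : ZMod p).val) = primitiveRoots p (𝓞 K) := by
    refine Finset.eq_of_subset_of_card_le (fun w hw => ?_) (le_of_eq ?_)
    · obtain ⟨d, -, rfl⟩ := Finset.mem_image.mp hw
      rw [mem_primitiveRoots hp.pos]
      exact hz.pow_of_coprime _ (ZMod.val_coe_unit_coprime d)
    · rw [hz.card_primitiveRoots, Finset.card_image_of_injective _ hinj, Finset.card_univ, ZMod.card_units p,
        Nat.totient_prime hp]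
  have h := congrArg (eval y) (cyclotomic_eq_prod_X_sub_primitiveRoots hz)
  rw [cyclotomic_prime, eval_prod, ← hset, Finset.prod_image fun a _ b _ e => hinj e] at h
  simp only [eval_sub, eval_X, eval_C, eval_geom_sum] at h
  exact h.symm

variable {q : ℕ} [Fact q.Prime]

/-- Frobenius: `t^q ≡ σ_q t (mod q)`. -/
theorem dvd_pow_sub_sigma (hq : (q : ZMod p) ≠ 0) (t : 𝓞 K) :
    (q : 𝓞 K) ∣ t ^ q - FA.Ext.sigma p K (Units.mk0 (q : ZMod p) hq) t := by
  have hp : p.Prime := Fact.out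
  have : NeZero p := ⟨hp.ne_zero⟩
  set z := FA.Ext.zetaInt p K
  obtain ⟨g, -, rfl⟩ := (IsCyclotomicExtension.zeta_spec p ℚ K).integralPowerBasis.exists_eq_aeval t
  rw [show (IsCyclotomicExtension.zeta_spec p ℚ K).integralPowerBasis.gen = z from
    IsPrimitiveRoot.integralPowerBasis_gen _]
  have hC : C (q : ℤ) ∣ g ^ q - expand ℤ q g := by
    rw [C_dvd_iff_dvd_coeff]
    intro i
    rw [← ZMod.intCast_zmod_eq_zero_iff_dvd, ← eq_intCast (Int.castRingHom (ZMod q)), ← coeff_map,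
      Polynomial.map_sub, Polynomial.map_pow, map_expand, ZMod.expand_card, sub_self, coeff_zero]
  have h := map_dvd (aeval z) hC
  rw [map_sub, map_pow, expand_aeval, aeval_C, algebraMap_int_eq, eq_intCast, Int.cast_natCast] at h
  have hσ : FA.Ext.sigma p K (Units.mk0 (q : ZMod p) hq) (aeval z g) = aeval (z ^ q) g := by
    rw [← RingEquiv.coe_toRingHom, aeval_def, hom_eval₂, RingHom.ext_int
      ((FA.Ext.sigma p K (Units.mk0 (q : ZMod p) hq) : 𝓞 K →+* 𝓞 K).comp (algebraMap ℤ (𝓞 K)))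
      (algebraMap ℤ (𝓞 K)), ← aeval_def]
    congr 1
    rw [RingEquiv.coe_toRingHom, FA.Ext.sigma_zetaInt, Units.val_mk0, ZMod.val_natCast,
      pow_eq_pow_mod q (FA.Ext.zetaInt_spec p K).pow_eq_one]
  rwa [hσ]

/-- `q` is unramified: `q ∣ t^q` forces `q ∣ t`. -/
theorem dvd_of_dvd_pow_natCast (hq : (q : ZMod p) ≠ 0) {t : 𝓞 K} (h : (q : 𝓞 K) ∣ t ^ q) : (q : 𝓞 K) ∣ t := by
  have h1 := (dvd_sub_right h).mp (dvd_pow_sub_sigma p K hq t)
  have h2 := map_dvd (FA.Ext.sigma p K (Units.mk0 (q : ZMod p) hq)⁻¹) h1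
  rwa [map_natCast, FA.Ext.sigma_inv_apply] at h2

/-- `q`-th powers congruent modulo `q` are congruent modulo `q²`. -/
theorem sq_dvd_pow_sub_pow (hq : (q : ZMod p) ≠ 0) {s t : 𝓞 K} (h : (q : 𝓞 K) ∣ s ^ q - t ^ q) :
    (q : 𝓞 K) ^ 2 ∣ s ^ q - t ^ q := by
  have hqp : q.Prime := Fact.out
  obtain ⟨r, hr⟩ := exists_add_pow_prime_eq hqp t (s - t)
  rw [add_sub_cancel] at hr
  have h1 : (q : 𝓞 K) ∣ (s - t) ^ q := by
    rw [show (s - t) ^ q = (s ^ q - t ^ q) - (q : 𝓞 K) * t * (s - t) * r by rw [hr]; ring]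
    exact dvd_sub h (((dvd_mul_right _ _).mul_right _).mul_right _)
  obtain ⟨w, hw⟩ := dvd_of_dvd_pow_natCast p K hq h1
  rw [hr, hw, mul_pow, show t ^ q + (q : 𝓞 K) ^ q * w ^ q + (q : 𝓞 K) * t * ((q : 𝓞 K) * w) * r - t ^ q =
    (q : 𝓞 K) ^ q * w ^ q + (q : 𝓞 K) ^ 2 * (t * w * r) by ring]
  exact dvd_add ((pow_dvd_pow _ hqp.two_le).mul_right _) (dvd_mul_right _ _)

/-- The coordinates of a multiple of `q` in the power basis are multiples of `q`. -/
theorem dvd_coeff_of_dvd_aeval {P : ℤ[X]} (hdeg : P.natDegree < p - 1)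
    (h : (q : 𝓞 K) ∣ aeval (FA.Ext.zetaInt p K) P) (i : ℕ) : (q : ℤ) ∣ P.coeff i := by
  have hp : p.Prime := Fact.out
  have : NeZero p := ⟨hp.ne_zero⟩
  obtain ⟨w, hw⟩ := h
  obtain ⟨g, -, hgw⟩ :=
    (IsCyclotomicExtension.zeta_spec p ℚ K).integralPowerBasis.exists_eq_aeval w
  rw [show (IsCyclotomicExtension.zeta_spec p ℚ K).integralPowerBasis.gen = FA.Ext.zetaInt p K from
    IsPrimitiveRoot.integralPowerBasis_gen _] at hgw
  have h0 : aeval ((FA.Ext.zetaInt p K : 𝓞 K) : K) (P - C (q : ℤ) * g) = 0 := by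
    rw [show ((FA.Ext.zetaInt p K : 𝓞 K) : K) = algebraMap (𝓞 K) K (FA.Ext.zetaInt p K) from rfl,
      aeval_algebraMap_apply, map_sub, map_mul, aeval_C, ← hgw, hw, algebraMap_int_eq, eq_intCast,
      Int.cast_natCast, sub_self, map_zero]
  have hprim : IsPrimitiveRoot ((FA.Ext.zetaInt p K : 𝓞 K) : K) p :=
    (FA.Ext.zetaInt_spec p K).map_of_injective RingOfIntegers.coe_injective
  have hdvd : cyclotomic p ℤ ∣ P - C (q : ℤ) * g := by
    rw [cyclotomic_eq_minpoly hprim hp.pos]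
    exact minpoly.isIntegrallyClosed_dvd (hprim.isIntegral hp.pos) h0
  have hm := Polynomial.map_dvd (Int.castRingHom (ZMod q)) hdvd
  rw [map_cyclotomic, Polynomial.map_sub, Polynomial.map_mul, Polynomial.map_C, eq_intCast, Int.cast_natCast,
    ZMod.natCast_self, C_0, zero_mul, sub_zero] at hm
  have hzero : P.map (Int.castRingHom (ZMod q)) = 0 := by
    refine eq_zero_of_dvd_of_natDegree_lt hm ?_
    rw [natDegree_cyclotomic, Nat.totient_prime hp]
    exact lt_of_le_of_lt natDegree_map_le hdeg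
  rw [← ZMod.intCast_zmod_eq_zero_iff_dvd, ← eq_intCast (Int.castRingHom (ZMod q)), ← coeff_map, hzero,
    coeff_zero]

end FA.Catalan
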