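import Fermat.Agent.Catalan.MihailescuDescent

/-!
# `(x - ζ)/(1 - ζ)` generates a `q`-th power
-/

set_option autoImplicit false

noncomputable section

open NumberField

namespace FA.Catalan

variable (p : ℕ) [Fact p.Prime] (K : Type*) [Field K] [NumberField K] [IsCyclotomicExtension {p} ℚ K]

/-- The ideal root of `(x - ζ)/(1 - ζ)`. -/
theorem exists_quotient_ideal_pow (hp3 : 3 ≤ p) {q : ℕ} (hq : q ≠ 0)
    {x v : ℤ} (hx1 : (p : ℤ) ∣ x - 1) (hΦ : ∑ i ∈ Finset.range p, x ^ i = (p : ℤ) * v ^ q) :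
    ∃ (G : 𝓞 K) (I : Ideal (𝓞 K)), G ≠ 0 ∧ (1 - FA.Ext.zetaInt p K) * G = (x : 𝓞 K) - FA.Ext.zetaInt p K ∧
      Ideal.span {G} = I ^ q := by
  have hp : p.Prime := Fact.out
  have : NeZero p := ⟨hp.ne_zero⟩
  have H := FA.Regular.cycloRing_ringOfIntegers (K := K) (p := p) hp3 (IsCyclotomicExtension.zeta_spec p ℚ K)
  change FA.Regular.CycloRing (𝓞 K) p (FA.Ext.zetaInt p K) at H
  set z := FA.Ext.zetaInt p K with hz
  have hzp : z ^ p = 1 := (FA.Ext.zetaInt_spec p K).pow_eq_one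
  -- `G = (x - ζ)/(1 - ζ)`
  obtain ⟨m, hm⟩ := hx1
  obtain ⟨s, hs⟩ : (z - 1) ^ 2 ∣ (p : 𝓞 K) := (pow_dvd_pow _ (by omega)).trans H.lam_dvd_prime
  set G : 𝓞 K := 1 - (m : 𝓞 K) * (z - 1) * s with hG
  have hxm : (x : 𝓞 K) = 1 + (p : 𝓞 K) * m := by
    have := congrArg (Int.cast : ℤ → 𝓞 K) hm
    push_cast at this
    linear_combination this
  have hGd : ∀ d : (ZMod p)ˣ, (1 - z ^ (d : ZMod p).val) * FA.Ext.sigma p K d G =
      (x : 𝓞 K) - z ^ (d : ZMod p).val := fun d => by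
    have h1 : (1 - z) * G = (x : 𝓞 K) - z := by rw [hG, hxm, hs]; ring
    have h2 := congrArg (FA.Ext.sigma p K d) h1
    simpa only [map_mul, map_sub, map_one, map_intCast, z, FA.Ext.sigma_zetaInt] using h2
  have hprodG : ∏ d : (ZMod p)ˣ, FA.Ext.sigma p K d G = (v : 𝓞 K) ^ q := by
    have hp0 : (p : 𝓞 K) ≠ 0 := Nat.cast_ne_zero.mpr hp.ne_zero
    refine mul_left_cancel₀ hp0 ?_
    have h1 := prod_sub_zeta_pow p K 1
    simp only [one_pow, Finset.sum_const, Finset.card_range, nsmul_one] at h1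
    nth_rewrite 1 [← h1]
    rw [← Finset.prod_mul_distrib, Finset.prod_congr rfl fun d _ => hGd d, prod_sub_zeta_pow]
    exact_mod_cast congrArg (Int.cast : ℤ → 𝓞 K) hΦ
  have hv0 : v ≠ 0 := by
    rintro rfl
    rw [zero_pow hq, mul_zero] at hΦ
    have h1 : x = 1 := by
      have h := geom_sum_mul x p
      rw [hΦ, zero_mul] at h
      exact (hp.odd_of_ne_two (by omega)).strictMono_pow.injective (show x ^ p = 1 ^ p by rw [one_pow]; omega)
    subst h1
    simp [hp.ne_zero] at hΦ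
  have hGne : ∀ d : (ZMod p)ˣ, FA.Ext.sigma p K d G ≠ 0 := fun d e => by
    have := Finset.prod_eq_zero (f := fun d => FA.Ext.sigma p K d G) (Finset.mem_univ d) e
    rw [hprodG] at this
    exact pow_ne_zero q (Int.cast_ne_zero.mpr hv0) this
  -- `G ∈ P` excludes `p ∈ P`
  have hpG : ∀ (d : (ZMod p)ˣ) (P : Ideal (𝓞 K)), P.IsPrime → FA.Ext.sigma p K d G ∈ P → (p : 𝓞 K) ∉ P := by
    intro d P hP hGP hpP
    have hl : z - 1 ∈ P := by
      obtain ⟨u, hu⟩ := H.assoc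
      rw [← hu] at hpP
      exact hP.mem_of_pow_mem _ ((hP.mem_or_mem hpP).resolve_right
        fun h' => hP.ne_top (Ideal.eq_top_of_isUnit_mem _ h' u.isUnit))
    obtain ⟨t, ht⟩ : z - 1 ∣ z ^ (d : ZMod p).val - 1 := by simpa using sub_dvd_pow_sub_pow z 1 (d : ZMod p).val
    refine hP.ne_top ((Ideal.eq_top_iff_one _).mpr ?_)
    have e : FA.Ext.sigma p K d G = 1 - (z - 1) * (t * (m : 𝓞 K) * FA.Ext.sigma p K d s) := by
      rw [hG, map_sub, map_one, map_mul, map_mul, map_sub, map_one, map_intCast, FA.Ext.sigma_zetaInt, ← hz, ht]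
      ring
    have := P.add_mem hGP (P.mul_mem_right (t * (m : 𝓞 K) * FA.Ext.sigma p K d s) hl)
    rwa [e, sub_add_cancel] at this
  -- `(G) = I^q`
  classical
  obtain ⟨I, hI⟩ : ∃ I : Ideal (𝓞 K), Ideal.span {G} = I ^ q := by
    have hideal := congrArg (fun t : 𝓞 K => Ideal.span {t}) hprodG
    simp only [← Ideal.prod_span_singleton, ← Ideal.span_singleton_pow] at hideal
    refine (Finset.exists_eq_pow_of_mul_eq_pow_of_coprime (fun a _ b _ hab => ?_) hideal 1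
      (Finset.mem_univ _)).imp fun I hI => by rwa [FA.Ext.sigma_one_apply] at hI
    rw [Ideal.isCoprime_iff_sup_eq]
    by_contra hne'
    obtain ⟨M, hM, hle⟩ := Ideal.exists_le_maximal _ hne'
    have hA : FA.Ext.sigma p K a G ∈ M := hle (Ideal.mem_sup_left (Ideal.mem_span_singleton_self _))
    have hB : FA.Ext.sigma p K b G ∈ M := hle (Ideal.mem_sup_right (Ideal.mem_span_singleton_self _))
    have hdiff : z ^ (a : ZMod p).val - z ^ (b : ZMod p).val ∈ M := by
      have h1 := M.sub_mem (M.mul_mem_left (1 - z ^ (b : ZMod p).val) hB)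
        (M.mul_mem_left (1 - z ^ (a : ZMod p).val) hA)
      rw [hGd, hGd] at h1
      simpa using h1
    exact hab (Units.ext (ZMod.val_injective p (FA.Ext.pow_eq_of_sub_mem H.prim (hpG a M hM.isPrime hA)
      (ZMod.val_lt _) (ZMod.val_lt _) hdiff)))
  have hG1 : G ≠ 0 := by simpa [FA.Ext.sigma_one_apply] using hGne 1
  exact ⟨G, I, by simpa [FA.Ext.sigma_one_apply] using hGne 1, by rw [hG, hxm, hs]; ring, hI⟩

end FA.Catalan
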