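import Fermat.Agent.Catalan.Lebesgue
import Fermat.Agent.Regular.SophieGermain
import Fermat.Agent.MordellCurve.QuadraticCubic

/-!
# Euler and Ko Chao: `x² = y^q + 1`

* `sq_eq_cube_add_one`: Euler's theorem, the integral points of `x² = y³ + 1`.
* `dvd_of_sq_eq_pow_add_one`: Nagell's lemma `q ∣ x`, by Pell's equation `X² - y Y² = 1`.
* `sq_ne_pow_add_one`: Ko Chao's theorem for primes `q ≥ 5`, by Chein's argument.
-/

set_option autoImplicit false

namespace FA.Catalan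

/-- **Euler**: the integral points of `x² = y³ + 1`. -/
theorem sq_eq_cube_add_one {x y : ℤ} (h : x ^ 2 = y ^ 3 + 1) :
    (x = 0 ∧ y = -1) ∨ (x = 1 ∧ y = 0) ∨ (x = -1 ∧ y = 0) ∨ (x = 3 ∧ y = 2) ∨ (x = -3 ∧ y = 2) := by
  have hodd : Odd 3 := by decide
  have hy : ∀ {c : ℤ}, y ^ 3 = c ^ 3 → y = c := fun e => hodd.strictMono_pow.injective e
  rcases Int.even_or_odd x with ⟨w, rfl⟩ | ⟨k, rfl⟩
  · have hcop : IsCoprime (w + w - 1) (w + w + 1) := ⟨w, 1 - w, by ring⟩
    obtain ⟨⟨s, hs⟩, ⟨r, hr⟩⟩ := Int.eq_pow_of_mul_eq_pow_odd (c := y) hcop hodd (by linear_combination h)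
    obtain ⟨rfl, h2⟩ := FA.QuadraticCubic.three_cubes_AP (x := r) (z := -s) (y := 1) one_ne_zero
      (by rw [hodd.neg_pow, ← hs, ← hr]; ring)
    left
    refine ⟨by linear_combination hr, hy (c := -1) ?_⟩
    have : w + w = 0 := by linear_combination hr
    linear_combination -h + (w + w) * this
  obtain ⟨m, rfl⟩ : Even y := by
    have : Even (y ^ 3) := ⟨2 * k * (k + 1), by linear_combination -h⟩
    exact (Int.even_pow.mp this).1
  have h4k : 4 * (k * (k + 1)) = 4 * (2 * m ^ 3) := by linear_combination h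
  have hk : k * (k + 1) = 2 * m ^ 3 := by linarith
  rcases Int.even_or_odd k with ⟨j, rfl⟩ | ⟨j, rfl⟩
  · have hcop : IsCoprime j (2 * j + 1) := ⟨-2, 1, by ring⟩
    obtain ⟨⟨b, hb⟩, ⟨a, ha⟩⟩ := Int.eq_pow_of_mul_eq_pow_odd (c := m) hcop hodd
      (by linarith [show 2 * (j * (2 * j + 1)) = 2 * m ^ 3 by linear_combination hk])
    rcases eq_or_ne b 0 with rfl | hb0
    · right; left
      obtain rfl : j = 0 := by simpa using hb
      exact ⟨by ring, hy (by linear_combination -h)⟩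
    · obtain ⟨rfl, e⟩ := FA.QuadraticCubic.three_cubes_AP (x := a) (z := -1) hb0
        (by rw [← ha, ← hb]; ring)
      obtain rfl : j = -1 := by rw [hb, ← e]; norm_num
      right; right; right; right
      exact ⟨by ring, hy (by linear_combination -h)⟩
  · have hcop : IsCoprime (2 * j + 1) (j + 1) := ⟨-1, 2, by ring⟩
    obtain ⟨⟨a, ha⟩, ⟨b, hb⟩⟩ := Int.eq_pow_of_mul_eq_pow_odd (c := m) hcop hodd
      (by linarith [show 2 * ((2 * j + 1) * (j + 1)) = 2 * m ^ 3 by linear_combination hk])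
    rcases eq_or_ne b 0 with rfl | hb0
    · right; right; left
      obtain rfl : j = -1 := by
        rw [zero_pow three_ne_zero] at hb
        linarith
      exact ⟨by ring, hy (by linear_combination -h)⟩
    · obtain ⟨rfl, e⟩ := FA.QuadraticCubic.three_cubes_AP (x := a) (z := 1) hb0
        (by rw [← ha, ← hb]; ring)
      obtain rfl : j = 0 := by
        rw [← e] at hb
        linarith
      right; right; right; left
      exact ⟨by ring, hy (by linear_combination -h)⟩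

/-- For coprime `s`, `t` with `q ∤ s^q + t^q`, the sum `s + t` is prime to its cofactor. -/
theorem isCoprime_add_sgCofactor {q : ℕ} (hq : q.Prime) (hodd : Odd q) {s t : ℤ} (hst : IsCoprime s t)
    (hnd : ¬ (q : ℤ) ∣ s ^ q + t ^ q) : IsCoprime (s + t) (FA.Regular.sgCofactor q s t) := by
  rw [Int.isCoprime_iff_nat_coprime]
  refine Nat.coprime_of_dvd fun l hl h1 h2 => ?_
  rw [← Int.natCast_dvd] at h1 h2
  have hb : ((s + t : ℤ) : ZMod l) = 0 := (ZMod.intCast_zmod_eq_zero_iff_dvd _ _).2 h1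
  have hs : ((FA.Regular.sgCofactor q s t : ℤ) : ZMod l) = 0 := (ZMod.intCast_zmod_eq_zero_iff_dvd _ _).2 h2
  push_cast at hb
  rw [FA.Regular.sgCofactor_intCast_of_eq_neg (eq_neg_of_add_eq_zero_left hb)] at hs
  have := Fact.mk hl
  rcases mul_eq_zero.1 hs with h | h
  · obtain rfl : l = q := (Nat.prime_dvd_prime_iff_eq hl hq).1 ((ZMod.natCast_eq_zero_iff q l).1 h)
    exact hnd (FA.Regular.sgCofactor_mul hodd s t ▸ h1.mul_left _)
  · have hs0 : (s : ZMod l) = 0 := eq_zero_of_pow_eq_zero h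
    have ht0 : (t : ZMod l) = 0 := by simpa [hs0] using hb
    exact (Nat.prime_iff_prime_int.mp hl).not_isUnit (hst.isUnit_of_dvd'
      ((ZMod.intCast_zmod_eq_zero_iff_dvd _ _).1 hs0) ((ZMod.intCast_zmod_eq_zero_iff_dvd _ _).1 ht0))

/-- **Nagell's lemma**: `x² = y^q + 1` forces `q ∣ x`. -/
theorem dvd_of_sq_eq_pow_add_one {q : ℕ} (hq : q.Prime) (hodd : Odd q) {x y : ℤ} (hx : 0 < x) (hy : 0 < y)
    (hy2 : Even y) (h : x ^ 2 = y ^ q + 1) : (q : ℤ) ∣ x := by
  by_contra hnd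
  have hqI : Prime (q : ℤ) := Nat.prime_iff_prime_int.mp hq
  have hcop : IsCoprime (y + 1) (FA.Regular.sgCofactor q y 1) :=
    isCoprime_add_sgCofactor hq hodd isCoprime_one_right (by
      rw [one_pow, ← h]; exact fun e => hnd (hqI.dvd_of_dvd_pow e))
  obtain ⟨u₀, hu | hu⟩ := Int.sq_of_isCoprime (c := x) hcop
    (by rw [mul_comm, FA.Regular.sgCofactor_mul hodd, one_pow, h])
  swap
  · nlinarith [sq_nonneg u₀]
  -- the fundamental solution `u + √y`
  set u := |u₀| with hu'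
  have hu2 : u ^ 2 = y + 1 := by rw [hu', sq_abs]; exact hu.symm
  have hu1 : 1 < u := by
    by_contra hle
    have : 0 ≤ u := abs_nonneg _
    nlinarith
  obtain ⟨k, hk⟩ := hodd
  let a₁ : Pell.Solution₁ y := Pell.Solution₁.mk u 1 (by linear_combination hu2)
  have hfun : Pell.IsFundamental a₁ := by
    refine ⟨by simpa [a₁] using hu1, by simp [a₁], fun {b} hb => ?_⟩
    have hb0 : b.y ≠ 0 := fun e => by
      have := b.prop
      rw [e] at this
      nlinarith
    have hb1 : 1 ≤ b.y ^ 2 := by have := pow_two_pos_of_ne_zero hb0; omega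
    have h3 : u ^ 2 ≤ b.x ^ 2 := by nlinarith [b.prop]
    simpa [a₁] using (pow_le_pow_iff_left₀ (abs_nonneg _) (by omega) two_ne_zero).mp h3
  let sol : Pell.Solution₁ y := Pell.Solution₁.mk x (y ^ k) (by
    rw [h, hk]; ring)
  obtain ⟨m, hm⟩ := hfun.eq_pow_of_nonneg (a := sol) (by simpa [sol] using hx)
    (by simpa [sol] using (pow_pos hy k).le)
  have hval : (⟨u, 1⟩ : ℤ√y) ^ m = ⟨x, y ^ k⟩ := by
    have := congrArg (fun a : Pell.Solution₁ y => (a : ℤ√y)) hm
    rw [show ((a₁ ^ m : Pell.Solution₁ y) : ℤ√y) = (⟨u, 1⟩ : ℤ√y) ^ m from map_pow (unitary (ℤ√y)).subtype a₁ m] at this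
    simpa [sol] using this.symm
  have hcopu : IsCoprime u (y ^ k) := (show IsCoprime u y from ⟨u, -1, by linear_combination hu2⟩).pow_right
  -- modulo `y` the coefficient of `√y` in `(u + √y)^m` is `m u^(m-1)`
  have hmod : ∀ n : ℕ, y ∣ ((⟨u, 1⟩ : ℤ√y) ^ n).re - u ^ n ∧
      y ∣ u * ((⟨u, 1⟩ : ℤ√y) ^ n).im - n * u ^ n := by
    intro n
    induction n with
    | zero => simp
    | succ n ih =>
      obtain ⟨A, hA⟩ := ih.1
      obtain ⟨B, hB⟩ := ih.2
      rw [pow_succ, Zsqrtd.re_mul, Zsqrtd.im_mul]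
      refine ⟨⟨A * u + ((⟨u, 1⟩ : ℤ√y) ^ n).im, ?_⟩, ⟨A * u + B * u, ?_⟩⟩
      · linear_combination u * hA
      · push_cast
        linear_combination u * hA + u * hB
  have hk1 : k ≠ 0 := by rintro rfl; exact hq.ne_one hk
  have hme : Even m := by
    have h1 := (hmod m).2
    rw [hval] at h1
    have h2 : y ∣ (m : ℤ) * u ^ m := by
      simpa using ((dvd_pow_self y hk1).mul_left u).sub h1
    have h3 : y ∣ (m : ℤ) :=
      ((show IsCoprime y u from ⟨-1, u, by linear_combination hu2⟩).pow_right).dvd_of_dvd_mul_right h2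
    have := hy2.two_dvd.trans h3
    exact even_iff_two_dvd.mpr (by exact_mod_cast this)
  obtain ⟨j, rfl⟩ := hme
  have h4 : u ∣ (((⟨u, 1⟩ : ℤ√y) ^ 2) ^ j).im :=
    im_dvd_pow _ (b := u) (by rw [sq, Zsqrtd.im_mul]; exact ⟨2, by ring⟩) j
  rw [← pow_mul, two_mul, hval] at h4
  have := hcopu.isUnit_of_dvd h4
  rw [Int.isUnit_iff] at this
  omega

/-- **Chein's lemma**: no `b^q = 2^(q-2) a^q + ε` with `q ∣ 2^(q-1) a^q + ε`. -/
theorem chein {q : ℕ} (hq : q.Prime) (hq5 : 5 ≤ q) {a b ε : ℤ} (hε : ε = 1 ∨ ε = -1) (ha : 0 < a)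
    (hb : 0 < b) (heq : b ^ q = 2 ^ (q - 2) * a ^ q + ε) (hdvd : (q : ℤ) ∣ 2 * (2 ^ (q - 2) * a ^ q) + ε) :
    False := by
  have hodd : Odd q := hq.odd_of_ne_two (by omega)
  have hqI : Prime (q : ℤ) := Nat.prime_iff_prime_int.mp hq
  have hεq : ε ^ q = ε := by rcases hε with rfl | rfl <;> simp [hodd.neg_one_pow]
  have hεε : ε * ε = 1 := by rcases hε with rfl | rfl <;> rfl
  set r := 2 ^ (q - 2) * a ^ q - ε with hr
  have hid : (b ^ 2) ^ q + (-(ε * (2 * a))) ^ q = r ^ 2 := by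
    rw [hodd.neg_pow, mul_pow, mul_pow, hεq, ← pow_mul, mul_comm 2 q, pow_mul, heq, hr,
      show (2 : ℤ) ^ q = 2 ^ (q - 2) * 4 by
        rw [show (4 : ℤ) = 2 ^ 2 by norm_num, ← pow_add, Nat.sub_add_cancel (by omega)]]
    ring
  have hnd : ¬ (q : ℤ) ∣ r ^ 2 := fun e => by
    have h3 : (q : ℤ) ∣ 3 * ε := by
      have := hdvd.sub ((hqI.dvd_of_dvd_pow e).mul_left 2)
      rwa [show 2 * (2 ^ (q - 2) * a ^ q) + ε - 2 * r = 3 * ε by rw [hr]; ring] at this
    have : q ∣ 3 := by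
      have h4 := h3.mul_right ε
      rw [mul_assoc, hεε, mul_one] at h4
      exact_mod_cast h4
    have := Nat.le_of_dvd (by norm_num) this
    omega
  have hcop : IsCoprime (b ^ 2) (-(ε * (2 * a))) := by
    have h1 : IsCoprime (b ^ q) (2 * a) := by
      refine ⟨ε, -ε * 2 ^ (q - 3) * a ^ (q - 1), ?_⟩
      rw [heq, show q - 2 = q - 3 + 1 by omega, ← Nat.sub_add_cancel hq.one_le (n := q), pow_succ a,
        Nat.add_sub_cancel, pow_succ 2]
      linear_combination hεε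
    have h2 := (((IsCoprime.pow_left_iff hq.pos).mp h1).pow_left (m := 2)).neg_right
    rcases hε with rfl | rfl
    · simpa using h2
    · simpa using h2.neg_right
  obtain ⟨c₀, hc | hc⟩ := Int.sq_of_isCoprime (c := r)
    (isCoprime_add_sgCofactor hq hodd hcop (by rwa [hid])) (by rw [mul_comm, FA.Regular.sgCofactor_mul hodd, hid])
  all_goals
    have hba : a < b := by
      by_contra hle
      have h1 : b ^ q ≤ a ^ q := pow_le_pow_left₀ hb.le (not_lt.mp hle) q
      have h2 : (8 : ℤ) ≤ 2 ^ (q - 2) := le_trans (by norm_num) (pow_le_pow_right₀ one_le_two (show 3 ≤ q - 2 by omega))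
      have h3 : (1 : ℤ) ≤ a ^ q := one_le_pow₀ ha
      have h4 : 8 * a ^ q ≤ 2 ^ (q - 2) * a ^ q := mul_le_mul_of_nonneg_right h2 (by omega)
      rcases hε with rfl | rfl <;> omega
  · set c := |c₀| with hc'
    have hc2 : b ^ 2 + -(ε * (2 * a)) = c ^ 2 := by rw [hc', sq_abs]; exact hc
    have hc0 : 0 ≤ c := abs_nonneg _
    rcases hε with rfl | rfl
    · have h1 : c < b := lt_of_pow_lt_pow_left₀ 2 hb.le (by linarith)
      have h2 : b - 1 < c := lt_of_pow_lt_pow_left₀ 2 hc0 (by nlinarith)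
      omega
    · have h1 : b < c := lt_of_pow_lt_pow_left₀ 2 hc0 (by linarith)
      have h2 : c < b + 1 := lt_of_pow_lt_pow_left₀ 2 (by omega) (by nlinarith)
      omega
  · rcases hε with rfl | rfl <;> nlinarith [sq_nonneg c₀, sq_nonneg (b - 1)]

/-- **Ko Chao's theorem**: `x² = y^q + 1` has no solution with `x y ≠ 0` for primes `q ≥ 5`. -/
theorem sq_ne_pow_add_one {q : ℕ} (hq : q.Prime) (hq5 : 5 ≤ q) {x y : ℤ} (hx0 : x ≠ 0) (hy0 : y ≠ 0) :
    x ^ 2 ≠ y ^ q + 1 := by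
  intro h
  wlog hx : 0 < x generalizing x
  · exact this (neg_ne_zero.mpr hx0) (by rwa [neg_sq]) (by omega)
  have hodd : Odd q := hq.odd_of_ne_two (by omega)
  have hy : 0 < y := by
    rcases lt_or_gt_of_ne hy0 with hneg | hpos
    · have := hodd.pow_neg hneg
      have : 0 < x ^ 2 := pow_pos hx 2
      omega
    · exact hpos
  rcases Int.even_or_odd x with ⟨w, rfl⟩ | ⟨k, rfl⟩
  · have hcop : IsCoprime (w + w - 1) (w + w + 1) := ⟨w, 1 - w, by ring⟩
    obtain ⟨⟨s, hs⟩, ⟨r, hr⟩⟩ := Int.eq_pow_of_mul_eq_pow_odd (c := y) hcop hodd (by linear_combination h)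
    have hs0 : 0 < s := hodd.pow_pos_iff.mp (by rw [← hs]; omega)
    have hsr : s < r := hodd.strictMono_pow.lt_iff_lt.mp (show s ^ q < r ^ q by rw [← hs, ← hr]; omega)
    have h1 : (s + 1) ^ q ≤ r ^ q := pow_le_pow_left₀ (by omega) hsr q
    have h2 : s ^ q + (q : ℤ) * s ^ (q - 1) * 1 ≤ (s + 1) ^ q := by
      obtain ⟨j, rfl⟩ : ∃ j, q = j + 1 := ⟨q - 1, by omega⟩
      rw [Nat.add_sub_cancel, add_pow, Finset.sum_range_succ, Finset.sum_range_succ]
      simp only [one_pow, mul_one, Nat.choose_self, Nat.cast_one, Nat.choose_succ_self_right]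
      have : 0 ≤ ∑ i ∈ Finset.range j, s ^ i * ((j + 1).choose i : ℤ) :=
        Finset.sum_nonneg fun i _ => mul_nonneg (pow_nonneg hs0.le _) (Int.natCast_nonneg _)
      linarith [mul_comm (s ^ j) ((j + 1 : ℕ) : ℤ)]
    have h3 : (5 : ℤ) ≤ (q : ℤ) * s ^ (q - 1) * 1 := by
      rw [mul_one]
      calc (5 : ℤ) = 5 * 1 := by norm_num
        _ ≤ (q : ℤ) * s ^ (q - 1) := mul_le_mul (by exact_mod_cast hq5) (one_le_pow₀ hs0) zero_le_one (by positivity)
    omega
  have hyE : Even y := by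
    have : Even (y ^ q) := ⟨2 * k * (k + 1), by linear_combination -h⟩
    exact (Int.even_pow.mp this).1
  have hqx := dvd_of_sq_eq_pow_add_one hq hodd hx hy hyE h
  obtain ⟨y', rfl⟩ := hyE.two_dvd
  have hk0 : 0 < k := by
    by_contra hle
    obtain rfl : k = 0 := by omega
    have := pow_pos hy q
    norm_num at h
    omega
  have hprod : k * (k + 1) = 2 ^ (q - 2) * y' ^ q := by
    refine mul_left_cancel₀ (show (4 : ℤ) ≠ 0 by norm_num) ?_
    rw [← mul_assoc 4 ((2 : ℤ) ^ (q - 2)), show (4 : ℤ) = 2 ^ 2 by norm_num, ← pow_add,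
      Nat.add_sub_cancel' (show 2 ≤ q by omega), ← mul_pow]
    linear_combination h
  have h2 : Prime (2 : ℤ) := Int.prime_two
  have hy' : 0 < y' := by omega
  rcases Int.even_or_odd k with hk | hk
  · have hc2 : IsCoprime ((2 : ℤ) ^ (q - 2)) (k + 1) :=
      (h2.coprime_iff_not_dvd.mpr fun e => by
        rw [even_iff_two_dvd] at hk; exact h2.not_dvd_one (by simpa using e.sub hk)).pow_left
    obtain ⟨z, rfl⟩ := hc2.dvd_of_dvd_mul_right ⟨y' ^ q, hprod⟩
    obtain ⟨⟨a, hz⟩, ⟨b, hb⟩⟩ := Int.eq_pow_of_mul_eq_pow_odd (c := y')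
      (show IsCoprime z (2 ^ (q - 2) * z + 1) from ⟨-2 ^ (q - 2), 1, by ring⟩) hodd
      (mul_left_cancel₀ (pow_ne_zero _ two_ne_zero) (by rw [← mul_assoc]; exact hprod))
    subst hz
    refine chein hq hq5 (Or.inl rfl) (hodd.pow_pos_iff.mp ?_) (hodd.pow_pos_iff.mp ?_) hb.symm hqx
    · exact pos_of_mul_pos_right hk0 (pow_nonneg two_pos.le _)
    · rw [← hb]; omega
  · have hc2 : IsCoprime ((2 : ℤ) ^ (q - 2)) k :=
      (h2.coprime_iff_not_dvd.mpr fun e => by
        rw [← Int.not_even_iff_odd, even_iff_two_dvd] at hk; exact hk e).pow_left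
    obtain ⟨z, hz'⟩ := hc2.dvd_of_dvd_mul_left ⟨y' ^ q, hprod⟩
    obtain ⟨⟨b, hb⟩, ⟨a, hz⟩⟩ := Int.eq_pow_of_mul_eq_pow_odd (c := y')
      (show IsCoprime k z from ⟨-1, 2 ^ (q - 2), by linear_combination -hz'⟩) hodd
      (mul_left_cancel₀ (pow_ne_zero (q - 2) (two_ne_zero (α := ℤ))) (by rw [← hprod, hz']; ring))
    subst hz
    refine chein hq hq5 (a := a) (b := b) (ε := -1) (Or.inr rfl) (hodd.pow_pos_iff.mp ?_)
      (hodd.pow_pos_iff.mp (hb ▸ hk0)) (by linear_combination -hb + hz') ?_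
    · exact pos_of_mul_pos_right (a := (2 : ℤ) ^ (q - 2)) (by omega) (pow_nonneg two_pos.le _)
    · convert hqx using 1; linear_combination -2 * hz'

end FA.Catalan
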