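import Mathlib

/-!
# Lebesgue's theorem: `y² + 1` is never a perfect power

`y + i` is `(a + b i)^n` in `ℤ[i]`; comparing imaginary parts leaves `∑ C(n, 2m) (-a²)^m = 0` over
`m ≥ 1`, where the first term alone has the least two-adic valuation.
-/

set_option autoImplicit false

namespace FA.Catalan

open Finset

/-- In `ℤ[√d]` a divisor of the imaginary part divides that of every power. -/
theorem im_dvd_pow {d : ℤ} (z : ℤ√d) {b : ℤ} (hb : b ∣ z.im) : ∀ n : ℕ, b ∣ (z ^ n).im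
  | 0 => by simp
  | n + 1 => by
    rw [pow_succ, Zsqrtd.im_mul]
    exact dvd_add (hb.mul_left _) ((im_dvd_pow z hb n).mul_right _)

/-- The powers of `1 + c i`. -/
theorem one_add_mul_I_pow (c : ℤ) (n : ℕ) :
    ((⟨1, c⟩ : GaussianInt) ^ n).re = ∑ m ∈ range (n + 1), (n.choose (2 * m) : ℤ) * (-c ^ 2) ^ m ∧
      ((⟨1, c⟩ : GaussianInt) ^ n).im =
        c * ∑ m ∈ range (n + 1), (n.choose (2 * m + 1) : ℤ) * (-c ^ 2) ^ m := by
  induction n with
  | zero => simp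
  | succ n ih =>
    have hz : ∀ k : ℕ, 2 * (n + 1) ≤ k → (n.choose k : ℤ) = 0 := fun k hk => by
      rw [Nat.choose_eq_zero_of_lt (by omega), Nat.cast_zero]
    refine ⟨?_, ?_⟩
    · have hre : ∑ m ∈ range (n + 1), (n.choose (2 * m) : ℤ) * (-c ^ 2) ^ m =
          ∑ m ∈ range (n + 1), (n.choose (2 * m + 2) : ℤ) * (-c ^ 2) ^ (m + 1) + 1 := by
        have := sum_range_succ (fun m => (n.choose (2 * m) : ℤ) * (-c ^ 2) ^ m) (n + 1)
        rw [hz _ le_rfl, zero_mul, add_zero, sum_range_succ'] at this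
        simpa [mul_add] using this.symm
      rw [pow_succ, Zsqrtd.re_mul, ih.1, ih.2, hre, sum_range_succ' _ (n + 1)]
      simp only [Nat.mul_zero, Nat.choose_zero_right, Nat.cast_one, pow_zero, mul_one]
      rw [show ∀ u v : ℤ, u + 1 + -1 * (c * v) * c = u + (-c ^ 2) * v + 1 from fun u v => by ring,
        mul_sum, ← sum_add_distrib]
      congr 1
      refine sum_congr rfl fun m _ => ?_
      rw [show 2 * (m + 1) = (2 * m + 1) + 1 by ring, Nat.choose_succ_succ', Nat.cast_add]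
      ring
    · rw [pow_succ, Zsqrtd.im_mul, ih.1, ih.2, mul_one, mul_comm _ c, ← mul_add, ← sum_add_distrib,
        sum_range_succ _ (n + 1), show ((n + 1).choose (2 * (n + 1) + 1) : ℤ) = 0 by
          rw [Nat.choose_eq_zero_of_lt (by omega), Nat.cast_zero], zero_mul, add_zero]
      congr 1
      refine sum_congr rfl fun m _ => ?_
      rw [Nat.choose_succ_succ', Nat.cast_add]
      ring

/-- **The two-adic heart of Lebesgue's proof.** -/
theorem re_one_add_mul_I_pow_ne {c : ℤ} {n : ℕ} (hc : Even c) (hc0 : c ≠ 0) (hn : 2 ≤ n) :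
    ((⟨1, c⟩ : GaussianInt) ^ n).re ≠ 1 ∧ ((⟨1, c⟩ : GaussianInt) ^ n).re ≠ -1 := by
  set A := c.natAbs ^ 2 with hA
  set K := n.choose 2 with hK
  have hA0 : A ≠ 0 := pow_ne_zero _ (Int.natAbs_ne_zero.mpr hc0)
  have hK0 : K ≠ 0 := (Nat.choose_pos hn).ne'
  have h4 : 2 ^ 2 ∣ A := pow_dvd_pow_of_dvd (Int.natAbs_even.mpr hc).two_dvd 2
  have hvA : 2 ≤ padicValNat 2 A := (padicValNat_dvd_iff_le hA0).mp h4
  have hcA : (c ^ 2 : ℤ) = (A : ℤ) := by rw [hA]; push_cast; rw [sq_abs]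
  set e := padicValNat 2 (K * A) with he
  have he' : e = padicValNat 2 K + padicValNat 2 A := padicValNat.mul hK0 hA0
  have hhigh : ∀ m : ℕ, 2 ≤ m → 2 ^ (e + 1) ∣ n.choose (2 * m) * A ^ m := by
    intro m hm
    rcases lt_or_ge n (2 * m) with h | h
    · simp [Nat.choose_eq_zero_of_lt h]
    have hC0 : n.choose (2 * m) ≠ 0 := (Nat.choose_pos h).ne'
    have hid : n.choose (2 * m) * (m * (2 * m - 1)) = K * (n - 2).choose (2 * m - 2) := by
      rw [hK, ← Nat.choose_mul (show 2 ≤ 2 * m by omega), Nat.choose_two_right (2 * m), mul_assoc 2,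
        Nat.mul_div_cancel_left _ two_pos]
    have hKdvd : 2 ^ padicValNat 2 K ∣ n.choose (2 * m) * (m * (2 * m - 1)) :=
      hid ▸ (pow_padicValNat_dvd (p := 2) (n := K)).mul_right _
    have hodd : ¬ 2 ∣ 2 * m - 1 := by omega
    rw [padicValNat_dvd_iff_le (mul_ne_zero hC0 (mul_ne_zero (by omega) (by omega))),
      padicValNat.mul hC0 (mul_ne_zero (by omega) (by omega)), padicValNat.mul (by omega) (by omega),
      padicValNat.eq_zero_of_not_dvd hodd, add_zero] at hKdvd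
    rw [padicValNat_dvd_iff_le (mul_ne_zero hC0 (pow_ne_zero _ hA0)),
      padicValNat.mul hC0 (pow_ne_zero _ hA0), padicValNat.pow, he']
    have hm' : padicValNat 2 m < m := lt_of_lt_of_le Nat.lt_two_pow_self
      (Nat.le_of_dvd (by omega) pow_padicValNat_dvd)
    have : padicValNat 2 A + 2 * (m - 1) ≤ m * padicValNat 2 A := by
      obtain ⟨j, rfl⟩ : ∃ j, m = j + 1 := ⟨m - 1, by omega⟩
      rw [Nat.add_sub_cancel, add_mul, one_mul]
      nlinarith
    omega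
  set S : ℤ := ∑ m ∈ range n, (n.choose (2 * (m + 1)) : ℤ) * (-c ^ 2) ^ (m + 1) with hS
  have hre : ((⟨1, c⟩ : GaussianInt) ^ n).re = S + 1 := by
    rw [(one_add_mul_I_pow c n).1, sum_range_succ' _ n, hS]; simp
  have hndvd : ¬ ((2 ^ (e + 1) : ℕ) : ℤ) ∣ S := by
    obtain ⟨j, rfl⟩ : ∃ j, n = j + 1 := ⟨n - 1, by omega⟩
    intro h
    rw [hS, sum_range_succ'] at h
    have hrest : ((2 ^ (e + 1) : ℕ) : ℤ) ∣
        ∑ m ∈ range j, ((j + 1).choose (2 * (m + 1 + 1)) : ℤ) * (-c ^ 2) ^ (m + 1 + 1) := by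
      refine dvd_sum fun m _ => ?_
      rw [neg_pow, hcA, mul_left_comm, ← Nat.cast_pow, ← Nat.cast_mul]
      exact (Int.natCast_dvd_natCast.mpr (hhigh (m + 1 + 1) (by omega))).mul_left _
    rw [dvd_add_right hrest, zero_add, mul_one, pow_one, hcA, mul_neg, dvd_neg, ← Nat.cast_mul,
      Int.natCast_dvd_natCast] at h
    exact pow_succ_padicValNat_not_dvd (mul_ne_zero hK0 hA0) h
  have h4S : (4 : ℤ) ∣ S := by
    refine dvd_sum fun m _ => ?_
    rw [pow_succ']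
    refine ((Dvd.dvd.neg_right ?_).mul_right _).mul_left _
    obtain ⟨k, rfl⟩ := hc
    exact ⟨k ^ 2, by ring⟩
  rw [hre]
  refine ⟨fun h => hndvd ?_, fun h => ?_⟩
  · rw [show S = 0 by omega]; exact dvd_zero _
  · omega

/-- `y + i` and `y - i` are coprime for even `y`. -/
theorem isCoprime_add_sub_I {y : ℤ} (hy : Even y) :
    IsCoprime (⟨y, 1⟩ : GaussianInt) ⟨y, -1⟩ := by
  obtain ⟨w, rfl⟩ := hy
  refine ⟨⟨w + w, 2 * w ^ 2 - 1⟩, ⟨0, -(2 * w ^ 2)⟩, ?_⟩
  ext <;> simp <;> ring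

/-- **Lebesgue's theorem** (1850): `y² + 1` is never a perfect power for `y ≠ 0`. -/
theorem sq_add_one_ne_pow {n : ℕ} (hn : 2 ≤ n) {x y : ℤ} (hy : y ≠ 0) : y ^ 2 + 1 ≠ x ^ n := by
  intro h
  rcases Nat.even_or_odd n with ⟨k, rfl⟩ | hodd
  · have h1 : (x ^ k - y) * (x ^ k + y) = 1 := by rw [pow_add] at h; linear_combination -h
    rcases Int.mul_eq_one_iff_eq_one_or_neg_one.mp h1 with ⟨e1, e2⟩ | ⟨e1, e2⟩ <;> exact hy (by omega)
  have hx : Odd x := by
    rw [← Int.not_even_iff_odd]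
    rintro ⟨t, rfl⟩
    have h4 : (4 : ℤ) ∣ (t + t) ^ n := dvd_trans ⟨t ^ 2, by ring⟩ (pow_dvd_pow (t + t) hn)
    have h0 : ((y ^ 2 + 1 : ℤ) : ZMod 4) = 0 := (ZMod.intCast_zmod_eq_zero_iff_dvd _ 4).mpr (h ▸ h4)
    push_cast at h0
    exact (by decide : ∀ z : ZMod 4, z ^ 2 + 1 ≠ 0) _ h0
  have hye : Even y := by
    have h1 : Odd (y ^ 2 + 1) := h ▸ hx.pow
    by_contra hne
    exact Int.not_even_iff_odd.mpr h1 ((Int.not_even_iff_odd.mp hne).pow.add_odd odd_one)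
  have hprod : (⟨y, 1⟩ : GaussianInt) * ⟨y, -1⟩ = (x : GaussianInt) ^ n := by
    rw [← Int.cast_pow, ← h]
    ext <;> simp [sq]
  obtain ⟨⟨a, b⟩, u, hu⟩ := exists_associated_pow_of_mul_eq_pow' (isCoprime_add_sub_I hye) hprod
  -- the unit is an `n`-th power
  have hu4 : (u : GaussianInt) ^ 4 = 1 := by
    have hN := (Zsqrtd.norm_eq_one_iff' (by norm_num : (-1 : ℤ) ≤ 0) (u : GaussianInt)).mpr u.isUnit
    rw [Zsqrtd.norm_def] at hN
    generalize (u : GaussianInt) = v at hN ⊢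
    obtain ⟨r, i⟩ := v
    simp only at hN
    have hr : r ≤ 1 := by nlinarith [mul_self_nonneg i]
    have hr' : -1 ≤ r := by nlinarith [mul_self_nonneg i]
    have hi : i ≤ 1 := by nlinarith [mul_self_nonneg r]
    have hi' : -1 ≤ i := by nlinarith [mul_self_nonneg r]
    interval_cases r <;> interval_cases i <;> first | omega | decide
  have hn4 : n * n % 4 = 1 := by
    obtain ⟨k, rfl⟩ := hodd
    rw [show (2 * k + 1) * (2 * k + 1) = 1 + 4 * (k * k + k) by ring, Nat.add_mul_mod_self_left]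
  have hun : ((u : GaussianInt) ^ n) ^ n = u := by
    rw [← pow_mul, ← Nat.div_add_mod (n * n) 4, hn4, pow_add, pow_mul, hu4, one_pow, one_mul, pow_one]
  rw [← hun, ← mul_pow] at hu
  obtain ⟨a, b, hz⟩ : ∃ a b : ℤ, (⟨a, b⟩ : GaussianInt) ^ n = ⟨y, 1⟩ := ⟨_, _, hu⟩
  have hb : b * b = 1 := by
    have := im_dvd_pow (⟨a, b⟩ : GaussianInt) (dvd_refl b) n
    rw [hz] at this
    rcases Int.isUnit_iff.mp (isUnit_of_dvd_one this) with rfl | rfl <;> norm_num
  have hfac : (⟨a, b⟩ : GaussianInt) = ⟨0, b⟩ * ⟨1, -a * b⟩ := by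
    ext <;> simp
    linear_combination (-a) * hb
  obtain ⟨k, hk⟩ := hodd
  have hbn : (⟨0, b⟩ : GaussianInt) ^ n = ⟨0, (-1) ^ k * b⟩ := by
    have h2 : (⟨0, b⟩ : GaussianInt) ^ 2 = ((-1 : ℤ) : GaussianInt) := by
      rw [sq]; ext <;> simp [hb]
    rw [hk, pow_succ, pow_mul, h2, ← Int.cast_pow]
    generalize (-1 : ℤ) ^ k = t
    ext <;> simp
  rw [hfac, mul_pow, hbn] at hz
  have him := congrArg Zsqrtd.im hz
  simp only [Zsqrtd.im_mul, zero_mul, zero_add] at him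
  have hre : IsUnit (((⟨1, -a * b⟩ : GaussianInt) ^ n).re) :=
    isUnit_of_dvd_one ⟨_, him.symm.trans (mul_comm _ _)⟩
  -- `a` is even and nonzero
  have hnorm : (a ^ 2 + 1) ^ n = x ^ n := by
    have hN := congrArg Zsqrtd.norm hz
    rw [← hbn, ← mul_pow, ← hfac] at hN
    have hp : ∀ z : GaussianInt, (z ^ n).norm = z.norm ^ n := fun z => map_pow Zsqrtd.normMonoidHom z n
    rw [hp] at hN
    simp only [Zsqrtd.norm_def] at hN
    rw [← h, show a ^ 2 + 1 = a * a - -1 * b * b by linear_combination -hb, hN]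
    ring
  have hx' : Odd ((a ^ 2 + 1) ^ n) := hnorm ▸ hx.pow
  have hae : Even a := by
    simpa [Int.odd_pow, show n ≠ 0 by omega, parity_simps] using hx'
  have ha0 : a ≠ 0 := by
    rintro rfl
    norm_num at hnorm
    rw [← h] at hnorm
    exact hy (pow_eq_zero_iff two_ne_zero |>.mp (by linear_combination -hnorm))
  have hne := re_one_add_mul_I_pow_ne (c := -a * b) (n := n) (by simpa using hae.neg.mul_right b)
    (mul_ne_zero (neg_ne_zero.mpr ha0) (fun e => by simp [e] at hb)) hn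
  rcases Int.isUnit_iff.mp hre with e | e
  exacts [hne.1 e, hne.2 e]

end FA.Catalan
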