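import Fermat.Agent.Catalan.CyclotomicMod
import Fermat.Agent.Regular.Furtwaengler

/-!
# The Stickelberger descent of Mihăilescu

If `1 + x + ⋯ + x^(p-1) = p v^q` and `p ∣ x - 1` then the ideals of `(x - ζ^d)/(1 - ζ^d)` are `q`-th powers,
their primes have degree one, and Stickelberger's relation gives `X̄ Γ^q = X Δ^q` for
`X = ∏ (x - ζ^d)^(c_d)`, `c_d = ⌊2 d̄⁻¹/p⌋`.
-/

set_option autoImplicit false

noncomputable section

open NumberField IsDedekindDomain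
open scoped nonZeroDivisors

namespace FA.Catalan

variable (p : ℕ) [Fact p.Prime] (K : Type*) [Field K] [NumberField K] [IsCyclotomicExtension {p} ℚ K]

/-- The exponent of `σ_d`: Stickelberger's element for `b = 2`. -/
def stickTwo (d : (ZMod p)ˣ) : ℕ := 2 * ((d⁻¹ : (ZMod p)ˣ) : ZMod p).val / p

theorem stickTwo_neg (hp3 : 3 ≤ p) (d : (ZMod p)ˣ) : stickTwo p (-d) + stickTwo p d = 1 := by
  have hp : p.Prime := Fact.out
  have : NeZero p := ⟨hp.ne_zero⟩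
  rw [stickTwo, stickTwo, inv_neg, Units.val_neg, ZMod.neg_val, if_neg (d⁻¹).ne_zero]
  set v := ((d⁻¹ : (ZMod p)ˣ) : ZMod p).val
  have hv : v < p := ZMod.val_lt _
  have hv0 : v ≠ 0 := (ZMod.val_ne_zero _).mpr (Units.ne_zero _)
  have hne : 2 * v ≠ p := fun e => by
    have := hp.odd_of_ne_two (by omega)
    rw [← e] at this
    exact Nat.not_even_iff_odd.mpr this (even_two_mul v)
  rcases lt_or_gt_of_ne hne with h | h
  · rw [Nat.div_eq_of_lt h, Nat.div_eq_of_lt_le (k := 1) (by omega) (by omega)]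
  · rw [Nat.div_eq_of_lt (show 2 * (p - v) < p by omega), Nat.div_eq_of_lt_le (k := 1) (by omega) (by omega)]

/-- A prime containing `x - ζ` and not `p` has degree one. -/
theorem absNorm_prime_of_sub_mem {x : ℤ} {P : Ideal (𝓞 K)} [P.IsPrime] (hP : P ≠ ⊥)
    (hF : (x : 𝓞 K) - FA.Ext.zetaInt p K ∈ P) : (Ideal.absNorm P).Prime := by
  have hp : p.Prime := Fact.out
  have : NeZero p := ⟨hp.ne_zero⟩
  have hmax : P.IsMaximal := Ideal.IsPrime.isMaximal inferInstance hP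
  set z := FA.Ext.zetaInt p K
  let _ : Field (𝓞 K ⧸ P) := Ideal.Quotient.field P
  have : Finite (𝓞 K ⧸ P) := Ideal.finiteQuotientOfFreeOfNeBot P hP
  set l := ringChar (𝓞 K ⧸ P)
  have : CharP (𝓞 K ⧸ P) l := ringChar.charP _
  have hl : l.Prime := CharP.char_is_prime (𝓞 K ⧸ P) l
  have : Fact l.Prime := ⟨hl⟩
  set f := Ideal.Quotient.mk P with hf
  let c := ZMod.castHom (dvd_refl l) (𝓞 K ⧸ P)
  have hzc : f z = c (x : ZMod l) := by
    rw [map_intCast, ← map_intCast f, hf, Ideal.Quotient.eq]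
    simpa using P.neg_mem hF
  have hsurj : Function.Surjective c := fun t => by
    obtain ⟨t, rfl⟩ := Ideal.Quotient.mk_surjective t
    obtain ⟨g, -, rfl⟩ := (IsCyclotomicExtension.zeta_spec p ℚ K).integralPowerBasis.exists_eq_aeval t
    rw [show (IsCyclotomicExtension.zeta_spec p ℚ K).integralPowerBasis.gen = z from
      IsPrimitiveRoot.integralPowerBasis_gen _, Polynomial.aeval_def, Polynomial.hom_eval₂, ← hf, hzc]
    refine ⟨g.eval₂ (Int.castRingHom (ZMod l)) (x : ZMod l), ?_⟩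
    rw [Polynomial.hom_eval₂]
    congr 1
    exact RingHom.ext_int _ _
  rw [Ideal.absNorm_apply, Submodule.cardQuot_apply, ← Nat.card_congr (Equiv.ofBijective c ⟨c.injective, hsurj⟩),
    Nat.card_zmod]
  exact hl

/-- Stickelberger's relation for an ideal whose primes have degree one. -/
theorem prod_sigmaCl_stickTwo (hp3 : 3 ≤ p) {J : Ideal (𝓞 K)} (hJ : J ≠ ⊥)
    (hdeg : ∀ P : Ideal (𝓞 K), P.IsPrime → P ≠ ⊥ → J ≤ P → (p : 𝓞 K) ∉ P ∧ (Ideal.absNorm P).Prime) :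
    ∏ d : (ZMod p)ˣ, FA.Ext.sigmaCl p K d
      (ClassGroup.mk0 ⟨J, mem_nonZeroDivisors_iff_ne_zero.mpr hJ⟩) ^ stickTwo p d = 1 := by
  have hp : p.Prime := Fact.out
  have : NeZero p := ⟨hp.ne_zero⟩
  induction J using UniqueFactorizationMonoid.induction_on_prime with
  | h₁ => exact absurd rfl hJ
  | h₂ a ha =>
    refine Finset.prod_eq_one fun d _ => ?_
    rw [show (⟨a, mem_nonZeroDivisors_iff_ne_zero.mpr hJ⟩ : (Ideal (𝓞 K))⁰) = 1 from
      Subtype.ext (isUnit_iff_eq_one.mp ha), map_one, map_one, one_pow]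
  | h₃ a P ha hP ih =>
    have hPr : P.IsPrime := Ideal.isPrime_of_prime hP
    obtain ⟨hvp, hv⟩ := hdeg P hPr hP.ne_zero Ideal.mul_le_left
    let v : HeightOneSpectrum (𝓞 K) := ⟨P, hPr, hP.ne_zero⟩
    have hrel := FA.Ext.stickelberger_relation p K v hvp hv 2 (by omega)
    rw [show (⟨P * a, mem_nonZeroDivisors_iff_ne_zero.mpr hJ⟩ : (Ideal (𝓞 K))⁰) =
      ⟨P, mem_nonZeroDivisors_iff_ne_zero.mpr hP.ne_zero⟩ * ⟨a, mem_nonZeroDivisors_iff_ne_zero.mpr ha⟩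
      from rfl]
    simp only [map_mul, mul_pow, Finset.prod_mul_distrib,
      ih ha (fun Q hQ hQ0 hle => hdeg Q hQ hQ0 (Ideal.mul_le_right.trans hle)), mul_one]
    refine Eq.trans (Fintype.prod_equiv (Equiv.inv _) _ _ fun d => ?_) hrel
    rw [Equiv.inv_apply, FA.Ext.conjClass, inv_inv,
      FA.Ext.sigmaCl_mk0 p K d ⟨P, mem_nonZeroDivisors_iff_ne_zero.mpr hP.ne_zero⟩
        (FA.Ext.primeIdeal (FA.Ext.conjPrime (FA.Ext.sigma p K d) v)) rfl, stickTwo]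

/-- `X = ∏ (x - ζ^d)^(c_d)`. -/
def mihaX (x : ℤ) : 𝓞 K :=
  ∏ d : (ZMod p)ˣ, ((x : 𝓞 K) - FA.Ext.zetaInt p K ^ (d : ZMod p).val) ^ stickTwo p d

/-- `X̄ = ∏ (x - ζ^(-d))^(c_d)`. -/
def mihaXbar (x : ℤ) : 𝓞 K :=
  ∏ d : (ZMod p)ˣ, ((x : 𝓞 K) - FA.Ext.zetaInt p K ^ ((-d : (ZMod p)ˣ) : ZMod p).val) ^ stickTwo p d

/-- Roots of unity are `q`-th powers. -/
theorem exists_zeta_pow_eq_pow {q : ℕ} (hq : (q : ZMod p) ≠ 0) (n : ℕ) :
    ∃ k : ℕ, FA.Ext.zetaInt p K ^ n = (FA.Ext.zetaInt p K ^ k) ^ q := by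
  have : NeZero p := ⟨(Fact.out : p.Prime).ne_zero⟩
  refine ⟨n * ((q : ZMod p)⁻¹).val, ?_⟩
  rw [← pow_mul, pow_eq_pow_mod n (FA.Ext.zetaInt_spec p K).pow_eq_one,
    pow_eq_pow_mod (n * _ * q) (FA.Ext.zetaInt_spec p K).pow_eq_one]
  congr 1
  refine (ZMod.natCast_eq_natCast_iff' _ _ p).mp ?_
  push_cast
  rw [ZMod.natCast_zmod_val, mul_assoc, inv_mul_cancel₀ hq, mul_one]

/-- **The descent**: `X̄ Γ^q = X Δ^q`; modulo `q` the number `Γ` is invertible. -/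
theorem exists_miha_equation (hp3 : 3 ≤ p) {q : ℕ} (hq2 : Odd q) (hqp : (q : ZMod p) ≠ 0)
    {x v : ℤ} (hx1 : (p : ℤ) ∣ x - 1) (hqx : (q : ℤ) ∣ x)
    (hΦ : ∑ i ∈ Finset.range p, x ^ i = (p : ℤ) * v ^ q) :
    ∃ Γ Δ w : 𝓞 K, mihaXbar p K x * Γ ^ q = mihaX p K x * Δ ^ q ∧ (q : 𝓞 K) ∣ Γ ^ q * w - 1 := by
  have hp : p.Prime := Fact.out
  have : NeZero p := ⟨hp.ne_zero⟩
  have H := FA.Regular.cycloRing_ringOfIntegers (K := K) (p := p) hp3 (IsCyclotomicExtension.zeta_spec p ℚ K)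
  change FA.Regular.CycloRing (𝓞 K) p (FA.Ext.zetaInt p K) at H
  set z := FA.Ext.zetaInt p K with hz
  have hzp : z ^ p = 1 := (FA.Ext.zetaInt_spec p K).pow_eq_one
  have hzu : IsUnit z := H.prim.isUnit hp.ne_zero
  -- `G = (x - ζ)/(1 - ζ)`
  obtain ⟨m, hm⟩ := hx1
  obtain ⟨s, hs⟩ : (z - 1) ^ 2 ∣ (p : 𝓞 K) := (pow_dvd_pow _ (by omega)).trans H.lam_dvd_prime
  set G : 𝓞 K := 1 - (m : 𝓞 K) * (z - 1) * s with hG
  have hxm : (x : 𝓞 K) = 1 + (p : 𝓞 K) * m := by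
    have := congrArg (Int.cast : ℤ → 𝓞 K) hm
    push_cast at this
    linear_combination this
  have hGd : ∀ d : (ZMod p)ˣ, (1 - z ^ (d : ZMod p).val) * FA.Ext.sigma p K d G =
      (x : 𝓞 K) - z ^ (d : ZMod p).val := fun d => by
    have h1 : (1 - z) * G = (x : 𝓞 K) - z := by rw [hG, hxm, hs]; ring
    have h2 := congrArg (FA.Ext.sigma p K d) h1
    simpa only [map_mul, map_sub, map_one, map_intCast, z, FA.Ext.sigma_zetaInt] using h2
  have hprodG : ∏ d : (ZMod p)ˣ, FA.Ext.sigma p K d G = (v : 𝓞 K) ^ q := by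
    have hp0 : (p : 𝓞 K) ≠ 0 := Nat.cast_ne_zero.mpr hp.ne_zero
    refine mul_left_cancel₀ hp0 ?_
    have h1 := prod_sub_zeta_pow p K 1
    simp only [one_pow, Finset.sum_const, Finset.card_range, nsmul_one] at h1
    nth_rewrite 1 [← h1]
    rw [← Finset.prod_mul_distrib, Finset.prod_congr rfl fun d _ => hGd d, prod_sub_zeta_pow]
    exact_mod_cast congrArg (Int.cast : ℤ → 𝓞 K) hΦ
  have hv0 : v ≠ 0 := by
    rintro rfl
    rw [zero_pow hq2.pos.ne', mul_zero] at hΦ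
    have h1 : x = 1 := by
      have h := geom_sum_mul x p
      rw [hΦ, zero_mul] at h
      exact (hp.odd_of_ne_two (by omega)).strictMono_pow.injective (show x ^ p = 1 ^ p by rw [one_pow]; omega)
    subst h1
    simp [hp.ne_zero] at hΦ
  have hGne : ∀ d : (ZMod p)ˣ, FA.Ext.sigma p K d G ≠ 0 := fun d e => by
    have := Finset.prod_eq_zero (f := fun d => FA.Ext.sigma p K d G) (Finset.mem_univ d) e
    rw [hprodG] at this
    exact pow_ne_zero q (Int.cast_ne_zero.mpr hv0) this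
  -- `G ∈ P` excludes `p ∈ P`
  have hpG : ∀ (d : (ZMod p)ˣ) (P : Ideal (𝓞 K)), P.IsPrime → FA.Ext.sigma p K d G ∈ P → (p : 𝓞 K) ∉ P := by
    intro d P hP hGP hpP
    have hl : z - 1 ∈ P := by
      obtain ⟨u, hu⟩ := H.assoc
      rw [← hu] at hpP
      exact hP.mem_of_pow_mem _ ((hP.mem_or_mem hpP).resolve_right
        fun h' => hP.ne_top (Ideal.eq_top_of_isUnit_mem _ h' u.isUnit))
    obtain ⟨t, ht⟩ : z - 1 ∣ z ^ (d : ZMod p).val - 1 := by simpa using sub_dvd_pow_sub_pow z 1 (d : ZMod p).val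
    refine hP.ne_top ((Ideal.eq_top_iff_one _).mpr ?_)
    have e : FA.Ext.sigma p K d G = 1 - (z - 1) * (t * (m : 𝓞 K) * FA.Ext.sigma p K d s) := by
      rw [hG, map_sub, map_one, map_mul, map_mul, map_sub, map_one, map_intCast, FA.Ext.sigma_zetaInt, ← hz, ht]
      ring
    have := P.add_mem hGP (P.mul_mem_right (t * (m : 𝓞 K) * FA.Ext.sigma p K d s) hl)
    rwa [e, sub_add_cancel] at this
  -- `(G) = I^q`
  classical
  obtain ⟨I, hI⟩ : ∃ I : Ideal (𝓞 K), Ideal.span {G} = I ^ q := by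
    have hideal := congrArg (fun t : 𝓞 K => Ideal.span {t}) hprodG
    simp only [← Ideal.prod_span_singleton, ← Ideal.span_singleton_pow] at hideal
    refine (Finset.exists_eq_pow_of_mul_eq_pow_of_coprime (fun a _ b _ hab => ?_) hideal 1
      (Finset.mem_univ _)).imp fun I hI => by rwa [FA.Ext.sigma_one_apply] at hI
    rw [Ideal.isCoprime_iff_sup_eq]
    by_contra hne'
    obtain ⟨M, hM, hle⟩ := Ideal.exists_le_maximal _ hne'
    have hA : FA.Ext.sigma p K a G ∈ M := hle (Ideal.mem_sup_left (Ideal.mem_span_singleton_self _))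
    have hB : FA.Ext.sigma p K b G ∈ M := hle (Ideal.mem_sup_right (Ideal.mem_span_singleton_self _))
    have hdiff : z ^ (a : ZMod p).val - z ^ (b : ZMod p).val ∈ M := by
      have h1 := M.sub_mem (M.mul_mem_left (1 - z ^ (b : ZMod p).val) hB)
        (M.mul_mem_left (1 - z ^ (a : ZMod p).val) hA)
      rw [hGd, hGd] at h1
      simpa using h1
    exact hab (Units.ext (ZMod.val_injective p (FA.Ext.pow_eq_of_sub_mem H.prim (hpG a M hM.isPrime hA)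
      (ZMod.val_lt _) (ZMod.val_lt _) hdiff)))
  have hG1 : G ≠ 0 := by simpa [FA.Ext.sigma_one_apply] using hGne 1
  have hI0 : I ≠ ⊥ := fun e => by
    rw [e] at hI
    exact hG1 (Ideal.span_singleton_eq_bot.mp (hI.trans (zero_pow hq2.pos.ne')))
  have hGI : G ∈ I := Ideal.pow_le_self hq2.pos.ne' (hI ▸ Ideal.mem_span_singleton_self G)
  have hdeg : ∀ P : Ideal (𝓞 K), P.IsPrime → P ≠ ⊥ → I ≤ P → (p : 𝓞 K) ∉ P ∧ (Ideal.absNorm P).Prime := by
    intro P hP hP0 hle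
    refine ⟨hpG 1 P hP (by rw [FA.Ext.sigma_one_apply]; exact hle hGI), absNorm_prime_of_sub_mem p K (x := x) hP0 ?_⟩
    rw [show (x : 𝓞 K) - FA.Ext.zetaInt p K = (1 - z) * G by rw [hG, hxm, hs, ← hz]; ring]
    exact P.mul_mem_left _ (hle hGI)
  -- `∏ σ_d(I)^(c_d)` is principal
  let σI : (ZMod p)ˣ → (Ideal (𝓞 K))⁰ := fun d => ⟨I.map (FA.Ext.sigma p K d : 𝓞 K →+* 𝓞 K),
    mem_nonZeroDivisors_iff_ne_zero.mpr fun e => hI0 ((Ideal.map_eq_bot_iff_of_injective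
      (FA.Ext.sigma p K d).injective).mp e)⟩
  set Jd : (Ideal (𝓞 K))⁰ := ∏ d, σI d ^ stickTwo p d with hJd
  have hcl : ClassGroup.mk0 Jd = 1 := by
    rw [hJd, map_prod, ← prod_sigmaCl_stickTwo p K hp3 hI0 hdeg]
    exact Finset.prod_congr rfl fun d _ => by
      rw [map_pow, ← FA.Ext.sigmaCl_mk0 p K d ⟨I, mem_nonZeroDivisors_iff_ne_zero.mpr hI0⟩ (σI d) rfl]
  obtain ⟨γ, hγ⟩ := (ClassGroup.mk0_eq_one_iff Jd.2).mp hcl
  rw [Ideal.submodule_span_eq] at hγ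
  set A : 𝓞 K := ∏ d : (ZMod p)ˣ, FA.Ext.sigma p K d G ^ stickTwo p d with hA
  have hspan : Ideal.span {A} = Ideal.span {γ ^ q} := by
    rw [← Ideal.span_singleton_pow, ← hγ, hA, ← Ideal.prod_span_singleton, hJd,
      Submonoid.coe_finsetProd, ← Finset.prod_pow]
    refine Finset.prod_congr rfl fun d _ => ?_
    rw [← Ideal.span_singleton_pow, SubmonoidClass.coe_pow, ← pow_mul, mul_comm, pow_mul]
    congr 1
    show _ = (I.map (FA.Ext.sigma p K d : 𝓞 K →+* 𝓞 K)) ^ q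
    rw [← Ideal.map_pow, ← hI, Ideal.map_span, Set.image_singleton]
    rfl
  obtain ⟨u, hu⟩ := Ideal.span_singleton_eq_span_singleton.mp hspan
  obtain ⟨r, j, -, hu'⟩ := FA.Regular.exists_conj_unit_eq (K := K) (p := p) (by omega) u
  -- complex conjugation
  set cj := FA.Ext.sigma p K (-1)
  change cj (u : 𝓞 K) = (-1) ^ r * z ^ j * (u : 𝓞 K) at hu'
  obtain ⟨j', hj'⟩ := exists_zeta_pow_eq_pow p K hqp j
  set ε₀ : 𝓞 K := (-1) ^ r * z ^ j' with hε₀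
  have hε : cj (u : 𝓞 K) = ε₀ ^ q * u := by
    rw [hu', hε₀, mul_pow, ← pow_mul, mul_comm r q, pow_mul, hq2.neg_one_pow, hz, hj']
  have hkey : cj A * (ε₀ * γ) ^ q = A * cj γ ^ q := by
    have h := congrArg cj hu
    rw [map_mul, map_pow, hε] at h
    rw [mul_pow, ← hu]
    linear_combination A * h
  set P : 𝓞 K := ∏ d : (ZMod p)ˣ, (1 - z ^ (d : ZMod p).val) ^ stickTwo p d with hP
  have hX : mihaX p K x = P * A := by
    rw [mihaX, hP, hA, ← Finset.prod_mul_distrib]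
    exact Finset.prod_congr rfl fun d _ => by rw [← mul_pow, hGd]
  choose kd hkd using fun d : (ZMod p)ˣ => exists_zeta_pow_eq_pow p K hqp ((-d : (ZMod p)ˣ) : ZMod p).val
  set η : 𝓞 K := ∏ d : (ZMod p)ˣ, (-(z ^ kd d)) ^ stickTwo p d with hη
  have hXbar : mihaXbar p K x = η ^ q * P * cj A := by
    rw [mihaXbar, hη, hP, hA, map_prod, ← Finset.prod_pow, ← Finset.prod_mul_distrib, ← Finset.prod_mul_distrib]
    refine Finset.prod_congr rfl fun d _ => ?_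
    rw [map_pow, ← FA.Ext.sigma_mul_apply, neg_one_mul, ← pow_mul, mul_comm (stickTwo p d) q, pow_mul,
      hq2.neg_pow, ← hkd, ← mul_pow, ← mul_pow, ← hGd]
    congr 2
    rw [← hz, Units.val_neg, ZMod.neg_val, if_neg d.ne_zero, mul_sub, neg_mul, neg_mul, mul_one, sub_neg_eq_add,
      ← pow_add, Nat.sub_add_cancel (ZMod.val_lt _).le, hzp]
    ring
  -- invertibility modulo `q`
  obtain ⟨x', hx'⟩ := hqx
  have hXu : (q : 𝓞 K) ∣ mihaX p K x - ∏ d : (ZMod p)ˣ, (-(z ^ (d : ZMod p).val)) ^ stickTwo p d := by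
    rw [← Ideal.mem_span_singleton, ← Ideal.Quotient.eq, mihaX, map_prod, map_prod]
    refine Finset.prod_congr rfl fun d _ => ?_
    rw [map_pow, map_pow, map_sub, map_neg, hx', Int.cast_mul, Int.cast_natCast, map_mul,
      Ideal.Quotient.eq_zero_iff_mem.mpr (Ideal.mem_span_singleton_self _), zero_mul, zero_sub]
  obtain ⟨U, hU⟩ : IsUnit (∏ d : (ZMod p)ˣ, (-(z ^ (d : ZMod p).val)) ^ stickTwo p d) := by
    rw [IsUnit.prod_univ_iff]
    exact fun d => ((hzu.pow _).neg).pow _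
  have hεu : IsUnit (ε₀ ^ q) := ((isUnit_one.neg.pow r).mul (hzu.pow j')).pow q
  obtain ⟨E, hE⟩ := hεu
  refine ⟨ε₀ * γ, η * cj γ, ((E⁻¹ * u⁻¹ * U⁻¹ : (𝓞 K)ˣ) : 𝓞 K) * P, ?_, ?_⟩
  · rw [hXbar, hX, mul_pow η, mul_assoc (η ^ q * P), hkey]
    ring
  · rw [← hU] at hXu
    have he : (ε₀ * γ) ^ q * (((E⁻¹ * u⁻¹ * U⁻¹ : (𝓞 K)ˣ) : 𝓞 K) * P) = mihaX p K x * ((U⁻¹ : (𝓞 K)ˣ) : 𝓞 K) := by
      rw [hX, mul_pow, ← hu, ← hE]
      simp only [Units.val_mul]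
      linear_combination (P * A * ((U⁻¹ : (𝓞 K)ˣ) : 𝓞 K)) *
        (((u : 𝓞 K) * ((u⁻¹ : (𝓞 K)ˣ) : 𝓞 K)) * E.mul_inv + u.mul_inv)
    rw [he, show mihaX p K x * ((U⁻¹ : (𝓞 K)ˣ) : 𝓞 K) - 1 = (mihaX p K x - U) * ((U⁻¹ : (𝓞 K)ˣ) : 𝓞 K) by
      rw [sub_mul, U.mul_inv]]
    exact hXu.mul_right _

end FA.Catalan
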