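import Fermat.Agent.Catalan.MihailescuDescent
import Fermat.Agent.Catalan.CasselsMain

/-!
# Mihăilescu's double Wieferich theorem

Modulo `q²` the equation of the descent gives `x ∑ (c_(-d) - c_d) ζ^d ≡ 0`; the coefficients are `± 1`, so
`q² ∣ x`, and `x - 1 = p^(q-1) a^q` gives `p^(q-1) ≡ 1 (mod q²)`.
-/

set_option autoImplicit false

noncomputable section

open NumberField Polynomial

namespace FA.Catalan

/-- Products of first order expansions. -/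
theorem prod_one_sub_mul_pow {R ι : Type*} [CommRing R] {e : R} (he : e * e = 0) (a : ι → R) (c : ι → ℕ)
    (S : Finset ι) : ∏ i ∈ S, (1 - e * a i) ^ c i = 1 - e * ∑ i ∈ S, (c i : R) * a i := by
  classical
  have h1 : ∀ (u : R) (n : ℕ), (1 - e * u) ^ n = 1 - e * ((n : R) * u) := by
    intro u n
    induction n with
    | zero => simp
    | succ n ih => rw [pow_succ, ih, Nat.cast_succ]; linear_combination ((n : R) * u * u) * he
  induction S using Finset.induction with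
  | empty => simp
  | insert i S hi ih =>
    rw [Finset.prod_insert hi, Finset.sum_insert hi, ih, h1]
    linear_combination ((c i : R) * a i * ∑ j ∈ S, (c j : R) * a j) * he

section

variable (p : ℕ) [Fact p.Prime] (K : Type*) [Field K] [NumberField K] [IsCyclotomicExtension {p} ℚ K]

/-- `X ≡ η^q (1 - x S) (mod q²)` for `q ∣ x`, where `ζ^(e d)` runs over the roots of `X`. -/
theorem exists_expansion {q : ℕ} (hq2 : Odd q) (hqp : (q : ZMod p) ≠ 0) {x : ℤ} (hqx : (q : ℤ) ∣ x)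
    (e : (ZMod p)ˣ → (ZMod p)ˣ) :
    ∃ η : 𝓞 K, IsUnit η ∧ (q : 𝓞 K) ^ 2 ∣
      (∏ d : (ZMod p)ˣ, ((x : 𝓞 K) - FA.Ext.zetaInt p K ^ (e d : ZMod p).val) ^ stickTwo p d) -
        η ^ q * (1 - (x : 𝓞 K) * ∑ d : (ZMod p)ˣ,
          (stickTwo p d : 𝓞 K) * FA.Ext.zetaInt p K ^ ((-(e d) : (ZMod p)ˣ) : ZMod p).val) := by
  have hp : p.Prime := Fact.out
  have : NeZero p := ⟨hp.ne_zero⟩
  set z := FA.Ext.zetaInt p K with hz
  have hzu : IsUnit z := (FA.Ext.zetaInt_spec p K).isUnit hp.ne_zero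
  choose k hk using fun d : (ZMod p)ˣ => exists_zeta_pow_eq_pow p K hqp (e d : ZMod p).val
  refine ⟨∏ d : (ZMod p)ˣ, (-(z ^ k d)) ^ stickTwo p d, ?_, ?_⟩
  · rw [IsUnit.prod_univ_iff]
    exact fun d => ((hzu.pow _).neg).pow _
  rw [← Ideal.mem_span_singleton, ← Ideal.Quotient.eq]
  set f := Ideal.Quotient.mk (Ideal.span {(q : 𝓞 K) ^ 2})
  have hx2 : f (x : 𝓞 K) * f (x : 𝓞 K) = 0 := by
    obtain ⟨x', rfl⟩ := hqx
    rw [← map_mul, Ideal.Quotient.eq_zero_iff_mem, Ideal.mem_span_singleton]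
    exact ⟨(x' : 𝓞 K) * (x' : 𝓞 K), by push_cast; ring⟩
  rw [map_prod, map_mul, map_sub, map_one, map_mul, map_sum, map_pow, map_prod, ← Finset.prod_pow,
    show ∑ d : (ZMod p)ˣ, f ((stickTwo p d : 𝓞 K) * z ^ ((-(e d) : (ZMod p)ˣ) : ZMod p).val) =
      ∑ d : (ZMod p)ˣ, (stickTwo p d : _) * f (z ^ ((-(e d) : (ZMod p)ˣ) : ZMod p).val) from
      Finset.sum_congr rfl fun d _ => by rw [map_mul, map_natCast],
    ← prod_one_sub_mul_pow hx2, ← Finset.prod_mul_distrib]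
  refine Finset.prod_congr rfl fun d _ => ?_
  have key : (x : 𝓞 K) - z ^ (e d : ZMod p).val =
      (-(z ^ k d)) ^ q * (1 - (x : 𝓞 K) * z ^ ((-(e d) : (ZMod p)ˣ) : ZMod p).val) := by
    rw [hq2.neg_pow, ← hk, ← hz, Units.val_neg, ZMod.neg_val, if_neg (e d).ne_zero, mul_sub, mul_one,
      neg_mul, sub_neg_eq_add, mul_left_comm, ← pow_add, Nat.add_sub_cancel' (ZMod.val_lt _).le,
      (FA.Ext.zetaInt_spec p K).pow_eq_one, mul_one]
    ring
  rw [key, map_pow, map_mul, map_sub, map_one, map_mul, mul_pow, map_pow, map_pow, map_pow, ← pow_mul, ← pow_mul,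
    mul_comm (stickTwo p d) q]

include K in
/-- The two first order terms differ. -/
theorem sq_dvd_of_cyclotomic_sum (hp3 : 3 ≤ p) {q : ℕ} [Fact q.Prime] (hq2 : Odd q) (hqp : (q : ZMod p) ≠ 0)
    {x v : ℤ} (hx1 : (p : ℤ) ∣ x - 1) (hqx : (q : ℤ) ∣ x)
    (hΦ : ∑ i ∈ Finset.range p, x ^ i = (p : ℤ) * v ^ q) : (q : ℤ) ^ 2 ∣ x := by
  have hp : p.Prime := Fact.out
  have hq : q.Prime := Fact.out
  have : NeZero p := ⟨hp.ne_zero⟩
  obtain ⟨Γ, Δ, w, heq, hw⟩ := exists_miha_equation p K hp3 hq2 hqp hx1 hqx hΦ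
  obtain ⟨η₁, hη₁, h₁⟩ := exists_expansion p K hq2 hqp hqx id
  obtain ⟨η₂, hη₂, h₂⟩ := exists_expansion p K hq2 hqp hqx (fun d => -d)
  set z := FA.Ext.zetaInt p K with hz
  simp only [id_eq] at h₁
  simp only [neg_neg] at h₂
  set S₁ := ∑ d : (ZMod p)ˣ, (stickTwo p d : 𝓞 K) * z ^ ((-d : (ZMod p)ˣ) : ZMod p).val with hS₁
  set S₂ := ∑ d : (ZMod p)ˣ, (stickTwo p d : 𝓞 K) * z ^ (d : ZMod p).val with hS₂
  have hmain : (q : 𝓞 K) ^ 2 ∣ (η₂ * Γ) ^ q * (1 - (x : 𝓞 K) * S₂) - (η₁ * Δ) ^ q * (1 - (x : 𝓞 K) * S₁) := by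
    have := (h₁.mul_left (Δ ^ q)).sub (h₂.mul_left (Γ ^ q))
    convert this using 1
    rw [mihaX, mihaXbar, ← hz] at heq
    linear_combination heq
  obtain ⟨x', rfl⟩ := hqx
  push_cast at hmain
  have hq1 : (q : 𝓞 K) ∣ (η₂ * Γ) ^ q - (η₁ * Δ) ^ q := by
    have h := (dvd_pow_self (q : 𝓞 K) two_ne_zero).trans hmain
    have h' := h.add ((dvd_mul_right (q : 𝓞 K)
      ((x' : 𝓞 K) * ((η₂ * Γ) ^ q * S₂ - (η₁ * Δ) ^ q * S₁))))
    convert h' using 1
    ring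
  have hq2' := sq_dvd_pow_sub_pow p K hqp hq1
  have h5 : (q : 𝓞 K) ^ 2 ∣ (q : 𝓞 K) * ((x' : 𝓞 K) * (η₂ * Γ) ^ q * (S₁ - S₂)) := by
    have := hmain.sub (hq2'.mul_right (1 - (q : 𝓞 K) * (x' : 𝓞 K) * S₁))
    convert this using 1
    ring
  rw [sq] at h5
  have h6 : (q : 𝓞 K) ∣ (x' : 𝓞 K) * (η₂ * Γ) ^ q * (S₁ - S₂) :=
    (mul_dvd_mul_iff_left (Nat.cast_ne_zero.mpr hq.ne_zero)).mp h5
  by_contra hsq
  have hx' : ¬ (q : ℤ) ∣ x' := fun e => hsq (by rw [sq]; exact mul_dvd_mul_left _ e)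
  -- `q ∣ S₁ - S₂`
  obtain ⟨N, hN⟩ : IsUnit (η₂ ^ q) := hη₂.pow q
  obtain ⟨g, g', hg⟩ := (Nat.prime_iff_prime_int.mp hq).coprime_iff_not_dvd.mpr hx'
  have hg' : (g : 𝓞 K) * (q : 𝓞 K) + (g' : 𝓞 K) * (x' : 𝓞 K) = 1 := by exact_mod_cast hg
  have h7 : (q : 𝓞 K) ∣ S₁ - S₂ := by
    have h8 : (q : 𝓞 K) ∣ (x' : 𝓞 K) * (S₁ - S₂) := by
      have := (h6.mul_right (((N⁻¹ : (𝓞 K)ˣ) : 𝓞 K) * w)).sub (hw.mul_right ((x' : 𝓞 K) * (S₁ - S₂)))
      convert this using 1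
      rw [mul_pow, ← hN]
      linear_combination (-(Γ ^ q * w * ((x' : 𝓞 K) * (S₁ - S₂)))) * N.mul_inv
    have := (h8.mul_left (g' : 𝓞 K)).add (dvd_mul_of_dvd_left (dvd_mul_left (q : 𝓞 K) (g : 𝓞 K)) (S₁ - S₂))
    convert this using 1
    linear_combination -(S₁ - S₂) * hg'
  -- coordinates
  classical
  set P : ℤ[X] := ∑ d : (ZMod p)ˣ,
    C (((stickTwo p (-d) : ℕ) : ℤ) - (stickTwo p d : ℤ)) * X ^ ((d : ZMod p).val - 1) with hP
  have hval : ∀ d : (ZMod p)ˣ, 1 ≤ (d : ZMod p).val ∧ (d : ZMod p).val < p := fun d =>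
    ⟨Nat.one_le_iff_ne_zero.mpr ((ZMod.val_ne_zero _).mpr d.ne_zero), ZMod.val_lt _⟩
  have hS : S₁ - S₂ = z * aeval z P := by
    rw [hP, map_sum, Finset.mul_sum, hS₁, hS₂,
      Fintype.sum_equiv (Equiv.neg _) (fun d : (ZMod p)ˣ => (stickTwo p d : 𝓞 K) * z ^ ((-d : (ZMod p)ˣ) : ZMod p).val)
        (fun d => (stickTwo p (-d) : 𝓞 K) * z ^ (d : ZMod p).val) (fun d => by simp), ← Finset.sum_sub_distrib]
    refine Finset.sum_congr rfl fun d _ => ?_
    rw [map_mul, aeval_C, map_pow, aeval_X, algebraMap_int_eq, eq_intCast, mul_left_comm, ← pow_succ',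
      Nat.sub_add_cancel (hval d).1]
    push_cast
    ring
  have h9 : (q : 𝓞 K) ∣ aeval z P := by
    rw [hS] at h7
    exact ((FA.Ext.zetaInt_spec p K).isUnit hp.ne_zero).dvd_mul_left.mp h7
  have hdeg : P.natDegree < p - 1 := by
    refine lt_of_le_of_lt (natDegree_sum_le_of_forall_le (n := p - 2) _ _ fun d _ => ?_) (by omega)
    refine (natDegree_C_mul_X_pow_le _ _).trans ?_
    have := hval d
    omega
  have h10 := dvd_coeff_of_dvd_aeval p K hdeg h9 (((1 : (ZMod p)ˣ) : ZMod p).val - 1)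
  rw [hP, finsetSum_coeff, Finset.sum_eq_single (1 : (ZMod p)ˣ)] at h10
  · rw [coeff_C_mul_X_pow, if_pos rfl] at h10
    have h11 := stickTwo_neg p hp3 1
    have h12 : (q : ℤ) ∣ 1 := by
      rcases (show stickTwo p (-1) = 1 ∧ stickTwo p 1 = 0 ∨ stickTwo p (-1) = 0 ∧ stickTwo p 1 = 1 by omega) with
        ⟨e1, e2⟩ | ⟨e1, e2⟩ <;> rw [e1, e2] at h10
      · simpa using h10
      · simpa using h10
    have := Int.natCast_dvd_natCast.mp (show ((q : ℕ) : ℤ) ∣ ((1 : ℕ) : ℤ) by simpa using h12)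
    exact hq.ne_one (Nat.dvd_one.mp this)
  · intro d _ hd
    rw [coeff_C_mul_X_pow, if_neg]
    intro e
    have h1 := hval d
    have h2 := hval 1
    exact hd (Units.ext (ZMod.val_injective p (by omega)))
  · exact fun h => absurd (Finset.mem_univ _) h

end

set_option backward.isDefEq.respectTransparency false in
/-- **Mihăilescu's theorem**, one side: `q² ∣ x` and `p^(q-1) ≡ 1 (mod q²)`. -/
theorem mihailescu_side {p q : ℕ} (hp : p.Prime) (hq : q.Prime) (hp2 : Odd p) (hq2 : Odd q) {x y : ℤ}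
    (hx : x ≠ 0) (hy : y ≠ 0) (h : x ^ p - y ^ q = 1) :
    (q : ℤ) ^ 2 ∣ x ∧ (p : ZMod (q ^ 2)) ^ (q - 1) = 1 := by
  have := Fact.mk hp
  have := Fact.mk hq
  have hp3 : 3 ≤ p := by have := hp.two_le; rw [Nat.odd_iff] at hp2; omega
  have hne : p ≠ q := fun e => ne_of_pow_sub_pow_eq_one hp.two_le hp2 hx hy (e ▸ h)
  have hqp : (q : ZMod p) ≠ 0 := fun e => hne ((Nat.prime_dvd_prime_iff_eq hp hq).mp ((ZMod.natCast_eq_zero_iff _ _).mp e))
  have hpy := cassels_dvd hp hq hp2 hq2 hx hy h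
  have hqx : (q : ℤ) ∣ x :=
    dvd_neg.mp (cassels_dvd hq hp hq2 hp2 (neg_ne_zero.mpr hy) (neg_ne_zero.mpr hx) (catalan_symm hp2 hq2 h))
  obtain ⟨a, v, -, ha, hyv, -⟩ := exists_pow_of_dvd hp hp2 hq2 h hpy
  have hq1 : 1 ≤ q := hq.one_le
  have hΦ : ∑ i ∈ Finset.range p, x ^ i = (p : ℤ) * v ^ q := by
    have hx1 : x - 1 ≠ 0 := fun e => by
      obtain rfl : x = 1 := by linear_combination e
      rw [one_pow] at h
      exact hy ((pow_eq_zero_iff hq.ne_zero).mp (by linear_combination -h))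
    refine mul_right_cancel₀ hx1 ?_
    rw [geom_sum_mul, show x ^ p - 1 = y ^ q by linear_combination h, hyv, ha, mul_pow, mul_pow,
      ← Nat.sub_add_cancel hq1, pow_succ (p : ℤ), Nat.add_sub_cancel]
    ring
  have hsq : (q : ℤ) ^ 2 ∣ x := by
    let L := CyclotomicField p ℚ
    have : IsCyclotomicExtension {p} ℚ L :=
      inferInstanceAs (IsCyclotomicExtension {p} ℚ (CyclotomicField p ℚ))
    have : NumberField L := IsCyclotomicExtension.numberField {p} ℚ L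
    refine sq_dvd_of_cyclotomic_sum p L hp3 hq2 hqp ?_ hqx hΦ
    rw [ha]
    exact (dvd_pow_self (p : ℤ) (by have := hq.two_le; omega)).mul_right _
  refine ⟨hsq, ?_⟩
  -- `p^(q-1) a^q ≡ -1` modulo `q²`
  have hA : ((p : ZMod (q ^ 2))) ^ (q - 1) * (a : ZMod (q ^ 2)) ^ q = -1 := by
    have h0 : (x : ZMod (q ^ 2)) = 0 := (ZMod.intCast_zmod_eq_zero_iff_dvd _ _).mpr (by exact_mod_cast hsq)
    have := congrArg (Int.cast : ℤ → ZMod (q ^ 2)) ha
    push_cast at this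
    rw [h0, zero_sub] at this
    exact this.symm
  have hmod : (a : ZMod q) = -1 := by
    have h0 : (x : ZMod q) = 0 := (ZMod.intCast_zmod_eq_zero_iff_dvd _ _).mpr hqx
    have := congrArg (Int.cast : ℤ → ZMod q) ha
    push_cast at this
    rw [h0, zero_sub, ZMod.pow_card, ZMod.pow_card_sub_one_eq_one, one_mul] at this
    · exact this.symm
    · exact fun e => hne ((Nat.prime_dvd_prime_iff_eq hq hp).mp ((ZMod.natCast_eq_zero_iff _ _).mp e)).symm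
  obtain ⟨t, ht⟩ : (q : ℤ) ∣ a + 1 := by
    rw [← ZMod.intCast_zmod_eq_zero_iff_dvd]
    push_cast
    rw [hmod, neg_add_cancel]
  have haq : (a : ZMod (q ^ 2)) ^ q = -1 := by
    obtain ⟨r, hr⟩ := exists_add_pow_prime_eq hq (-1 : ℤ) ((q : ℤ) * t)
    have e : a ^ q = -1 + (q : ℤ) ^ 2 * ((q : ℤ) ^ (q - 2) * t ^ q - t * r) := by
      rw [show a = -1 + (q : ℤ) * t by linear_combination ht, hr, hq2.neg_one_pow, mul_pow,
        show (q : ℤ) ^ q = (q : ℤ) ^ 2 * (q : ℤ) ^ (q - 2) by rw [← pow_add, Nat.add_sub_cancel' hq.two_le]]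
      ring
    have := congrArg (Int.cast : ℤ → ZMod (q ^ 2)) e
    push_cast at this
    rw [this, show ((q : ZMod (q ^ 2))) ^ 2 = 0 by rw [← Nat.cast_pow, ZMod.natCast_self], zero_mul, add_zero]
  rw [haq] at hA
  linear_combination -hA

end FA.Catalan
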