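import Fermat.Agent.Catalan.MinusEmbedding
import Fermat.Agent.Catalan.MihailescuMain
import Fermat.Agent.Root.SummaryCassels
import Mathlib.FieldTheory.PrimitiveElement

/-!
# Mihăilescu's bound `q ≤ 4 p²`

For `q > 4 p²` there are more than `q` small combinations of the translates of the odd Stickelberger
element, so two of the `q`-th roots are close at one embedding; their quotient contradicts the bound for
`N(α - 1)`.
-/

set_option autoImplicit false

noncomputable section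

open NumberField
open scoped BigOperators ComplexConjugate

namespace FA.Catalan

variable {p : ℕ} [Fact p.Prime] {K : Type*} [Field K] [NumberField K] [IsCyclotomicExtension {p} ℚ K]

/-- The estimate for one close pair. -/
theorem close_pair_bound {N s q : ℕ} (hN : 2 ≤ N) (hp : p = 2 * N + 1) (hq : 0 < q)
    (hs : 8 * N ^ 2 * s ≤ 3 * q) {x : ℤ} (hx : 4 ≤ |(x : ℝ)|) {Θ : (ZMod p)ˣ → ℤ}
    (hodd : ∀ d, Θ (-d) = -Θ d) (hΘ : ∀ d, |Θ d| ≤ 2 * s) {α : K} (hα : α ^ q = ratPow p K x Θ)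
    (h1 : α ≠ 1) (σ : K →ₐ[ℚ] ℂ) (hexp : σ α = Complex.exp (logSum p σ x Θ / q)) :
    |(x : ℝ)| ≤ 2048 * 16 ^ N := by
  classical
  have hpP : p.Prime := Fact.out
  have : NeZero p := ⟨hpP.ne_zero⟩
  have hp2 : p ≠ 2 := by omega
  have hx1 : x ≠ 1 := fun e => by rw [e, Int.cast_one, abs_one] at hx; norm_num at hx
  set X : ℝ := |(x : ℝ)| with hXdef
  have hX0 : 0 < X := by linarith
  set B : 𝓞 K := ∏ d, linFactor p K x d ^ (-Θ d).toNat with hBdef
  have hB : B ≠ 0 := Finset.prod_ne_zero_iff.mpr fun d _ => pow_ne_zero _ (linFactor_ne_zero p K hp2 hx1 d)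
  have key : 1 ≤ |Algebra.norm ℚ (α - 1)| ^ q * |Algebra.norm ℚ (B : K)| :=
    one_le_norm_sub_one_pow_mul hB h1 (by rw [hα]; exact ratPow_mul_eq p K hp2 hx1 Θ)
  have hnorm : ∀ t : K, ((|Algebra.norm ℚ t| : ℚ) : ℝ) = ∏ τ : K →ₐ[ℚ] ℂ, ‖τ t‖ := fun t => by
    rw [← norm_prod, ← Algebra.norm_eq_prod_embeddings, eq_ratCast, Complex.norm_ratCast, Rat.cast_abs]
  have key' : (1 : ℝ) ≤ (∏ τ : K →ₐ[ℚ] ℂ, ‖τ (α - 1)‖) ^ q * ∏ τ : K →ₐ[ℚ] ℂ, ‖τ (B : K)‖ := by
    rw [← hnorm, ← hnorm]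
    exact_mod_cast key
  have hcard : Fintype.card (K →ₐ[ℚ] ℂ) = 2 * N := by
    rw [AlgHom.card, IsCyclotomicExtension.Rat.finrank (k := p), Nat.totient_prime hpP]
    omega
  -- near `1` at `σ`
  have hXinv : X⁻¹ ≤ 1 / 4 := by rw [one_div]; exact inv_anti₀ (by norm_num) hx
  have hnear : ‖σ (α - 1)‖ ≤ 4 * X⁻¹ := by
    have hL := norm_logSum_le (p := p) (x := x) (by linarith) σ (Θ := Θ) (s := 2 * (s : ℝ))
      fun d => by exact_mod_cast hΘ d
    rw [show ((p - 1 : ℕ) : ℝ) = 2 * (N : ℝ) by rw [hp, Nat.add_sub_cancel]; push_cast; ring] at hL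
    have hqR : (0 : ℝ) < q := Nat.cast_pos.mpr hq
    have hsR : 8 * (N : ℝ) ^ 2 * s ≤ 3 * q := by exact_mod_cast hs
    have hNR : (2 : ℝ) ≤ N := by exact_mod_cast hN
    have hb : ‖logSum p σ x Θ / q‖ ≤ 2 * X⁻¹ := by
      rw [norm_div, Complex.norm_natCast, div_le_iff₀ hqR]
      refine hL.trans ?_
      have h6 : 6 * (N : ℝ) * s ≤ 2 * q := by
        nlinarith [mul_le_mul_of_nonneg_right hNR (show (0 : ℝ) ≤ 6 * (N : ℝ) * s by positivity)]
      calc 2 * (N : ℝ) * (2 * s * (3 / 2 * X⁻¹)) = 6 * N * s * X⁻¹ := by ring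
        _ ≤ 2 * q * X⁻¹ := mul_le_mul_of_nonneg_right h6 (inv_nonneg.mpr hX0.le)
        _ = 2 * X⁻¹ * q := by ring
    rw [map_sub, map_one, hexp]
    refine (Complex.norm_exp_sub_one_le (by linarith)).trans (by linarith)
  -- the conjugate embedding
  set σ' : K →ₐ[ℚ] ℂ := (Complex.conjAe.toAlgHom.restrictScalars ℚ).comp σ with hσ'def
  have hσ' : ∀ t : K, σ' t = conj (σ t) := fun t => rfl
  have hne : σ ≠ σ' := fun e => by
    have h := DFunLike.congr_fun e ((FA.Ext.zetaInt p K : 𝓞 K) : K)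
    rw [hσ'] at h
    set w := σ ((FA.Ext.zetaInt p K : 𝓞 K) : K) with hw
    have hprim : IsPrimitiveRoot w p :=
      ((FA.Ext.zetaInt_spec p K).map_of_injective RingOfIntegers.coe_injective).map_of_injective
        σ.toRingHom.injective
    have h2 : w ^ 2 = 1 := by
      rw [sq]
      nth_rewrite 2 [h]
      rw [Complex.mul_conj, Complex.normSq_eq_norm_sq,
        Complex.norm_eq_one_of_pow_eq_one hprim.pow_eq_one hpP.ne_zero]
      norm_num
    have := Nat.le_of_dvd two_pos ((hprim.pow_eq_one_iff_dvd 2).mp h2)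
    omega
  have hnear' : ‖σ' (α - 1)‖ ≤ 4 * X⁻¹ := by rw [hσ', Complex.norm_conj]; exact hnear
  have hprod : ∏ τ : K →ₐ[ℚ] ℂ, ‖τ (α - 1)‖ ≤ (4 * X⁻¹) ^ 2 * 4 ^ N := by
    rw [← Finset.prod_sdiff (Finset.subset_univ ({σ, σ'} : Finset (K →ₐ[ℚ] ℂ))), mul_comm, Finset.prod_pair hne]
    refine mul_le_mul ?_ ?_ (Finset.prod_nonneg fun _ _ => norm_nonneg _) (by positivity)
    · rw [sq]; exact mul_le_mul hnear hnear' (norm_nonneg _) (by positivity)
    · refine (Finset.prod_le_prod (fun _ _ => norm_nonneg _) fun τ _ => (?_ : ‖τ (α - 1)‖ ≤ 2)).trans ?_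
      · rw [map_sub, map_one]
        refine (norm_sub_le _ _).trans ?_
        rw [norm_root_eq_one hq.ne' hp2 hx1 hodd hα τ, norm_one]
        norm_num
      · rw [Finset.prod_const, show (4 : ℝ) = 2 ^ 2 by norm_num, ← pow_mul, ← hcard]
        refine pow_le_pow_right₀ one_le_two ?_
        rw [← Finset.card_univ]
        exact Finset.card_le_univ _
  -- the denominator
  have hneg : ∑ d, (-Θ d).toNat ≤ 2 * N * s := by
    have h2 : 2 * ∑ d, (-Θ d).toNat = ∑ d, (Θ d).natAbs := by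
      have e : ∑ d, (-Θ d).toNat = ∑ d, (Θ d).toNat :=
        Fintype.sum_equiv (Equiv.neg _) _ _ fun d => by rw [Equiv.neg_apply, hodd]
      rw [two_mul]
      nth_rewrite 1 [e]
      rw [← Finset.sum_add_distrib]
      exact Finset.sum_congr rfl fun d _ => by omega
    have h3 : ∑ d, (Θ d).natAbs ≤ (p - 1) * (2 * s) := by
      refine (Finset.sum_le_card_nsmul _ _ (2 * s) fun d _ => ?_).trans ?_
      · have := hΘ d; rw [Int.abs_eq_natAbs] at this; omega
      · rw [Finset.card_univ, ZMod.card_units p, smul_eq_mul]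
    rw [show p - 1 = 2 * N by omega] at h3
    nlinarith
  have hBle : ∏ τ : K →ₐ[ℚ] ℂ, ‖τ (B : K)‖ ≤ ((X + 1) ^ (2 * N * s)) ^ (2 * N) := by
    refine (Finset.prod_le_prod (fun _ _ => norm_nonneg _) fun τ _ =>
      (?_ : ‖τ (B : K)‖ ≤ (X + 1) ^ (2 * N * s))).trans ?_
    · rw [hBdef, RingOfIntegers.coe_eq_algebraMap, map_prod, map_prod, norm_prod]
      refine (Finset.prod_le_prod (fun _ _ => norm_nonneg _) fun d _ =>
        (?_ : _ ≤ (X + 1) ^ (-Θ d).toNat)).trans ?_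
      · rw [map_pow, map_pow, norm_pow, ← RingOfIntegers.coe_eq_algebraMap]
        exact pow_le_pow_left₀ (norm_nonneg _) (norm_linFactor_le τ x d) _
      · rw [Finset.prod_pow_eq_pow_sum]
        exact pow_le_pow_right₀ (by linarith) hneg
    · rw [Finset.prod_const, Finset.card_univ, hcard]
  -- conclusion
  obtain ⟨a, ha⟩ : ∃ a : ℝ, a = (4 * X⁻¹) ^ 2 * 4 ^ N := ⟨_, rfl⟩
  have ha0 : 0 ≤ a := by rw [ha]; positivity
  rw [← ha] at hprod
  have hall : (1 : ℝ) ≤ a ^ q * ((X + 1) ^ (2 * N * s)) ^ (2 * N) :=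
    key'.trans (mul_le_mul (pow_le_pow_left₀ (Finset.prod_nonneg fun _ _ => norm_nonneg _) hprod q) hBle
      (Finset.prod_nonneg fun _ _ => norm_nonneg _) (by positivity))
  have h1' : (1 : ℝ) ≤ (a ^ 2 * (X + 1) ^ 3) ^ q := by
    calc (1 : ℝ) ≤ (a ^ q * ((X + 1) ^ (2 * N * s)) ^ (2 * N)) ^ 2 := one_le_pow₀ hall
      _ = (a ^ 2) ^ q * (X + 1) ^ (2 * N * s * (2 * N) * 2) := by
          rw [mul_pow (a ^ q), ← pow_mul a, ← pow_mul a, mul_comm q 2, ← pow_mul (X + 1), ← pow_mul (X + 1)]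
      _ ≤ (a ^ 2) ^ q * (X + 1) ^ (3 * q) :=
          mul_le_mul_of_nonneg_left (pow_le_pow_right₀ (by linarith) (by nlinarith)) (pow_nonneg (sq_nonneg a) q)
      _ = (a ^ 2 * (X + 1) ^ 3) ^ q := by rw [mul_pow (a ^ 2), ← pow_mul (X + 1)]
  have h2' : 1 ≤ a ^ 2 * (X + 1) ^ 3 := by
    by_contra hlt
    linarith [pow_lt_one₀ (show (0 : ℝ) ≤ a ^ 2 * (X + 1) ^ 3 by positivity) (not_le.mp hlt) hq.ne']
  have h3' : (X + 1) ^ 3 ≤ 8 * X ^ 3 := by
    rw [show (8 : ℝ) * X ^ 3 = (2 * X) ^ 3 by ring]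
    exact pow_le_pow_left₀ (by linarith) (by linarith) 3
  have h4' : 1 ≤ a ^ 2 * (8 * X ^ 3) := h2'.trans (mul_le_mul_of_nonneg_left h3' (by positivity))
  rw [ha, show ((4 * X⁻¹) ^ 2 * 4 ^ N) ^ 2 * (8 * X ^ 3) = 2048 * 16 ^ N / X by
    rw [mul_pow, ← pow_mul (4 : ℝ), mul_comm N 2, pow_mul (4 : ℝ)]
    field_simp
    ring, le_div_iff₀ hX0, one_mul] at h4'
  exact h4'

/-- The residues `1, …, N`. -/
def halfUnit {N : ℕ} (hN : 2 * N < p) (i : Fin N) : (ZMod p)ˣ :=
  Units.mk0 ((i.val + 1 : ℕ) : ZMod p) fun e => by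
    have := Nat.le_of_dvd (by omega) ((ZMod.natCast_eq_zero_iff _ _).mp e)
    omega

theorem halfUnit_val {N : ℕ} (hN : 2 * N < p) (i : Fin N) : (halfUnit hN i : ZMod p).val = i.val + 1 := by
  rw [halfUnit, Units.val_mk0, ZMod.val_natCast, Nat.mod_eq_of_lt (by omega)]

/-- The combination of the translates with coefficients `e`. -/
def thetaComb {N : ℕ} (hN : 2 * N < p) (e : Fin N → ℤ) (d : (ZMod p)ˣ) : ℤ :=
  ∑ i, e i * thetaOdd p ((halfUnit hN i)⁻¹ * d)

theorem thetaComb_neg {N : ℕ} (hN : 2 * N < p) (e : Fin N → ℤ) (d : (ZMod p)ˣ) :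
    thetaComb hN e (-d) = -thetaComb hN e d := by
  rw [thetaComb, thetaComb, ← Finset.sum_neg_distrib]
  exact Finset.sum_congr rfl fun i _ => by rw [mul_neg, thetaOdd_neg, mul_neg]

theorem abs_thetaComb_le (hp3 : 3 ≤ p) {N : ℕ} (hN : 2 * N < p) (e : Fin N → ℤ) (d : (ZMod p)ˣ) :
    |thetaComb hN e d| ≤ ∑ i, |e i| :=
  (Finset.abs_sum_le_sum_abs _ _).trans (Finset.sum_le_sum fun i _ => by rw [abs_mul, abs_thetaOdd hp3, mul_one])

theorem eq_zero_of_thetaComb_eq_zero (hp3 : 3 ≤ p) {N : ℕ} (hN : 2 * N < p) {e : Fin N → ℤ}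
    (h : thetaComb hN e = 0) : e = 0 := by
  classical
  have : NeZero p := ⟨(Fact.out : p.Prime).ne_zero⟩
  have hinj : Function.Injective (halfUnit (p := p) hN) := fun i j e => Fin.ext (by
    have := congrArg (fun u : (ZMod p)ˣ => (u : ZMod p).val) e
    simp only [halfUnit_val] at this
    omega)
  have hneg : ∀ i j, halfUnit (p := p) hN i ≠ -halfUnit hN j := fun i j e => by
    have := congrArg (fun u : (ZMod p)ˣ => (u : ZMod p).val) e
    simp only [Units.val_neg, ZMod.neg_val, halfUnit_val, if_neg (halfUnit hN j).ne_zero] at this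
    omega
  set E : (ZMod p)ˣ → ℤ := fun c => (∑ i, if halfUnit hN i = c then e i else 0) -
    ∑ i, if halfUnit hN i = -c then e i else 0 with hE
  have hE0 : E = 0 := by
    refine eq_zero_of_sum_thetaOdd hp3 (fun c => by rw [hE]; simp) fun d => ?_
    have h1 : ∀ i, ∑ c : (ZMod p)ˣ, (if halfUnit hN i = -c then e i else 0) * thetaOdd p (c⁻¹ * d) =
        -(e i * thetaOdd p ((halfUnit hN i)⁻¹ * d)) := by
      intro i
      rw [Finset.sum_eq_single (-halfUnit hN i)]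
      · rw [if_pos (neg_neg _).symm, inv_neg, neg_mul, thetaOdd_neg, mul_neg]
      · exact fun c _ hc => by rw [if_neg fun e' => hc (by rw [e', neg_neg]), zero_mul]
      · exact fun h => absurd (Finset.mem_univ _) h
    have h0 : ∀ i, ∑ c : (ZMod p)ˣ, (if halfUnit hN i = c then e i else 0) * thetaOdd p (c⁻¹ * d) =
        e i * thetaOdd p ((halfUnit hN i)⁻¹ * d) := fun i => by simp
    simp only [hE, sub_mul, Finset.sum_mul, Finset.sum_sub_distrib]
    rw [Finset.sum_comm, Finset.sum_congr rfl fun i _ => h0 i, Finset.sum_comm, Finset.sum_congr rfl fun i _ => h1 i,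
      Finset.sum_neg_distrib]
    have hd := congrFun h d
    rw [thetaComb, Pi.zero_apply] at hd
    rw [hd]
    norm_num
  funext j
  have hj := congrFun hE0 (halfUnit hN j)
  simp only [hE, Pi.zero_apply, hinj.eq_iff, Finset.sum_ite_eq', Finset.mem_univ, if_true, hneg, if_false,
    Finset.sum_const_zero, sub_zero] at hj
  exact hj

set_option backward.isDefEq.respectTransparency false in
/-- **Mihăilescu's bound**: `x^p - y^q = 1` with `q ≥ 500` has `q ≤ 4 p²`. -/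
theorem le_four_mul_sq {P Q : ℕ} (hP : P.Prime) (hQ : Q.Prime) (hP5 : 5 ≤ P) (hQ500 : 500 ≤ Q) {x y : ℤ}
    (hx : x ≠ 0) (hy : y ≠ 0) (h : x ^ P - y ^ Q = 1) : Q ≤ 4 * P ^ 2 := by
  by_contra hlt
  rw [not_le] at hlt
  have := Fact.mk hP
  have := Fact.mk hQ
  have hP2 : Odd P := hP.odd_of_ne_two (by omega)
  have hQ2 : Odd Q := hQ.odd_of_ne_two (by omega)
  obtain ⟨N, hN⟩ := hP2
  have hP2 : Odd P := ⟨N, hN⟩
  have hne : P ≠ Q := by nlinarith
  have hqp : (Q : ZMod P) ≠ 0 := fun e => hne ((Nat.prime_dvd_prime_iff_eq hP hQ).mp ((ZMod.natCast_eq_zero_iff _ _).mp e))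
  have hpy := cassels_dvd hP hQ hP2 hQ2 hx hy h
  have hqx : (Q : ℤ) ∣ x :=
    dvd_neg.mp (cassels_dvd hQ hP hQ2 hP2 (neg_ne_zero.mpr hy) (neg_ne_zero.mpr hx) (catalan_symm hP2 hQ2 h))
  obtain ⟨hxbig, -⟩ := FA.Summary.cassels_bound hP hQ hP2 hQ2 hx hy h
  obtain ⟨a, v, -, ha, hyv, -⟩ := exists_pow_of_dvd hP hP2 hQ2 h hpy
  have hxX : (500 : ℝ) ^ (2 * N) + 1 ≤ |(x : ℝ)| := by
    have h1 : (500 : ℤ) ^ (2 * N) + 1 ≤ |x| := by
      refine le_trans ?_ hxbig
      rw [show P - 1 = 2 * N by omega]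
      exact add_le_add_left (pow_le_pow_left₀ (by norm_num) (by exact_mod_cast hQ500) _) 1
    exact_mod_cast h1
  have hX4 : 4 ≤ |(x : ℝ)| := by
    have : (500 : ℝ) ^ 1 ≤ 500 ^ (2 * N) := pow_le_pow_right₀ (by norm_num) (by omega)
    linarith
  have hx1 : x ≠ 1 := fun e => by rw [e, Int.cast_one, abs_one] at hX4; norm_num at hX4
  have hΦ : ∑ i ∈ Finset.range P, x ^ i = (P : ℤ) * v ^ Q := by
    refine mul_right_cancel₀ (sub_ne_zero.mpr hx1) ?_
    rw [geom_sum_mul, show x ^ P - 1 = y ^ Q by linear_combination h, hyv, ha, mul_pow, mul_pow,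
      ← Nat.sub_add_cancel hQ.one_le, pow_succ (P : ℤ), Nat.sub_add_cancel hQ.one_le]
    ring
  have hx1' : (P : ℤ) ∣ x - 1 := by
    rw [ha]; exact (dvd_pow_self (P : ℤ) (by omega)).mul_right _
  have hv : ¬ IsUnit v := fun hu => by
    -- `|x^P - 1| = P |x - 1|` is impossible
    have habs : |∑ i ∈ Finset.range P, x ^ i| = P := by
      rcases Int.isUnit_iff.mp hu with e | e <;> simp [hΦ, e, hQ2.neg_one_pow]
    have h2 : |x ^ P - 1| = (P : ℤ) * |x - 1| := by rw [← geom_sum_mul, abs_mul, habs]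
    have h3 : (P : ℤ) ^ 2 ≤ |x| := by
      refine le_trans ?_ hxbig
      have h6 : (P : ℤ) ^ 2 ≤ Q := by exact_mod_cast (show P ^ 2 ≤ Q by omega)
      have : (Q : ℤ) ≤ (Q : ℤ) ^ (P - 1) := le_self_pow₀ (by exact_mod_cast hQ.one_le) (by omega)
      omega
    have h4 : |x| ^ 3 ≤ |x| ^ P := pow_le_pow_right₀ (Int.one_le_abs hx) (by omega)
    have h5 := abs_sub_abs_le_abs_sub (x ^ P) 1
    rw [abs_one, abs_pow, h2] at h5
    have h6 : |x - 1| ≤ |x| + 1 := (abs_sub x 1).trans (by rw [abs_one])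
    have h7 : (5 : ℤ) ≤ P := by exact_mod_cast hP5
    have h8 : (25 : ℤ) ≤ |x| := by nlinarith
    nlinarith [mul_le_mul_of_nonneg_left h6 (show (0 : ℤ) ≤ P by positivity),
      mul_le_mul_of_nonneg_left h8 (sq_nonneg |x|)]
  -- the exponents
  set s := 3 * Q / (8 * N ^ 2) with hs
  have hN2 : 2 ≤ N := by omega
  have hN0 : 0 < 8 * N ^ 2 := by positivity
  have hsle : 8 * N ^ 2 * s ≤ 3 * Q := Nat.mul_div_le _ _
  have hslt : 3 * Q < 8 * N ^ 2 * (s + 1) := Nat.lt_mul_div_succ _ hN0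
  have hcount : Q < (s + N).choose N := by
    have h4N : 12 * (4 * N ^ 2) < 3 * Q := by rw [hN] at hlt; nlinarith
    have hs6 : 6 ≤ s := by nlinarith
    have := eight_mul_le_three_mul_choose (N := N) (s := s) (by
      rcases (show N = 2 ∨ N = 3 ∨ N = 4 ∨ N = 5 ∨ 6 ≤ N by omega) with rfl | rfl | rfl | rfl | hN6 <;> omega)
    nlinarith
  rw [← card_sym_fin] at hcount
  let L := CyclotomicField P ℚ
  have : IsCyclotomicExtension {P} ℚ L :=
    inferInstanceAs (IsCyclotomicExtension {P} ℚ (CyclotomicField P ℚ))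
  have : NumberField L := IsCyclotomicExtension.numberField {P} ℚ L
  have hhalf : 2 * N < P := by omega
  choose α hα using fun c => exists_root_translate P L (by omega) hQ2 hqp hx1 hx1' hqx hΦ c
  classical
  let cnt : Sym (Fin (N + 1)) s → Fin N → ℕ := fun a i => Multiset.count i.castSucc (a : Multiset (Fin (N + 1)))
  let root : Sym (Fin (N + 1)) s → L := fun a => ∏ i, α (halfUnit hhalf i) ^ cnt a i
  let Θ : Sym (Fin (N + 1)) s → (ZMod P)ˣ → ℤ := fun a => thetaComb hhalf fun i => (cnt a i : ℤ)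
  have hroot : ∀ a, root a ^ Q = ratPow P L x (Θ a) := fun a => by
    simp only [root, ← Finset.prod_pow]
    rw [Finset.prod_congr rfl fun i _ => show (α (halfUnit hhalf i) ^ cnt a i) ^ Q =
      ∏ d, ((linFactor P L x d : 𝓞 L) : L) ^ (thetaOdd P ((halfUnit hhalf i)⁻¹ * d) * (cnt a i : ℤ)) by
        rw [← pow_mul, mul_comm, pow_mul, hα, ratPow, ← Finset.prod_pow]
        exact Finset.prod_congr rfl fun d _ => by rw [← zpow_natCast, ← zpow_mul], ratPow, Finset.prod_comm]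
    refine Finset.prod_congr rfl fun d _ => ?_
    rw [prod_zpow_eq_zpow_sum (linFactor_coe_ne_zero P L (by omega) hx1 d)]
    congr 1
    exact Finset.sum_congr rfl fun i _ => mul_comm _ _
  have hsum : ∀ a, ∑ i, cnt a i ≤ s := fun a => by
    have h1 := Multiset.sum_count_eq_card (s := (Finset.univ : Finset (Fin (N + 1))))
      (m := (a : Multiset (Fin (N + 1)))) fun i _ => Finset.mem_univ i
    rw [Fin.sum_univ_castSucc, show Multiset.card (a : Multiset (Fin (N + 1))) = s from a.2] at h1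
    simp only [cnt]
    omega
  let σ : L →ₐ[ℚ] ℂ := IsAlgClosed.lift
  have hxi : ∀ a, σ (root a) / Complex.exp (logSum P σ x (Θ a) / Q) ∈ Polynomial.nthRootsFinset Q (1 : ℂ) := fun a => by
    rw [Polynomial.mem_nthRootsFinset hQ.pos, div_pow, ← map_pow, hroot, ← Complex.exp_nat_mul,
      mul_div_cancel₀ _ (Nat.cast_ne_zero.mpr hQ.ne_zero),
      exp_logSum (by omega) hx1 hx σ (thetaComb_neg hhalf _), div_self]
    refine fun e => ?_
    have := σ.toRingHom.injective (e.trans (map_zero _).symm)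
    exact (Finset.prod_ne_zero_iff.mpr fun d _ => zpow_ne_zero _ (linFactor_coe_ne_zero P L (by omega) hx1 d)) this
  have hcard : (Polynomial.nthRootsFinset Q (1 : ℂ)).card ≤ Q := by
    rw [Polynomial.nthRootsFinset_def]
    exact (Multiset.toFinset_card_le _).trans (Polynomial.card_nthRoots Q 1)
  obtain ⟨a₁, -, a₂, -, hne', heq⟩ := Finset.exists_ne_map_eq_of_card_lt_of_maps_to
    (s := (Finset.univ : Finset (Sym (Fin (N + 1)) s))) (t := Polynomial.nthRootsFinset Q (1 : ℂ))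
    (lt_of_le_of_lt hcard (by rwa [Finset.card_univ])) (fun a _ => hxi a)
  set Θ' : (ZMod P)ˣ → ℤ := thetaComb hhalf (fun i => (cnt a₁ i : ℤ) - cnt a₂ i) with hΘ'
  have hΘsub : ∀ d, Θ' d = Θ a₁ d - Θ a₂ d := fun d => by
    simp only [hΘ', Θ, thetaComb, sub_mul, Finset.sum_sub_distrib]
  have hroot2 : root a₂ ≠ 0 := fun e => by
    have := hroot a₂
    rw [e, zero_pow hQ.ne_zero] at this
    exact (Finset.prod_ne_zero_iff.mpr fun d _ => zpow_ne_zero _ (linFactor_coe_ne_zero P L (by omega) hx1 d)) this.symm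
  have hα' : (root a₁ / root a₂) ^ Q = ratPow P L x Θ' := by
    rw [div_pow, hroot, hroot, ratPow, ratPow, ratPow, ← Finset.prod_div_distrib]
    exact Finset.prod_congr rfl fun d _ => by
      rw [hΘsub, zpow_sub₀ (linFactor_coe_ne_zero P L (by omega) hx1 d)]
  have hne1 : root a₁ / root a₂ ≠ 1 := fun e => by
    rw [e, one_pow] at hα'
    have h0 := eq_zero_of_ratPow_eq_one P L (by omega) hx1 hx1' hΦ hv hQ.ne_zero hα'.symm
    have h1 := eq_zero_of_thetaComb_eq_zero (by omega) hhalf h0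
    refine hne' (Subtype.ext (Multiset.ext' fun i => ?_))
    have hc : ∀ j : Fin N, cnt a₁ j = cnt a₂ j := fun j => by
      have h2 : (cnt a₁ j : ℤ) - cnt a₂ j = 0 := congrFun h1 j
      omega
    refine Fin.lastCases ?_ (fun j => hc j) i
    have key : ∀ a : Sym (Fin (N + 1)) s,
        (∑ j, cnt a j) + Multiset.count (Fin.last N) (a : Multiset (Fin (N + 1))) = s := fun a => by
      have h3 := Multiset.sum_count_eq_card (s := (Finset.univ : Finset (Fin (N + 1))))
        (m := (a : Multiset (Fin (N + 1)))) fun i _ => Finset.mem_univ i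
      rw [Fin.sum_univ_castSucc, show Multiset.card (a : Multiset (Fin (N + 1))) = s from a.2] at h3
      exact h3
    have k1 := key a₁
    have k2 := key a₂
    have k3 : ∑ j, cnt a₁ j = ∑ j, cnt a₂ j := Finset.sum_congr rfl fun j _ => hc j
    change Multiset.count (Fin.last N) (a₁ : Multiset (Fin (N + 1))) =
      Multiset.count (Fin.last N) (a₂ : Multiset (Fin (N + 1)))
    omega
  have hexp : σ (root a₁ / root a₂) = Complex.exp (logSum P σ x Θ' / Q) := by
    have hL : logSum P σ x Θ' = logSum P σ x (Θ a₁) - logSum P σ x (Θ a₂) := by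
      simp only [logSum, hΘsub, Int.cast_sub, sub_mul, Finset.sum_sub_distrib]
    rw [hL, sub_div, Complex.exp_sub, map_div₀, div_eq_div_iff ((map_ne_zero σ).mpr hroot2) (Complex.exp_ne_zero _)]
    have := heq
    rw [div_eq_div_iff (Complex.exp_ne_zero _) (Complex.exp_ne_zero _)] at this
    linear_combination this
  have hb := close_pair_bound (N := N) (s := s) (q := Q) (p := P) hN2 hN hQ.pos hsle hX4
    (thetaComb_neg hhalf _) (fun d => (abs_thetaComb_le (by omega) hhalf _ d).trans ?_) hα' hne1 σ hexp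
  · have h1 : (2048 : ℝ) * 16 ^ N ≤ 500 ^ (2 * N) := by
      rw [pow_mul, show ((500 : ℝ) ^ 2) ^ N = (15625 : ℝ) ^ N * 16 ^ N by rw [← mul_pow]; norm_num]
      refine mul_le_mul_of_nonneg_right ?_ (by positivity)
      exact (by norm_num : (2048 : ℝ) ≤ 15625).trans (le_self_pow₀ (by norm_num) (by omega))
    linarith
  · calc ∑ i, |(cnt a₁ i : ℤ) - cnt a₂ i| ≤ ∑ i, ((cnt a₁ i : ℤ) + cnt a₂ i) :=
          Finset.sum_le_sum fun i _ => (abs_sub _ _).trans (by rw [Nat.abs_cast, Nat.abs_cast])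
      _ ≤ 2 * (s : ℤ) := by
          rw [Finset.sum_add_distrib, ← Nat.cast_sum, ← Nat.cast_sum]
          have := hsum a₁
          have := hsum a₂
          omega

end FA.Catalan
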