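import Fermat.Agent.Catalan.MinusRoots
import Mathlib.Analysis.SpecialFunctions.Complex.LogBounds
import Mathlib.RingTheory.Norm.Transitivity

/-!
# The products `(x - ζ)^Θ` in the complex embeddings

For odd `Θ` a `q`-th root has absolute value one everywhere, and is `ξ exp (L/q)` with `ξ^q = 1` and
`L = ∑ Θ_d log (1 - ω^d/x)` small.
-/

set_option autoImplicit false

noncomputable section

open NumberField
open scoped BigOperators ComplexConjugate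

namespace FA.Catalan

variable (p : ℕ) [Fact p.Prime] {K : Type*} [Field K] [NumberField K] [IsCyclotomicExtension {p} ℚ K]

/-- `ω^d` at an embedding. -/
def omegaPt (σ : K →ₐ[ℚ] ℂ) (d : (ZMod p)ˣ) : ℂ := σ ((FA.Ext.zetaInt p K : 𝓞 K) : K) ^ (d : ZMod p).val

/-- `∑ Θ_d log (1 - ω^d / x)`. -/
def logSum (σ : K →ₐ[ℚ] ℂ) (x : ℤ) (Θ : (ZMod p)ˣ → ℤ) : ℂ :=
  ∑ d : (ZMod p)ˣ, (Θ d : ℂ) * Complex.log (1 - omegaPt p σ d / x)

variable {p}

theorem prod_zpow_eq_zpow_sum {ι G : Type*} [CommGroupWithZero G] {a : G} (ha : a ≠ 0) (s : Finset ι) (f : ι → ℤ) :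
    ∏ i ∈ s, a ^ f i = a ^ ∑ i ∈ s, f i := by
  induction s using Finset.cons_induction with
  | empty => simp
  | cons i s hi ih => rw [Finset.prod_cons, Finset.sum_cons, ih, zpow_add₀ ha]

theorem sum_odd_zero {Θ : (ZMod p)ˣ → ℤ} (hodd : ∀ d, Θ (-d) = -Θ d) : ∑ d, Θ d = 0 := by
  have h : ∑ d, Θ d = -∑ d, Θ d := by
    rw [← Finset.sum_neg_distrib]
    exact Fintype.sum_equiv (Equiv.neg _) _ _ fun d => by rw [Equiv.neg_apply, hodd, neg_neg]
  omega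

theorem map_linFactor (σ : K →ₐ[ℚ] ℂ) (x : ℤ) (d : (ZMod p)ˣ) :
    σ ((linFactor p K x d : 𝓞 K) : K) = (x : ℂ) - omegaPt p σ d := by
  rw [linFactor, omegaPt, RingOfIntegers.coe_eq_algebraMap, RingOfIntegers.coe_eq_algebraMap, map_sub, map_intCast,
    map_pow, map_sub, map_intCast, map_pow]

theorem norm_omegaPt (σ : K →ₐ[ℚ] ℂ) (d : (ZMod p)ˣ) : ‖omegaPt p σ d‖ = 1 := by
  refine Complex.norm_eq_one_of_pow_eq_one (n := p) ?_ (Fact.out : p.Prime).ne_zero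
  rw [omegaPt, ← pow_mul, mul_comm, pow_mul, RingOfIntegers.coe_eq_algebraMap, ← map_pow σ, ← map_pow (algebraMap (𝓞 K) K),
    (FA.Ext.zetaInt_spec p K).pow_eq_one, map_one, map_one, one_pow]

theorem omegaPt_neg (σ : K →ₐ[ℚ] ℂ) (d : (ZMod p)ˣ) : omegaPt p σ (-d) = conj (omegaPt p σ d) := by
  have : NeZero p := ⟨(Fact.out : p.Prime).ne_zero⟩
  rw [← Complex.inv_eq_conj (norm_omegaPt σ d)]
  refine eq_inv_of_mul_eq_one_left ?_
  rw [omegaPt, omegaPt, ← pow_add, Units.val_neg, ZMod.neg_val, if_neg d.ne_zero,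
    Nat.sub_add_cancel (ZMod.val_lt _).le, RingOfIntegers.coe_eq_algebraMap, ← map_pow σ, ← map_pow (algebraMap (𝓞 K) K),
    (FA.Ext.zetaInt_spec p K).pow_eq_one, map_one, map_one]

theorem norm_linFactor_le (σ : K →ₐ[ℚ] ℂ) (x : ℤ) (d : (ZMod p)ˣ) :
    ‖σ ((linFactor p K x d : 𝓞 K) : K)‖ ≤ |(x : ℝ)| + 1 := by
  rw [map_linFactor]
  refine (norm_sub_le _ _).trans ?_
  rw [norm_omegaPt, Complex.norm_intCast]

/-- A root of an odd product has absolute value one. -/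
theorem norm_root_eq_one {q : ℕ} (hq : q ≠ 0) (hp2 : p ≠ 2) {x : ℤ} (hx : x ≠ 1) {Θ : (ZMod p)ˣ → ℤ}
    (hodd : ∀ d, Θ (-d) = -Θ d) {α : K} (hα : α ^ q = ratPow p K x Θ) (σ : K →ₐ[ℚ] ℂ) : ‖σ α‖ = 1 := by
  refine (pow_eq_one_iff_of_nonneg (norm_nonneg _) hq).mp ?_
  rw [← norm_pow, ← map_pow, hα, ratPow, map_prod, norm_prod]
  simp only [map_zpow₀, norm_zpow]
  set P := ∏ d : (ZMod p)ˣ, ‖σ ((linFactor p K x d : 𝓞 K) : K)‖ ^ Θ d with hP
  have hpos : 0 < P := Finset.prod_pos fun d _ =>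
    zpow_pos (norm_pos_iff.mpr fun e => linFactor_coe_ne_zero p K hp2 hx d
      (σ.toRingHom.injective (e.trans (map_zero _).symm))) _
  have hinv : P = P⁻¹ := by
    rw [hP, ← Finset.prod_inv_distrib]
    refine Fintype.prod_equiv (Equiv.neg _) _ _ fun d => ?_
    rw [Equiv.neg_apply, hodd, ← zpow_neg, neg_neg]
    congr 1
    rw [map_linFactor, map_linFactor, omegaPt_neg, ← Complex.norm_conj, map_sub, map_intCast]
  have h2 : P * P = 1 := (congrArg (P * ·) hinv).trans (mul_inv_cancel₀ hpos.ne')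
  nlinarith

/-- `exp L` is the image of the product. -/
theorem exp_logSum (hp2 : p ≠ 2) {x : ℤ} (hx : x ≠ 1) (hx0 : x ≠ 0) (σ : K →ₐ[ℚ] ℂ) {Θ : (ZMod p)ˣ → ℤ}
    (hodd : ∀ d, Θ (-d) = -Θ d) : Complex.exp (logSum p σ x Θ) = σ (ratPow p K x Θ) := by
  have hxC : (x : ℂ) ≠ 0 := Int.cast_ne_zero.mpr hx0
  rw [logSum, Complex.exp_sum, ratPow, map_prod]
  have hstep : ∀ d : (ZMod p)ˣ, σ (((linFactor p K x d : 𝓞 K) : K) ^ Θ d) =
      (x : ℂ) ^ Θ d * Complex.exp ((Θ d : ℂ) * Complex.log (1 - omegaPt p σ d / x)) := by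
    intro d
    have hne : (x : ℂ) - omegaPt p σ d ≠ 0 := by
      rw [← map_linFactor]
      exact fun e => linFactor_coe_ne_zero p K hp2 hx d (σ.toRingHom.injective (e.trans (map_zero _).symm))
    rw [map_zpow₀, map_linFactor, Complex.exp_int_mul, Complex.exp_log, ← mul_zpow, mul_sub, mul_one,
      mul_div_cancel₀ _ hxC]
    rw [one_sub_div hxC]
    exact div_ne_zero hne hxC
  rw [Finset.prod_congr rfl fun d _ => hstep d, Finset.prod_mul_distrib, prod_zpow_eq_zpow_sum hxC,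
    sum_odd_zero hodd, zpow_zero, one_mul]

/-- `L` is small. -/
theorem norm_logSum_le {x : ℤ} (hx2 : 2 ≤ |(x : ℝ)|) (σ : K →ₐ[ℚ] ℂ) {Θ : (ZMod p)ˣ → ℤ} {s : ℝ}
    (hs : ∀ d, |(Θ d : ℝ)| ≤ s) :
    ‖logSum p σ x Θ‖ ≤ ((p - 1 : ℕ) : ℝ) * (s * (3 / 2 * |(x : ℝ)|⁻¹)) := by
  refine (norm_sum_le _ _).trans ((Finset.sum_le_card_nsmul _ _ (s * (3 / 2 * |(x : ℝ)|⁻¹)) fun d _ => ?_).trans ?_)
  · rw [norm_mul, Complex.norm_intCast]
    refine mul_le_mul (hs d) ?_ (norm_nonneg _) ((abs_nonneg _).trans (hs d))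
    have hn : ‖-(omegaPt p σ d / x)‖ = |(x : ℝ)|⁻¹ := by
      rw [norm_neg, norm_div, norm_omegaPt, Complex.norm_intCast, one_div]
    rw [sub_eq_add_neg, ← hn]
    refine Complex.norm_log_one_add_half_le_self ?_
    rw [hn, one_div]
    exact inv_anti₀ two_pos hx2
  · rw [Finset.card_univ, ZMod.card_units p, nsmul_eq_mul]

end FA.Catalan
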