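import Fermat.Agent.ThetaOne.LValueOne
import Fermat.Agent.Catalan.MihailescuDescent

/-!
# Independence of the Galois translates of the odd Stickelberger element

The character sums of `θ(d) = c(-d) - c(d) = ± 1` are `(2 χ(2) - 4)` times those of the saw tooth, so do
not vanish at odd characters, and the translates of `θ` on a half system are independent.
-/

set_option autoImplicit false

noncomputable section

open Finset

namespace FA.Catalan

variable (p : ℕ) [Fact p.Prime]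

/-- The odd element `c(-d) - c(d)`. -/
def thetaOdd (d : (ZMod p)ˣ) : ℤ := (stickTwo p (-d) : ℤ) - (stickTwo p d : ℤ)

variable {p}

theorem thetaOdd_neg (d : (ZMod p)ˣ) : thetaOdd p (-d) = -thetaOdd p d := by
  rw [thetaOdd, thetaOdd, neg_neg]; ring

theorem abs_thetaOdd (hp3 : 3 ≤ p) (d : (ZMod p)ˣ) : |thetaOdd p d| = 1 := by
  have := stickTwo_neg p hp3 d
  rw [thetaOdd]
  rcases (show stickTwo p (-d) = 1 ∧ stickTwo p d = 0 ∨ stickTwo p (-d) = 0 ∧ stickTwo p d = 1 by omega) with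
    ⟨e1, e2⟩ | ⟨e1, e2⟩ <;> rw [e1, e2] <;> norm_num

/-- `θ` in terms of the saw tooth. -/
theorem thetaOdd_inv_eq (hp3 : 3 ≤ p) (u : (ZMod p)ˣ) :
    (thetaOdd p u⁻¹ : ℝ) = 2 * FA.OrderTheta.sawTooth p (2 * (u : ZMod p)) - 4 * FA.OrderTheta.sawTooth p (u : ZMod p) := by
  have hp : p.Prime := Fact.out
  have : NeZero p := ⟨hp.ne_zero⟩
  have hpR : (p : ℝ) ≠ 0 := Nat.cast_ne_zero.mpr hp.ne_zero
  have h2 : (2 : ZMod p) ≠ 0 := fun e => by
    have e' : ((2 : ℕ) : ZMod p) = 0 := by simpa using e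
    have := Nat.le_of_dvd two_pos ((ZMod.natCast_eq_zero_iff 2 p).mp e')
    omega
  have hv : ((2 * (u : ZMod p)).val : ℝ) = 2 * ((u : ZMod p).val : ℝ) - p * (stickTwo p u⁻¹ : ℝ) := by
    have e : (2 * (u : ZMod p)).val = (2 * (u : ZMod p).val) % p := by
      rw [← ZMod.val_natCast, Nat.cast_mul, ZMod.natCast_zmod_val, Nat.cast_ofNat]
    have := Nat.mod_add_div (2 * (u : ZMod p).val) p
    rw [← e] at this
    rw [stickTwo, inv_inv, eq_sub_iff_add_eq]
    exact_mod_cast this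
  have hneg := stickTwo_neg p hp3 u⁻¹
  rw [thetaOdd, show stickTwo p (-u⁻¹) = 1 - stickTwo p u⁻¹ by omega,
    Nat.cast_sub (by omega), FA.OrderTheta.sawTooth, FA.OrderTheta.sawTooth, if_neg u.ne_zero,
    if_neg (mul_ne_zero h2 u.ne_zero), hv]
  push_cast
  field_simp
  ring

/-- The character sum of `θ` does not vanish at an odd character. -/
theorem sum_thetaOdd_ne_zero (hp3 : 3 ≤ p) {χ : DirichletCharacter ℂ p} (hχ : χ.Odd) :
    ∑ d : (ZMod p)ˣ, (thetaOdd p d : ℂ) * χ (d : ZMod p) ≠ 0 := by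
  classical
  have hp : p.Prime := Fact.out
  have : NeZero p := ⟨hp.ne_zero⟩
  have hinv : (χ⁻¹).Odd := by
    show χ⁻¹ (-1) = -1
    rw [MulChar.inv_apply', inv_neg_one]
    exact hχ
  set f : ZMod p → ℂ := fun a => χ⁻¹ a * (FA.OrderTheta.sawTooth p a : ℂ) with hf
  have hf0 : f 0 = 0 := by simp only [hf, MulChar.map_zero, zero_mul]
  have hunits : ∀ g : ZMod p → ℂ, g 0 = 0 → ∑ u : (ZMod p)ˣ, g u = ∑ a : ZMod p, g a := by
    intro g hg
    rw [← Finset.sum_erase (Finset.univ : Finset (ZMod p)) hg]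
    refine Finset.sum_bij (fun u _ => (u : ZMod p)) (fun u _ => Finset.mem_erase.mpr ⟨u.ne_zero, Finset.mem_univ _⟩)
      (fun a _ b _ h => Units.ext h) (fun a ha => ⟨Units.mk0 a (Finset.ne_of_mem_erase ha), Finset.mem_univ _, rfl⟩)
      (fun _ _ => rfl)
  have key : ∑ d : (ZMod p)ˣ, (thetaOdd p d : ℂ) * χ (d : ZMod p) = (2 * χ 2 - 4) * ∑ a, f a := by
    rw [← Fintype.sum_equiv (Equiv.inv (ZMod p)ˣ) (fun u => (thetaOdd p u⁻¹ : ℂ) * χ ((u⁻¹ : (ZMod p)ˣ) : ZMod p))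
      _ (fun u => rfl), ← hunits f hf0, Finset.mul_sum]
    have h2 : (2 : ZMod p) ≠ 0 := fun e => by
      have e' : ((2 : ℕ) : ZMod p) = 0 := by simpa using e
      have := Nat.le_of_dvd two_pos ((ZMod.natCast_eq_zero_iff 2 p).mp e')
      omega
    have hdouble : ∑ u : (ZMod p)ˣ, χ⁻¹ (u : ZMod p) * (FA.OrderTheta.sawTooth p (2 * (u : ZMod p)) : ℂ) =
        χ 2 * ∑ u : (ZMod p)ˣ, f u := by
      rw [Finset.mul_sum]
      refine Fintype.sum_equiv (Equiv.mulLeft (Units.mk0 2 h2)) _ _ fun u => ?_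
      rw [hf, Equiv.coe_mulLeft, Units.val_mul, Units.val_mk0]
      simp only [map_mul]
      have e : χ 2 * χ⁻¹ 2 = 1 := by
        rw [← MulChar.mul_apply, mul_inv_cancel, MulChar.one_apply (Ne.isUnit h2)]
      linear_combination (-(χ⁻¹ (u : ZMod p) * (FA.OrderTheta.sawTooth p (2 * (u : ZMod p)) : ℂ))) * e
    rw [← Finset.mul_sum, sub_mul, mul_assoc 2, ← hdouble, Finset.mul_sum, Finset.mul_sum, ← Finset.sum_sub_distrib]
    refine Finset.sum_congr rfl fun u _ => ?_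
    rw [show (thetaOdd p u⁻¹ : ℂ) = ((thetaOdd p u⁻¹ : ℝ) : ℂ) by push_cast; rfl, thetaOdd_inv_eq hp3,
      show χ ((u⁻¹ : (ZMod p)ˣ) : ZMod p) = χ⁻¹ (u : ZMod p) by rw [MulChar.inv_apply', Units.val_inv_eq_inv_val], hf]
    push_cast
    ring
  rw [key]
  refine mul_ne_zero (fun e => ?_) (FA.OrderTheta.sum_sawTooth_ne_zero hinv)
  have h1 : ‖χ 2‖ ≤ 1 := χ.norm_le_one 2
  rw [show χ 2 = 2 by linear_combination e / 2] at h1
  norm_num at h1

/-- **Independence**: an odd relation among the translates of `θ` is zero. -/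
theorem eq_zero_of_sum_thetaOdd (hp3 : 3 ≤ p) {E : (ZMod p)ˣ → ℤ} (hodd : ∀ c, E (-c) = -E c)
    (h : ∀ d, ∑ c, E c * thetaOdd p (c⁻¹ * d) = 0) : E = 0 := by
  classical
  have hp : p.Prime := Fact.out
  have : NeZero p := ⟨hp.ne_zero⟩
  have hall : ∀ χ : DirichletCharacter ℂ p, ∑ c : (ZMod p)ˣ, (E c : ℂ) * χ (c : ZMod p) = 0 := by
    intro χ
    rcases DirichletCharacter.even_or_odd χ with he | ho
    · have e : ∑ c : (ZMod p)ˣ, (E c : ℂ) * χ (c : ZMod p) = -∑ c : (ZMod p)ˣ, (E c : ℂ) * χ (c : ZMod p) := by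
        rw [← Finset.sum_neg_distrib]
        refine Fintype.sum_equiv (Equiv.neg _) _ _ fun c => ?_
        rw [Equiv.neg_apply, hodd, Units.val_neg, he.eval_neg]
        push_cast
        ring
      linear_combination e / 2
    refine (mul_eq_zero.mp ?_).resolve_right (sum_thetaOdd_ne_zero hp3 ho)
    rw [Finset.sum_mul_sum]
    calc ∑ c : (ZMod p)ˣ, ∑ d : (ZMod p)ˣ, (E c : ℂ) * χ (c : ZMod p) * ((thetaOdd p d : ℂ) * χ (d : ZMod p))
        = ∑ c : (ZMod p)ˣ, ∑ d : (ZMod p)ˣ, (E c : ℂ) * (thetaOdd p (c⁻¹ * d) : ℂ) * χ (d : ZMod p) := by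
          refine Finset.sum_congr rfl fun c _ => Fintype.sum_equiv (Equiv.mulLeft c) _ _ fun d => ?_
          rw [Equiv.coe_mulLeft, inv_mul_cancel_left, Units.val_mul, map_mul]
          ring
      _ = ∑ d : (ZMod p)ˣ, χ (d : ZMod p) * ((∑ c, E c * thetaOdd p (c⁻¹ * d) : ℤ) : ℂ) := by
          rw [Finset.sum_comm]
          refine Finset.sum_congr rfl fun d _ => ?_
          push_cast
          rw [Finset.mul_sum]
          exact Finset.sum_congr rfl fun c _ => by ring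
      _ = 0 := Finset.sum_eq_zero fun d _ => by rw [h d, Int.cast_zero, mul_zero]
  funext b
  have h1 : ∑ χ : DirichletCharacter ℂ p, χ (b : ZMod p)⁻¹ * ∑ c : (ZMod p)ˣ, (E c : ℂ) * χ (c : ZMod p) =
      (p.totient : ℂ) * E b := by
    simp only [Finset.mul_sum]
    rw [Finset.sum_comm]
    simp only [mul_left_comm _ (E _ : ℂ), ← Finset.mul_sum,
      DirichletCharacter.sum_char_inv_mul_char_eq ℂ b.isUnit]
    simp [Units.val_inj, mul_comm]
  simp only [hall, mul_zero, Finset.sum_const_zero] at h1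
  have h2 := (mul_eq_zero.mp h1.symm).resolve_left
    (Nat.cast_ne_zero.mpr (Nat.totient_pos.mpr hp.pos).ne')
  exact_mod_cast h2

end FA.Catalan
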