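import Fermat.Agent.Catalan.NormBound
import Fermat.Agent.Catalan.StickelbergerKernel
import Fermat.Agent.Catalan.CasselsMain

/-!
# The products `(x - ζ)^Θ` that are `q`-th powers

`(x - ζ)^Θ` is a `q`-th power for the translates of the odd Stickelberger element, and is `1` only for
`Θ = 0`, as every conjugate of `x - ζ` lies in a prime not over `p` containing no other conjugate.
-/

set_option autoImplicit false

noncomputable section

open NumberField
open scoped BigOperators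

namespace FA.Catalan

variable (p : ℕ) [Fact p.Prime] (K : Type*) [Field K] [NumberField K] [IsCyclotomicExtension {p} ℚ K]

/-- `x - ζ^d`. -/
def linFactor (x : ℤ) (d : (ZMod p)ˣ) : 𝓞 K := (x : 𝓞 K) - FA.Ext.zetaInt p K ^ (d : ZMod p).val

/-- `(x - ζ)^Θ`. -/
def ratPow (x : ℤ) (Θ : (ZMod p)ˣ → ℤ) : K := ∏ d : (ZMod p)ˣ, ((linFactor p K x d : 𝓞 K) : K) ^ Θ d

theorem sigma_linFactor (x : ℤ) (c d : (ZMod p)ˣ) :
    FA.Ext.sigma p K c (linFactor p K x d) = linFactor p K x (c * d) := by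
  rw [linFactor, linFactor, map_sub, map_intCast, ← FA.Ext.sigma_zetaInt, ← FA.Ext.sigma_zetaInt,
    FA.Ext.sigma_mul_apply]

theorem linFactor_ne_zero (hp2 : p ≠ 2) {x : ℤ} (hx : x ≠ 1) (d : (ZMod p)ˣ) : linFactor p K x d ≠ 0 := by
  intro h
  rw [linFactor, sub_eq_zero] at h
  have h' := congrArg (· ^ p) h
  simp only [← pow_mul] at h'
  rw [mul_comm, pow_mul, (FA.Ext.zetaInt_spec p K).pow_eq_one, one_pow, ← Int.cast_pow, ← Int.cast_one,
    Int.cast_inj] at h'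
  have hodd := (Fact.out : p.Prime).odd_of_ne_two hp2
  exact hx (hodd.strictMono_pow.injective (show x ^ p = 1 ^ p by rw [h', one_pow]))

theorem linFactor_coe_ne_zero (hp2 : p ≠ 2) {x : ℤ} (hx : x ≠ 1) (d : (ZMod p)ˣ) :
    ((linFactor p K x d : 𝓞 K) : K) ≠ 0 :=
  RingOfIntegers.coe_ne_zero_iff.mpr (linFactor_ne_zero p K hp2 hx d)

/-- Numerator and denominator of `(x - ζ)^Θ`. -/
theorem ratPow_mul_eq (hp2 : p ≠ 2) {x : ℤ} (hx : x ≠ 1) (Θ : (ZMod p)ˣ → ℤ) :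
    ratPow p K x Θ * ((∏ d, linFactor p K x d ^ (-Θ d).toNat : 𝓞 K) : K) =
      ((∏ d, linFactor p K x d ^ (Θ d).toNat : 𝓞 K) : K) := by
  simp only [ratPow, RingOfIntegers.coe_eq_algebraMap, map_prod]
  rw [← Finset.prod_mul_distrib]
  refine Finset.prod_congr rfl fun d _ => ?_
  rw [map_pow, map_pow, ← zpow_natCast _ (-Θ d).toNat, ← zpow_natCast _ (Θ d).toNat,
    ← zpow_add₀ (linFactor_coe_ne_zero p K hp2 hx d)]
  congr 1
  omega

/-- Every translate of the odd Stickelberger element gives a `q`-th power. -/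
theorem exists_root_translate (hp3 : 3 ≤ p) {q : ℕ} [Fact q.Prime] (hq2 : Odd q) (hqp : (q : ZMod p) ≠ 0)
    {x v : ℤ} (hx : x ≠ 1) (hx1 : (p : ℤ) ∣ x - 1) (hqx : (q : ℤ) ∣ x)
    (hΦ : ∑ i ∈ Finset.range p, x ^ i = (p : ℤ) * v ^ q) (c : (ZMod p)ˣ) :
    ∃ α : K, α ^ q = ratPow p K x (fun d => thetaOdd p (c⁻¹ * d)) := by
  have hp2 : p ≠ 2 := by omega
  have hq : q.Prime := Fact.out
  obtain ⟨Γ, Δ, w, heq, hw⟩ := exists_miha_equation p K hp3 hq2 hqp hx1 hqx hΦ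
  have hΓ : Γ ≠ 0 := by
    rintro rfl
    rw [zero_pow hq.ne_zero, zero_mul, zero_sub, dvd_neg] at hw
    have hu : IsUnit ((q : ℕ) : 𝓞 K) := isUnit_of_dvd_one hw
    have h2 := hu.map (Algebra.norm ℤ)
    rw [show ((q : ℕ) : 𝓞 K) = algebraMap ℤ (𝓞 K) (q : ℤ) by simp, Algebra.norm_algebraMap,
      isUnit_pow_iff Module.finrank_pos.ne', Int.isUnit_iff_natAbs_eq, Int.natAbs_natCast] at h2
    exact hq.ne_one h2
  set Γc := FA.Ext.sigma p K c Γ
  set Δc := FA.Ext.sigma p K c Δ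
  have hΓc : (Γc : K) ≠ 0 := RingOfIntegers.coe_ne_zero_iff.mpr fun e =>
    hΓ ((FA.Ext.sigma p K c).injective (e.trans (map_zero _).symm))
  refine ⟨(Δc : K) / Γc, ?_⟩
  rw [div_pow, div_eq_iff (pow_ne_zero q hΓc)]
  have h := congrArg (fun t : 𝓞 K => ((FA.Ext.sigma p K c t : 𝓞 K) : K)) heq
  simp only [mihaX, mihaXbar, map_mul, map_prod, map_pow] at h
  simp only [← linFactor.eq_1, sigma_linFactor] at h
  have e1 : ∀ f : (ZMod p)ˣ → (ZMod p)ˣ, (∀ d, linFactor p K x d ≠ 0) →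
      (∏ d, algebraMap (𝓞 K) K (linFactor p K x (f d)) ^ stickTwo p d) ≠ 0 := fun f h0 =>
    Finset.prod_ne_zero_iff.mpr fun d _ => pow_ne_zero _ (RingOfIntegers.coe_ne_zero_iff.mpr (h0 _))
  refine mul_left_cancel₀ (e1 (fun d => c * d) (linFactor_ne_zero p K hp2 hx)) ?_
  rw [← mul_assoc, ← RingOfIntegers.coe_eq_algebraMap] at *
  refine h.symm.trans ?_
  congr 1
  have e2 : ∀ f : (ZMod p)ˣ ≃ (ZMod p)ˣ, ∏ d, ((linFactor p K x (f d) : 𝓞 K) : K) ^ stickTwo p d =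
      ∏ d, ((linFactor p K x d : 𝓞 K) : K) ^ (stickTwo p (f.symm d) : ℤ) := fun f =>
    Fintype.prod_equiv f _ _ fun d => by rw [zpow_natCast, f.symm_apply_apply]
  rw [show (∏ d, ((linFactor p K x (c * -d) : 𝓞 K) : K) ^ stickTwo p d) =
      ∏ d, ((linFactor p K x d : 𝓞 K) : K) ^ (stickTwo p (-(c⁻¹ * d)) : ℤ) from
      e2 ((Equiv.neg _).trans (Equiv.mulLeft c)),
    show (∏ d, ((linFactor p K x (c * d) : 𝓞 K) : K) ^ stickTwo p d) =
      ∏ d, ((linFactor p K x d : 𝓞 K) : K) ^ (stickTwo p (c⁻¹ * d) : ℤ) from e2 (Equiv.mulLeft c),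
    ratPow, ← Finset.prod_mul_distrib]
  refine Finset.prod_congr rfl fun d _ => ?_
  rw [← zpow_add₀ (linFactor_coe_ne_zero p K hp2 hx d), thetaOdd]
  congr 1
  ring

/-- `(x - ζ)^Θ = 1` only for `Θ = 0`. -/
theorem eq_zero_of_ratPow_eq_one (hp3 : 3 ≤ p) {x v : ℤ} {q : ℕ} (hx : x ≠ 1) (hx1 : (p : ℤ) ∣ x - 1)
    (hΦ : ∑ i ∈ Finset.range p, x ^ i = (p : ℤ) * v ^ q) (hv : ¬ IsUnit v) (hq : q ≠ 0)
    {Θ : (ZMod p)ˣ → ℤ} (h : ratPow p K x Θ = 1) : Θ = 0 := by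
  classical
  have hp : p.Prime := Fact.out
  have hp2 : p ≠ 2 := by omega
  have : NeZero p := ⟨hp.ne_zero⟩
  have H := FA.Regular.cycloRing_ringOfIntegers (K := K) (p := p) hp3 (IsCyclotomicExtension.zeta_spec p ℚ K)
  change FA.Regular.CycloRing (𝓞 K) p (FA.Ext.zetaInt p K) at H
  set z := FA.Ext.zetaInt p K with hz
  obtain ⟨m, hm⟩ := hx1
  obtain ⟨s, hs⟩ : (z - 1) ^ 2 ∣ (p : 𝓞 K) := (pow_dvd_pow _ (by omega)).trans H.lam_dvd_prime
  set G : 𝓞 K := 1 - (m : 𝓞 K) * (z - 1) * s with hG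
  have hxm : (x : 𝓞 K) = 1 + (p : 𝓞 K) * m := by
    have := congrArg (Int.cast : ℤ → 𝓞 K) hm
    push_cast at this
    linear_combination this
  have h1G : (1 - z) * G = linFactor p K x 1 := by
    rw [linFactor, Units.val_one, ZMod.val_one_eq_one_mod, Nat.one_mod_eq_one.mpr (by omega), pow_one, hG,
      hxm, hs, ← hz]
    ring
  have hGd : ∀ d : (ZMod p)ˣ, (1 - z ^ (d : ZMod p).val) * FA.Ext.sigma p K d G = linFactor p K x d := fun d => by
    have h2 := congrArg (FA.Ext.sigma p K d) h1G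
    rwa [map_mul, map_sub, map_one, sigma_linFactor, mul_one, hz, FA.Ext.sigma_zetaInt] at h2
  have hnu : ¬ IsUnit G := fun hu => by
    have hall : IsUnit (∏ d : (ZMod p)ˣ, FA.Ext.sigma p K d G) :=
      IsUnit.prod_univ_iff.mpr fun d => hu.map _
    have hprod : ∏ d : (ZMod p)ˣ, FA.Ext.sigma p K d G = (v : 𝓞 K) ^ q := by
      refine mul_left_cancel₀ (Nat.cast_ne_zero.mpr hp.ne_zero : (p : 𝓞 K) ≠ 0) ?_
      have h1 := prod_sub_zeta_pow p K 1
      simp only [one_pow, Finset.sum_const, Finset.card_range, nsmul_one] at h1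
      nth_rewrite 1 [← h1]
      rw [← Finset.prod_mul_distrib, Finset.prod_congr rfl fun d _ => hGd d]
      exact (prod_sub_zeta_pow p K (x : 𝓞 K)).trans (by exact_mod_cast congrArg (Int.cast : ℤ → 𝓞 K) hΦ)
    rw [hprod, isUnit_pow_iff hq] at hall
    have h2 := hall.map (Algebra.norm ℤ)
    rw [show ((v : ℤ) : 𝓞 K) = algebraMap ℤ (𝓞 K) v by simp, Algebra.norm_algebraMap,
      isUnit_pow_iff Module.finrank_pos.ne'] at h2
    exact hv h2
  obtain ⟨P, hP, hGP⟩ := exists_max_ideal_of_mem_nonunits hnu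
  have hpP : (p : 𝓞 K) ∉ P := by
    intro hpP
    have hl : z - 1 ∈ P := by
      obtain ⟨u, hu⟩ := H.assoc
      rw [← hu] at hpP
      exact hP.isPrime.mem_of_pow_mem _ ((hP.isPrime.mem_or_mem hpP).resolve_right
        fun h' => hP.ne_top (Ideal.eq_top_of_isUnit_mem _ h' u.isUnit))
    refine hP.ne_top ((Ideal.eq_top_iff_one _).mpr ?_)
    have := P.add_mem hGP (P.mul_mem_right s (P.mul_mem_left (m : 𝓞 K) hl))
    rwa [hG, sub_add_cancel] at this
  have hLP : linFactor p K x 1 ∈ P := h1G ▸ P.mul_mem_left _ hGP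
  set A : 𝓞 K := ∏ d, linFactor p K x d ^ (Θ d).toNat with hA
  set B : 𝓞 K := ∏ d, linFactor p K x d ^ (-Θ d).toNat with hB
  have hAB : A = B := by
    have := ratPow_mul_eq p K hp2 hx Θ
    rw [h, one_mul] at this
    exact RingOfIntegers.ext this.symm
  -- a prime containing exactly one factor
  have key : ∀ d : (ZMod p)ˣ, ∀ (f g : (ZMod p)ˣ → ℕ), f d ≠ 0 → g d = 0 →
      ∏ e, linFactor p K x e ^ f e ≠ ∏ e, linFactor p K x e ^ g e := by
    intro d f g hf hg he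
    set Q : Ideal (𝓞 K) := P.comap (FA.Ext.sigma p K d⁻¹ : 𝓞 K →+* 𝓞 K)
    have : P.IsPrime := hP.isPrime
    have hQ : Q.IsPrime := Ideal.comap_isPrime _ P
    have hQd : linFactor p K x d ∈ Q := by
      show FA.Ext.sigma p K d⁻¹ _ ∈ P
      rwa [sigma_linFactor, inv_mul_cancel]
    have hQp : (p : 𝓞 K) ∉ Q := fun hh => hpP (by
      have : FA.Ext.sigma p K d⁻¹ (p : 𝓞 K) ∈ P := hh
      rwa [map_natCast] at this)
    have hmem : ∏ e, linFactor p K x e ^ g e ∈ Q := by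
      rw [← he, ← Finset.mul_prod_erase _ _ (Finset.mem_univ d)]
      exact Q.mul_mem_right _ (Q.pow_mem_of_mem hQd _ (Nat.pos_of_ne_zero hf))
    obtain ⟨e, -, hee⟩ := hQ.prod_mem_iff.mp hmem
    have hge : g e ≠ 0 := fun e0 => by
      rw [e0, pow_zero] at hee
      exact hQ.ne_top ((Ideal.eq_top_iff_one _).mpr hee)
    have heQ := hQ.mem_of_pow_mem _ hee
    have hdiff : z ^ (e : ZMod p).val - z ^ (d : ZMod p).val ∈ Q := by
      have := Q.sub_mem hQd heQ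
      rwa [linFactor, linFactor, sub_sub_sub_cancel_left] at this
    obtain rfl : e = d := Units.ext (ZMod.val_injective p
      (FA.Ext.pow_eq_of_sub_mem H.prim hQp (ZMod.val_lt _) (ZMod.val_lt _) hdiff))
    exact hge hg
  funext d
  rcases lt_trichotomy (Θ d) 0 with hlt | heq | hgt
  · exact absurd hAB.symm (key d _ _ (show (-Θ d).toNat ≠ 0 by omega) (show (Θ d).toNat = 0 by omega))
  · exact heq
  · exact absurd hAB (key d _ _ (show (Θ d).toNat ≠ 0 by omega) (show (-Θ d).toNat = 0 by omega))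

end FA.Catalan
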