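import Fermat.Agent.CM.Cubic.Eisenstein
import Fermat.Agent.Catalan.CasselsMain

/-!
# Nagell's equation `x² + x + 1 = 3 y^p`

In `ℤ[ω]` it gives `γ^p + γ̄^p = 1`; the trace of `γ` is `± 1` and the Lucas congruence
`2 V_n ≡ 2 - 2 n u + n (n - 3) u² (mod 2 u³)` makes the norm `u` equal to one.
-/

set_option autoImplicit false

noncomputable section

namespace FA.Catalan

open FA.CM.Cubic

local notation "ℤω" => FA.CM.Cubic.EInt

/-- The Eisenstein integers form a principal ideal ring. -/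
theorem isPrincipalIdealRing_eInt : IsPrincipalIdealRing ℤω := by
  classical
  refine ⟨fun I => ?_⟩
  by_cases hI : I = ⊥
  · exact ⟨⟨0, by rw [hI]; simp⟩⟩
  obtain ⟨b₀, hb₀, hb₀0⟩ := (Submodule.ne_bot_iff I).mp hI
  have hex : ∃ n : ℕ, ∃ b ∈ I, b ≠ 0 ∧ b.norm.natAbs = n := ⟨_, b₀, hb₀, hb₀0, rfl⟩
  obtain ⟨b, hb, hb0, hbn⟩ := Nat.find_spec hex
  refine ⟨⟨b, le_antisymm (fun a ha => ?_) ((Submodule.span_singleton_le_iff_mem _ _).mpr hb)⟩⟩
  rw [Submodule.mem_span_singleton]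
  have hN : 0 < b.norm := by
    have h1 : b.norm ≠ 0 := fun e => hb0 (norm_eq_zero'.mp e)
    have h2 : 0 ≤ b.norm := by rw [norm_eq]; nlinarith [sq_nonneg (2 * b.re - b.im), sq_nonneg b.im]
    omega
  set N := b.norm with hNdef
  set c := a * star b with hc
  set q : ℤω := ⟨(2 * c.re + N) / (2 * N), (2 * c.im + N) / (2 * N)⟩ with hq
  refine ⟨q, ?_⟩
  by_contra hne
  have hr : a - q * b ∈ I := I.sub_mem ha (I.mul_mem_left q hb)
  have hr0 : a - q * b ≠ 0 := fun e => hne (by rw [smul_eq_mul]; exact (sub_eq_zero.mp e).symm)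
  have hmin := Nat.find_min' hex ⟨_, hr, hr0, rfl⟩
  rw [← hbn] at hmin
  have hrb : (a - q * b) * star b = c - q * (N : ℤω) := by
    rw [hc, hNdef, ← norm_mul_star]; ring
  have hnorm := congrArg QuadraticAlgebra.norm hrb
  rw [map_mul, show (star b).norm = N by rw [hNdef, norm_eq, norm_eq, re_star', QuadraticAlgebra.im_star]; ring] at hnorm
  set e := c.re - q.re * N
  set f := c.im - q.im * N
  have hef : (c - q * (N : ℤω)).norm = e ^ 2 - e * f + f ^ 2 := by
    rw [norm_eq]; simp [e, f]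
  rw [hef] at hnorm
  have hb1 : ∀ t : ℤ, -N ≤ 2 * (t - (2 * t + N) / (2 * N) * N) ∧ 2 * (t - (2 * t + N) / (2 * N) * N) ≤ N := by
    intro t
    have h1 := Int.emod_add_mul_ediv (2 * t + N) (2 * N)
    have h2 := Int.emod_nonneg (2 * t + N) (show 2 * N ≠ 0 by omega)
    have h3 := Int.emod_lt_of_pos (2 * t + N) (show 0 < 2 * N by omega)
    constructor <;> nlinarith
  obtain ⟨he1, he2⟩ : -N ≤ 2 * e ∧ 2 * e ≤ N := hb1 c.re
  obtain ⟨hf1, hf2⟩ : -N ≤ 2 * f ∧ 2 * f ≤ N := hb1 c.im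
  have hrN : 0 ≤ (a - q * b).norm := by
    rw [norm_eq]; nlinarith [sq_nonneg (2 * (a - q * b).re - (a - q * b).im), sq_nonneg (a - q * b).im]
  have : (a - q * b).norm < N := by
    by_contra hlt
    nlinarith [mul_le_mul_of_nonneg_right (not_lt.mp hlt) hN.le, mul_nonneg (sub_nonneg.mpr he2) (sub_nonneg.mpr hf1),
      mul_nonneg (sub_nonneg.mpr he1) (sub_nonneg.mpr hf2), mul_nonneg (sub_nonneg.mpr he2) (sub_nonneg.mpr he1),
      mul_nonneg (sub_nonneg.mpr hf2) (sub_nonneg.mpr hf1), mul_pos hN hN]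
  omega

/-- The traces of the powers. -/
theorem lucas_congr {c u : ℤ} {V : ℕ → ℤ} (hc : c * c = 1) (h0 : V 0 = 2) (h1 : V 1 = c)
    (hrec : ∀ n, V (n + 2) = c * V (n + 1) - u * V n) :
    ∀ n, ∃ K : ℤ, 2 * (c ^ (n + 3) * V (n + 3)) =
      2 - 2 * (n + 3) * u + (n + 3) * n * u ^ 2 + 2 * u ^ 3 * K := by
  have e2 : V 2 = 1 - 2 * u := by rw [hrec 0, h1, h0]; linear_combination hc
  have e3 : V 3 = c * (1 - 3 * u) := by rw [hrec 1, e2, h1]; ring
  have e4 : V 4 = 1 - 4 * u + 2 * u ^ 2 := by rw [hrec 2, e3, e2]; linear_combination (1 - 3 * u) * hc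
  have key : ∀ n, (∃ K : ℤ, 2 * (c ^ (n + 3) * V (n + 3)) =
      2 - 2 * (n + 3) * u + (n + 3) * n * u ^ 2 + 2 * u ^ 3 * K) ∧ ∃ K : ℤ, 2 * (c ^ (n + 4) * V (n + 4)) =
      2 - 2 * (n + 4) * u + (n + 4) * (n + 1) * u ^ 2 + 2 * u ^ 3 * K := by
    intro n
    induction n with
    | zero =>
      refine ⟨⟨0, ?_⟩, ⟨0, ?_⟩⟩
      · rw [e3]; push_cast; linear_combination (2 * (1 - 3 * u) * (c * c + 1)) * hc
      · rw [e4]; push_cast; linear_combination (2 * (1 - 4 * u + 2 * u ^ 2) * (c * c + 1)) * hc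
    | succ n ih =>
      obtain ⟨⟨K, hK⟩, ⟨K', hK'⟩⟩ := ih
      refine ⟨⟨K', by push_cast at hK' ⊢; rw [show n + 1 + 3 = n + 4 from rfl, hK']; ring⟩, ⟨K' - u * K - ((n : ℤ) + 3) * n / 2, ?_⟩⟩
      have hd : (2 : ℤ) ∣ ((n : ℤ) + 3) * n := by
        rcases Int.even_or_odd (n : ℤ) with ⟨k, hk⟩ | ⟨k, hk⟩
        · exact ⟨((n : ℤ) + 3) * k, by rw [hk]; ring⟩
        · exact ⟨(k + 2) * n, by rw [hk]; ring⟩
      have hd' := Int.mul_ediv_cancel' hd
      rw [show n + 1 + 4 = n + 3 + 2 from rfl, hrec (n + 3), show n + 3 + 1 = n + 4 from rfl]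
      push_cast at hK' ⊢
      have hp1 : c ^ (n + 3 + 2) * c = c ^ (n + 4) := by
        rw [show n + 3 + 2 = n + 4 + 1 from rfl, pow_succ, mul_assoc, hc, mul_one]
      have hp2 : c ^ (n + 3 + 2) = c ^ (n + 3) := by rw [pow_add _ (n + 3) 2, sq, hc, mul_one]
      linear_combination hK' - u * hK + 2 * V (n + 4) * hp1 - 2 * u * V (n + 3) * hp2 + u ^ 3 * hd'
  exact fun n => (key n).1

/-- **Nagell's theorem** (1921) for a prime exponent. -/
theorem nagell {p : ℕ} (hp : p.Prime) (hp5 : 5 ≤ p) {x y : ℤ} (h : x ^ 2 + x + 1 = 3 * y ^ p) :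
    x = 1 ∨ x = -2 := by
  have hodd : Odd p := hp.odd_of_ne_two (by omega)
  obtain ⟨k, rfl⟩ : ∃ k, x = 1 + 3 * k := by
    have h0 : ((x ^ 2 + x + 1 : ℤ) : ZMod 3) = 0 := (ZMod.intCast_zmod_eq_zero_iff_dvd _ 3).mpr ⟨_, h⟩
    push_cast at h0
    have h1 : ((x - 1 : ℤ) : ZMod 3) = 0 := by
      push_cast
      exact (by decide : ∀ z : ZMod 3, z ^ 2 + z + 1 = 0 → z - 1 = 0) _ h0
    obtain ⟨k, hk⟩ := (ZMod.intCast_zmod_eq_zero_iff_dvd _ 3).mp h1
    exact ⟨k, by push_cast at hk; linear_combination hk⟩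
  set B : ℤω := ⟨1 + 2 * k, k⟩ with hB
  have hBB : B * star B = (y : ℤω) ^ p := by
    rw [norm_mul_star, ← Int.cast_pow, norm_eq, hB,
      show y ^ p = 1 + 3 * k + 3 * k ^ 2 from mul_left_cancel₀ (show (3 : ℤ) ≠ 0 by norm_num) (by
        linear_combination -h)]
    push_cast
    ring
  have hcop : IsCoprime B (star B) := by
    have hi : IsCoprime (2 + 3 * k) (y ^ p) := ⟨-(1 + 3 * k), 3, by linear_combination -h⟩
    obtain ⟨a, b, hab⟩ := hi
    have hsum : B + star B = ((2 + 3 * k : ℤ) : ℤω) := by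
      obtain ⟨m, hm⟩ : ∃ m, m = 2 + 3 * k := ⟨_, rfl⟩
      rw [hB, ← hm]
      ext <;> simp <;> omega
    have h1 : ((a : ℤω) * ((2 + 3 * k : ℤ) : ℤω) + (b : ℤω) * ((y ^ p : ℤ) : ℤω)) = 1 := by
      rw [← Int.cast_mul, ← Int.cast_mul, ← Int.cast_add, hab, Int.cast_one]
    rw [← hsum, Int.cast_pow, ← hBB] at h1
    exact ⟨(a : ℤω) + (b : ℤω) * star B, (a : ℤω), by linear_combination h1⟩
  have := isPrincipalIdealRing_eInt
  obtain ⟨δ, u, hu⟩ := exists_associated_pow_of_mul_eq_pow' hcop hBB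
  -- `-ω² B = γ^p`
  have hu6 : ∀ v : ℤω, v.norm = 1 → v ^ 6 = 1 := by
    intro v hv
    rw [norm_eq] at hv
    obtain ⟨r, i⟩ := v
    simp only at hv
    have hr : r ≤ 1 := by nlinarith [sq_nonneg (2 * i - r)]
    have hr' : -1 ≤ r := by nlinarith [sq_nonneg (2 * i - r)]
    have hi : i ≤ 1 := by nlinarith [sq_nonneg (2 * r - i)]
    have hi' : -1 ≤ i := by nlinarith [sq_nonneg (2 * r - i)]
    interval_cases r <;> interval_cases i <;> first | omega | decide
  have hun : (u : ℤω).norm = 1 := by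
    have h1 : IsUnit (u : ℤω).norm := u.isUnit.map QuadraticAlgebra.norm
    have h2 : 0 ≤ (u : ℤω).norm := by
      rw [norm_eq]; nlinarith [sq_nonneg (2 * (u : ℤω).re - (u : ℤω).im), sq_nonneg (u : ℤω).im]
    rcases Int.isUnit_iff.mp h1 with e | e <;> omega
  set w : ℤω := ⟨1, 1⟩ with hw
  have hwn : w.norm = 1 := by rw [norm_eq, hw]; norm_num
  have hp6 : p * p % 6 = 1 := by
    have h3 : p % 3 ≠ 0 := fun e => by
      have := (Nat.prime_dvd_prime_iff_eq Nat.prime_three hp).mp (Nat.dvd_of_mod_eq_zero e)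
      omega
    rw [Nat.odd_iff] at hodd
    rw [Nat.mul_mod]
    rcases (show p % 6 = 1 ∨ p % 6 = 5 by omega) with e | e <;> rw [e]
  have hroot : ∀ v : ℤω, v.norm = 1 → (v ^ p) ^ p = v := fun v hv => by
    rw [← pow_mul, ← Nat.div_add_mod (p * p) 6, hp6, pow_add, pow_mul, hu6 v hv, one_pow, one_mul, pow_one]
  obtain ⟨γ, hγdef⟩ : ∃ γ : ℤω, γ = w ^ p * (δ * (u : ℤω) ^ p) := ⟨_, rfl⟩
  have hγ : γ ^ p = w * B := by
    rw [hγdef, mul_pow, mul_pow, hroot w hwn, hroot _ hun, hu]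
  -- traces
  set V : ℕ → ℤ := fun n => 2 * (γ ^ n).re - (γ ^ n).im with hV
  set c := 2 * γ.re - γ.im with hc
  have hrec : ∀ n, V (n + 2) = c * V (n + 1) - γ.norm * V n := by
    intro n
    simp only [hV, hc, norm_eq, pow_succ, QuadraticAlgebra.re_mul, QuadraticAlgebra.im_mul]
    ring
  have hV1 : V 1 = c := by simp [hV, hc]
  have hV0 : V 0 = 2 := by simp only [hV, pow_zero]; rfl
  have hVp : V p = 1 := by
    simp only [hV]
    rw [hγ, hw, hB]
    simp
    ring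
  have hcdvd : ∀ n, c ∣ V (2 * n + 1) := by
    intro n
    induction n with
    | zero => rw [mul_zero, zero_add, hV1]
    | succ n ih =>
      rw [show 2 * (n + 1) + 1 = (2 * n + 1) + 2 by ring, hrec]
      exact (dvd_mul_right _ _).sub (ih.mul_left _)
  obtain ⟨j, hj⟩ := hodd
  have hc1 : c * c = 1 := by
    have := hcdvd j
    rw [← hj, hVp] at this
    rcases Int.isUnit_iff.mp (isUnit_of_dvd_one this) with e | e <;> rw [e] <;> norm_num
  set N := γ.norm with hN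
  have hNc : 4 * N = 1 + 3 * γ.im ^ 2 := by
    rw [hN, norm_eq]; linear_combination hc1
  have hNy : N ^ p = y ^ p := by
    have := congrArg QuadraticAlgebra.norm hγ
    rw [map_pow, map_mul, hwn, one_mul] at this
    rw [hN, this]
    have h2 := hBB
    rw [norm_mul_star, ← Int.cast_pow] at h2
    exact Int.cast_injective (α := ℤω) h2
  have hN1 : N = 1 := by
    obtain ⟨K, hK⟩ := lucas_congr hc1 hV0 hV1 hrec (p - 3)
    have hpe : ((p - 3 : ℕ) : ℤ) = (p : ℤ) - 3 := by omega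
    have hcp : c ^ p = c := by rw [hj, pow_succ, pow_mul, sq, hc1, one_pow, one_mul]
    rw [show p - 3 + 3 = p by omega, hVp, mul_one, hcp, hpe, sub_add_cancel] at hK
    have hNpos : 0 < N := by nlinarith [sq_nonneg γ.im]
    have hodd' : Odd γ.im := by
      rcases Int.even_or_odd γ.im with ⟨i, hi⟩ | ho
      · rw [hi, show 1 + 3 * (i + i) ^ 2 = 1 + 4 * (3 * i ^ 2) by ring] at hNc
        omega
      · exact ho
    obtain ⟨i, hi⟩ := hodd'
    obtain ⟨i', hi'⟩ : Even (i * (i + 1)) := Int.even_mul_succ_self i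
    have hN6 : N = 1 + 6 * i' := by
      rw [hi] at hNc
      have : 4 * N = 4 * (1 + 6 * i') := by linear_combination hNc + 12 * hi'
      omega
    rcases mul_self_eq_one_iff.mp hc1 with e | e
    · rw [e, mul_one, eq_comm, ← sub_eq_zero] at hK
      have h2p : 2 * (p : ℤ) = N * ((p : ℤ) * ((p : ℤ) - 3) + 2 * N * K) := by
        refine mul_left_cancel₀ hNpos.ne' ?_
        linear_combination -hK
      have hdvd : N.natAbs ∣ 2 * p := Int.natAbs_dvd_natAbs.mpr (show N ∣ 2 * (p : ℤ) from ⟨_, h2p⟩) |>.trans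
        (by simp [Int.natAbs_mul])
      obtain ⟨d, d', hd, hd', hdd⟩ := Nat.dvd_mul.mp hdvd
      rcases (Nat.dvd_prime Nat.prime_two).mp hd with rfl | rfl
      · rcases (Nat.dvd_prime hp).mp hd' with rfl | rfl
        · omega
        · exfalso
          have hNp : N = (d' : ℤ) := by omega
          rw [hNp] at h2p
          have h3 : (2 : ℤ) = (d' : ℤ) * ((d' : ℤ) - 3 + 2 * K) := by
            refine mul_left_cancel₀ (show (d' : ℤ) ≠ 0 by omega) ?_
            linear_combination h2p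
          have h4 := Int.le_of_dvd two_pos ⟨_, h3⟩
          omega
      · omega
    · rw [e] at hK
      have h4 : N ∣ 4 := ⟨2 * (p : ℤ) - (p : ℤ) * ((p : ℤ) - 3) * N - 2 * N ^ 2 * K, by linear_combination -hK⟩
      have := Int.le_of_dvd (by norm_num) h4
      omega
  rw [hN1, one_pow] at hNy
  rw [← hNy] at h
  have h5 : (1 + 3 * k - 1) * (1 + 3 * k + 2) = 0 := by linear_combination h
  rcases mul_eq_zero.mp h5 with e | e
  · left; linarith
  · right; linarith

/-- Catalan's equation with exponent three on the left. -/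
theorem cube_sub_pow_ne_one {q : ℕ} (hq : q.Prime) (hq5 : 5 ≤ q) {x y : ℤ} (hy : y ≠ 0) (hx : x ≠ 0) :
    x ^ 3 - y ^ q ≠ 1 := by
  intro h
  have h3 : Odd 3 := by decide
  have hq2 : Odd q := hq.odd_of_ne_two (by omega)
  have hdvd := cassels_dvd Nat.prime_three hq h3 hq2 hx hy h
  obtain ⟨a, v, -, ha, hyv, -⟩ := exists_pow_of_dvd Nat.prime_three h3 hq2 h hdvd
  push_cast at ha hyv
  have hx1 : x - 1 ≠ 0 := fun e => by
    obtain rfl : x = 1 := by linear_combination e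
    exact hy ((pow_eq_zero_iff hq.ne_zero).mp (by linear_combination -h))
  have h2 : x ^ 2 + x + 1 = 3 * v ^ q := by
    refine mul_left_cancel₀ hx1 ?_
    have h3q : (3 : ℤ) ^ q = 3 ^ (q - 1) * 3 := by rw [← pow_succ, Nat.sub_add_cancel hq.one_le]
    have h5 : y ^ q = (x - 1) * (3 * v ^ q) := by rw [hyv, ha, mul_pow, mul_pow, h3q]; ring
    linear_combination h + h5
  rcases nagell hq hq5 h2 with rfl | rfl
  · exact hx1 (by norm_num)
  · have h6 : (3 : ℤ) ^ 4 ∣ (-3 : ℤ) :=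
      (pow_dvd_pow 3 (show 4 ≤ q - 1 by omega)).trans ⟨a ^ q, by linear_combination ha⟩
    norm_num at h6

end FA.Catalan
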