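import Mathlib.NumberTheory.NumberField.Basic
import Mathlib.NumberTheory.NumberField.Norm
import Mathlib.RingTheory.Ideal.Norm.AbsNorm
import Mathlib.Data.Sym.Card

/-!
# A lower bound for `N(α - 1)` and a count of exponent vectors

If `α^q B = A` with `A`, `B` integral then the denominator ideal `B₁` of `α` satisfies `B₁^q ∣ B`, so
`1 ≤ |N(α - 1)|^q |N B|`.
-/

set_option autoImplicit false

noncomputable section

open NumberField

namespace FA.Catalan

variable {K : Type*} [Field K] [NumberField K]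

/-- The denominator of a `q`-th root of `A / B` has norm at most `|N B|^(1/q)`. -/
theorem one_le_norm_sub_one_pow_mul {q : ℕ} {A B : 𝓞 K} (hB : B ≠ 0) {α : K} (h1 : α ≠ 1)
    (h : α ^ q * (B : K) = (A : K)) :
    1 ≤ |Algebra.norm ℚ (α - 1)| ^ q * |Algebra.norm ℚ (B : K)| := by
  obtain ⟨β, γ, hγ, hα⟩ := IsFractionRing.div_surjective (A := 𝓞 K) α
  have hγ0 : (γ : K) ≠ 0 := RingOfIntegers.coe_ne_zero_iff.mpr (nonZeroDivisors.ne_zero hγ)
  subst hα
  obtain ⟨g, hg⟩ : ∃ g : Ideal (𝓞 K), g = Ideal.span {β} ⊔ Ideal.span {γ} := ⟨_, rfl⟩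
  have hle1 : Ideal.span {β} ≤ g := hg ▸ le_sup_left
  have hle2 : Ideal.span {γ} ≤ g := hg ▸ le_sup_right
  have hg0 : g ≠ ⊥ := fun e => by
    rw [hg, sup_eq_bot_iff, Ideal.span_singleton_eq_bot, Ideal.span_singleton_eq_bot] at e
    exact nonZeroDivisors.ne_zero hγ e.2
  obtain ⟨A₁, hA₁⟩ := Ideal.dvd_iff_le.mpr hle1
  obtain ⟨B₁, hB₁⟩ := Ideal.dvd_iff_le.mpr hle2
  have hcop : IsCoprime A₁ B₁ := by
    rw [Ideal.isCoprime_iff_sup_eq]
    refine mul_left_cancel₀ hg0 ?_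
    rw [Ideal.mul_sup, ← hA₁, ← hB₁, Ideal.mul_top, hg]
  have e : β ^ q * B = γ ^ q * A := by
    refine RingOfIntegers.ext ?_
    push_cast
    rw [← RingOfIntegers.coe_eq_algebraMap β, ← RingOfIntegers.coe_eq_algebraMap γ] at h
    rw [div_pow, div_mul_eq_mul_div, div_eq_iff (pow_ne_zero q hγ0)] at h
    linear_combination h
  have hI := congrArg (fun t : 𝓞 K => Ideal.span {t}) e
  rw [← Ideal.span_singleton_mul_span_singleton, ← Ideal.span_singleton_mul_span_singleton, ← Ideal.span_singleton_pow,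
    ← Ideal.span_singleton_pow, hA₁, hB₁, mul_pow, mul_pow, mul_assoc, mul_assoc] at hI
  have hdvd : B₁ ^ q ∣ Ideal.span {B} :=
    (hcop.symm.pow).dvd_of_dvd_mul_left ⟨Ideal.span {A}, mul_left_cancel₀ (pow_ne_zero q hg0) hI⟩
  have hnorm : ∀ t : 𝓞 K, (Ideal.absNorm (Ideal.span {t}) : ℚ) = |Algebra.norm ℚ (t : K)| := fun t => by
    rw [Ideal.absNorm_span_singleton, ← Algebra.coe_norm_int, Nat.cast_natAbs, Int.cast_abs]
  have h2 : ((Ideal.absNorm B₁ : ℕ) : ℚ) ^ q ≤ |Algebra.norm ℚ (B : K)| := by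
    rw [← hnorm, ← Nat.cast_pow, ← map_pow]
    refine Nat.cast_le.mpr (Nat.le_of_dvd ?_ (map_dvd Ideal.absNorm hdvd))
    refine Nat.pos_of_ne_zero fun e0 => hB ?_
    rwa [Ideal.absNorm_eq_zero_iff, Ideal.span_singleton_eq_bot] at e0
  have hne : β - γ ≠ 0 := fun e0 => h1 (by
    rw [sub_eq_zero.mp e0]
    exact div_self hγ0)
  have h3 : (Ideal.absNorm g : ℚ) ≤ |Algebra.norm ℚ ((β - γ : 𝓞 K) : K)| := by
    rw [← hnorm]
    refine Nat.cast_le.mpr (Nat.le_of_dvd ?_ (Ideal.absNorm_dvd_absNorm_of_le ?_))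
    · exact Nat.pos_of_ne_zero fun e0 => hne (by rwa [Ideal.absNorm_eq_zero_iff, Ideal.span_singleton_eq_bot] at e0)
    · rw [Ideal.span_singleton_le_iff_mem]
      exact g.sub_mem (hle1 (Ideal.mem_span_singleton_self β)) (hle2 (Ideal.mem_span_singleton_self γ))
  have hγn : |Algebra.norm ℚ (γ : K)| = (Ideal.absNorm g : ℚ) * Ideal.absNorm B₁ := by
    rw [← hnorm, hB₁, map_mul, Nat.cast_mul]
  have hgpos : 0 < (Ideal.absNorm g : ℚ) :=
    Nat.cast_pos.mpr (Nat.pos_of_ne_zero fun e0 => hg0 (Ideal.absNorm_eq_zero_iff.mp e0))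
  have hγnn : |Algebra.norm ℚ (γ : K)| ≠ 0 := abs_ne_zero.mpr (Algebra.norm_ne_zero_iff.mpr hγ0)
  have hB1pos : 0 < (Ideal.absNorm B₁ : ℚ) := (Nat.cast_nonneg _).lt_of_ne' fun e0 => hγnn (by rw [hγn, e0, mul_zero])
  have key : 1 ≤ |Algebra.norm ℚ ((β : K) / γ - 1)| * (Ideal.absNorm B₁ : ℚ) := by
    have e1 : ((β : K) / γ - 1) * (γ : K) = ((β - γ : 𝓞 K) : K) := by
      push_cast
      rw [sub_mul, div_mul_cancel₀ _ hγ0, one_mul]
    rw [← e1, map_mul, abs_mul, hγn, mul_comm (Ideal.absNorm g : ℚ), ← mul_assoc] at h3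
    exact (le_mul_iff_one_le_left hgpos).mp h3
  calc (1 : ℚ) ≤ (|Algebra.norm ℚ ((β : K) / γ - 1)| * (Ideal.absNorm B₁ : ℚ)) ^ q := one_le_pow₀ key
    _ ≤ _ := by
      rw [mul_pow]
      exact mul_le_mul_of_nonneg_left h2 (pow_nonneg (abs_nonneg _) _)

/-- Enough exponent vectors: `C(s + N, N)` beats `8 (s + 1) N² / 3`. -/
theorem eight_mul_le_three_mul_choose {N s : ℕ}
    (h : (N = 2 ∧ 46 ≤ s) ∨ (N = 3 ∧ 20 ≤ s) ∨ (N = 4 ∧ 11 ≤ s) ∨ (N = 5 ∧ 7 ≤ s) ∨ (6 ≤ N ∧ 6 ≤ s)) :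
    8 * (s + 1) * N ^ 2 ≤ 3 * (s + N).choose N := by
  have step : ∀ {N s₀ : ℕ}, 1 ≤ N → 8 * (s₀ + 1) * N ^ 2 ≤ 3 * (s₀ + N).choose N →
      ∀ s, s₀ ≤ s → 8 * (s + 1) * N ^ 2 ≤ 3 * (s + N).choose N := by
    intro N s₀ hN h0 s hs
    induction s, hs using Nat.le_induction with
    | base => exact h0
    | succ s _ ih =>
      have e := Nat.choose_mul_succ_eq (s + N) N
      rw [show s + N + 1 - N = s + 1 by omega] at e
      rw [show s + 1 + N = s + N + 1 by omega]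
      refine Nat.le_of_mul_le_mul_left (?_ : (s + 1) * _ ≤ (s + 1) * _) (by omega)
      calc (s + 1) * (8 * (s + 1 + 1) * N ^ 2) = (s + 1 + 1) * (8 * (s + 1) * N ^ 2) := by ring
        _ ≤ (s + N + 1) * (3 * (s + N).choose N) := Nat.mul_le_mul (by omega) ih
        _ = (s + 1) * (3 * (s + N + 1).choose N) := by linear_combination 3 * e
  rcases h with ⟨rfl, hs⟩ | ⟨rfl, hs⟩ | ⟨rfl, hs⟩ | ⟨rfl, hs⟩ | ⟨hN, hs⟩
  · exact step (by norm_num) (by decide) s hs
  · exact step (by norm_num) (by decide) s hs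
  · exact step (by norm_num) (by decide) s hs
  · exact step (by norm_num) (by decide) s hs
  · refine step (by omega) ?_ s hs
    induction N, hN using Nat.le_induction with
    | base => decide
    | succ N hN ih =>
      have e := Nat.choose_succ_right_eq (6 + N + 1) N
      rw [show 6 + N + 1 - N = 7 by omega] at e
      have e' := Nat.choose_mul_succ_eq (6 + N) N
      rw [show 6 + N + 1 - N = 7 by omega] at e'
      rw [show 6 + (N + 1) = 6 + N + 1 by omega]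
      refine Nat.le_of_mul_le_mul_left (?_ : (N + 1) * _ ≤ (N + 1) * _) (by omega)
      have h1 : (6 + N + 1) * (3 * (6 + N).choose N) = (N + 1) * (3 * (6 + N + 1).choose (N + 1)) := by
        linear_combination 3 * e' - 3 * e
      rw [← h1]
      refine le_trans ?_ (Nat.mul_le_mul_left _ ih)
      nlinarith [sq_nonneg ((N : ℤ) - 6)]

/-- The number of multisets of size `s` on `N + 1` letters. -/
theorem card_sym_fin (N s : ℕ) : Fintype.card (Sym (Fin (N + 1)) s) = (s + N).choose N := by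
  rw [Sym.card_sym_eq_multichoose, Fintype.card_fin, Nat.multichoose_eq, show N + 1 + s - 1 = s + N by omega]
  exact Nat.choose_symm_add

end FA.Catalan
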