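import Mathlib.Algebra.Module.ZMod
import Mathlib.Algebra.Field.ZMod
import Mathlib.LinearAlgebra.Charpoly.ToMatrix
import Mathlib.LinearAlgebra.Matrix.Charpoly.Eigs
import Mathlib.LinearAlgebra.Matrix.Charpoly.Minpoly
import Mathlib.FieldTheory.IsAlgClosed.Spectrum
import Mathlib.FieldTheory.IsAlgClosed.AlgebraicClosure
import Mathlib.FieldTheory.Separable

/-!
# Polynomials in an endomorphism modulo a prime

* `polProd`: the action of a polynomial over `ℤ/q` on a commutative monoid through representatives.
* `exists_aeval_eq`: for separable characteristic polynomial the kernel of an irreducible factor is simple.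
* `shift_kernel`: the duality used with Thaine's relation.
-/

set_option autoImplicit false

noncomputable section

open Polynomial Finset

namespace FA.Catalan

variable {q : ℕ}

section PolProd

variable {M M' : Type*} [CommMonoid M] [CommMonoid M']

/-- `∏ (s^i x)^(g_i)`. -/
def polProd (s : M →* M) (g : (ZMod q)[X]) (x : M) : M :=
  ∏ i ∈ range (g.natDegree + 1), (s^[i] x) ^ (g.coeff i).val

theorem polProd_one (s : M →* M) (g : (ZMod q)[X]) : polProd s g 1 = 1 :=
  prod_eq_one fun i _ => by rw [iterate_map_one s, one_pow]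

theorem polProd_mul (s : M →* M) (g : (ZMod q)[X]) (x y : M) :
    polProd s g (x * y) = polProd s g x * polProd s g y := by
  rw [polProd, polProd, polProd, ← prod_mul_distrib]
  exact prod_congr rfl fun i _ => by rw [iterate_map_mul s, mul_pow]

/-- `polProd` as a homomorphism. -/
def polHom (s : M →* M) (g : (ZMod q)[X]) : M →* M where
  toFun := polProd s g
  map_one' := polProd_one s g
  map_mul' := polProd_mul s g

theorem map_polProd (f : M →* M') {s : M →* M} {s' : M' →* M'} (h : ∀ y, f (s y) = s' (f y)) (g : (ZMod q)[X])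
    (x : M) : f (polProd s g x) = polProd s' g (f x) := by
  rw [polProd, polProd, map_prod]
  refine prod_congr rfl fun i _ => ?_
  rw [map_pow]
  congr 1
  exact (Function.Semiconj.iterate_right (fun y => h y) i).eq x

theorem polProd_induction (C : M → Prop) (h1 : C 1) (hmul : ∀ a b, C a → C b → C (a * b)) {s : M →* M}
    (hs : ∀ a, C a → C (s a)) (g : (ZMod q)[X]) {x : M} (hx : C x) : C (polProd s g x) := by
  have hit : ∀ i, C (s^[i] x) := fun i => by
    induction i with
    | zero => exact hx
    | succ i ih => rw [Function.iterate_succ_apply']; exact hs _ ih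
  refine prod_induction _ C hmul h1 fun i _ => ?_
  induction (g.coeff i).val with
  | zero => rw [pow_zero]; exact h1
  | succ n ih => rw [pow_succ]; exact hmul _ _ ih (hit i)

variable {V : Type*} [AddCommGroup V] [Module (ZMod q) V]

theorem apply_polProd [NeZero q] (J : M → V) (hmul : ∀ a b, J (a * b) = J a + J b) {s : M →* M}
    {T : Module.End (ZMod q) V} (hs : ∀ y, J (s y) = T (J y)) (g : (ZMod q)[X]) (x : M) :
    J (polProd s g x) = aeval T g (J x) := by
  have h1 : J 1 = 0 := by
    have := hmul 1 1
    rw [mul_one] at this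
    exact left_eq_add.mp this
  let J' : M →* Multiplicative V :=
    { toFun := fun a => Multiplicative.ofAdd (J a)
      map_one' := by rw [h1]; rfl
      map_mul' := fun a b => by rw [hmul]; rfl }
  have hJ' : ∀ a, J a = Multiplicative.toAdd (J' a) := fun a => rfl
  rw [aeval_eq_sum_range, LinearMap.sum_apply, hJ' (polProd s g x), polProd, map_prod, toAdd_prod]
  refine sum_congr rfl fun i _ => ?_
  rw [map_pow, toAdd_pow, ← hJ', LinearMap.smul_apply, ← Nat.cast_smul_eq_nsmul (ZMod q), ZMod.natCast_zmod_val,
    Module.End.pow_apply, (Function.Semiconj.iterate_right (fun y => hs y) i).eq x]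

end PolProd

section Simple

variable {F : Type*} [Field F] {V : Type*} [AddCommGroup V] [Module F V] [FiniteDimensional F V]

/-- An endomorphism killed by `π` with separable characteristic polynomial lives in dimension `≤ deg π`. -/
theorem finrank_le_natDegree (R : Module.End F V) (hsep : R.charpoly.Separable) {π : F[X]} (hπ : π ≠ 0)
    (h0 : aeval R π = 0) : Module.finrank F V ≤ π.natDegree := by
  classical
  set b := Module.finBasis F V
  set M := LinearMap.toMatrix b b R with hM
  set Fb := AlgebraicClosure F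
  set φ := algebraMap F Fb
  have hMchar : M.charpoly = R.charpoly := LinearMap.charpoly_toMatrix R b
  have hM0 : aeval M π = 0 := by
    have := congrArg (LinearMap.toMatrixAlgEquiv b) h0
    rw [map_zero] at this
    exact (aeval_algHom_apply (LinearMap.toMatrixAlgEquiv b).toAlgHom R π).trans this
  have hroots : ∀ μ : Fb, (M.charpoly.map φ).IsRoot μ → (π.map φ).IsRoot μ := by
    intro μ hμ
    rw [← Matrix.charpoly_map, ← Matrix.mem_spectrum_iff_isRoot_charpoly] at hμ
    have h1 := spectrum.subset_polynomial_aeval (M.map φ) (π.map φ) ⟨μ, hμ, rfl⟩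
    have h2 : aeval (M.map φ) (π.map φ) = 0 := by
      rw [aeval_map_algebraMap]
      have := congrArg (Algebra.ofId F Fb).mapMatrix hM0
      rwa [map_zero, ← aeval_algHom_apply] at this
    rw [h2] at h1
    rcases subsingleton_or_nontrivial (Matrix (Fin (Module.finrank F V)) (Fin (Module.finrank F V)) Fb) with hs | hs
    · rw [spectrum.of_subsingleton] at h1
      exact absurd h1 (Set.notMem_empty _)
    · rw [spectrum.zero_eq, Set.mem_singleton_iff] at h1
      exact h1
  have hdeg : Module.finrank F V = (M.charpoly.map φ).roots.card := by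
    rw [IsAlgClosed.card_roots_eq_natDegree, natDegree_map, hMchar, LinearMap.charpoly_natDegree]
  rw [hdeg, ← natDegree_map (f := φ) (p := π)]
  refine le_trans (Multiset.card_le_card ?_) (card_roots' _)
  refine (Multiset.le_iff_subset (nodup_roots (hMchar ▸ hsep.map))).mpr fun μ hμ => ?_
  rw [mem_roots ((Polynomial.map_ne_zero_iff φ.injective).mpr hπ)]
  exact hroots μ (isRoot_of_mem_roots hμ)

/-- The kernel of an irreducible factor of a separable characteristic polynomial is simple. -/
theorem exists_aeval_eq (T : Module.End F V) (hsep : T.charpoly.Separable) {π h : F[X]} (hπ : Irreducible π)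
    (hf : π * h = T.charpoly) {v w : V} (hv0 : v ≠ 0) (hv : aeval T π v = 0) (hw : aeval T π w = 0) :
    ∃ g : F[X], aeval T g v = w := by
  classical
  have hcop : IsCoprime π h := Separable.isCoprime (hf ▸ hsep)
  set U := LinearMap.ker (aeval T π) with hU
  set W := LinearMap.ker (aeval T h) with hW
  have hcompl : IsCompl U W := by
    refine ⟨disjoint_ker_aeval_of_isCoprime T hcop, codisjoint_iff.mpr ?_⟩
    rw [hU, hW, sup_ker_aeval_eq_ker_aeval_mul_of_coprime T hcop, hf, LinearMap.aeval_self_charpoly, LinearMap.ker_zero]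
  have hinvg : ∀ (g : F[X]), ∀ x ∈ LinearMap.ker (aeval T g), T x ∈ LinearMap.ker (aeval T g) := fun g x hx => by
    rw [LinearMap.mem_ker] at hx ⊢
    rw [← Module.End.mul_apply, show aeval T g * T = T * aeval T g by
      nth_rewrite 2 [← aeval_X (R := F) T]
      nth_rewrite 3 [← aeval_X (R := F) T]
      rw [← map_mul, ← map_mul, mul_comm], Module.End.mul_apply, hx, map_zero]
  set RU := T.restrict (hinvg π)
  set RW := T.restrict (hinvg h)
  have hchar : T.charpoly = RU.charpoly * RW.charpoly := by
    rw [← LinearMap.charpoly_prodMap, ← LinearEquiv.charpoly_conj (U.prodEquivOfIsCompl W hcompl)]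
    congr 1
    refine LinearMap.ext fun x => ?_
    obtain ⟨⟨a, b⟩, rfl⟩ := (U.prodEquivOfIsCompl W hcompl).surjective x
    rw [LinearEquiv.conj_apply_apply, LinearEquiv.symm_apply_apply]
    simp [RU, RW, LinearMap.restrict_apply]
  have hUle : Module.finrank F U ≤ π.natDegree := by
    refine finrank_le_natDegree RU (Separable.of_mul_left (hchar ▸ hsep)) hπ.ne_zero ?_
    refine LinearMap.ext fun x => Subtype.ext ?_
    rw [LinearMap.zero_apply, ZeroMemClass.coe_zero]
    have e : ∀ g : F[X], ((aeval RU g x : U) : V) = aeval T g (x : V) := by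
      intro g
      induction g using Polynomial.induction_on generalizing x with
      | C a => simp [Module.algebraMap_end_apply]
      | add g1 g2 h1 h2 => simp [h1, h2]
      | monomial n a ih =>
        rw [pow_succ, ← mul_assoc, map_mul (aeval RU), map_mul (aeval T), aeval_X, aeval_X, Module.End.mul_apply, Module.End.mul_apply,
          ih (RU x), LinearMap.coe_restrict_apply]
    rw [e]
    exact x.2
  -- `g ↦ g(T) v` on polynomials of smaller degree is bijective
  let ev : degreeLT F π.natDegree →ₗ[F] U :=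
    LinearMap.codRestrict U (((LinearMap.applyₗ v).comp (aeval T).toLinearMap).comp (degreeLT F π.natDegree).subtype)
      fun g => by
        rw [hU, LinearMap.mem_ker]
        show aeval T π (aeval T (g : F[X]) v) = 0
        rw [← Module.End.mul_apply, ← map_mul, mul_comm, map_mul, Module.End.mul_apply, hv, map_zero]
  have hinj : Function.Injective ev := by
    rw [← LinearMap.ker_eq_bot, Submodule.eq_bot_iff]
    rintro ⟨g, hg⟩ hgv
    have hgv' : aeval T g v = 0 := congrArg Subtype.val hgv
    refine Subtype.ext ?_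
    by_contra hg0
    have hc : IsCoprime π g := (hπ.coprime_iff_not_dvd).mpr fun hd => by
      have hg0' : g ≠ 0 := fun e => hg0 (by simpa using e)
      have h1 : π.natDegree ≤ g.natDegree := natDegree_le_of_dvd hd hg0'
      rw [mem_degreeLT] at hg
      have : g.natDegree < π.natDegree := (natDegree_lt_iff_degree_lt hg0').mpr hg
      omega
    obtain ⟨s, t, hst⟩ := hc
    refine hv0 ?_
    have h2 := congrArg (fun P : F[X] => aeval T P v) hst
    simp only [map_add, map_mul, LinearMap.add_apply, Module.End.mul_apply, hv, hgv', map_zero, add_zero, map_one,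
      Module.End.one_apply] at h2
    exact h2.symm
  have hfin : Module.finrank F (degreeLT F π.natDegree) = π.natDegree := by
    rw [(degreeLTEquiv F π.natDegree).finrank_eq, Module.finrank_fin_fun]
  have : FiniteDimensional F (degreeLT F π.natDegree) :=
    Module.Finite.equiv (degreeLTEquiv F π.natDegree).symm
  have hsurj : Function.Surjective ev := (LinearMap.injective_iff_surjective_of_finrank_eq_finrank (by
    have := LinearMap.finrank_le_finrank_of_injective hinj
    omega)).mp hinj
  obtain ⟨g, hg⟩ := hsurj ⟨w, LinearMap.mem_ker.mpr hw⟩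
  exact ⟨g, congrArg Subtype.val hg⟩

end Simple

section Shift

variable [Fact q.Prime] {G : Type*} [CommGroup G] [Fintype G]

/-- `(S f)(c) = f (γ c)`. -/
def shiftEnd (γ : G) : Module.End (ZMod q) (G → ZMod q) := LinearMap.funLeft (ZMod q) (ZMod q) (fun c => γ * c)

omit [Fintype G] in
theorem shiftEnd_pow_apply (γ : G) (i : ℕ) (f : G → ZMod q) (c : G) :
    (shiftEnd γ ^ i) f c = f (γ ^ i * c) := by
  induction i generalizing c with
  | zero => simp
  | succ i ih =>
    rw [pow_succ', Module.End.mul_apply, shiftEnd, LinearMap.funLeft_apply, ← shiftEnd, ih, pow_succ, mul_assoc]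

theorem aeval_shiftEnd_apply (γ : G) (g : (ZMod q)[X]) (f : G → ZMod q) (c : G) :
    aeval (shiftEnd γ) g f c = ∑ i ∈ range (g.natDegree + 1), g.coeff i * f (γ ^ i * c) := by
  rw [aeval_eq_sum_range, LinearMap.sum_apply, Finset.sum_apply]
  exact sum_congr rfl fun i _ => by rw [LinearMap.smul_apply, Pi.smul_apply, shiftEnd_pow_apply, smul_eq_mul]

/-- The duality: `π(S) a = 0`, `a ≠ 0`, `∑ l(d) a(c d) = 0` force `∑ h_i l(γ^(-i)) = 0`. -/
theorem shift_kernel {γ : G} (hγ : ∀ g, g ∈ Subgroup.zpowers γ) {N : ℕ} (hcard : Fintype.card G = 2 * N)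
    (hN : ((2 * N : ℕ) : ZMod q) ≠ 0) (hq2 : (2 : ZMod q) ≠ 0) {π h : (ZMod q)[X]} (hπ : Irreducible π)
    (hf : π * h * (X - 1) = X ^ N - 1) {a : G → ZMod q} (ha0 : a ≠ 0) (ha : aeval (shiftEnd γ) π a = 0)
    {l : G → ZMod q} (hev : ∀ d, l (γ ^ N * d) = l d) (hsum : ∑ d, l d = 0)
    (hrel : ∀ c, ∑ d, l d * a (c * d) = 0) :
    ∑ i ∈ range (h.natDegree + 1), h.coeff i * l ((γ ^ i)⁻¹) = 0 := by
  classical
  have hord : orderOf γ = 2 * N := by
    rw [orderOf_eq_card_of_forall_mem_zpowers hγ, Nat.card_eq_fintype_card, hcard]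
  have hN0 : 0 < 2 * N := hcard ▸ Fintype.card_pos
  have hbij : ∀ f : G → ZMod q, ∑ i ∈ range (2 * N), f (γ ^ i) = ∑ d, f d := by
    intro f
    refine sum_bij (fun i _ => γ ^ i) (fun i _ => mem_univ _) (fun i hi j hj e => ?_) (fun d _ => ?_) (fun i _ => rfl)
    · exact pow_injOn_Iio_orderOf (by rw [hord]; exact mem_range.mp hi) (by rw [hord]; exact mem_range.mp hj) e
    · obtain ⟨i, hi⟩ := (mem_powers_iff_mem_zpowers.mpr (hγ d) : d ∈ Submonoid.powers γ)
      refine ⟨i % (2 * N), mem_range.mpr (Nat.mod_lt _ hN0), ?_⟩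
      rw [← hord, pow_mod_orderOf]
      exact hi
  set P : (ZMod q)[X] := ∑ i ∈ range (2 * N), C (l (γ ^ i)) * X ^ i with hP
  have hPS : ∀ (f : G → ZMod q) (c : G), aeval (shiftEnd γ) P f c = ∑ d, l d * f (d * c) := by
    intro f c
    rw [hP, map_sum, LinearMap.sum_apply, Finset.sum_apply, ← hbij fun d => l d * f (d * c)]
    exact sum_congr rfl fun i _ => by
      rw [map_mul, aeval_C, map_pow, aeval_X, Module.End.mul_apply, Module.algebraMap_end_apply, Pi.smul_apply,
        shiftEnd_pow_apply, smul_eq_mul]
  have hPa : aeval (shiftEnd γ) P a = 0 := funext fun c => by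
    rw [hPS]
    exact (sum_congr rfl fun d _ => by rw [mul_comm d]).trans (hrel c)
  have hdvd : π ∣ P := by
    by_contra hnd
    obtain ⟨s, t, hst⟩ := (hπ.coprime_iff_not_dvd).mpr hnd
    refine ha0 ?_
    have h2 := congrArg (fun Q : (ZMod q)[X] => aeval (shiftEnd γ) Q a) hst
    simp only [map_add, map_mul, LinearMap.add_apply, Module.End.mul_apply, ha, hPa, map_zero, add_zero, map_one,
      Module.End.one_apply] at h2
    exact h2.symm
  obtain ⟨P', hP'⟩ := hdvd
  set δ : G → ZMod q := fun c => if c = 1 then 1 else 0 with hδ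
  set b := aeval (shiftEnd γ) P δ with hb
  have hbc : ∀ c, b c = l c⁻¹ := fun c => by
    rw [hb, hPS, sum_eq_single c⁻¹]
    · simp [hδ]
    · intro d _ hd
      rw [hδ]
      simp [mul_eq_one_iff_eq_inv, hd]
    · exact fun e => absurd (mem_univ _) e
  set w := aeval (shiftEnd γ) h b with hw
  have hwev : aeval (shiftEnd γ) (X ^ N : (ZMod q)[X]) w = w := by
    rw [hw, ← Module.End.mul_apply, ← map_mul, mul_comm, map_mul, Module.End.mul_apply]
    congr 1
    funext c
    rw [map_pow, aeval_X, shiftEnd_pow_apply, hbc, hbc, mul_inv]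
    have e2 : (γ ^ N)⁻¹ = γ ^ N := by
      rw [inv_eq_iff_mul_eq_one, ← pow_add, ← two_mul, ← hord, pow_orderOf_eq_one]
    rw [e2, hev]
  have hkill : aeval (shiftEnd γ) ((X - 1) * (X ^ N + 1) : (ZMod q)[X]) w = 0 := by
    rw [hw, hb, ← Module.End.mul_apply, ← map_mul, ← Module.End.mul_apply, ← map_mul, hP',
      show (X - 1) * (X ^ N + 1) * h * (π * P') = (X ^ N + 1) * (π * h * (X - 1)) * P' by ring, hf,
      show ((X : (ZMod q)[X]) ^ N + 1) * (X ^ N - 1) = X ^ (2 * N) - 1 by ring, map_mul, Module.End.mul_apply,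
      map_sub, map_pow, aeval_X, map_one, LinearMap.sub_apply, Module.End.one_apply, sub_eq_zero]
    funext c
    rw [shiftEnd_pow_apply, ← hord, pow_orderOf_eq_one, one_mul]
  have hS : shiftEnd γ w = w := by
    rw [map_mul, Module.End.mul_apply, map_add, LinearMap.add_apply, hwev, map_one, Module.End.one_apply, map_sub,
      aeval_X, map_one, LinearMap.sub_apply, Module.End.one_apply, ← two_smul (ZMod q), map_smul, ← smul_sub,
      smul_eq_zero] at hkill
    exact sub_eq_zero.mp (hkill.resolve_left hq2)
  have hconst : ∀ c, w c = w 1 := fun c => by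
    obtain ⟨i, rfl⟩ := (mem_powers_iff_mem_zpowers.mpr (hγ c) : c ∈ Submonoid.powers γ)
    show w (γ ^ i) = w 1
    have hfix : (shiftEnd γ ^ i) w = w := by
      rw [Module.End.pow_apply]
      exact Function.iterate_fixed hS i
    rw [← mul_one (γ ^ i), ← shiftEnd_pow_apply γ i w 1, hfix]
  have hsum' : ∑ c, w c = 0 := by
    simp only [hw, aeval_shiftEnd_apply, hbc]
    rw [sum_comm]
    refine sum_eq_zero fun i _ => ?_
    rw [← mul_sum, show ∑ c, l (γ ^ i * c)⁻¹ = ∑ d, l d from
      Fintype.sum_equiv ((Equiv.mulLeft (γ ^ i)).trans (Equiv.inv G)) _ _ fun c => rfl, hsum, mul_zero]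
  rw [sum_congr rfl fun c _ => hconst c, sum_const, card_univ, hcard, nsmul_eq_mul] at hsum'
  have hw1 := (mul_eq_zero.mp hsum').resolve_left hN
  rw [hw, aeval_shiftEnd_apply] at hw1
  simpa only [hbc, mul_one] using hw1

end Shift

end FA.Catalan
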