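import Fermat.Agent.Catalan.RungeSeries
import Fermat.Agent.Catalan.MinusEmbedding
import Mathlib.Analysis.SpecialFunctions.Pow.Complex
import Mathlib.FieldTheory.PrimitiveElement

/-!
# Runge's method: an even `(x - ζ)^Θ` is a `q`-th power only for `Θ ≡ 0 (mod q)`

Reduce to `0 ≤ Θ ≤ q` of weight `m q ≤ q (p-1)/2`. The `q`-th root minus the first `m + 1` terms of its
series, times `q^(m + v(m!))`, is an algebraic integer less than `1` at every embedding, so zero; modulo `q`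
its last term gives `q ∣ ∑ Θ_d ζ^d`.
-/

set_option autoImplicit false

noncomputable section

open NumberField Finset Polynomial
open scoped ComplexConjugate

namespace FA.Catalan

variable {p : ℕ} [Fact p.Prime] {K : Type*} [Field K] [NumberField K] [IsCyclotomicExtension {p} ℚ K]

theorem conj_algHom (σ : K →ₐ[ℚ] ℂ) (t : K) : conj (σ t) = σ (FA.Ext.sigmaK p K (-1) t) := by
  have : NeZero p := ⟨(Fact.out : p.Prime).ne_zero⟩
  have hz := IsCyclotomicExtension.zeta_spec p ℚ K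
  have h : (Complex.conjAe.toAlgHom.restrictScalars ℚ).comp σ = σ.comp (FA.Ext.sigmaK p K (-1)).toAlgHom := by
    refine (hz.powerBasis ℚ).algHom_ext ?_
    rw [IsPrimitiveRoot.powerBasis_gen, ← FA.Ext.zetaInt_coe]
    show conj (σ ((FA.Ext.zetaInt p K : 𝓞 K) : K)) = σ (FA.Ext.sigmaK p K (-1) ((FA.Ext.zetaInt p K : 𝓞 K) : K))
    rw [← FA.Ext.sigma_coe, FA.Ext.sigma_zetaInt]
    have h1 := omegaPt_neg (p := p) σ 1
    rw [omegaPt, omegaPt, Units.val_one, ZMod.val_one_eq_one_mod,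
      Nat.one_mod_eq_one.mpr (Fact.out : p.Prime).ne_one, pow_one] at h1
    rw [← h1, RingOfIntegers.coe_eq_algebraMap, RingOfIntegers.coe_eq_algebraMap, map_pow, map_pow]
  exact DFunLike.congr_fun h t

/-- Only `1` is a `q`-th root of unity in `ℚ(ζ_p)`. -/
theorem eq_one_of_pow_eq_one_field (hp2 : p ≠ 2) {q : ℕ} (hq : q.Prime) (hq2 : q ≠ 2) (hne : q ≠ p) {ξ : K}
    (h : ξ ^ q = 1) : ξ = 1 := by
  have : NeZero p := ⟨(Fact.out : p.Prime).ne_zero⟩
  obtain ⟨r, hr⟩ := (IsCyclotomicExtension.zeta_spec p ℚ K).exists_neg_pow_of_isOfFinOrder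
    ((Fact.out : p.Prime).odd_of_ne_two hp2) (isOfFinOrder_iff_pow_eq_one.mpr ⟨q, hq.pos, h⟩)
  have h2 : ξ ^ (2 * p) = 1 := by
    rw [hr, ← pow_mul, show r * (2 * p) = 2 * (p * r) by ring, pow_mul, neg_sq, ← pow_mul,
      show 2 * (p * r) = p * (2 * r) by ring, pow_mul, (IsCyclotomicExtension.zeta_spec p ℚ K).pow_eq_one, one_pow]
  have hg : Nat.gcd q (2 * p) = 1 := (hq.coprime_iff_not_dvd).mpr fun e => by
    rcases (Nat.Prime.dvd_mul hq).mp e with e | e
    · exact hq2 ((Nat.prime_dvd_prime_iff_eq hq Nat.prime_two).mp e)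
    · exact hne ((Nat.prime_dvd_prime_iff_eq hq Fact.out).mp e)
  have := pow_gcd_eq_one.mpr ⟨h, h2⟩
  rwa [hg, pow_one] at this

/-- `q` is unramified. -/
theorem dvd_of_dvd_pow {q : ℕ} [Fact q.Prime] (hqp : (q : ZMod p) ≠ 0) {t : 𝓞 K} {m : ℕ}
    (h : (q : 𝓞 K) ∣ t ^ m) : (q : 𝓞 K) ∣ t := by
  have h2 : (q : 𝓞 K) ∣ t ^ q ^ m :=
    h.trans (pow_dvd_pow t (Nat.lt_pow_self (Fact.out : q.Prime).one_lt).le)
  clear h
  generalize m = e at h2
  induction e generalizing t with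
  | zero => simpa using h2
  | succ e ih =>
    rw [pow_succ', pow_mul] at h2
    exact dvd_of_dvd_pow_natCast p K hqp (ih h2)

/-- `q` divides the weight. -/
theorem dvd_sum_of_pow_eq (hp3 : 3 ≤ p) {q : ℕ} {x : ℤ} (hx1 : (p : ℤ) ∣ x - 1) {θ : (ZMod p)ˣ → ℕ} {a : 𝓞 K}
    (ha : a ^ q = ∏ d, linFactor p K x d ^ θ d) (hne : ∀ d, linFactor p K x d ≠ 0) (hq : q ≠ 0) :
    q ∣ ∑ d, θ d := by
  classical
  have hp : p.Prime := Fact.out
  have : NeZero p := ⟨hp.ne_zero⟩
  have H := FA.Regular.cycloRing_ringOfIntegers (K := K) (p := p) hp3 (IsCyclotomicExtension.zeta_spec p ℚ K)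
  change FA.Regular.CycloRing (𝓞 K) p (FA.Ext.zetaInt p K) at H
  set z := FA.Ext.zetaInt p K with hz
  set lam := z - 1 with hlam
  have hl : Prime lam := H.lam_prime
  obtain ⟨m, hm⟩ := hx1
  obtain ⟨s, hs⟩ : lam ^ 2 ∣ (p : 𝓞 K) := (pow_dvd_pow _ (by omega)).trans H.lam_dvd_prime
  have hL : ∀ d : (ZMod p)ˣ, lam ∣ linFactor p K x d ∧ ¬ lam ^ 2 ∣ linFactor p K x d := by
    intro d
    have hxm : (x : 𝓞 K) = 1 + (p : 𝓞 K) * m := by
      have := congrArg (Int.cast : ℤ → 𝓞 K) hm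
      push_cast at this
      linear_combination this
    have hdec : linFactor p K x d = lam ^ 2 * (s * m) + (1 - z ^ (d : ZMod p).val) := by
      rw [linFactor, hxm, hs, ← hz]; ring
    obtain ⟨u, hu⟩ : Associated lam (1 - z ^ (d : ZMod p).val) := by
      have h1 := (H.prim.associated_pow_add_sub_sub_one hp.two_le (j := (d : ZMod p).val) 0
        (ZMod.val_coe_unit_coprime d))
      rw [zero_add, pow_zero] at h1
      exact h1.trans ⟨-1, by simp⟩
    refine ⟨hdec ▸ dvd_add ((dvd_pow_self lam two_ne_zero).mul_right _) ⟨u, hu.symm⟩, fun e => ?_⟩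
    rw [hdec, dvd_add_right (dvd_mul_right _ _), ← hu, sq, mul_dvd_mul_iff_left hl.ne_zero] at e
    exact hl.not_isUnit (isUnit_of_dvd_unit e u.isUnit)
  choose g hg using fun d => (hL d).1
  have hgd : ∀ d, ¬ lam ∣ g d := fun d e => (hL d).2 (by rw [hg d, sq]; exact mul_dvd_mul_left lam e)
  have ha0 : a ≠ 0 := by
    rintro rfl
    rw [zero_pow hq] at ha
    exact Finset.prod_ne_zero_iff.mpr (fun d _ => pow_ne_zero _ (hne d)) ha.symm
  obtain ⟨k, a', ha', rfl⟩ := WfDvdMonoid.max_power_factor ha0 hl.irreducible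
  simp only [hg, mul_pow, Finset.prod_mul_distrib, Finset.prod_pow_eq_pow_sum, ← pow_mul] at ha
  have hM : ¬ lam ∣ ∏ d, g d ^ θ d := fun e => by
    obtain ⟨d, -, hd⟩ := hl.exists_mem_finset_dvd e
    exact hgd d (hl.dvd_of_dvd_pow hd)
  refine ⟨k, ?_⟩
  rcases lt_trichotomy (k * q) (∑ d, θ d) with hlt | heq | hgt
  · exfalso
    obtain ⟨j, hj⟩ := Nat.exists_eq_add_of_lt hlt
    rw [hj, add_assoc, pow_add, mul_assoc] at ha
    have h2 := mul_left_cancel₀ (pow_ne_zero _ hl.ne_zero) ha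
    exact ha' (hl.dvd_of_dvd_pow (h2 ▸ (dvd_pow_self lam (Nat.succ_ne_zero j)).mul_right _))
  · rw [← heq, mul_comm]
  · exfalso
    obtain ⟨j, hj⟩ := Nat.exists_eq_add_of_lt hgt
    rw [hj, add_assoc, pow_add, mul_assoc] at ha
    have h2 := mul_left_cancel₀ (pow_ne_zero _ hl.ne_zero) ha
    exact hM (h2 ▸ (dvd_pow_self lam (Nat.succ_ne_zero j)).mul_right _)

set_option maxHeartbeats 800000 in
/-- The core of Runge's argument. -/
theorem runge_core {N q : ℕ} [Fact q.Prime] (hN : 2 ≤ N) (hp : p = 2 * N + 1) (hq5 : 5 ≤ q) (hne : q ≠ p)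
    {x : ℤ} (hx1 : (p : ℤ) ∣ x - 1) (hbig : (q : ℤ) ^ (2 * p) ≤ |x|) {θ : (ZMod p)ˣ → ℕ}
    (hev : ∀ d, θ (-d) = θ d) (hθ : ∀ d, θ d ≤ q) (hw : ∑ d, θ d ≤ q * N) {α : K}
    (hα : α ^ q = ∏ d, ((linFactor p K x d : 𝓞 K) : K) ^ θ d) (d₀ : (ZMod p)ˣ) : q ∣ θ d₀ := by
  classical
  have hpP : p.Prime := Fact.out
  have hqP : q.Prime := Fact.out
  have : NeZero p := ⟨hpP.ne_zero⟩
  have hp2 : p ≠ 2 := by omega
  have hqp : (q : ZMod p) ≠ 0 := fun e =>
    hne ((Nat.prime_dvd_prime_iff_eq hpP hqP).mp ((ZMod.natCast_eq_zero_iff _ _).mp e)).symm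
  have hX : (q : ℝ) ^ (2 * p) ≤ |(x : ℝ)| := by exact_mod_cast hbig
  have hqR : (5 : ℝ) ≤ q := by exact_mod_cast hq5
  set X : ℝ := |(x : ℝ)| with hXdef
  have hX2 : 2 ≤ X := by
    have := le_self_pow₀ (show (1 : ℝ) ≤ q by linarith) (show 2 * p ≠ 0 by omega)
    linarith
  have hx1' : x ≠ 1 := fun e => by rw [hXdef, e, Int.cast_one, abs_one] at hX2; norm_num at hX2
  have hx0 : x ≠ 0 := fun e => by rw [hXdef, e, Int.cast_zero, abs_zero] at hX2; norm_num at hX2
  have hint : IsIntegral ℤ α := by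
    refine IsIntegral.of_pow hqP.pos (hα ▸ ?_)
    exact IsIntegral.prod _ fun d _ => (RingOfIntegers.isIntegral_coe _).pow _
  obtain ⟨a, rfl⟩ : ∃ a : 𝓞 K, (a : K) = α := ⟨⟨α, hint⟩, rfl⟩
  have haq : a ^ q = ∏ d, linFactor p K x d ^ θ d := by
    refine RingOfIntegers.ext ?_
    simp only [RingOfIntegers.coe_eq_algebraMap, map_pow, map_prod] at hα ⊢
    exact hα
  obtain ⟨m, hm⟩ := dvd_sum_of_pow_eq (by omega) hx1 haq (linFactor_ne_zero p K hp2 hx1') hqP.ne_zero
  have hmN : m ≤ N := Nat.le_of_mul_le_mul_left (hm ▸ hw) hqP.pos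
  rcases Nat.eq_zero_or_pos m with rfl | hm0
  · have : θ d₀ = 0 := Finset.sum_eq_zero_iff.mp (by rw [hm, mul_zero]) d₀ (Finset.mem_univ d₀)
    rw [this]; exact dvd_zero q
  -- the root is invariant under complex conjugation
  have haconj : FA.Ext.sigma p K (-1) a = a := by
    have h1 : FA.Ext.sigma p K (-1) a ^ q = a ^ q := by
      rw [← map_pow, haq, map_prod]
      refine Fintype.prod_equiv (Equiv.neg _) _ _ fun d => ?_
      rw [Equiv.neg_apply, map_pow, sigma_linFactor, neg_one_mul, hev]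
    have ha0 : (a : K) ≠ 0 := fun e => by
      rw [RingOfIntegers.coe_eq_zero_iff] at e
      rw [e, zero_pow hqP.ne_zero] at haq
      exact Finset.prod_ne_zero_iff.mpr (fun d _ => pow_ne_zero _ (linFactor_ne_zero p K hp2 hx1' d)) haq.symm
    refine RingOfIntegers.ext ?_
    have h2 : (((FA.Ext.sigma p K (-1) a : 𝓞 K) : K) / a) ^ q = 1 := by
      rw [div_pow, RingOfIntegers.coe_eq_algebraMap, ← map_pow, h1, map_pow]
      exact div_self (pow_ne_zero _ ha0)
    exact (div_eq_one_iff_eq ha0).mp (eq_one_of_pow_eq_one_field hp2 hqP (by omega) hne h2)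
  -- the series and the algebraic integer
  set w : (ZMod p)ˣ → 𝓞 K := fun d => FA.Ext.zetaInt p K ^ (d : ZMod p).val with hwdef
  choose n hn using exists_scaled_coeff hqP θ w (Finset.univ)
  obtain ⟨D, hD⟩ : ∃ D, D = m + m.factorial.factorization q := ⟨_, rfl⟩
  have hvk : ∀ k ≤ m, k + k.factorial.factorization q ≤ D := fun k hk => by
    have := (Nat.factorization_le_iff_dvd (Nat.factorial_ne_zero k) (Nat.factorial_ne_zero m)).mpr
      (Nat.factorial_dvd_factorial hk) q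
    omega
  set β : 𝓞 K := (q : 𝓞 K) ^ D * a -
    ∑ k ∈ range (m + 1), n k * (q : 𝓞 K) ^ (D - (k + k.factorial.factorization q)) * (x : 𝓞 K) ^ (m - k) with hβ
  -- at every embedding
  have hsmall : ∀ τ : K →ₐ[ℚ] ℂ, ‖τ (β : K)‖ < 1 := by
    intro τ
    have hwn : ∀ d, ‖τ.toRingHom (w d : K)‖ ≤ 1 := fun d => by
      rw [hwdef, RingOfIntegers.coe_eq_algebraMap, map_pow, map_pow]
      exact (norm_omegaPt (p := p) τ d).le
    set t : ℂ := (x : ℂ)⁻¹ with ht
    have htn : ‖t‖ = X⁻¹ := by rw [ht, norm_inv, Complex.norm_intCast]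
    have ht2 : ‖t‖ ≤ 1 / 2 := by rw [htn, one_div]; exact inv_anti₀ two_pos hX2
    have hxC : (x : ℂ) ≠ 0 := Int.cast_ne_zero.mpr hx0
    set g : ℂ := ∏ d, (1 - τ.toRingHom (w d : K) * t) ^ ((θ d : ℂ) / q) with hg
    have homega : ∀ d, τ.toRingHom (w d : K) = omegaPt p τ d := fun d => by
      rw [hwdef, omegaPt, RingOfIntegers.coe_eq_algebraMap, RingOfIntegers.coe_eq_algebraMap, map_pow, map_pow]
      rfl
    -- `g` is real
    have hgreal : conj g = g := by
      rw [hg, map_prod]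
      refine Fintype.prod_equiv (Equiv.neg _) _ _ fun d => ?_
      have hre : (0 : ℝ) < (1 - τ.toRingHom (w d : K) * t).re := by
        have h1 : ‖τ.toRingHom (w d : K) * t‖ ≤ 1 / 2 := by
          rw [norm_mul]; exact le_trans (mul_le_of_le_one_left (norm_nonneg _) (hwn d)) ht2
        have := (Complex.abs_re_le_norm (τ.toRingHom (w d : K) * t)).trans h1
        rw [Complex.sub_re, Complex.one_re]
        linarith [abs_le.mp this]
      have harg : (1 - τ.toRingHom (w d : K) * t).arg ≠ Real.pi := fun e => by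
        rw [Complex.arg_eq_pi_iff] at e; linarith [e.1]
      have h2 := Complex.conj_cpow _ ((θ d : ℂ) / q) harg
      rw [map_div₀, map_natCast, map_natCast] at h2
      rw [← h2, Equiv.neg_apply, hev, map_sub, map_one, map_mul, homega, homega, omegaPt_neg, ht, map_inv₀,
        map_intCast]
    -- `τ a = x^m g`
    have hpow : (x ^ m * g : ℂ) ^ q = τ (a : K) ^ q := by
      rw [← map_pow, hα, map_prod, mul_pow, hg, ← Finset.prod_pow, ← pow_mul, mul_comm m q, ← hm,
        ← Finset.prod_pow_eq_pow_sum, ← Finset.prod_mul_distrib]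
      refine Finset.prod_congr rfl fun d _ => ?_
      rw [← Complex.cpow_nat_mul, mul_div_cancel₀ _ (Nat.cast_ne_zero.mpr hqP.ne_zero), Complex.cpow_natCast, map_pow,
        map_linFactor, ← mul_pow, homega, ht, mul_sub, mul_one, mul_left_comm, mul_inv_cancel₀ hxC, mul_one]
    have heq : τ (a : K) = x ^ m * g := by
      have h1 : conj (τ (a : K)) = τ (a : K) := by rw [conj_algHom (p := p), ← FA.Ext.sigma_coe, haconj]
      have h2 : conj ((x : ℂ) ^ m * g) = x ^ m * g := by rw [map_mul, map_pow, map_intCast, hgreal]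
      obtain ⟨r₁, hr₁⟩ := Complex.conj_eq_iff_real.mp h1
      obtain ⟨r₂, hr₂⟩ := Complex.conj_eq_iff_real.mp h2
      rw [hr₁, hr₂] at hpow ⊢
      norm_cast at hpow ⊢
      exact ((hqP.odd_of_ne_two (by omega)).strictMono_pow (R := ℝ)).injective hpow.symm
    have hval : τ (β : K) = (q : ℂ) ^ D * (x : ℂ) ^ m * (g - ∑ k ∈ range (m + 1),
        τ.toRingHom (PowerSeries.coeff k (prodSeries q θ w Finset.univ)) * t ^ k) := by
      simp only [hβ, map_sub, map_mul, map_pow, map_natCast, map_intCast, map_sum]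
      rw [← RingOfIntegers.coe_eq_algebraMap, heq, mul_sub, Finset.mul_sum]
      congr 1
      · ring
      refine Finset.sum_congr rfl fun k hk => ?_
      have hk' : k ≤ m := Nat.lt_succ_iff.mp (Finset.mem_range.mp hk)
      rw [← RingOfIntegers.coe_eq_algebraMap, hn, map_mul, map_pow, map_natCast, AlgHom.toRingHom_eq_coe,
        RingHom.coe_coe, ht, inv_pow, ← pow_sub_mul_pow (q : ℂ) (hvk k hk'), ← pow_sub_mul_pow (x : ℂ) hk']
      field_simp
    have htail := norm_prod_sub_partial_le hqP.ne_zero θ w τ.toRingHom Finset.univ (fun d _ => hθ d) (fun d _ => hwn d) m ht2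
    rw [hval, norm_mul, norm_mul, norm_pow, norm_pow, Complex.norm_natCast, Complex.norm_intCast]
    rw [Finset.card_univ, ZMod.card_units p, htn] at htail
    refine lt_of_le_of_lt (mul_le_mul_of_nonneg_left htail (by positivity)) ?_
    have hD2 : D ≤ 2 * N := by
      have h1 : (q - 1) * m.factorial.factorization q ≤ m := by
        rw [Nat.factorization_def _ hqP, sub_one_mul_padicValNat_factorial m]
        exact Nat.sub_le _ _
      have h2 : 1 * m.factorial.factorization q ≤ (q - 1) * m.factorial.factorization q :=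
        Nat.mul_le_mul_right _ (by omega)
      omega
    have hXpos : 0 < X := by linarith
    calc (q : ℝ) ^ D * X ^ m * ((2 * X⁻¹) ^ (m + 1) * 2 ^ (p - 1))
        = (q : ℝ) ^ D * 2 ^ (m + 1 + (p - 1)) / X := by
          rw [mul_pow, inv_pow, pow_succ X, pow_add (2 : ℝ) (m + 1)]; field_simp
      _ < 1 := by
          rw [div_lt_one hXpos]
          refine lt_of_lt_of_le ?_ hX
          calc (q : ℝ) ^ D * 2 ^ (m + 1 + (p - 1)) ≤ (q : ℝ) ^ (2 * N) * (2 : ℝ) ^ (2 * (2 * N + 1)) :=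
                mul_le_mul (pow_le_pow_right₀ (by linarith) hD2) (pow_le_pow_right₀ one_le_two (by omega))
                  (by positivity) (by positivity)
            _ = (q : ℝ) ^ (2 * N) * (4 : ℝ) ^ (2 * N + 1) := by rw [pow_mul (2 : ℝ) 2]; norm_num
            _ < (q : ℝ) ^ (2 * N) * (q : ℝ) ^ (2 * N + 1) :=
                mul_lt_mul_of_pos_left (pow_lt_pow_left₀ (by linarith) (by norm_num) (by omega)) (by positivity)
            _ ≤ (q : ℝ) ^ (2 * p) := by rw [← pow_add]; exact pow_le_pow_right₀ (by linarith) (by omega)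
  -- so `β = 0`
  have hβ0 : β = 0 := by
    by_contra h0
    have hnz : Algebra.norm ℤ β ≠ 0 := Algebra.norm_ne_zero_iff.mpr h0
    have h1 : ((|Algebra.norm ℤ β| : ℤ) : ℝ) < 1 := by
      have e : ((|Algebra.norm ℤ β| : ℤ) : ℝ) = ∏ τ : K →ₐ[ℚ] ℂ, ‖τ (β : K)‖ := by
        rw [← norm_prod, ← Algebra.norm_eq_prod_embeddings, ← Algebra.coe_norm_int, eq_ratCast, Rat.cast_intCast,
          Complex.norm_intCast, Int.cast_abs]
      rw [e]
      obtain ⟨τ₀⟩ : Nonempty (K →ₐ[ℚ] ℂ) := ⟨IsAlgClosed.lift⟩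
      rw [← Finset.mul_prod_erase Finset.univ _ (Finset.mem_univ τ₀)]
      exact lt_of_le_of_lt (mul_le_of_le_one_right (norm_nonneg _)
        (Finset.prod_le_one (fun _ _ => norm_nonneg _) fun τ _ => (hsmall τ).le)) (hsmall τ₀)
    exact hnz (Int.abs_lt_one_iff.mp (by exact_mod_cast h1))
  -- the last term modulo `q`
  have hqnm : (q : 𝓞 K) ∣ n m := by
    rw [hβ, Finset.sum_range_succ, Nat.sub_self, ← hD, Nat.sub_self, pow_zero, pow_zero, mul_one, mul_one,
      sub_eq_zero] at hβ0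
    refine (dvd_add_right (Finset.dvd_sum fun k hk => ?_)).mp
      (hβ0 ▸ (dvd_pow_self (q : 𝓞 K) (show D ≠ 0 by omega)).mul_right _)
    have hk' : k < m := Finset.mem_range.mp hk
    have := (Nat.factorization_le_iff_dvd (Nat.factorial_ne_zero k) (Nat.factorial_ne_zero m)).mpr
      (Nat.factorial_dvd_factorial hk'.le) q
    exact ((dvd_pow_self (q : 𝓞 K) (show D - (k + k.factorial.factorization q) ≠ 0 by omega)).mul_left _).mul_right _
  obtain ⟨n', hn'⟩ := exists_factorial_coeff hqP θ w Finset.univ m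
  set S : 𝓞 K := ∑ d, -((θ d : 𝓞 K) * w d) with hS
  have hqS : (q : 𝓞 K) ∣ S := by
    refine dvd_of_dvd_pow hqp (m := m) ?_
    set M := m.factorial / q ^ m.factorial.factorization q
    have e : (M : 𝓞 K) * n m = S ^ m + (q : 𝓞 K) * n' := by
      refine RingOfIntegers.ext ?_
      refine Eq.trans ?_ hn'
      simp only [map_mul, map_natCast]
      rw [← RingOfIntegers.coe_eq_algebraMap, hn, show (m.factorial : K) = (q : K) ^ m.factorial.factorization q * (M : K) by
        exact_mod_cast (Nat.ordProj_mul_ordCompl_eq_self m.factorial q).symm, pow_add]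
      ring
    exact (dvd_add_left (dvd_mul_right _ _)).mp (e ▸ hqnm.mul_left _)
  -- coordinates
  set P : ℤ[X] := ∑ d : (ZMod p)ˣ, C (-(θ d : ℤ)) * Polynomial.X ^ ((d : ZMod p).val - 1) with hP
  have hval : ∀ d : (ZMod p)ˣ, 1 ≤ (d : ZMod p).val ∧ (d : ZMod p).val < p := fun d =>
    ⟨Nat.one_le_iff_ne_zero.mpr ((ZMod.val_ne_zero _).mpr d.ne_zero), ZMod.val_lt _⟩
  have hSP : S = FA.Ext.zetaInt p K * aeval (FA.Ext.zetaInt p K) P := by
    rw [hP, map_sum, Finset.mul_sum, hS]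
    refine Finset.sum_congr rfl fun d _ => ?_
    rw [map_mul, aeval_C, map_pow, aeval_X, algebraMap_int_eq, eq_intCast, mul_left_comm, ← pow_succ',
      Nat.sub_add_cancel (hval d).1, hwdef]
    push_cast
    ring
  have hdeg : P.natDegree < p - 1 := by
    refine lt_of_le_of_lt (natDegree_sum_le_of_forall_le (n := p - 2) _ _ fun d _ => ?_) (by omega)
    refine (natDegree_C_mul_X_pow_le _ _).trans ?_
    have := hval d
    omega
  rw [hSP] at hqS
  have h10 := dvd_coeff_of_dvd_aeval p K hdeg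
    (((FA.Ext.zetaInt_spec p K).isUnit hpP.ne_zero).dvd_mul_left.mp hqS) ((d₀ : ZMod p).val - 1)
  rw [hP, finsetSum_coeff, Finset.sum_eq_single d₀, coeff_C_mul_X_pow, if_pos rfl, dvd_neg] at h10
  · exact Int.natCast_dvd_natCast.mp h10
  · intro d _ hd
    rw [coeff_C_mul_X_pow, if_neg]
    intro e
    have h1 := hval d
    have h2 := hval d₀
    exact hd (Units.ext (ZMod.val_injective p (by omega)))
  · exact fun h => absurd (Finset.mem_univ _) h

/-- **Runge's argument**: an even `(x - ζ)^Θ` is a `q`-th power only for `Θ ≡ 0 (mod q)`. -/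
theorem dvd_of_even_root {N q : ℕ} [Fact q.Prime] (hN : 2 ≤ N) (hp : p = 2 * N + 1) (hq5 : 5 ≤ q) (hne : q ≠ p)
    {x : ℤ} (hx1 : (p : ℤ) ∣ x - 1) (hbig : (q : ℤ) ^ (2 * p) ≤ |x|) {Θ : (ZMod p)ˣ → ℤ}
    (hev : ∀ d, Θ (-d) = Θ d) {α : K} (hα : α ^ q = ratPow p K x Θ) (d : (ZMod p)ˣ) : (q : ℤ) ∣ Θ d := by
  classical
  have hqP : q.Prime := Fact.out
  have hp2 : p ≠ 2 := by omega
  have hqI : (0 : ℤ) < q := by exact_mod_cast hqP.pos
  have hx1' : x ≠ 1 := by
    rintro rfl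
    have : (q : ℤ) ≤ (q : ℤ) ^ (2 * p) := le_self_pow₀ (by omega) (by omega)
    rw [abs_one] at hbig
    omega
  set L : (ZMod p)ˣ → K := fun e => ((linFactor p K x e : 𝓞 K) : K)
  have hL : ∀ e, L e ≠ 0 := linFactor_coe_ne_zero p K hp2 hx1'
  set θ : (ZMod p)ˣ → ℕ := fun e => (Θ e % q).toNat with hθ
  have hθc : ∀ e, (θ e : ℤ) = Θ e % q := fun e => Int.toNat_of_nonneg (Int.emod_nonneg _ hqI.ne')
  have hlt : ∀ e, θ e < q := fun e => by
    have := Int.emod_lt_of_pos (Θ e) hqI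
    have := hθc e
    omega
  -- reduce modulo `q`
  have hroot : (α / ∏ e, L e ^ (Θ e / q)) ^ q = ∏ e, L e ^ θ e := by
    rw [div_pow, hα, ratPow, ← Finset.prod_pow, ← Finset.prod_div_distrib]
    refine Finset.prod_congr rfl fun e _ => ?_
    rw [← zpow_natCast (L e) (θ e), hθc, ← zpow_natCast (L e ^ (Θ e / q)) q, ← zpow_mul, ← zpow_sub₀ (hL e)]
    congr 1
    have h3 : Θ e % (q : ℤ) = Θ e - q * (Θ e / q) := Int.emod_def _ _
    rw [h3]; ring
  suffices q ∣ θ d by
    have h2 : (q : ℤ) ∣ Θ d % q := hθc d ▸ Int.natCast_dvd_natCast.mpr this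
    have h3 : (q : ℤ) ∣ Θ d % q + q * (Θ d / q) := dvd_add h2 (dvd_mul_right _ _)
    rwa [Int.emod_def, sub_add_cancel] at h3
  have hevθ : ∀ e, θ (-e) = θ e := fun e => by simp [hθ, hev]
  rcases le_or_gt (∑ e, θ e) (q * N) with hw | hw
  · exact runge_core hN hp hq5 hne hx1 hbig hevθ (fun e => (hlt e).le) hw hroot d
  · have hw' : ∑ e, (q - θ e) ≤ q * N := by
      have h1 : ∑ e, (q - θ e) + ∑ e, θ e = (p - 1) * q := by
        rw [← Finset.sum_add_distrib, Finset.sum_congr rfl fun e _ => Nat.sub_add_cancel (hlt e).le, Finset.sum_const,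
          Finset.card_univ, ZMod.card_units p, smul_eq_mul]
      rw [show p - 1 = 2 * N by omega] at h1
      nlinarith
    have hroot' : ((∏ e, L e) / (α / ∏ e, L e ^ (Θ e / q))) ^ q = ∏ e, L e ^ (q - θ e) := by
      rw [div_pow, hroot, ← Finset.prod_pow, ← Finset.prod_div_distrib]
      exact Finset.prod_congr rfl fun e _ => by
        rw [pow_sub₀ _ (hL e) (hlt e).le, div_eq_mul_inv]
    have h := runge_core hN hp hq5 hne hx1 hbig (θ := fun e => q - θ e) (fun e => by simp [hevθ])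
      (fun e => Nat.sub_le _ _) hw' hroot' d
    exact (Nat.dvd_add_right h).mp (by rw [Nat.sub_add_cancel (hlt d).le])

end FA.Catalan
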