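import Fermat.Agent.ExtVanish.UnitEigen
import Fermat.Agent.ExtVanish.EigenPower
import Fermat.Agent.Catalan.PolAction
import Fermat.Agent.Catalan.Runge

/-!
# Units modulo `q`-th powers as a module over a generator of the Galois group

The characteristic polynomial of a generator `γ` is `1 + X + ⋯ + X^(N-1)`, separable modulo `q ∤ N`.
-/

set_option autoImplicit false

noncomputable section

open NumberField NumberField.InfinitePlace Polynomial FA.Ext

namespace FA.Catalan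

variable (p : ℕ) [Fact p.Prime] (K : Type*) [Field K] [NumberField K] [IsCyclotomicExtension {p} ℚ K]
  (q : ℕ) [Fact q.Prime]

/-- The action of `γ` on units modulo `q`-th powers. -/
def unitEnd (γ : (ZMod p)ˣ) : Module.End (ZMod q) (Fin (Units.rank K) → ZMod q) :=
  Matrix.toLin' ((unitMatrix K p γ).map (Int.cast : ℤ → ZMod q))

variable {p K q}

theorem unitModP_sigmaU (γ : (ZMod p)ˣ) (u : (𝓞 K)ˣ) :
    unitModP q (sigmaU p K γ u) = unitEnd p K q γ (unitModP q u) := by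
  rw [unitEnd, Matrix.toLin'_apply]
  ext i
  have h3 := congrArg (Int.castRingHom (ZMod q)) (congrFun (unitCoord_sigmaU K p γ u) i)
  rw [RingHom.map_mulVec] at h3
  exact h3

theorem exists_unitModP_eq (v : Fin (Units.rank K) → ZMod q) : ∃ u : (𝓞 K)ˣ, unitModP q u = v := by
  refine ⟨1 * ∏ i, Units.fundSystem K i ^ ((v i).val : ℤ), funext fun i => ?_⟩
  rw [unitModP, unitCoord_mul_prod (one_mem _)]
  simp

theorem card_places {N : ℕ} (hN : 2 ≤ N) (hp : p = 2 * N + 1) : Fintype.card (InfinitePlace K) = N := by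
  rw [card_eq_nrRealPlaces_add_nrComplexPlaces,
    IsCyclotomicExtension.Rat.nrRealPlaces_eq_zero (n := p) K (by omega),
    IsCyclotomicExtension.Rat.nrComplexPlaces_eq_totient_div_two (n := p), Nat.totient_prime Fact.out]
  omega

variable {γ : (ZMod p)ˣ} (hγ : ∀ a, a ∈ Subgroup.zpowers γ) {N : ℕ} (hN : 2 ≤ N) (hp : p = 2 * N + 1)

include hγ hN hp

theorem charpoly_unitEnd : (unitEnd p K q γ).charpoly * (X - 1) = X ^ N - 1 := by
  have h1 := congrArg (Polynomial.map (Int.castRingHom (ZMod q))) (charpoly_unitMatrix K p hγ)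
  rw [Polynomial.map_mul, ← Matrix.charpoly_map, card_places hN hp] at h1
  simp only [Polynomial.map_sub, Polynomial.map_pow, Polynomial.map_X, Polynomial.map_one] at h1
  rw [← h1]
  congr 1
  rw [unitEnd, ← LinearMap.charpoly_toMatrix _ (Pi.basisFun (ZMod q) _), LinearMap.toMatrix_eq_toMatrix',
    LinearMap.toMatrix'_toLin']
  rfl

theorem separable_charpoly_unitEnd (hqN : (N : ZMod q) ≠ 0) : (unitEnd p K q γ).charpoly.Separable := by
  have h := separable_X_pow_sub_C (1 : ZMod q) hqN one_ne_zero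
  rw [C_1, ← charpoly_unitEnd (K := K) hγ hN hp] at h
  exact h.of_mul_left

omit hγ hN hp

/-- Torsion units are `q`-th powers. -/
theorem exists_pow_eq_of_torsion (hp2 : p ≠ 2) (hq2 : q ≠ 2) (hne : q ≠ p) {t : (𝓞 K)ˣ}
    (ht : t ∈ Units.torsion K) : ∃ w : (𝓞 K)ˣ, t = w ^ q := by
  obtain ⟨r, hr⟩ := torsion_eq_neg_zeta_pow K p hp2 ht
  have h2 : t ^ (2 * p) = 1 := Units.ext (by
    rw [Units.val_pow_eq_pow_val, hr, ← pow_mul, show r * (2 * p) = 2 * (p * r) by ring, pow_mul, neg_sq,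
      ← pow_mul, show 2 * (p * r) = p * (2 * r) by ring, pow_mul, (zetaInt_spec p K).pow_eq_one, one_pow,
      Units.val_one])
  have hcop : Nat.Coprime q (2 * p) := ((Fact.out : q.Prime).coprime_iff_not_dvd).mpr fun e => by
    rcases (Nat.Prime.dvd_mul Fact.out).mp e with e | e
    · exact hq2 ((Nat.prime_dvd_prime_iff_eq Fact.out Nat.prime_two).mp e)
    · exact hne ((Nat.prime_dvd_prime_iff_eq Fact.out Fact.out).mp e)
  obtain ⟨a, b, hab⟩ : ∃ a b : ℤ, a * (q : ℤ) + b * ((2 * p : ℕ) : ℤ) = 1 :=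
    Int.isCoprime_iff_nat_coprime.mpr (by rwa [Int.natAbs_natCast, Int.natAbs_natCast])
  refine ⟨t ^ a, ?_⟩
  calc t = t ^ (a * (q : ℤ) + b * ((2 * p : ℕ) : ℤ)) := by rw [hab, zpow_one]
    _ = (t ^ a) ^ q := by rw [zpow_add, zpow_mul, mul_comm b, zpow_mul t ((2 * p : ℕ) : ℤ), zpow_natCast t, h2, one_zpow,
        mul_one, zpow_natCast]

theorem unitModP_eq_zero_iff (hp2 : p ≠ 2) (hq2 : q ≠ 2) (hne : q ≠ p) {u : (𝓞 K)ˣ} :
    unitModP q u = 0 ↔ ∃ w : (𝓞 K)ˣ, u = w ^ q := by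
  refine ⟨fun h => ?_, fun ⟨w, hw⟩ => ?_⟩
  · obtain ⟨t, w, ht, rfl⟩ := exists_torsion_mul_pow q h
    obtain ⟨t', rfl⟩ := exists_pow_eq_of_torsion hp2 hq2 hne ht
    exact ⟨t' * w, (mul_pow t' w q).symm⟩
  · rw [hw, unitModP_pow, ← Nat.cast_smul_eq_nsmul (ZMod q), ZMod.natCast_self, zero_smul]

/-- Being a `q`-th power of an element invertible modulo `q²`, modulo `q²`. -/
def QPrimary (q : ℕ) (y : 𝓞 K) : Prop :=
  ∃ t : 𝓞 K, (∃ r : 𝓞 K, (q : 𝓞 K) ^ 2 ∣ t * r - 1) ∧ (q : 𝓞 K) ^ 2 ∣ y - t ^ q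

omit [NumberField K] [Fact q.Prime] in
theorem qPrimary_one : QPrimary q (1 : 𝓞 K) := ⟨1, ⟨1, by simp⟩, by simp⟩

omit [NumberField K] [Fact q.Prime] in
theorem QPrimary.mul {a b : 𝓞 K} (ha : QPrimary q a) (hb : QPrimary q b) : QPrimary q (a * b) := by
  obtain ⟨s, hs, hsa⟩ := ha
  obtain ⟨t, ht, htb⟩ := hb
  obtain ⟨r, hr⟩ := hs
  obtain ⟨r', hr'⟩ := ht
  refine ⟨s * t, ⟨r * r', ?_⟩, ?_⟩
  · rw [show s * t * (r * r') - 1 = (s * r - 1) * (t * r') + (t * r' - 1) by ring]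
    exact dvd_add (hr.mul_right _) hr'
  rw [mul_pow, show a * b - s ^ q * t ^ q = (a - s ^ q) * b + s ^ q * (b - t ^ q) by ring]
  exact dvd_add (hsa.mul_right _) (htb.mul_left _)

omit [Fact q.Prime] in
theorem QPrimary.sigma {a : 𝓞 K} (ha : QPrimary q a) (d : (ZMod p)ˣ) : QPrimary q (FA.Ext.sigma p K d a) := by
  obtain ⟨s, hs, hsa⟩ := ha
  obtain ⟨r, hr⟩ := hs
  refine ⟨FA.Ext.sigma p K d s, ⟨FA.Ext.sigma p K d r, ?_⟩, ?_⟩
  · have := map_dvd (FA.Ext.sigma p K d) hr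
    rwa [map_pow, map_natCast, map_sub, map_mul, map_one] at this
  have := map_dvd (FA.Ext.sigma p K d) hsa
  rwa [map_pow, map_natCast, map_sub, map_pow] at this

omit [NumberField K] [Fact q.Prime] in
theorem qPrimary_pow {t : 𝓞 K} (ht : IsUnit t) : QPrimary q (t ^ q) := by
  obtain ⟨T, rfl⟩ := ht
  exact ⟨T, ⟨((T⁻¹ : (𝓞 K)ˣ) : 𝓞 K), by simp⟩, by simp⟩

theorem qPrimary_of_unitModP_eq (hp2 : p ≠ 2) (hq2 : q ≠ 2) (hne : q ≠ p) {u u' : (𝓞 K)ˣ}
    (h : unitModP q u = unitModP q u') (h' : QPrimary q (u' : 𝓞 K)) : QPrimary q (u : 𝓞 K) := by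
  obtain ⟨w, hw⟩ := (unitModP_eq_zero_iff hp2 hq2 hne (u := u * u'⁻¹)).mp (by
    have h4 := unitModP_mul q (u * u'⁻¹) u'
    rw [inv_mul_cancel_right, h] at h4
    exact right_eq_add.mp h4)
  rw [show u = u' * w ^ q by rw [← hw, mul_comm u, mul_inv_cancel_left], Units.val_mul, Units.val_pow_eq_pow_val]
  exact h'.mul (qPrimary_pow w.isUnit)

end FA.Catalan
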