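import Fermat.Agent.Catalan.ThainePrime
import Fermat.Agent.Catalan.PlusUnits
import Fermat.Prelude.Def_ClassGroup_ModP

/-!
# A class killed by `π(γ)` and Thaine's theorem

A nontrivial class of exponent `q` killed by an irreducible `π(γ)` gives a character of the same kind; then
Thaine's relation makes `h(γ)` of the real cyclotomic unit a `q`-th power.
-/

set_option autoImplicit false

noncomputable section

open NumberField IsDedekindDomain Polynomial FA.Ext
open scoped nonZeroDivisors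

namespace FA.Catalan

variable (p : ℕ) [Fact p.Prime] (K : Type*) [Field K] [NumberField K] [IsCyclotomicExtension {p} ℚ K]

/-- `σ_γ` on integers. -/
def gInt (γ : (ZMod p)ˣ) : 𝓞 K →* 𝓞 K := (sigma p K γ).toRingHom.toMonoidHom

/-- The real cyclotomic unit `(1 + ζ)(1 + ζ⁻¹)`. -/
def realCyclo (h5 : 5 ≤ p) : (𝓞 K)ˣ := baseUnit p K h5 * sigmaU p K (-1) (baseUnit p K h5)

variable {p K}

theorem gInt_iterate (γ : (ZMod p)ˣ) (i : ℕ) (y : 𝓞 K) : (gInt p K γ)^[i] y = sigma p K (γ ^ i) y := by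
  induction i with
  | zero => rw [Function.iterate_zero_apply, pow_zero, sigma_one_apply]
  | succ i ih => rw [Function.iterate_succ_apply', ih, pow_succ', sigma_mul_apply]; rfl

variable {q : ℕ} [Fact q.Prime]

/-- The classes killed by `q`. -/
abbrev TorClass (q : ℕ) (K : Type*) [Field K] [NumberField K] : Type _ :=
  Additive ((powMonoidHom q : ClassGroup (𝓞 K) →* ClassGroup (𝓞 K)).ker)

omit [Fact q.Prime] in
instance instModuleTorClass [NeZero q] : Module (ZMod q) (TorClass q K) :=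
  AddCommGroup.zmodModule fun x => by
    obtain ⟨⟨C, hC⟩, rfl⟩ := Additive.ofMul.surjective x
    rw [← ofMul_pow, ofMul_eq_zero]
    exact Subtype.ext (by rw [SubmonoidClass.coe_pow, OneMemClass.coe_one]; exact hC)

/-- Character values at the conjugates of a class. -/
def charOrbit (ψ : ClassGroup (𝓞 K) →* Multiplicative (ZMod q)) (C : ClassGroup (𝓞 K)) (d : (ZMod p)ˣ) : ZMod q :=
  Multiplicative.toAdd (ψ (sigmaCl p K d C))

/-- A nontrivial class of exponent `q` killed by `π` gives a character killed by `π`. -/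
theorem exists_killed_char {γ : (ZMod p)ˣ} (hqp : ((p - 1 : ℕ) : ZMod q) ≠ 0)
    {π : (ZMod q)[X]} (hdvd : π ∣ X ^ (p - 1) - 1) {c : ClassGroup (𝓞 K)} (hcq : c ^ q = 1)
    (hc : c ≠ 1) (hkill : polProd (sigmaCl p K γ) π c = 1) :
    ∃ Ψ : ClassGroup (𝓞 K) →* Multiplicative (ZMod q), Ψ ≠ 1 ∧
      ∀ C, aeval (shiftEnd γ) π (charOrbit (p := p) Ψ C) = 0 := by
  have hq : q.Prime := Fact.out
  have : NeZero q := ⟨hq.ne_zero⟩
  set sc := sigmaCl p K γ
  obtain ⟨g, hg⟩ := hdvd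
  have hsep : (π * g).Separable := by
    rw [← hg, ← C_1]
    exact separable_X_pow_sub_C (1 : ZMod q) hqp one_ne_zero
  obtain ⟨b, a, hab⟩ := hsep.isCoprime
  set e : (ZMod q)[X] := a * g with he
  -- `e` fixes `c`
  let T : Subgroup (ClassGroup (𝓞 K)) := (powMonoidHom q).ker
  have hT : ∀ C ∈ T, sc C ∈ T := fun C hC => by
    rw [MonoidHom.mem_ker, powMonoidHom_apply] at hC ⊢
    rw [← map_pow, hC, map_one]
  let sT : T →* T := (sc.comp T.subtype).codRestrict T fun C => hT C.1 C.2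
  let TT : Module.End (ZMod q) (TorClass q K) := (MonoidHom.toAdditive sT).toZModLinearMap q
  let cT : T := ⟨c, hcq⟩
  have hfix : polProd sc e c = c := by
    have hnat : ∀ (P : (ZMod q)[X]) (x : T), ((polProd sT P x : T) : ClassGroup (𝓞 K)) = polProd sc P x := fun P x =>
      map_polProd T.subtype (fun y => rfl) P x
    have hJ : ∀ (P : (ZMod q)[X]) (x : T), Additive.ofMul (polProd sT P x) = aeval TT P (Additive.ofMul x) := fun P x =>
      apply_polProd (V := TorClass q K) (T := TT) (fun y : T => Additive.ofMul y) (fun _ _ => rfl) (fun _ => rfl) P x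
    have h0 : aeval TT π (Additive.ofMul cT) = 0 := by
      rw [← hJ, ofMul_eq_zero]
      exact Subtype.ext ((hnat π cT).trans hkill)
    have h1 : aeval TT e (Additive.ofMul cT) = Additive.ofMul cT := by
      have h2 := congrArg (fun P : (ZMod q)[X] => aeval TT P (Additive.ofMul cT)) hab
      simp only [map_add, map_mul, LinearMap.add_apply, Module.End.mul_apply, h0, map_zero, zero_add, map_one,
        Module.End.one_apply] at h2
      exact h2
    rw [← hJ] at h1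
    exact (hnat e cT).symm.trans (congrArg Subtype.val (Additive.ofMul.injective h1))
  -- some value of `e` is no `q`-th power
  obtain ⟨C₀, hC₀⟩ : ∃ C, ∀ y, polProd sc e C ≠ y ^ q := by
    by_contra h
    push Not at h
    have hall : ∀ n : ℕ, ∃ y, c = y ^ q ^ n := by
      intro n
      induction n with
      | zero => exact ⟨c, by simp⟩
      | succ n ih =>
        obtain ⟨y, hy⟩ := ih
        obtain ⟨z, hz⟩ := h y
        refine ⟨z, ?_⟩
        rw [← hfix, hy, show polProd sc e (y ^ q ^ n) = polProd sc e y ^ q ^ n from map_pow (polHom sc e) y _, hz,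
          ← pow_mul, pow_succ']
    set N := Fintype.card (ClassGroup (𝓞 K))
    obtain ⟨y, hy⟩ := hall N
    have hord : orderOf y = q ^ (N + 1) := orderOf_eq_prime_pow
      (by rw [← hy]; exact hc) (by rw [pow_succ, pow_mul, ← hy, hcq])
    have h1 : q ^ (N + 1) ≤ N := hord ▸ orderOf_le_card_univ
    have h2 := Nat.lt_pow_self (n := N + 1) hq.one_lt
    omega
  obtain ⟨ψ, hψ⟩ := FA.Ext.exists_hom_ne_one (p := q) hC₀
  refine ⟨ψ.comp (polHom sc e), fun h => hψ (DFunLike.congr_fun h C₀), fun C => ?_⟩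
  have hcomm : ∀ d D, sigmaCl p K d (sc D) = sc (sigmaCl p K d D) := fun d D => by
    rw [← FA.Ext.sigmaCl_mul, ← FA.Ext.sigmaCl_mul, mul_comm]
  have horb : charOrbit (p := p) (ψ.comp (polHom sc e)) C = aeval (shiftEnd γ) e (charOrbit (p := p) ψ C) := by
    rw [← apply_polProd (s := sc) (T := shiftEnd γ) (fun D => charOrbit (p := p) ψ D) (fun D E => funext fun d => by
        simp only [charOrbit, map_mul, toAdd_mul, Pi.add_apply])
      (fun D => funext fun d => by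
        rw [shiftEnd, LinearMap.funLeft_apply, charOrbit, charOrbit, mul_comm γ d, FA.Ext.sigmaCl_mul]) e C]
    funext d
    simp only [charOrbit, MonoidHom.comp_apply]
    rw [show (polHom sc e) (sigmaCl p K d C) = polProd sc e (sigmaCl p K d C) from rfl,
      map_polProd (sigmaCl p K d) (hcomm d) e C]
  rw [horb, ← Module.End.mul_apply, ← map_mul, show π * e = a * (π * g) by rw [he]; ring, ← hg, map_mul,
    Module.End.mul_apply]
  have h0 : aeval (shiftEnd γ) (X ^ (p - 1) - 1 : (ZMod q)[X]) (charOrbit (p := p) ψ C) = 0 := by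
    rw [map_sub, map_pow, aeval_X, map_one, LinearMap.sub_apply, Module.End.one_apply, sub_eq_zero]
    funext d
    rw [shiftEnd_pow_apply, ZMod.units_pow_card_sub_one_eq_one, one_mul]
  rw [h0, map_zero]

/-- `∏_d σ_d ((ζ^a - 1)/(ζ - 1)) = 1`. -/
theorem prod_sigma_geom {a : ℕ} (ha : (a : ZMod p) ≠ 0) :
    ∏ d : (ZMod p)ˣ, sigma p K d (∑ i ∈ Finset.range a, zetaInt p K ^ i) = 1 := by
  have hp : p.Prime := Fact.out
  have : NeZero p := ⟨hp.ne_zero⟩
  have h1 : ∏ d : (ZMod p)ˣ, (1 - zetaInt p K ^ (d : ZMod p).val) = (p : 𝓞 K) := by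
    rw [prod_sub_zeta_pow p K 1]; simp
  let au : (ZMod p)ˣ := Units.mk0 (a : ZMod p) ha
  have h2 : ∏ d : (ZMod p)ˣ, (1 - zetaInt p K ^ ((au * d : (ZMod p)ˣ) : ZMod p).val) = (p : 𝓞 K) := by
    rw [← h1]; exact Fintype.prod_equiv (Equiv.mulLeft au) _ _ fun d => rfl
  have h3 : ∀ d : (ZMod p)ˣ, (1 - zetaInt p K ^ (d : ZMod p).val) *
      sigma p K d (∑ i ∈ Finset.range a, zetaInt p K ^ i) =
      1 - zetaInt p K ^ ((au * d : (ZMod p)ˣ) : ZMod p).val := fun d => by
    rw [map_sum, Finset.sum_congr rfl fun i _ => by rw [map_pow, sigma_zetaInt], mul_neg_geom_sum, ← pow_mul,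
      pow_eq_pow_mod ((d : ZMod p).val * a) (zetaInt_spec p K).pow_eq_one, mul_comm _ a, Units.val_mul,
      Units.val_mk0, ← ZMod.val_natCast, Nat.cast_mul, ZMod.natCast_zmod_val]
  have h4 := h2
  rw [← Finset.prod_congr rfl fun d _ => h3 d, Finset.prod_mul_distrib, h1] at h4
  exact mul_eq_left₀ (Nat.cast_ne_zero.mpr hp.ne_zero) |>.mp h4

/-- **Thaine's theorem** in the form used: a character killed by `π` makes `h(γ)` of every real cyclotomic unit
a `q`-th power. -/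
theorem unitModP_eq_zero_of_char_gen (h5 : 5 ≤ p) (hq3 : 3 ≤ q) (hne : q ≠ p) (hqp : ((p - 1 : ℕ) : ZMod q) ≠ 0)
    {γ : (ZMod p)ˣ} (hγ : ∀ a, a ∈ Subgroup.zpowers γ) {N : ℕ} (hp : p = 2 * N + 1)
    (hγN : γ ^ N = -1) {π h : (ZMod q)[X]} (hπ : Irreducible π) (hf : π * h * (X - 1) = X ^ N - 1)
    {Ψ : ClassGroup (𝓞 K) →* Multiplicative (ZMod q)} (hΨ : Ψ ≠ 1)
    (hkill : ∀ C, aeval (shiftEnd γ) π (charOrbit (p := p) Ψ C) = 0) {a₀ : ℕ} (ha₀ : (a₀ : ZMod p) ≠ 0)
    (w₀ : (𝓞 K)ˣ) (hw₀ : (w₀ : 𝓞 K) = ∑ i ∈ Finset.range a₀, zetaInt p K ^ i) :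
    unitModP q (polProd (sigmaU p K γ) h (w₀ * sigmaU p K (-1) w₀)) = 0 := by
  classical
  have hqP : q.Prime := Fact.out
  set ε := polProd (sigmaU p K γ) h (w₀ * sigmaU p K (-1) w₀) with hε
  by_contra hne0
  have hnp : ∀ y : K, y ^ q ≠ ((ε : 𝓞 K) : K) := fun y hy => by
    obtain ⟨w, hw, -⟩ := FA.Ext.exists_unit_pow_eq q K hy
    exact hne0 ((unitModP_eq_zero_iff (p := p) (by omega) (by omega) hne).mpr ⟨w, hw.symm⟩)
  obtain ⟨v, hvp, hv, hl, hΨv, hres⟩ := exists_prime_char_nonresidue p hq3 hnp Ψ hΨ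
  obtain ⟨c, k, hk, hkc, hrel⟩ := exists_thaine_relation_gen p h5 ha₀ v hvp hv hl
  set a := charOrbit (p := p) Ψ (ClassGroup.mk0 (primeIdeal v)) with ha
  have ha0 : a ≠ 0 := fun e => hΨv (by
    have h1 := congrFun e 1
    have h2 : sigmaCl p K 1 (ClassGroup.mk0 (primeIdeal v)) = ClassGroup.mk0 (primeIdeal v) :=
      FA.Ext.sigmaCl_mk0 p K 1 (primeIdeal v) (primeIdeal v) (by
        rw [map_one]; exact (Ideal.map_id _).symm)
    rw [ha, charOrbit, h2] at h1
    exact toAdd_eq_zero.mp h1)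
  -- the relation at every translate
  have hrel0 : ∀ e : (ZMod p)ˣ, ∑ d, (k d : ZMod q) * a (e * d) = 0 := fun e => by
    have h1 := hrel (Ψ.comp (sigmaCl p K e))
    refine Eq.trans (Finset.sum_congr rfl fun d _ => ?_) h1
    rw [ha, charOrbit, MonoidHom.comp_apply, FA.Ext.sigmaCl_mul]
  set l : (ZMod p)ˣ → ZMod q := fun d => (k d : ZMod q) + (k (-d) : ZMod q) with hldef
  -- logarithms
  set red := Ideal.Quotient.mk v.asIdeal
  have hlog : ∀ d : (ZMod p)ˣ, red (c : 𝓞 K) ^ k d * red (sigma p K d⁻¹ (w₀ : 𝓞 K)) = 1 := fun d => by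
    rw [← map_pow, ← map_mul, ← map_one red, Ideal.Quotient.eq, hw₀]
    exact hk d
  have hsum : ∑ d, (k d : ZMod q) = 0 := by
    rw [← Nat.cast_sum, ZMod.natCast_eq_zero_iff]
    refine hkc _ (Ideal.Quotient.eq.mp ?_)
    have h1 := Finset.prod_congr (s₁ := (Finset.univ : Finset (ZMod p)ˣ)) rfl fun d _ => hlog d
    rw [Finset.prod_mul_distrib, Finset.prod_pow_eq_pow_sum, ← map_prod,
      Fintype.prod_equiv (Equiv.inv _) (fun d => sigma p K d⁻¹ (w₀ : 𝓞 K))
        (fun d => sigma p K d (w₀ : 𝓞 K)) (fun d => rfl), hw₀, prod_sigma_geom ha₀, map_one, mul_one,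
      Finset.prod_const_one, ← map_pow] at h1
    rw [h1, map_one]
  have hcard : Fintype.card (ZMod p)ˣ = 2 * N := by rw [ZMod.card_units p]; omega
  have hkernel := shift_kernel hγ hcard (by rwa [show 2 * N = p - 1 by omega])
    (fun e => by
      have e' : ((2 : ℕ) : ZMod q) = 0 := by simpa using e
      have := Nat.le_of_dvd two_pos ((ZMod.natCast_eq_zero_iff 2 q).mp e')
      omega) hπ hf ha0 (hkill _) (l := l)
    (fun d => by rw [hγN, hldef, neg_one_mul]; simp only [neg_neg]; ring)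
    (by
      simp only [hldef, Finset.sum_add_distrib]
      rw [Fintype.sum_equiv (Equiv.neg _) (fun d => (k (-d) : ZMod q)) (fun d => (k d : ZMod q)) (fun d => rfl), hsum,
        add_zero])
    (fun e => by
      simp only [hldef, add_mul, Finset.sum_add_distrib]
      rw [hrel0 e, zero_add, ← hrel0 (-e)]
      exact Fintype.sum_equiv (Equiv.neg _) _ _ fun d => by rw [Equiv.neg_apply, mul_neg, neg_mul, neg_neg])
  -- `ε` is a residue
  set E := ∑ i ∈ Finset.range (h.natDegree + 1), (h.coeff i).val * (k (γ ^ i)⁻¹ + k (-(γ ^ i)⁻¹)) with hE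
  obtain ⟨n, hn⟩ : q ∣ E := by
    rw [← ZMod.natCast_eq_zero_iff, hE, Nat.cast_sum, ← hkernel]
    refine Finset.sum_congr rfl fun i _ => ?_
    rw [hldef]
    push_cast
    rw [ZMod.natCast_zmod_val]
  have hεE : red (c : 𝓞 K) ^ E * red (ε : 𝓞 K) = 1 := by
    have h1 : (ε : 𝓞 K) = polProd (gInt p K γ) h ((w₀ * sigmaU p K (-1) w₀ : (𝓞 K)ˣ) : 𝓞 K) :=
      map_polProd (s := sigmaU p K γ) (s' := gInt p K γ) (Units.coeHom (𝓞 K)) (fun y => sigmaU_coe p K γ y) h _
    rw [h1, polProd, map_prod, hE, ← Finset.prod_pow_eq_pow_sum, ← Finset.prod_mul_distrib]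
    refine Finset.prod_eq_one fun i _ => ?_
    rw [map_pow, mul_comm (h.coeff i).val, pow_mul, ← mul_pow, gInt_iterate, Units.val_mul, sigmaU_coe,
      map_mul, ← sigma_mul_apply, map_mul, pow_add]
    have h2 := hlog (γ ^ i)⁻¹
    have h3 := hlog (-(γ ^ i)⁻¹)
    rw [inv_inv] at h2
    rw [inv_neg, inv_inv] at h3
    rw [mul_neg_one, mul_mul_mul_comm, h2, h3, mul_one, one_pow]
  refine hres ((ε : 𝓞 K) * (c : 𝓞 K) ^ (n * (q - 1))) (Ideal.Quotient.eq.mp ?_)
  rw [map_pow, map_mul, map_pow]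
  rw [hn, mul_comm q n, pow_mul] at hεE
  set u := red (c : 𝓞 K) ^ n
  rw [pow_mul]
  obtain ⟨j, hj⟩ : ∃ j, q = j + 1 := ⟨q - 1, by omega⟩
  rw [hj, Nat.add_sub_cancel]
  rw [hj] at hεE
  calc red (ε : 𝓞 K) = red (ε : 𝓞 K) * (u ^ (j + 1) * red (ε : 𝓞 K)) ^ j := by rw [hεE, one_pow, mul_one]
    _ = (red (ε : 𝓞 K) * u ^ j) ^ (j + 1) := by
      rw [mul_pow, mul_pow, ← pow_mul, ← pow_mul, mul_comm (j + 1) j, pow_succ' (red (ε : 𝓞 K))]
      ring

/-- The case of `1 + ζ`. -/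
theorem unitModP_eq_zero_of_char (h5 : 5 ≤ p) (hq3 : 3 ≤ q) (hne : q ≠ p) (hqp : ((p - 1 : ℕ) : ZMod q) ≠ 0)
    {γ : (ZMod p)ˣ} (hγ : ∀ a, a ∈ Subgroup.zpowers γ) {N : ℕ} (hp : p = 2 * N + 1)
    (hγN : γ ^ N = -1) {π h : (ZMod q)[X]} (hπ : Irreducible π) (hf : π * h * (X - 1) = X ^ N - 1)
    {Ψ : ClassGroup (𝓞 K) →* Multiplicative (ZMod q)} (hΨ : Ψ ≠ 1)
    (hkill : ∀ C, aeval (shiftEnd γ) π (charOrbit (p := p) Ψ C) = 0) :
    unitModP q (polProd (sigmaU p K γ) h (realCyclo p K h5)) = 0 :=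
  unitModP_eq_zero_of_char_gen h5 hq3 hne hqp hγ hp hγN hπ hf hΨ hkill (a₀ := 2)
    (by rw [Nat.cast_ofNat]; exact FA.Ext.two_ne_zero_of_five_le p h5) (baseUnit p K h5)
    (by rw [baseUnit_coe]; simp [Finset.sum_range_succ])

end FA.Catalan
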