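import Fermat.Agent.Catalan.PlusPrincipal

/-!
# The plus argument

For a solution of `1 + x + ⋯ + x^(p-1) = p v^q` of the size of a Catalan solution the unit `1 + ζ` is a
`q`-th power modulo `q²`, which forces `p ≤ q`.
-/

set_option autoImplicit false

noncomputable section

open NumberField Polynomial FA.Ext
open scoped nonZeroDivisors

namespace FA.Catalan

variable (p : ℕ) [Fact p.Prime] (K : Type*) [Field K] [NumberField K] [IsCyclotomicExtension {p} ℚ K]
  {q : ℕ} [Fact q.Prime]

omit [Fact p.Prime] [IsCyclotomicExtension {p} ℚ K] [Fact q.Prime] in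
theorem qPrimary_pow_nat {K : Type*} [Field K] [NumberField K] {a : 𝓞 K} (ha : QPrimary q a) (n : ℕ) :
    QPrimary q (a ^ n) := by
  induction n with
  | zero => rw [pow_zero]; exact qPrimary_one
  | succ n ih => rw [pow_succ]; exact ih.mul ha

/-- The classes all of whose units are primary. -/
def primaryClasses (hp2 : p ≠ 2) (hq2 : q ≠ 2) (hne : q ≠ p) :
    Submodule (ZMod q) (Fin (Units.rank K) → ZMod q) where
  carrier := {v | ∀ u : (𝓞 K)ˣ, unitModP q u = v → QPrimary q (u : 𝓞 K)}
  zero_mem' := fun u hu => qPrimary_of_unitModP_eq (p := p) hp2 hq2 hne (u' := 1)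
    (by rw [hu, (unitModP_eq_zero_iff (p := p) hp2 hq2 hne).mpr ⟨1, (one_pow q).symm⟩])
    (by rw [Units.val_one]; exact qPrimary_one)
  add_mem' := fun {v w} hv hw u hu => by
    obtain ⟨a, ha⟩ := exists_unitModP_eq (q := q) v
    obtain ⟨b, hb⟩ := exists_unitModP_eq (q := q) w
    refine qPrimary_of_unitModP_eq (p := p) hp2 hq2 hne (u' := a * b) (by rw [unitModP_mul, ha, hb, hu]) ?_
    rw [Units.val_mul]
    exact (hv a ha).mul (hw b hb)
  smul_mem' := fun c v hv u hu => by
    obtain ⟨a, ha⟩ := exists_unitModP_eq (q := q) v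
    refine qPrimary_of_unitModP_eq (p := p) hp2 hq2 hne (u' := a ^ c.val)
      (by rw [unitModP_pow, ha, hu, ← Nat.cast_smul_eq_nsmul (ZMod q), ZMod.natCast_zmod_val]) ?_
    rw [Units.val_pow_eq_pow_val]
    exact qPrimary_pow_nat (hv a ha) _

variable {p K}

theorem primaryClasses_unitEnd {hp2 : p ≠ 2} {hq2 : q ≠ 2} {hne : q ≠ p} (γ : (ZMod p)ˣ)
    {v : Fin (Units.rank K) → ZMod q} (hv : v ∈ primaryClasses p K hp2 hq2 hne) :
    unitEnd p K q γ v ∈ primaryClasses p K hp2 hq2 hne := fun u hu => by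
  obtain ⟨a, ha⟩ := exists_unitModP_eq (q := q) v
  refine qPrimary_of_unitModP_eq (p := p) hp2 hq2 hne (u' := sigmaU p K γ a) (by rw [unitModP_sigmaU, ha, hu]) ?_
  rw [sigmaU_coe]
  exact (hv a ha).sigma γ

theorem primaryClasses_aeval {hp2 : p ≠ 2} {hq2 : q ≠ 2} {hne : q ≠ p} (γ : (ZMod p)ˣ) (g : (ZMod q)[X])
    {v : Fin (Units.rank K) → ZMod q} (hv : v ∈ primaryClasses p K hp2 hq2 hne) :
    aeval (unitEnd p K q γ) g v ∈ primaryClasses p K hp2 hq2 hne := by
  rw [aeval_eq_sum_range, LinearMap.sum_apply]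
  refine Submodule.sum_mem _ fun i hi => Submodule.smul_mem _ _ ?_
  clear hi
  induction i with
  | zero => simpa using hv
  | succ i ih => rw [pow_succ', Module.End.mul_apply]; exact primaryClasses_unitEnd γ ih

variable (p K) in
/-- **The plus argument.** -/
theorem one_add_zeta_primary {N : ℕ} (hN : 2 ≤ N) (hp : p = 2 * N + 1) (hq5 : 5 ≤ q) (hne : q ≠ p)
    (hqp : ((p - 1 : ℕ) : ZMod q) ≠ 0) {x v : ℤ} (hx1 : (p : ℤ) ∣ x - 1) (hqx : (q : ℤ) ^ 2 ∣ x)
    (hbig : (q : ℤ) ^ (2 * p) ≤ |x|) (hΦ : ∑ i ∈ Finset.range p, x ^ i = (p : ℤ) * v ^ q) :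
    QPrimary q (1 + zetaInt p K) := by
  classical
  have hP : p.Prime := Fact.out
  have hQ : q.Prime := Fact.out
  have : NeZero p := ⟨hP.ne_zero⟩
  have : NeZero q := ⟨hQ.ne_zero⟩
  have hp5 : 5 ≤ p := by omega
  have hp2 : p ≠ 2 := by omega
  have hq2 : q ≠ 2 := by omega
  obtain ⟨γ, hγ⟩ := IsCyclic.exists_generator (α := (ZMod p)ˣ)
  have hord : orderOf γ = 2 * N := by
    rw [orderOf_eq_card_of_forall_mem_zpowers hγ, Nat.card_eq_fintype_card, ZMod.card_units p]
    omega
  have hγN : γ ^ N = -1 := by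
    have h1 : ((γ ^ N : (ZMod p)ˣ) : ZMod p) * ((γ ^ N : (ZMod p)ˣ) : ZMod p) = 1 := by
      rw [← Units.val_mul, ← pow_add, ← two_mul, ← hord, pow_orderOf_eq_one, Units.val_one]
    refine Units.ext ?_
    rw [Units.val_neg, Units.val_one]
    refine (mul_self_eq_one_iff.mp h1).resolve_left fun e => ?_
    have h2 := orderOf_dvd_of_pow_eq_one (Units.ext (e.trans Units.val_one.symm) : γ ^ N = 1)
    rw [hord] at h2
    have := Nat.le_of_dvd (by omega) h2
    omega
  obtain ⟨ρ, lam0, J, hJ, hspan, hlin, hlam⟩ := exists_real_root (p := p) (K := K) (q := q) (by omega) hx1 hΦ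
  set T := unitEnd p K q γ with hT
  set W := primaryClasses p K hp2 hq2 hne with hW
  set η := realCyclo p K hp5 with hη
  have hchar : T.charpoly * (X - 1) = X ^ N - 1 := charpoly_unitEnd hγ hN hp
  have hqN : (N : ZMod q) ≠ 0 := fun e => hqp (by
    rw [show p - 1 = 2 * N by omega, Nat.cast_mul, e, mul_zero])
  have hsep : T.charpoly.Separable := separable_charpoly_unitEnd hγ hN hp hqN
  -- the ideal of `g` with `g(γ) η` primary
  let 𝔞 : Ideal (ZMod q)[X] :=
    { carrier := {g | aeval T g (unitModP q η) ∈ W}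
      zero_mem' := by simp
      add_mem' := fun {a b} ha hb => by
        simp only [Set.mem_ofPred_eq, map_add, LinearMap.add_apply] at ha hb ⊢
        exact W.add_mem ha hb
      smul_mem' := fun a b hb => by
        simp only [Set.mem_ofPred_eq, smul_eq_mul, map_mul, Module.End.mul_apply] at hb ⊢
        exact primaryClasses_aeval γ a hb }
  have hfac : ∀ π h : (ZMod q)[X], Irreducible π → π * h = T.charpoly → h ∈ 𝔞 := by
    intro π h hπ hπh
    have hf : π * h * (X - 1) = X ^ N - 1 := by rw [hπh, hchar]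
    show aeval T h (unitModP q η) ∈ W
    by_cases hc : ClassGroup.mk0 (polProd (gIdeal p K γ) h (gIdeal p K γ J)) =
        ClassGroup.mk0 (polProd (gIdeal p K γ) h J)
    · obtain ⟨u₁, hu0, hukill, hprim⟩ := exists_primary_unit hN hp hq5 hne hx1 hqx hbig hγ hγN hπ hf hspan hlin
        hlam hc
      obtain ⟨g, hg⟩ := exists_aeval_eq T hsep hπ hπh hu0 hukill (w := aeval T h (unitModP q η)) (by
        rw [← Module.End.mul_apply, ← map_mul, hπh, LinearMap.aeval_self_charpoly, LinearMap.zero_apply])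
      rw [← hg]
      exact primaryClasses_aeval γ g fun u hu => qPrimary_of_unitModP_eq hp2 hq2 hne hu hprim
    · -- a class killed by `π`
      set sc := sigmaCl p K γ with hsc
      set C := ClassGroup.mk0 J with hC
      have hmk : ∀ (d : (ZMod p)ˣ) (I : (Ideal (𝓞 K))⁰),
          ClassGroup.mk0 (gIdeal p K d I) = sigmaCl p K d (ClassGroup.mk0 I) := fun d I =>
        (sigmaCl_mk0 p K d I _ rfl).symm
      have hCq : C ^ q = 1 := by
        rw [hC, ← map_pow, ClassGroup.mk0_eq_one_iff, SubmonoidClass.coe_pow, ← hspan]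
        exact ⟨⟨(ρ : 𝓞 K), rfl⟩⟩
      have hiter : ∀ n : ℕ, sc^[n] C = sigmaCl p K (γ ^ n) C := by
        intro n
        induction n with
        | zero => rw [Function.iterate_zero_apply, pow_zero, hC, ← hmk]; congr 1; refine Subtype.ext ?_
                  show J.1 = J.1.map (sigma p K 1 : 𝓞 K →+* 𝓞 K)
                  rw [show (sigma p K 1 : 𝓞 K →+* 𝓞 K) = RingHom.id _ from RingHom.ext fun y => sigma_one_apply p K y,
                    Ideal.map_id]
        | succ n ih => rw [Function.iterate_succ_apply', ih, pow_succ', sigmaCl_mul]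
      have hfixC : sc^[N] C = C := by rw [hiter, hγN, hC, ← hmk, hJ]
      set c := polProd sc h (sc C * C⁻¹) with hcdef
      have hcq : c ^ q = 1 := by
        rw [hcdef, show polProd sc h (sc C * C⁻¹) ^ q = polProd sc h ((sc C * C⁻¹) ^ q) from
          (map_pow (polHom sc h) _ q).symm, mul_pow, inv_pow, ← map_pow, hCq, map_one, inv_one, one_mul, polProd_one]
      have hc1 : c ≠ 1 := fun e => hc (by
        rw [map_polProd ClassGroup.mk0 (fun I => hmk γ I), map_polProd ClassGroup.mk0 (fun I => hmk γ I), hmk,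
          ← hsc, ← hC]
        rw [hcdef, polProd_mul, show polProd sc h C⁻¹ = (polProd sc h C)⁻¹ from map_inv (polHom sc h) C,
          mul_inv_eq_one] at e
        exact e)
      have hkill : polProd sc π c = 1 := by
        let Tq : Subgroup (ClassGroup (𝓞 K)) := (powMonoidHom q).ker
        have hTmem : ∀ D ∈ Tq, sc D ∈ Tq := fun D hD => by
          rw [MonoidHom.mem_ker, powMonoidHom_apply] at hD ⊢
          rw [← map_pow, hD, map_one]
        let sT : Tq →* Tq := (sc.comp Tq.subtype).codRestrict Tq fun D => hTmem D.1 D.2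
        let TT : Module.End (ZMod q) (TorClass q K) := (MonoidHom.toAdditive sT).toZModLinearMap q
        let CT : Tq := ⟨C, hCq⟩
        have hnat : ∀ (P : (ZMod q)[X]) (D : Tq), ((polProd sT P D : Tq) : ClassGroup (𝓞 K)) = polProd sc P D :=
          fun P D => map_polProd Tq.subtype (fun y => rfl) P D
        have hA : ∀ (P : (ZMod q)[X]) (D : Tq),
            Additive.ofMul (polProd sT P D) = aeval TT P (Additive.ofMul D) := fun P D =>
          apply_polProd (V := TorClass q K) (T := TT) (fun y : Tq => Additive.ofMul y) (fun _ _ => rfl)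
            (fun _ => rfl) P D
        have hpowN : (TT ^ N) (Additive.ofMul CT) = Additive.ofMul CT := by
          rw [Module.End.pow_apply, ← (Function.Semiconj.iterate_right (f := fun y : Tq => Additive.ofMul y)
            (ga := sT) (gb := TT) (fun y => rfl) N).eq CT]
          refine congrArg Additive.ofMul (Subtype.ext ?_)
          exact ((Function.Semiconj.iterate_right (f := fun y : Tq => (y : ClassGroup (𝓞 K))) (ga := sT) (gb := sc)
            (fun y => rfl) N).eq CT).trans hfixC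
        have h0 : Additive.ofMul (polProd sT π (polProd sT h (sT CT * CT⁻¹))) = 0 := by
          rw [hA, hA, ← Module.End.mul_apply, ← map_mul, ofMul_mul, ofMul_inv,
            show Additive.ofMul (sT CT) = TT (Additive.ofMul CT) from rfl,
            show TT (Additive.ofMul CT) + -Additive.ofMul CT = aeval TT (X - 1 : (ZMod q)[X]) (Additive.ofMul CT) by
              rw [map_sub, aeval_X, map_one, LinearMap.sub_apply, Module.End.one_apply, sub_eq_add_neg],
            ← Module.End.mul_apply, ← map_mul, hf, map_sub, map_pow, aeval_X, map_one, LinearMap.sub_apply,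
            Module.End.one_apply, hpowN, sub_self]
        have h1 := congrArg (fun D : Tq => (D : ClassGroup (𝓞 K))) (Additive.ofMul.injective h0 :
          polProd sT π (polProd sT h (sT CT * CT⁻¹)) = 1)
        simp only [hnat, OneMemClass.coe_one, Subgroup.coe_mul, Subgroup.coe_inv] at h1
        exact h1
      obtain ⟨Ψ, hΨ, hΨk⟩ := exists_killed_char hqp (π := π) (c := c) (by
        rw [show p - 1 = 2 * N by omega]
        exact ⟨h * (X - 1) * (X ^ N + 1), by
          rw [show π * (h * (X - 1) * (X ^ N + 1)) = π * h * (X - 1) * (X ^ N + 1) by ring, hf]; ring⟩)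
        hcq hc1 hkill
      have h0 := unitModP_eq_zero_of_char hp5 (by omega) hne hqp hγ hp hγN hπ hf hΨ hΨk
      rw [apply_polProd (unitModP q) (fun a b => unitModP_mul q a b) (fun y => unitModP_sigmaU γ y)] at h0
      rw [h0]
      exact W.zero_mem
  have hmon : T.charpoly ≠ 0 := T.charpoly_monic.ne_zero
  have hchar𝔞 : T.charpoly ∈ 𝔞 := by
    show aeval T T.charpoly (unitModP q η) ∈ W
    rw [LinearMap.aeval_self_charpoly, LinearMap.zero_apply]
    exact W.zero_mem
  have htop : 𝔞 = ⊤ := by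
    by_contra hne'
    obtain ⟨M, hM, hle⟩ := Ideal.exists_le_maximal 𝔞 hne'
    obtain ⟨π, rfl⟩ : ∃ π, M = Ideal.span {π} :=
      ⟨Submodule.IsPrincipal.generator M, (Ideal.span_singleton_generator M).symm⟩
    have hπ0 : π ≠ 0 := fun e => hmon (by
      subst e
      simpa [Ideal.mem_span_singleton] using hle hchar𝔞)
    have hπ : Irreducible π := ((Ideal.span_singleton_prime hπ0).mp hM.isPrime).irreducible
    obtain ⟨h, hh⟩ := Ideal.mem_span_singleton.mp (hle hchar𝔞)
    obtain ⟨h', rfl⟩ := Ideal.mem_span_singleton.mp (hle (hfac π h hπ hh.symm))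
    exact hπ.not_isUnit (hsep.squarefree π ⟨h', by rw [hh, mul_assoc]⟩)
  have hηprim : QPrimary q (η : 𝓞 K) := by
    have h1 : (1 : (ZMod q)[X]) ∈ 𝔞 := htop ▸ Submodule.mem_top
    change aeval T (1 : (ZMod q)[X]) (unitModP q η) ∈ W at h1
    rw [map_one, Module.End.one_apply] at h1
    exact h1 η rfl
  -- remove the conjugate
  have hqp' : (q : ZMod p) ≠ 0 := fun e =>
    hne ((Nat.prime_dvd_prime_iff_eq hP hQ).mp ((ZMod.natCast_eq_zero_iff _ _).mp e)).symm
  obtain ⟨k, hk⟩ := exists_zeta_pow_eq_pow p K hqp' 1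
  rw [pow_one] at hk
  have hz : QPrimary q (zetaInt p K) := by
    rw [hk]
    exact qPrimary_pow (((zetaInt_spec p K).isUnit hP.ne_zero).pow k)
  have hsq : QPrimary q ((1 + zetaInt p K) ^ 2) := by
    have e : (η : 𝓞 K) * zetaInt p K = (1 + zetaInt p K) ^ 2 := by
      have hinv : sigma p K (-1) (zetaInt p K) * zetaInt p K = 1 := by
        rw [sigma_zetaInt, Units.val_neg, Units.val_one, ← pow_succ,
          ZMod.neg_val, if_neg one_ne_zero, ZMod.val_one_eq_one_mod, Nat.one_mod_eq_one.mpr hP.ne_one,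
          Nat.sub_add_cancel hP.one_le, (zetaInt_spec p K).pow_eq_one]
      rw [hη, realCyclo, Units.val_mul, sigmaU_coe, baseUnit_coe, map_add, map_one]
      linear_combination (1 + zetaInt p K) * hinv
    rw [← e]
    exact hηprim.mul hz
  obtain ⟨m, hm⟩ := hQ.odd_of_ne_two hq2
  have e : (((1 + zetaInt p K) ^ 2) ^ (m + 1)) * ((((baseUnit p K hp5)⁻¹ : (𝓞 K)ˣ) : 𝓞 K)) ^ q = 1 + zetaInt p K := by
    rw [← baseUnit_coe p K hp5, ← pow_mul, show 2 * (m + 1) = q + 1 by omega, pow_succ, mul_right_comm, ← mul_pow,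
      Units.mul_inv, one_pow, one_mul]
  rw [← e]
  exact (qPrimary_pow_nat hsq _).mul (qPrimary_pow (Units.isUnit _))

omit [Fact q.Prime] in
/-- `1 + ζ` is a `q`-th power modulo `q²` only for `q ≥ p`. -/
theorem le_of_primary [Fact q.Prime] (hne : q ≠ p) (h : QPrimary q (1 + zetaInt p K)) : p ≤ q := by
  by_contra hlt
  have hP : p.Prime := Fact.out
  have hQ : q.Prime := Fact.out
  have : NeZero p := ⟨hP.ne_zero⟩
  have hqp : (q : ZMod p) ≠ 0 := fun e =>
    hne ((Nat.prime_dvd_prime_iff_eq hP hQ).mp ((ZMod.natCast_eq_zero_iff _ _).mp e)).symm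
  have h' := h.sigma (Units.mk0 (q : ZMod p) hqp)
  rw [map_add, map_one, sigma_zetaInt, Units.val_mk0, ZMod.val_natCast,
    ← pow_eq_pow_mod q (zetaInt_spec p K).pow_eq_one] at h'
  obtain ⟨t, -, ht⟩ := h'
  set z := zetaInt p K with hzdef
  obtain ⟨r, hr⟩ := exists_add_pow_prime_eq hQ 1 z
  rw [one_pow] at hr
  have h1 : (q : 𝓞 K) ∣ (1 + z) ^ q - t ^ q := by
    rw [hr, show (1 : 𝓞 K) + z ^ q + (q : 𝓞 K) * 1 * z * r - t ^ q = (1 + z ^ q - t ^ q) + (q : 𝓞 K) * (z * r) by ring]
    exact dvd_add ((dvd_pow_self _ two_ne_zero).trans ht) (dvd_mul_right _ _)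
  have h2 : (q : 𝓞 K) ^ 2 ∣ (1 + z) ^ q - 1 - z ^ q := by
    have := dvd_sub (sq_dvd_pow_sub_pow p K hqp h1) ht
    convert this using 1
    ring
  set P : ℤ[X] := ∑ i ∈ Finset.range (q - 1), C (((q.choose (i + 1) / q : ℕ) : ℤ)) * X ^ i with hPdef
  have hexp : (1 + z) ^ q - 1 - z ^ q = (q : 𝓞 K) * (z * aeval z P) := by
    obtain ⟨j, hj⟩ : ∃ j, q = j + 1 := ⟨q - 1, by have := hQ.two_le; omega⟩
    rw [hPdef, show q - 1 = j by omega, map_sum, Finset.mul_sum, Finset.mul_sum]
    calc (1 + z) ^ q - 1 - z ^ q = ∑ i ∈ Finset.range j, z ^ (i + 1) * (q.choose (i + 1) : 𝓞 K) := by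
          rw [add_comm 1 z, add_pow, Finset.sum_range_succ, Nat.choose_self, hj, Finset.sum_range_succ']
          simp
          ring
      _ = _ := Finset.sum_congr rfl fun i hi => by
          have := Finset.mem_range.mp hi
          conv_lhs => rw [← Nat.mul_div_cancel' (hQ.dvd_choose_self (k := i + 1) (by omega) (by omega))]
          rw [map_mul, aeval_C, map_pow, aeval_X, algebraMap_int_eq, eq_intCast, Int.cast_natCast, Nat.cast_mul]
          ring
  rw [hexp, sq] at h2
  have h3 : (q : 𝓞 K) ∣ aeval z P :=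
    ((zetaInt_spec p K).isUnit hP.ne_zero).dvd_mul_left.mp
      ((mul_dvd_mul_iff_left (Nat.cast_ne_zero.mpr hQ.ne_zero)).mp h2)
  have hdeg : P.natDegree < p - 1 := by
    have := hQ.two_le
    refine lt_of_le_of_lt (natDegree_sum_le_of_forall_le (n := q - 2) _ _ fun i hi => ?_) (by omega)
    have := Finset.mem_range.mp hi
    exact (natDegree_C_mul_X_pow_le _ _).trans (by omega)
  have h4 := dvd_coeff_of_dvd_aeval p K hdeg h3 0
  rw [hPdef, finsetSum_coeff, Finset.sum_eq_single 0 (fun i _ hi => by rw [coeff_C_mul_X_pow, if_neg hi.symm])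
    (fun e => absurd (Finset.mem_range.mpr (by have := hQ.two_le; omega)) e), coeff_C_mul_X_pow, if_pos rfl,
    zero_add, Nat.choose_one_right, Nat.div_self hQ.pos, Int.natCast_dvd_natCast] at h4
  exact hQ.ne_one (Nat.dvd_one.mp h4)

end FA.Catalan
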