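import Fermat.Agent.Catalan.PlusClass
import Fermat.Agent.Catalan.DescentIdeal

/-!
# The principal case of the plus argument

If `h(γ)(γ - 1)` kills the class of the real ideal root of `x - ζ` then `(x - ζ)^((1+ι) h(γ)(γ-1))` is a unit
times a `q`-th power; the unit is killed by `π(γ)`, is a `q`-th power modulo `q²`, and by Runge's argument is
no `q`-th power.
-/

set_option autoImplicit false

noncomputable section

open NumberField Polynomial FA.Ext JacobiSumStickelberger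
open scoped nonZeroDivisors

namespace FA.Catalan

variable (p : ℕ) [Fact p.Prime] (K : Type*) [Field K] [NumberField K] [IsCyclotomicExtension {p} ℚ K]

/-- `σ_γ` on nonzero integers. -/
def gNonzero (γ : (ZMod p)ˣ) : (𝓞 K)⁰ →* (𝓞 K)⁰ :=
  ((gInt p K γ).comp (𝓞 K)⁰.subtype).codRestrict (𝓞 K)⁰ fun y => mem_nonZeroDivisors_iff_ne_zero.mpr fun e =>
    nonZeroDivisors.ne_zero y.2 ((sigma p K γ).injective ((show sigma p K γ (y : 𝓞 K) = 0 from e).trans (map_zero _).symm))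

/-- `σ_γ` on nonzero ideals. -/
def gIdeal (γ : (ZMod p)ˣ) : (Ideal (𝓞 K))⁰ →* (Ideal (𝓞 K))⁰ where
  toFun I := ⟨I.1.map (sigma p K γ : 𝓞 K →+* 𝓞 K), mem_nonZeroDivisors_iff_ne_zero.mpr fun e =>
    nonZeroDivisors.ne_zero I.2 ((Ideal.map_eq_bot_iff_of_injective (sigma p K γ).injective).mp e)⟩
  map_one' := Subtype.ext (by simp [Ideal.one_eq_top, Ideal.map_top])
  map_mul' I J := Subtype.ext (Ideal.map_mul _ _ _)

omit [Fact p.Prime] [IsCyclotomicExtension {p} ℚ K] in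
/-- A nonzero integer as a unit of `K`. -/
def toField : (𝓞 K)⁰ →* Kˣ where
  toFun y := Units.mk0 ((y : 𝓞 K) : K) (RingOfIntegers.coe_ne_zero_iff.mpr (nonZeroDivisors.ne_zero y.2))
  map_one' := Units.ext (by simp)
  map_mul' y z := Units.ext (by simp)

omit [Fact p.Prime] [IsCyclotomicExtension {p} ℚ K] in
/-- The class in `Kˣ` modulo `q`-th powers. -/
def powClass (q : ℕ) (y : (𝓞 K)⁰) : ModP q (Additive Kˣ) := ModP.proj q _ (Additive.ofMul (toField K y))

/-- `σ_γ` on `Kˣ` modulo `q`-th powers. -/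
def fieldEnd (q : ℕ) [NeZero q] (γ : (ZMod p)ˣ) : Module.End (ZMod q) (ModP q (Additive Kˣ)) :=
  ModP.mapEnd q (MonoidHom.toAdditive (Units.map (sigmaK p K γ).toRingEquiv.toRingHom.toMonoidHom))

/-- A unit as a nonzero integer. -/
def unitNonzero : (𝓞 K)ˣ →* (𝓞 K)⁰ :=
  (Units.coeHom (𝓞 K)).codRestrict (𝓞 K)⁰ fun u => mem_nonZeroDivisors_iff_ne_zero.mpr u.ne_zero

variable {p K} {q : ℕ} [Fact q.Prime]

theorem powClass_mul (a b : (𝓞 K)⁰) : powClass K q (a * b) = powClass K q a + powClass K q b := by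
  rw [powClass, powClass, powClass, map_mul, ofMul_mul, map_add]

theorem powClass_gNonzero (γ : (ZMod p)ˣ) (y : (𝓞 K)⁰) :
    powClass K q (gNonzero p K γ y) = fieldEnd p K q γ (powClass K q y) := by
  rw [powClass, powClass, fieldEnd, ModP.mapEnd_proj]
  congr 1
  exact congrArg Additive.ofMul (Units.ext rfl)

theorem powClass_pow (y : (𝓞 K)⁰) : powClass K q (y ^ q) = 0 := by
  rw [powClass, ModP.proj_eq_zero_iff]
  exact ⟨Additive.ofMul (toField K y), by rw [map_pow, ofMul_pow]⟩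

theorem exists_root_of_powClass_eq {a b : (𝓞 K)⁰} (h : powClass K q a = powClass K q b) :
    ∃ w : K, ((a : 𝓞 K) : K) = ((b : 𝓞 K) : K) * w ^ q := by
  rw [powClass, powClass, ← sub_eq_zero, ← map_sub, ← ofMul_div, ModP.proj_eq_zero_iff] at h
  obtain ⟨w, hw⟩ := h
  refine ⟨(Additive.toMul w : Kˣ), ?_⟩
  have e := congrArg (fun t : Additive Kˣ => ((Additive.toMul t : Kˣ) : K)) hw
  simp only [toMul_nsmul, toMul_ofMul, Units.val_pow_eq_pow_val, Units.val_div_eq_div_val] at e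
  rw [e]
  show _ = ((b : 𝓞 K) : K) * (((a : 𝓞 K) : K) / ((b : 𝓞 K) : K))
  rw [mul_div_cancel₀ _ (RingOfIntegers.coe_ne_zero_iff.mpr (nonZeroDivisors.ne_zero b.2))]

theorem powClass_unit_pow (w : (𝓞 K)ˣ) : powClass K q (unitNonzero K (w ^ q)) = 0 := by
  rw [map_pow, powClass_pow]

/-- The real generator class. -/
theorem exists_real_root {x v : ℤ} (hp3 : 3 ≤ p) (hx1 : (p : ℤ) ∣ x - 1)
    (hΦ : ∑ i ∈ Finset.range p, x ^ i = (p : ℤ) * v ^ q) :
    ∃ (ρ lam0 : (𝓞 K)⁰) (J : (Ideal (𝓞 K))⁰), gIdeal p K (-1) J = J ∧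
      Ideal.span {(ρ : 𝓞 K)} = J.1 ^ q ∧
      (lam0 : 𝓞 K) * ρ = linFactor p K x 1 * linFactor p K x (-1) ∧
      ∀ γ : (ZMod p)ˣ, ∃ μ : (𝓞 K)ˣ, gNonzero p K γ lam0 = lam0 * unitNonzero K μ := by
  have hp : p.Prime := Fact.out
  have : NeZero p := ⟨hp.ne_zero⟩
  obtain ⟨G, I, hG0, hG, hI⟩ := exists_quotient_ideal_pow p K hp3 (Fact.out : q.Prime).ne_zero hx1 hΦ
  have hI0 : I ≠ ⊥ := fun e => hG0 (by
    rw [e, ← Ideal.zero_eq_bot, zero_pow (Fact.out : q.Prime).ne_zero] at hI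
    exact Ideal.span_singleton_eq_bot.mp hI)
  let G0 : (𝓞 K)⁰ := ⟨G, mem_nonZeroDivisors_iff_ne_zero.mpr hG0⟩
  let I0 : (Ideal (𝓞 K))⁰ := ⟨I, mem_nonZeroDivisors_iff_ne_zero.mpr hI0⟩
  have hl0 : (1 - zetaInt p K) ≠ 0 := sub_ne_zero.mpr ((zetaInt_spec p K).ne_one hp.one_lt).symm
  let l0 : (𝓞 K)⁰ := ⟨1 - zetaInt p K, mem_nonZeroDivisors_iff_ne_zero.mpr hl0⟩
  have hinvI : gIdeal p K (-1) (gIdeal p K (-1) I0) = I0 := Subtype.ext (by
    show (I.map (sigma p K (-1) : 𝓞 K →+* 𝓞 K)).map (sigma p K (-1) : 𝓞 K →+* 𝓞 K) = I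
    rw [Ideal.map_map, show (sigma p K (-1) : 𝓞 K →+* 𝓞 K).comp (sigma p K (-1) : 𝓞 K →+* 𝓞 K) = RingHom.id _ from
      RingHom.ext fun y => by
        show sigma p K (-1) (sigma p K (-1) y) = y
        rw [← sigma_mul_apply, neg_one_mul, neg_neg, sigma_one_apply], Ideal.map_id])
  refine ⟨G0 * gNonzero p K (-1) G0, l0 * gNonzero p K (-1) l0, I0 * gIdeal p K (-1) I0,
    by rw [map_mul, hinvI, mul_comm], ?_, ?_, fun γ => ?_⟩
  · show Ideal.span {G * sigma p K (-1) G} = (I * I.map (sigma p K (-1) : 𝓞 K →+* 𝓞 K)) ^ q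
    rw [mul_pow, ← Ideal.map_pow, ← hI, Ideal.map_span, Set.image_singleton, Ideal.span_singleton_mul_span_singleton]
    rfl
  · show (1 - zetaInt p K) * sigma p K (-1) (1 - zetaInt p K) * (G * sigma p K (-1) G) = _
    have hL : linFactor p K x 1 = (x : 𝓞 K) - zetaInt p K := by
      rw [linFactor, Units.val_one, ZMod.val_one_eq_one_mod, Nat.one_mod_eq_one.mpr hp.ne_one, pow_one]
    rw [mul_mul_mul_comm, ← map_mul, hG, ← hL, sigma_linFactor, mul_one]
  · have hass : ∀ d : (ZMod p)ˣ, Associated (1 - zetaInt p K) (sigma p K d (1 - zetaInt p K)) := fun d => by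
      rw [map_sub, map_one, sigma_zetaInt]
      have h1 := (zetaInt_spec p K).associated_pow_add_sub_sub_one hp.two_le (j := (d : ZMod p).val) 0
        (ZMod.val_coe_unit_coprime d)
      rw [zero_add, pow_zero] at h1
      have hn : ∀ a b : 𝓞 K, Associated (a - b) (b - a) := fun a b => ⟨-1, by simp⟩
      exact (hn _ _).trans (h1.trans (hn _ _))
    obtain ⟨μ₁, hμ₁⟩ := hass γ
    obtain ⟨μ₂, hμ₂⟩ := hass (γ * -1)
    obtain ⟨μ₃, hμ₃⟩ := hass (-1)
    refine ⟨μ₁ * (μ₂ * μ₃⁻¹), Subtype.ext ?_⟩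
    show sigma p K γ ((1 - zetaInt p K) * sigma p K (-1) (1 - zetaInt p K)) =
      (1 - zetaInt p K) * sigma p K (-1) (1 - zetaInt p K) * ((μ₁ * (μ₂ * μ₃⁻¹) : (𝓞 K)ˣ) : 𝓞 K)
    rw [map_mul, ← sigma_mul_apply, ← hμ₁, ← hμ₂, ← hμ₃]
    simp only [Units.val_mul]
    linear_combination (-((1 - zetaInt p K) * (1 - zetaInt p K) * (μ₁ : 𝓞 K) * (μ₂ : 𝓞 K))) * μ₃.mul_inv

set_option maxHeartbeats 800000 in
/-- **The primary unit**: present unless `h(γ)(γ - 1)` moves the class. -/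
theorem exists_primary_unit {N : ℕ} (hN : 2 ≤ N) (hp : p = 2 * N + 1) (hq5 : 5 ≤ q) (hne : q ≠ p) {x : ℤ}
    (hx1 : (p : ℤ) ∣ x - 1) (hqx : (q : ℤ) ^ 2 ∣ x) (hbig : (q : ℤ) ^ (2 * p) ≤ |x|) {γ : (ZMod p)ˣ}
    (hγ : ∀ a, a ∈ Subgroup.zpowers γ) (hγN : γ ^ N = -1) {π h : (ZMod q)[X]} (hπ : Irreducible π)
    (hf : π * h * (X - 1) = X ^ N - 1) {ρ lam0 : (𝓞 K)⁰} {J : (Ideal (𝓞 K))⁰}
    (hspan : Ideal.span {(ρ : 𝓞 K)} = J.1 ^ q)
    (hlin : (lam0 : 𝓞 K) * ρ = linFactor p K x 1 * linFactor p K x (-1))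
    (hlam : ∀ γ : (ZMod p)ˣ, ∃ μ : (𝓞 K)ˣ, gNonzero p K γ lam0 = lam0 * unitNonzero K μ)
    (hc : ClassGroup.mk0 (polProd (gIdeal p K γ) h (gIdeal p K γ J)) = ClassGroup.mk0 (polProd (gIdeal p K γ) h J)) :
    ∃ u₁ : (𝓞 K)ˣ, unitModP q u₁ ≠ 0 ∧ aeval (unitEnd p K q γ) π (unitModP q u₁) = 0 ∧ QPrimary q (u₁ : 𝓞 K) := by
  classical
  have hqP : q.Prime := Fact.out
  have : NeZero q := ⟨hqP.ne_zero⟩
  have hP : p.Prime := Fact.out
  have : NeZero p := ⟨hP.ne_zero⟩
  have hp2 : p ≠ 2 := by omega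
  have hx1' : x ≠ 1 := fun e => by
    subst e
    rw [abs_one] at hbig
    have : (q : ℤ) ≤ (q : ℤ) ^ (2 * p) := le_self_pow₀ (by omega) (by omega)
    omega
  set S := fieldEnd p K q γ with hS
  set A₀ := polProd (gNonzero p K γ) h (gNonzero p K γ ρ) with hA₀
  set B₀ := polProd (gNonzero p K γ) h ρ with hB₀
  -- `x^q A₀ u = y^q B₀`
  let spanHom : (𝓞 K)⁰ →* (Ideal (𝓞 K))⁰ :=
    { toFun := fun y => ⟨Ideal.span {(y : 𝓞 K)}, mem_nonZeroDivisors_iff_ne_zero.mpr fun e =>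
        nonZeroDivisors.ne_zero y.2 (Ideal.span_singleton_eq_bot.mp e)⟩
      map_one' := Subtype.ext (by simp [Ideal.one_eq_top, Ideal.span_singleton_one])
      map_mul' := fun y z => Subtype.ext (by simp [Ideal.span_singleton_mul_span_singleton]) }
  have hcomm : ∀ y, spanHom (gNonzero p K γ y) = gIdeal p K γ (spanHom y) := fun y => Subtype.ext (by
    show Ideal.span {sigma p K γ (y : 𝓞 K)} = (Ideal.span {(y : 𝓞 K)}).map (sigma p K γ : 𝓞 K →+* 𝓞 K)
    rw [Ideal.map_span, Set.image_singleton]; rfl)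
  have hJ : spanHom ρ = J ^ q := Subtype.ext (by rw [SubmonoidClass.coe_pow]; exact hspan)
  have hspA : spanHom A₀ = polProd (gIdeal p K γ) h (gIdeal p K γ J) ^ q := by
    rw [hA₀, map_polProd spanHom hcomm, hcomm, hJ, map_pow]
    exact map_pow (polHom (gIdeal p K γ) h) _ q
  have hspB : spanHom B₀ = polProd (gIdeal p K γ) h J ^ q := by
    rw [hB₀, map_polProd spanHom hcomm, hJ]
    exact map_pow (polHom (gIdeal p K γ) h) _ q
  obtain ⟨a, b, ha, hb, hab⟩ := ClassGroup.mk0_eq_mk0_iff.mp hc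
  let a0 : (𝓞 K)⁰ := ⟨a, mem_nonZeroDivisors_iff_ne_zero.mpr ha⟩
  let b0 : (𝓞 K)⁰ := ⟨b, mem_nonZeroDivisors_iff_ne_zero.mpr hb⟩
  have hid : spanHom (a0 ^ q * A₀) = spanHom (b0 ^ q * B₀) := by
    rw [map_mul, map_mul, map_pow, map_pow, hspA, hspB, ← mul_pow, ← mul_pow]
    congr 1
    exact Subtype.ext hab
  obtain ⟨u, hu⟩ := Ideal.span_singleton_eq_span_singleton.mp (congrArg Subtype.val hid)
  have hu' : a0 ^ q * A₀ * unitNonzero K u = b0 ^ q * B₀ := Subtype.ext hu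
  have hJu := congrArg (powClass K q) hu'
  rw [powClass_mul, powClass_mul, powClass_mul, powClass_pow, powClass_pow, zero_add, zero_add] at hJu
  -- the classes
  obtain ⟨μ, hμ⟩ := hlam γ
  set R := lam0 * ρ with hR
  set g : (ZMod q)[X] := h * (X - 1) with hg
  set u₁ : (𝓞 K)ˣ := u⁻¹ * polProd (sigmaU p K γ) h μ with hu₁
  have hJA : ∀ y, powClass K q (gNonzero p K γ y) = S (powClass K q y) := powClass_gNonzero γ
  have hU : ∀ y : (𝓞 K)ˣ, unitNonzero K (sigmaU p K γ y) = gNonzero p K γ (unitNonzero K y) := fun y =>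
    Subtype.ext (sigmaU_coe p K γ y)
  have hμpol : powClass K q (unitNonzero K (polProd (sigmaU p K γ) h μ)) = aeval S h (powClass K q (unitNonzero K μ)) := by
    rw [map_polProd (unitNonzero K) hU]
    exact apply_polProd (powClass K q) powClass_mul hJA h _
  have hone : powClass K q (1 : (𝓞 K)⁰) = 0 := by rw [powClass, map_one, ofMul_one, map_zero]
  have hneg : powClass K q (unitNonzero K u⁻¹) = -powClass K q (unitNonzero K u) := by
    refine eq_neg_of_add_eq_zero_left ?_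
    rw [← powClass_mul, ← map_mul, inv_mul_cancel, map_one, hone]
  have hT : aeval S g (powClass K q R) = powClass K q (unitNonzero K u₁) := by
    rw [hA₀, hB₀, apply_polProd (powClass K q) powClass_mul hJA, apply_polProd (powClass K q) powClass_mul hJA,
      hJA] at hJu
    have e1 : S (powClass K q lam0) = powClass K q lam0 + powClass K q (unitNonzero K μ) := by
      rw [← hJA, hμ, powClass_mul]
    have e2 : aeval S g (powClass K q R) = aeval S h (S (powClass K q R) - powClass K q R) := by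
      rw [hg, map_mul, Module.End.mul_apply, map_sub, aeval_X, map_one, LinearMap.sub_apply, Module.End.one_apply]
    have e3 : S (powClass K q R) - powClass K q R =
        powClass K q (unitNonzero K μ) + (S (powClass K q ρ) - powClass K q ρ) := by
      rw [hR, powClass_mul, map_add, e1]; abel
    rw [e2, e3, map_add, map_sub, hu₁, map_mul, powClass_mul, hμpol, hneg, ← hJu]
    abel
  set A := polProd (gNonzero p K γ) g R with hA
  have hJR : powClass K q A = powClass K q (unitNonzero K u₁) := by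
    rw [hA, apply_polProd (powClass K q) powClass_mul hJA, hT]
  have hRfix : gNonzero p K (-1) R = R := by
    refine Subtype.ext ?_
    show sigma p K (-1) ((lam0 : 𝓞 K) * ρ) = (lam0 : 𝓞 K) * ρ
    rw [hlin, map_mul, sigma_linFactor, sigma_linFactor, mul_one, neg_one_mul, neg_neg, mul_comm]
  have hiter : ∀ (i : ℕ) (y : (𝓞 K)⁰), (((gNonzero p K γ)^[i] y : (𝓞 K)⁰) : 𝓞 K) = sigma p K (γ ^ i) y := fun i y => by
    rw [← gInt_iterate]
    exact (Function.Semiconj.iterate_right (f := ((↑) : (𝓞 K)⁰ → 𝓞 K)) (fun z => rfl) i).eq y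
  -- `π` kills it
  have hzero : aeval S π (powClass K q (unitNonzero K u₁)) = 0 := by
    rw [← hT, ← Module.End.mul_apply, ← map_mul, hg, show π * (h * (X - 1)) = π * h * (X - 1) by ring, hf, map_sub,
      map_pow, aeval_X, map_one, LinearMap.sub_apply, Module.End.one_apply, Module.End.pow_apply, sub_eq_zero,
      ← (Function.Semiconj.iterate_right (f := powClass K q) (fun y => hJA y) N).eq R]
    congr 1
    refine Subtype.ext ?_
    rw [hiter, hγN]
    exact congrArg Subtype.val hRfix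
  refine ⟨u₁, ?_, ?_, ?_⟩
  · -- no `q`-th power: Runge
    intro h0
    obtain ⟨w, hw⟩ := (unitModP_eq_zero_iff (p := p) hp2 (by omega) hne).mp h0
    rw [hw, powClass_unit_pow, ← hone] at hJR
    obtain ⟨α, hα⟩ := exists_root_of_powClass_eq hJR
    rw [OneMemClass.coe_one, RingOfIntegers.coe_eq_algebraMap, RingOfIntegers.coe_eq_algebraMap, map_one, one_mul] at hα
    have hhne : π * h * (X - 1) ≠ 0 := hf ▸ (monic_X_pow_sub_C (1 : ZMod q) (by omega : N ≠ 0)).ne_zero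
    have hg0 : g ≠ 0 := by
      rw [hg]
      rw [mul_assoc] at hhne
      exact right_ne_zero_of_mul hhne
    have hdeg : g.natDegree < N := by
      have h1 := natDegree_mul hπ.ne_zero hg0
      have h2 := congrArg natDegree hf
      rw [show (X : (ZMod q)[X]) ^ N - 1 = X ^ N - C 1 by rw [C_1], natDegree_X_pow_sub_C, mul_assoc, ← hg] at h2
      have := hπ.natDegree_pos
      omega
    set L : (ZMod p)ˣ → K := fun d => ((linFactor p K x d : 𝓞 K) : K) with hL
    have hL0 : ∀ d, L d ≠ 0 := linFactor_coe_ne_zero p K hp2 hx1'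
    set Θ : (ZMod p)ˣ → ℤ := fun d => ∑ i ∈ Finset.range (g.natDegree + 1),
      ((if d = γ ^ i then ((g.coeff i).val : ℤ) else 0) + (if d = -γ ^ i then ((g.coeff i).val : ℤ) else 0)) with hΘ
    have hαΘ : α ^ q = ratPow p K x Θ := by
      have hAco : ((A : 𝓞 K) : K) = ∏ i ∈ Finset.range (g.natDegree + 1),
          (L (γ ^ i) * L (-γ ^ i)) ^ (g.coeff i).val := by
        rw [hA, polProd, Submonoid.coe_finsetProd, RingOfIntegers.coe_eq_algebraMap, map_prod]
        refine Finset.prod_congr rfl fun i _ => ?_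
        rw [SubmonoidClass.coe_pow, map_pow, hiter,
          show ((R : (𝓞 K)⁰) : 𝓞 K) = linFactor p K x 1 * linFactor p K x (-1) from hlin, map_mul, sigma_linFactor,
          sigma_linFactor, mul_one, mul_neg_one, map_mul]
      rw [RingOfIntegers.coe_eq_algebraMap] at hAco
      rw [← hα, hAco, ratPow]
      simp only [hΘ, ← prod_zpow_eq_zpow_sum (linFactor_coe_ne_zero p K hp2 hx1' _)]
      rw [Finset.prod_comm]
      refine Finset.prod_congr rfl fun i _ => ?_
      simp only [zpow_add₀ (linFactor_coe_ne_zero p K hp2 hx1' _), Finset.prod_mul_distrib]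
      rw [Finset.prod_eq_single (γ ^ i) (fun d _ hd => by rw [if_neg hd, zpow_zero]) (fun e => absurd (Finset.mem_univ _) e),
        Finset.prod_eq_single (-γ ^ i) (fun d _ hd => by rw [if_neg hd, zpow_zero]) (fun e => absurd (Finset.mem_univ _) e),
        if_pos rfl, if_pos rfl, zpow_natCast, zpow_natCast, mul_pow]
    have hev : ∀ d, Θ (-d) = Θ d := fun d => by
      simp only [hΘ]
      refine Finset.sum_congr rfl fun i _ => ?_
      simp only [neg_inj]
      rw [add_comm]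
      congr 1
      by_cases e : d = -γ ^ i
      · rw [if_pos e, if_pos (by rw [e, neg_neg])]
      · rw [if_neg e, if_neg (fun e' => e (by rw [← e', neg_neg]))]
    have hord : orderOf γ = 2 * N := by
      rw [orderOf_eq_card_of_forall_mem_zpowers hγ, Nat.card_eq_fintype_card, ZMod.card_units p]
      omega
    refine hg0 (Polynomial.ext fun j => ?_)
    rw [coeff_zero]
    by_cases hj : g.natDegree < j
    · exact coeff_eq_zero_of_natDegree_lt hj
    have hd := dvd_of_even_root hN hp hq5 hne hx1 hbig hev hαΘ (γ ^ j)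
    have hval : Θ (γ ^ j) = ((g.coeff j).val : ℤ) := by
      simp only [hΘ, Finset.sum_add_distrib]
      rw [Finset.sum_eq_single j, if_pos rfl, Finset.sum_eq_zero, add_zero]
      · intro i hi
        rw [if_neg]
        intro e
        rw [show -γ ^ i = γ ^ (i + N) by rw [pow_add, hγN, mul_neg, mul_one]] at e
        have := Finset.mem_range.mp hi
        have := pow_injOn_Iio_orderOf (x := γ) (show j ∈ Set.Iio (orderOf γ) by rw [hord, Set.mem_Iio]; omega)
          (show i + N ∈ Set.Iio (orderOf γ) by rw [hord, Set.mem_Iio]; omega) e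
        omega
      · intro i hi hij
        rw [if_neg]
        intro e
        have := Finset.mem_range.mp hi
        exact hij (pow_injOn_Iio_orderOf (x := γ) (show i ∈ Set.Iio (orderOf γ) by rw [hord, Set.mem_Iio]; omega)
          (show j ∈ Set.Iio (orderOf γ) by rw [hord, Set.mem_Iio]; omega) e.symm)
      · intro e
        exact absurd (Finset.mem_range.mpr (by omega)) e
    rw [hval, Int.natCast_dvd_natCast] at hd
    rw [← ZMod.natCast_zmod_val (g.coeff j), ZMod.natCast_eq_zero_iff]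
    exact hd
  · rw [← apply_polProd (unitModP q) (fun a b => unitModP_mul q a b) (fun y => unitModP_sigmaU γ y)]
    rw [← apply_polProd (powClass K q) powClass_mul hJA, ← map_polProd (unitNonzero K) hU, ← hone] at hzero
    obtain ⟨w, hw⟩ := exists_root_of_powClass_eq hzero
    rw [OneMemClass.coe_one, RingOfIntegers.coe_eq_algebraMap, RingOfIntegers.coe_eq_algebraMap, map_one, one_mul] at hw
    obtain ⟨w', hw', -⟩ := FA.Ext.exists_unit_pow_eq q K hw.symm
    exact (unitModP_eq_zero_iff (p := p) hp2 (by omega) hne).mpr ⟨w', hw'.symm⟩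
  · -- a `q`-th power modulo `q²`
    obtain ⟨y, hy⟩ := exists_root_of_powClass_eq hJR
    have hqA : QPrimary q (A : 𝓞 K) := by
      have hqL : ∀ d : (ZMod p)ˣ, QPrimary q (linFactor p K x d) := fun d => by
        obtain ⟨k, hk⟩ := exists_zeta_pow_eq_pow p K (q := q) (fun e => hne ((Nat.prime_dvd_prime_iff_eq hP hqP).mp
          ((ZMod.natCast_eq_zero_iff _ _).mp e)).symm) (d : ZMod p).val
        obtain ⟨Z, hZ⟩ := (((zetaInt_spec p K).isUnit hP.ne_zero).pow k).neg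
        refine ⟨-(zetaInt p K ^ k), ⟨((Z⁻¹ : (𝓞 K)ˣ) : 𝓞 K), by rw [← hZ, Units.mul_inv, sub_self]; exact dvd_zero _⟩, ?_⟩
        rw [(hqP.odd_of_ne_two (by omega)).neg_pow, ← hk, linFactor, sub_neg_eq_add, sub_add_cancel]
        obtain ⟨x', rfl⟩ := hqx
        exact ⟨x', by push_cast; ring⟩
      refine polProd_induction (fun y : (𝓞 K)⁰ => QPrimary q (y : 𝓞 K)) (by exact qPrimary_one)
        (fun a b ha hb => ha.mul hb) (fun a ha => ha.sigma γ) g ?_
      show QPrimary q ((lam0 : 𝓞 K) * (ρ : 𝓞 K))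
      rw [hlin]
      exact (hqL 1).mul (hqL _)
    -- the root is integral
    have hy' : y ^ q = ((((u₁⁻¹ : (𝓞 K)ˣ) : 𝓞 K) * (A : 𝓞 K) : 𝓞 K) : K) := by
      rw [RingOfIntegers.coe_eq_algebraMap, map_mul, ← RingOfIntegers.coe_eq_algebraMap (A : 𝓞 K), hy,
        ← mul_assoc, show algebraMap (𝓞 K) K ((u₁⁻¹ : (𝓞 K)ˣ) : 𝓞 K) * (((unitNonzero K u₁ : (𝓞 K)⁰) : 𝓞 K) : K) = 1 by
          rw [RingOfIntegers.coe_eq_algebraMap, ← map_mul,
            show ((unitNonzero K u₁ : (𝓞 K)⁰) : 𝓞 K) = (u₁ : 𝓞 K) from rfl, Units.inv_mul, map_one], one_mul]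
    obtain ⟨δ, rfl⟩ : ∃ δ : 𝓞 K, (δ : K) = y :=
      ⟨⟨y, IsIntegral.of_pow hqP.pos (hy'.symm ▸ RingOfIntegers.isIntegral_coe _)⟩, rfl⟩
    have hδ : δ ^ q = ((u₁⁻¹ : (𝓞 K)ˣ) : 𝓞 K) * (A : 𝓞 K) := RingOfIntegers.ext (by
      rw [RingOfIntegers.coe_eq_algebraMap, map_pow]; exact hy')
    obtain ⟨t, ⟨t', ht'⟩, ht⟩ := hqA
    set f := Ideal.Quotient.mk (Ideal.span {(q : 𝓞 K) ^ 2})
    have hfu : f t * f t' = 1 := by
      rw [← map_mul, ← map_one f, Ideal.Quotient.eq, Ideal.mem_span_singleton]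
      exact ht'
    have h1 : f (A : 𝓞 K) = f t ^ q := by
      rw [← map_pow, Ideal.Quotient.eq, Ideal.mem_span_singleton]
      exact ht
    have hfδ : IsUnit (f δ) := by
      rw [← isUnit_pow_iff hqP.ne_zero, ← map_pow, hδ, map_mul, h1]
      exact ((Units.isUnit _).map f).mul ((IsUnit.of_mul_eq_one _ hfu).pow q)
    obtain ⟨r, hr⟩ := Ideal.Quotient.mk_surjective ((hfδ.unit⁻¹ : (𝓞 K ⧸ Ideal.span {(q : 𝓞 K) ^ 2})ˣ) :
      𝓞 K ⧸ Ideal.span {(q : 𝓞 K) ^ 2})
    have hrδ : f r * f δ = 1 := (congrArg (· * f δ) hr).trans hfδ.val_inv_mul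
    refine ⟨t * r, ⟨t' * δ, ?_⟩, ?_⟩
    · rw [← Ideal.mem_span_singleton, ← Ideal.Quotient.eq, map_one, map_mul, map_mul, map_mul, mul_mul_mul_comm, hfu,
        hrδ, one_mul]
    rw [← Ideal.mem_span_singleton, ← Ideal.Quotient.eq, map_pow, map_mul, mul_pow, ← h1]
    have h2 : f (u₁ : 𝓞 K) * f (((u₁⁻¹ : (𝓞 K)ˣ) : 𝓞 K) * A) = f A := by
      rw [← map_mul, Units.mul_inv_cancel_left]
    rw [← hδ, map_pow] at h2
    rw [← h2, mul_assoc, ← mul_pow, mul_comm (f δ), hrδ, one_pow, mul_one]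

end FA.Catalan
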