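import Fermat.Agent.Catalan.CasselsHard
import Mathlib.RingTheory.PowerSeries.Basic
import Mathlib.NumberTheory.NumberField.Basic
import Mathlib.Analysis.Analytic.Binomial

/-!
# The series `∏ (1 - z_i T)^(θ_i/q)`

Its coefficient of `T^k` times `q^(k + v_q(k!))` is integral, times `q^k k!` it is `(-∑ θ_i z_i)^k`
modulo `q`, and for `|z_i| ≤ 1`, `θ_i ≤ q` the tail after `T^m` is at most `(2|t|)^(m+1) 2^n`.
-/

set_option autoImplicit false

noncomputable section

open NumberField Finset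

namespace FA.Catalan

/-- `C(θ/q, j)`. -/
def qChoose (q θ j : ℕ) : ℚ := (∏ i ∈ range j, ((θ : ℚ) / q - i)) / (j.factorial : ℚ)

theorem qChoose_zero (q θ : ℕ) : qChoose q θ 0 = 1 := by simp [qChoose]

theorem qChoose_mul_factorial {q : ℕ} (hq : q ≠ 0) (θ j : ℕ) :
    (q : ℚ) ^ j * (j.factorial : ℚ) * qChoose q θ j = ((∏ i ∈ range j, ((θ : ℤ) - (i : ℤ) * q) : ℤ) : ℚ) := by
  have hq' : (q : ℚ) ≠ 0 := Nat.cast_ne_zero.mpr hq
  rw [qChoose, mul_assoc, mul_div_cancel₀ _ (Nat.cast_ne_zero.mpr j.factorial_ne_zero), Int.cast_prod,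
    ← card_range j, ← prod_const, card_range, ← prod_mul_distrib]
  refine prod_congr rfl fun i _ => ?_
  push_cast
  field_simp

theorem exists_qChoose_eq {q : ℕ} (hq : q.Prime) (θ j : ℕ) :
    ∃ N : ℤ, (N : ℚ) = (q : ℚ) ^ (j + j.factorial.factorization q) * qChoose q θ j := by
  obtain ⟨N, hN⟩ := exists_prod_sub_mul_eq hq (θ : ℤ) j
  refine ⟨N, ?_⟩
  set M := j.factorial / q ^ j.factorial.factorization q with hM
  have hfac : (j.factorial : ℚ) = (q : ℚ) ^ j.factorial.factorization q * M := by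
    exact_mod_cast (Nat.ordProj_mul_ordCompl_eq_self j.factorial q).symm
  have hM0 : (M : ℚ) ≠ 0 := Nat.cast_ne_zero.mpr (Nat.ordCompl_pos q (Nat.factorial_ne_zero j)).ne'
  have h := qChoose_mul_factorial hq.ne_zero θ j
  rw [hN, Int.cast_mul, Int.cast_natCast, hfac] at h
  refine mul_left_cancel₀ hM0 ?_
  rw [← h, pow_add]
  ring

theorem abs_qChoose_le_one {q θ : ℕ} (hq : q ≠ 0) (hθ : θ ≤ q) (j : ℕ) : |(qChoose q θ j : ℝ)| ≤ 1 := by
  rcases Nat.eq_zero_or_pos j with rfl | hj
  · simp [qChoose_zero]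
  have e : (qChoose q θ j : ℝ) = Ring.choose ((θ : ℝ) / q) j := by
    rw [ring_choose_eq_prod, qChoose]
    push_cast
    rfl
  rw [e]
  have hr0 : (0 : ℝ) ≤ (θ : ℝ) / q := by positivity
  have hr1 : (θ : ℝ) / q ≤ 1 :=
    (div_le_one (by exact_mod_cast Nat.pos_of_ne_zero hq)).mpr (by exact_mod_cast hθ)
  exact abs_ring_choose_le_one le_rfl (by push_cast; linarith) (by push_cast; linarith) j hj

theorem complex_choose_eq (q θ j : ℕ) : Ring.choose ((θ : ℂ) / q) j = (qChoose q θ j : ℂ) := by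
  rw [Ring.choose_eq_smul, smul_eq_mul, ← div_eq_inv_mul, ← Polynomial.aeval_eq_smeval, Polynomial.aeval_def,
    ← Polynomial.eval_map, descPochhammer_map, descPochhammer_eval_eq_prod_range, qChoose]
  push_cast
  rfl

variable {K : Type*} [Field K] [NumberField K] {ι : Type*}

/-- `(1 - z T)^(θ/q)`. -/
def binSeries (q θ : ℕ) (z : 𝓞 K) : PowerSeries K :=
  PowerSeries.mk fun j => (qChoose q θ j : K) * (-(z : K)) ^ j

/-- `∏ (1 - z_i T)^(θ_i/q)`. -/
def prodSeries (q : ℕ) (θ : ι → ℕ) (z : ι → 𝓞 K) (S : Finset ι) : PowerSeries K :=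
  ∏ i ∈ S, binSeries q (θ i) (z i)

theorem exists_scaled_coeff {q : ℕ} (hq : q.Prime) (θ : ι → ℕ) (z : ι → 𝓞 K) (S : Finset ι) :
    ∀ k : ℕ, ∃ n : 𝓞 K, (n : K) =
      (q : K) ^ (k + k.factorial.factorization q) * PowerSeries.coeff k (prodSeries q θ z S) := by
  induction S using Finset.cons_induction with
  | empty =>
    intro k
    rcases Nat.eq_zero_or_pos k with rfl | hk
    · exact ⟨1, by simp [prodSeries]⟩
    · exact ⟨0, by simp [prodSeries, PowerSeries.coeff_one, hk.ne']⟩
  | cons i S hi ih =>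
    intro k
    rw [prodSeries, Finset.prod_cons, PowerSeries.coeff_mul, Finset.mul_sum, ← prodSeries]
    have hterm : ∀ ab ∈ antidiagonal k, ∃ n : 𝓞 K, (n : K) = (q : K) ^ (k + k.factorial.factorization q) *
        (PowerSeries.coeff ab.1 (binSeries q (θ i) (z i)) * PowerSeries.coeff ab.2 (prodSeries q θ z S)) := by
      rintro ⟨a, b⟩ hab
      rw [Finset.HasAntidiagonal.mem_antidiagonal] at hab
      subst hab
      obtain ⟨N, hN⟩ := exists_qChoose_eq hq (θ i) a
      obtain ⟨n, hn⟩ := ih b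
      have hle : a.factorial.factorization q + b.factorial.factorization q ≤ (a + b).factorial.factorization q := by
        rw [← Finsupp.add_apply, ← Nat.factorization_mul a.factorial_ne_zero b.factorial_ne_zero]
        exact (Nat.factorization_le_iff_dvd (mul_ne_zero a.factorial_ne_zero b.factorial_ne_zero)
          (Nat.factorial_ne_zero _)).mpr (Nat.factorial_mul_factorial_dvd_factorial_add a b) q
      obtain ⟨e, he⟩ := Nat.exists_eq_add_of_le hle
      refine ⟨(q : 𝓞 K) ^ e * ((N : 𝓞 K) * (-z i) ^ a) * n, ?_⟩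
      have hN' : (N : K) = (q : K) ^ (a + a.factorial.factorization q) * (qChoose q (θ i) a : K) := by
        rw [← Rat.cast_intCast, hN]; push_cast; rfl
      rw [binSeries, PowerSeries.coeff_mk, he, show a + b + (a.factorial.factorization q + b.factorial.factorization q + e) =
        (a + a.factorial.factorization q) + (b + b.factorial.factorization q) + e by ring, pow_add, pow_add]
      simp only [RingOfIntegers.coe_eq_algebraMap, map_mul, map_pow, map_neg, map_natCast, map_intCast] at hn ⊢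
      rw [hn, hN']
      ring
    choose n hn using hterm
    refine ⟨∑ ab ∈ (antidiagonal k).attach, n ab.1 ab.2, ?_⟩
    simp only [RingOfIntegers.coe_eq_algebraMap, map_sum]
    rw [← Finset.sum_attach (antidiagonal k)]
    exact Finset.sum_congr rfl fun ab _ => hn ab.1 ab.2

theorem exists_factorial_coeff {q : ℕ} (hq : q.Prime) (θ : ι → ℕ) (z : ι → 𝓞 K) (S : Finset ι) :
    ∀ k : ℕ, ∃ n : 𝓞 K, (q : K) ^ k * (k.factorial : K) * PowerSeries.coeff k (prodSeries q θ z S) =
      (((∑ i ∈ S, -((θ i : 𝓞 K) * z i)) ^ k + (q : 𝓞 K) * n : 𝓞 K) : K) := by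
  induction S using Finset.cons_induction with
  | empty =>
    intro k
    refine ⟨0, ?_⟩
    rcases Nat.eq_zero_or_pos k with rfl | hk
    · simp [prodSeries]
    · simp [prodSeries, PowerSeries.coeff_one, hk.ne']
  | cons i S hi ih =>
    intro k
    set u : 𝓞 K := -((θ i : 𝓞 K) * z i) with hu
    set X : 𝓞 K := ∑ i ∈ S, -((θ i : 𝓞 K) * z i) with hX
    rw [prodSeries, Finset.prod_cons, PowerSeries.coeff_mul, Finset.mul_sum, ← prodSeries, Finset.sum_cons, ← hX,
      ← hu]
    have hterm : ∀ ab ∈ antidiagonal k, ∃ n : 𝓞 K, (q : K) ^ k * (k.factorial : K) *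
        (PowerSeries.coeff ab.1 (binSeries q (θ i) (z i)) * PowerSeries.coeff ab.2 (prodSeries q θ z S)) =
        (((k.choose ab.1 : 𝓞 K) * (u ^ ab.1 * X ^ ab.2) + (q : 𝓞 K) * n : 𝓞 K) : K) := by
      rintro ⟨a, b⟩ hab
      rw [Finset.HasAntidiagonal.mem_antidiagonal] at hab
      subst hab
      obtain ⟨n, hn⟩ := ih b
      obtain ⟨r, hr⟩ : (q : ℤ) ∣ (∏ j ∈ range a, ((θ i : ℤ) - (j : ℤ) * q)) - (θ i : ℤ) ^ a := by
        rw [← Int.modEq_iff_dvd]
        refine Int.ModEq.symm ?_
        rw [← card_range a, ← prod_const, card_range]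
        exact Int.ModEq.prod fun j _ => by rw [Int.modEq_iff_dvd]; simp
      refine ⟨((a + b).choose a : 𝓞 K) * ((r : 𝓞 K) * (-z i) ^ a * (X ^ b + (q : 𝓞 K) * n) + u ^ a * n), ?_⟩
      have hP : (q : K) ^ a * (a.factorial : K) * (qChoose q (θ i) a : K) =
          (θ i : K) ^ a + (q : K) * (r : K) := by
        have h1 : (q : ℚ) ^ a * (a.factorial : ℚ) * qChoose q (θ i) a = (θ i : ℚ) ^ a + (q : ℚ) * (r : ℚ) := by
          rw [qChoose_mul_factorial hq.ne_zero, ← sub_eq_iff_eq_add']
          exact_mod_cast congrArg (Int.cast : ℤ → ℚ) hr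
        have := congrArg (Rat.cast : ℚ → K) h1
        push_cast at this
        exact this
      have hC : (((a + b).factorial : ℕ) : K) = ((a + b).choose a : K) * (a.factorial : K) * (b.factorial : K) := by
        rw [← Nat.add_choose_mul_factorial_mul_factorial a b, Nat.choose_symm_add]
        push_cast
        ring
      rw [binSeries, PowerSeries.coeff_mk, hC, pow_add]
      simp only [map_mul, map_add, map_pow, map_neg, map_natCast, map_intCast] at hn ⊢
      rw [hu]
      simp only [map_mul, map_neg, map_natCast]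
      rw [neg_pow ((θ i : K) * _), neg_pow (z i : K), mul_pow]
      linear_combination ((q : K) ^ a * (a.factorial : K) * (qChoose q (θ i) a : K) * ((a + b).choose a : K) *
        ((-1) ^ a * (z i : K) ^ a)) * hn + ((((a + b).choose a : K)) * ((-1) ^ a * (z i : K) ^ a) *
        ((X : K) ^ b + (q : K) * (n : K))) * hP
    choose n hn using hterm
    refine ⟨∑ ab ∈ (antidiagonal k).attach, n ab.1 ab.2, ?_⟩
    rw [← Finset.sum_attach (antidiagonal k), Finset.sum_congr rfl fun ab _ => hn ab.1 ab.2, ← map_sum,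
      Finset.sum_add_distrib, ← Finset.mul_sum,
      Finset.sum_attach (antidiagonal k) fun ab => (k.choose ab.1 : 𝓞 K) * (u ^ ab.1 * X ^ ab.2)]
    congr 2
    rw [(Commute.all u X).add_pow']
    exact Finset.sum_congr rfl fun ab _ => by rw [nsmul_eq_mul]

/-- The value and the absolute sum of the series at a complex embedding. -/
theorem hasSum_prodSeries {q : ℕ} (hq : q ≠ 0) (θ : ι → ℕ) (z : ι → 𝓞 K) (φ : K →+* ℂ) (S : Finset ι)
    (hθ : ∀ i ∈ S, θ i ≤ q) (hz : ∀ i ∈ S, ‖φ (z i : K)‖ ≤ 1) :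
    (Summable fun k => ‖φ (PowerSeries.coeff k (prodSeries q θ z S))‖ * (1 / 2) ^ k) ∧
      (∑' k, ‖φ (PowerSeries.coeff k (prodSeries q θ z S))‖ * (1 / 2) ^ k ≤ 2 ^ S.card) ∧
      ∀ t : ℂ, ‖t‖ ≤ 1 / 2 → HasSum (fun k => φ (PowerSeries.coeff k (prodSeries q θ z S)) * t ^ k)
        (∏ i ∈ S, (1 - φ (z i : K) * t) ^ ((θ i : ℂ) / q)) := by
  induction S using Finset.cons_induction with
  | empty =>
    have h0 : ∀ k, φ (PowerSeries.coeff k (prodSeries q θ z (∅ : Finset ι))) = if k = 0 then 1 else 0 := fun k => by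
      rw [prodSeries, Finset.prod_empty, PowerSeries.coeff_one]; split <;> simp
    simp only [h0]
    have hs : HasSum (fun k : ℕ => ‖(if k = 0 then 1 else 0 : ℂ)‖ * (1 / 2) ^ k) 1 := by
      convert hasSum_single (f := fun k : ℕ => ‖(if k = 0 then 1 else 0 : ℂ)‖ * (1 / 2 : ℝ) ^ k) 0
        fun k hk => by simp [hk] using 1
      simp
    refine ⟨hs.summable, by rw [hs.tsum_eq]; simp, fun t _ => ?_⟩
    convert hasSum_single (f := fun k : ℕ => (if k = 0 then 1 else 0 : ℂ) * t ^ k) 0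
      fun k hk => by simp [hk] using 1
    simp
  | cons i S hi ih =>
    obtain ⟨hsum, hle, hval⟩ := ih (fun j hj => hθ j (Finset.mem_cons.mpr (Or.inr hj)))
      fun j hj => hz j (Finset.mem_cons.mpr (Or.inr hj))
    set a : ℕ → ℂ := fun k => φ (PowerSeries.coeff k (binSeries q (θ i) (z i))) with ha
    set b : ℕ → ℂ := fun k => φ (PowerSeries.coeff k (prodSeries q θ z S)) with hb
    have hconv : ∀ k, φ (PowerSeries.coeff k (prodSeries q θ z (Finset.cons i S hi))) =
        ∑ ab ∈ antidiagonal k, a ab.1 * b ab.2 := fun k => by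
      rw [prodSeries, Finset.prod_cons, PowerSeries.coeff_mul, map_sum]
      exact Finset.sum_congr rfl fun ab _ => by rw [map_mul]; rfl
    have hab : ∀ k, a k = (qChoose q (θ i) k : ℂ) * (-φ (z i : K)) ^ k := fun k => by
      rw [ha]
      simp only [binSeries, PowerSeries.coeff_mk, map_mul, map_pow, map_neg, map_ratCast]
    have ha1 : ∀ k, ‖a k‖ ≤ 1 := fun k => by
      rw [hab, norm_mul, norm_pow, norm_neg, Complex.norm_ratCast]
      exact mul_le_one₀ (abs_qChoose_le_one hq (hθ i (Finset.mem_cons_self i S)) k)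
        (pow_nonneg (norm_nonneg _) _) (pow_le_one₀ (norm_nonneg _) (hz i (Finset.mem_cons_self i S)))
    have hgeo : HasSum (fun k : ℕ => (1 / 2 : ℝ) ^ k) 2 := by
      simpa using hasSum_geometric_two
    have hasum : Summable fun k => ‖a k‖ * (1 / 2) ^ k :=
      hgeo.summable.of_nonneg_of_le (fun k => by positivity)
        fun k => mul_le_of_le_one_left (by positivity) (ha1 k)
    have hale : ∑' k, ‖a k‖ * (1 / 2) ^ k ≤ 2 := by
      exact (hasum.tsum_le_tsum (fun k => mul_le_of_le_one_left (by positivity) (ha1 k)) hgeo.summable).trans_eq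
        hgeo.tsum_eq
    set A : ℕ → ℝ := fun k => ‖a k‖ * (1 / 2) ^ k with hA
    set B : ℕ → ℝ := fun k => ‖b k‖ * (1 / 2) ^ k with hB
    have hAn : Summable fun k => ‖A k‖ := by
      simp only [hA, Real.norm_eq_abs, abs_mul, abs_norm, abs_pow, abs_of_pos (show (0 : ℝ) < 1 / 2 by norm_num)]
      exact hasum
    have hBn : Summable fun k => ‖B k‖ := by
      simp only [hB, Real.norm_eq_abs, abs_mul, abs_norm, abs_pow, abs_of_pos (show (0 : ℝ) < 1 / 2 by norm_num)]
      exact hsum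
    have hAB := (summable_norm_sum_mul_antidiagonal_of_summable_norm hAn hBn).of_norm
    have hbound : ∀ k, ‖∑ ab ∈ antidiagonal k, a ab.1 * b ab.2‖ * (1 / 2) ^ k ≤
        ∑ ab ∈ antidiagonal k, A ab.1 * B ab.2 := by
      intro k
      refine (mul_le_mul_of_nonneg_right (norm_sum_le _ _) (by positivity)).trans_eq ?_
      rw [Finset.sum_mul]
      refine Finset.sum_congr rfl fun ab hmem => ?_
      rw [← Finset.HasAntidiagonal.mem_antidiagonal.mp hmem, pow_add, norm_mul, hA, hB]
      ring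
    have hsum' : Summable fun k => ‖∑ ab ∈ antidiagonal k, a ab.1 * b ab.2‖ * (1 / 2) ^ k :=
      hAB.of_nonneg_of_le (fun k => by positivity) hbound
    simp only [hconv]
    refine ⟨hsum', (hsum'.tsum_le_tsum hbound hAB).trans ?_, fun t ht => ?_⟩
    · rw [← tsum_mul_tsum_eq_tsum_sum_antidiagonal_of_summable_norm hAn hBn, Finset.card_cons, pow_succ']
      exact mul_le_mul hale hle (tsum_nonneg fun k => by positivity) zero_le_two
    have hnt : ∀ (c : ℕ → ℂ), (Summable fun k => ‖c k‖ * (1 / 2) ^ k) → Summable fun k => ‖c k * t ^ k‖ :=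
      fun c hc => hc.of_nonneg_of_le (fun k => norm_nonneg _) fun k => by
        rw [norm_mul, norm_pow]
        exact mul_le_mul_of_nonneg_left (pow_le_pow_left₀ (norm_nonneg _) ht k) (norm_nonneg _)
    have hAt : HasSum (fun k => a k * t ^ k) ((1 - φ (z i : K) * t) ^ ((θ i : ℂ) / q)) := by
      have h := (Complex.one_add_cpow_hasFPowerSeriesOnBall_zero (a := ((θ i : ℂ) / q))).hasSum_sub
        (y := -(φ (z i : K) * t)) (by
          rw [← ENNReal.ofReal_one, Metric.eball_ofReal, Metric.mem_ball, dist_zero_right, norm_neg, norm_mul]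
          exact lt_of_le_of_lt (mul_le_of_le_one_left (norm_nonneg _) (hz i (Finset.mem_cons_self i S)))
            (lt_of_le_of_lt ht (by norm_num)))
      rw [sub_eq_add_neg]
      refine (h.congr_fun fun k => ?_)
      simp only [binomialSeries, FormalMultilinearSeries.ofScalars_apply_eq, smul_eq_mul, complex_choose_eq, hab,
        sub_zero]
      rw [mul_assoc, ← mul_pow, neg_mul]
    have hBt := hval t ht
    rw [Finset.prod_cons, ← hAt.tsum_eq, ← hBt.tsum_eq,
      tsum_mul_tsum_eq_tsum_sum_antidiagonal_of_summable_norm (hnt a hasum) (hnt b hsum)]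
    have hconv' : ∀ k, ∑ ab ∈ antidiagonal k, a ab.1 * t ^ ab.1 * (b ab.2 * t ^ ab.2) =
        (∑ ab ∈ antidiagonal k, a ab.1 * b ab.2) * t ^ k := fun k => by
      rw [Finset.sum_mul]
      refine Finset.sum_congr rfl fun ab hmem => ?_
      rw [← Finset.HasAntidiagonal.mem_antidiagonal.mp hmem, pow_add]
      ring
    simp only [hconv']
    exact (summable_norm_sum_mul_antidiagonal_of_summable_norm (hnt a hasum) (hnt b hsum)).of_norm.congr hconv' |>.hasSum

/-- The tail of the series. -/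
theorem norm_prod_sub_partial_le {q : ℕ} (hq : q ≠ 0) (θ : ι → ℕ) (z : ι → 𝓞 K) (φ : K →+* ℂ) (S : Finset ι)
    (hθ : ∀ i ∈ S, θ i ≤ q) (hz : ∀ i ∈ S, ‖φ (z i : K)‖ ≤ 1) (m : ℕ) {t : ℂ} (ht : ‖t‖ ≤ 1 / 2) :
    ‖∏ i ∈ S, (1 - φ (z i : K) * t) ^ ((θ i : ℂ) / q) -
        ∑ k ∈ range (m + 1), φ (PowerSeries.coeff k (prodSeries q θ z S)) * t ^ k‖ ≤
      (2 * ‖t‖) ^ (m + 1) * 2 ^ S.card := by
  obtain ⟨hsum, hle, hval⟩ := hasSum_prodSeries hq θ z φ S hθ hz
  set c : ℕ → ℂ := fun k => φ (PowerSeries.coeff k (prodSeries q θ z S)) with hc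
  have htail := (hasSum_nat_add_iff' (m + 1)).mpr (hval t ht)
  rw [← htail.tsum_eq]
  have hshift : Summable fun k => ‖c (k + (m + 1))‖ * (1 / 2) ^ (k + (m + 1)) :=
    (summable_nat_add_iff (m + 1)).mpr hsum
  refine (tsum_of_norm_bounded (hshift.mul_left ((2 * ‖t‖) ^ (m + 1))).hasSum fun k => ?_).trans ?_
  · rw [norm_mul, norm_pow]
    calc ‖c (k + (m + 1))‖ * ‖t‖ ^ (k + (m + 1))
        = ‖c (k + (m + 1))‖ * ((2 * ‖t‖) ^ (k + (m + 1)) * (1 / 2) ^ (k + (m + 1))) := by
          rw [← mul_pow]; congr 2; ring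
      _ ≤ ‖c (k + (m + 1))‖ * ((2 * ‖t‖) ^ (m + 1) * (1 / 2) ^ (k + (m + 1))) := by
          refine mul_le_mul_of_nonneg_left (mul_le_mul_of_nonneg_right ?_ (by positivity)) (norm_nonneg _)
          rw [pow_add]
          exact mul_le_of_le_one_left (by positivity) (pow_le_one₀ (by positivity) (by linarith))
      _ = _ := by ring
  · rw [tsum_mul_left]
    refine mul_le_mul_of_nonneg_left ?_ (by positivity)
    refine le_trans ?_ hle
    rw [← hsum.sum_add_tsum_nat_add (m + 1)]
    exact le_add_of_nonneg_left (Finset.sum_nonneg fun k _ => by positivity)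

end FA.Catalan
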