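import Fermat.Agent.ExtVanish.Stickelberger
import Fermat.Agent.ExtVanish.EigenPrincipal
import Fermat.Agent.Catalan.MihailescuDescent

/-!
# Degree one primes generate the class group; Stickelberger's theorem

A character of prime order that is trivial on the degree one primes outside a finite set is trivial, as the
sum over the kernel grows like `log (1/(s-1)) / ℓ` and that over all degree one primes like `log (1/(s-1))`.
So Stickelberger's relation for degree one primes holds for every class.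
-/

set_option autoImplicit false

noncomputable section

open NumberField IsDedekindDomain
open scoped Classical nonZeroDivisors

namespace FA.Catalan

variable {K : Type*} [Field K] [NumberField K]

/-- A nontrivial character of prime order is nontrivial at a degree one prime outside a finite set. -/
theorem exists_degree_one_char_ne_one {ℓ : ℕ} [Fact ℓ.Prime] (φ : ClassGroup (𝓞 K) →* Multiplicative (ZMod ℓ))
    (hne : φ ≠ 1) {S : Set (HeightOneSpectrum (𝓞 K))} (hS : S.Finite) :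
    ∃ v : HeightOneSpectrum (𝓞 K), v ∉ S ∧ (Ideal.absNorm v.asIdeal).Prime ∧
      φ (ClassGroup.mk0 (FA.Ext.primeIdeal v)) ≠ 1 := by
  by_contra hall
  push Not at hall
  have hl : ℓ.Prime := Fact.out
  obtain ⟨M₁, hM₁⟩ := FA.Ext.exists_sum_ker_le φ hne
  obtain ⟨M₀, hM₀⟩ := FA.Ext.exists_lower_bound (K := K)
  set c : ℝ := (hS.toFinset.card : ℝ)
  set B : ℝ := max 0 ((ℓ * M₀ + M₁ + ℓ * c) / (ℓ - 1) + 1)
  set s : ℝ := 1 + Real.exp (-B)
  have hs : s ∈ Set.Ioc (1 : ℝ) 2 := ⟨lt_add_of_pos_right _ (Real.exp_pos _), by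
    have : Real.exp (-B) ≤ 1 := Real.exp_le_one_iff.mpr (neg_nonpos.mpr (le_max_left _ _))
    linarith⟩
  have hlog : Real.log (1 / (s - 1)) = B := by
    simp [s, Real.log_inv, Real.log_exp]
  obtain ⟨T, hT, hTsum⟩ := hM₀ s hs
  set T₁ := T.filter fun v => φ (ClassGroup.mk0 (FA.Ext.primeIdeal v)) = 1
  set T₃ := T.filter fun v => ¬ φ (ClassGroup.mk0 (FA.Ext.primeIdeal v)) = 1
  have h1 := hM₁ s hs T₁ fun v hv => (Finset.mem_filter.mp hv).2
  have h3 : ∑ v ∈ T₃, FA.Ext.zN s (FA.Ext.primeIdeal v) ≤ c := by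
    refine (Finset.sum_le_card_nsmul T₃ _ 1 fun v _ =>
      (FA.Ext.zN_primeIdeal_le_half hs.1.le v).trans (by norm_num)).trans ?_
    rw [nsmul_eq_mul, mul_one]
    refine Nat.cast_le.mpr (Finset.card_le_card fun v hv => hS.mem_toFinset.mpr ?_)
    obtain ⟨hvT, hv1⟩ := Finset.mem_filter.mp hv
    by_contra hvS
    exact hv1 (hall v hvS (hT v hvT))
  rw [← Finset.sum_filter_add_sum_filter_not T
    (fun v => φ (ClassGroup.mk0 (FA.Ext.primeIdeal v)) = 1), hlog] at hTsum
  rw [hlog] at h1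
  have hl2 : (2 : ℝ) ≤ ℓ := by exact_mod_cast hl.two_le
  have hl1 : (0 : ℝ) < (ℓ : ℝ) - 1 := by linarith
  have hB : (ℓ * M₀ + M₁ + ℓ * c) / ((ℓ : ℝ) - 1) + 1 ≤ B := le_max_right _ _
  rw [div_add_one hl1.ne', div_le_iff₀ hl1] at hB
  nlinarith [mul_le_mul_of_nonneg_left hTsum (show (0 : ℝ) ≤ ℓ by linarith),
    mul_le_mul_of_nonneg_left h3 (show (0 : ℝ) ≤ ℓ by linarith)]

/-- The classes of the degree one primes outside a finite set. -/
def degreeOneClasses (S : Set (HeightOneSpectrum (𝓞 K))) : Set (ClassGroup (𝓞 K)) :=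
  {C | ∃ v : HeightOneSpectrum (𝓞 K), v ∉ S ∧ (Ideal.absNorm v.asIdeal).Prime ∧
    C = ClassGroup.mk0 (FA.Ext.primeIdeal v)}

/-- **Degree one primes generate the class group.** -/
theorem closure_degreeOneClasses {S : Set (HeightOneSpectrum (𝓞 K))} (hS : S.Finite) :
    Subgroup.closure (degreeOneClasses S) = ⊤ := by
  set H := Subgroup.closure (degreeOneClasses S) with hH
  by_contra hne
  let Q := ClassGroup (𝓞 K) ⧸ H
  have hnt : Nontrivial Q := by
    by_contra h
    rw [not_nontrivial_iff_subsingleton] at h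
    exact hne ((Subgroup.eq_top_iff' H).mpr fun C =>
      (QuotientGroup.eq_one_iff C).mp (Subsingleton.elim (α := Q) _ _))
  have : Finite Q := Quotient.finite _
  obtain ⟨l, hl, hld⟩ := Nat.exists_prime_and_dvd (show Nat.card Q ≠ 1 from Finite.one_lt_card.ne')
  have := Fact.mk hl
  obtain ⟨x, hx⟩ := exists_prime_orderOf_dvd_card' (G := Q) l hld
  -- `y ↦ y^l` is not onto
  obtain ⟨t, ht⟩ : ∃ t : Q, ∀ y : Q, t ≠ y ^ l := by
    by_contra h
    push Not at h
    have hsurj : Function.Surjective fun y : Q => y ^ l := fun t => (h t).imp fun y e => e.symm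
    have : x = 1 := (Finite.injective_iff_surjective.mpr hsurj) (show x ^ l = 1 ^ l by
      rw [one_pow, ← hx, pow_orderOf_eq_one])
    rw [this, orderOf_one] at hx
    exact hl.ne_one hx.symm
  obtain ⟨ψ, hψ⟩ := FA.Ext.exists_hom_ne_one (p := l) ht
  have hφne : ψ.comp (QuotientGroup.mk' H) ≠ 1 := fun e => hψ (by
    obtain ⟨C, rfl⟩ := QuotientGroup.mk'_surjective H t
    exact DFunLike.congr_fun e C)
  obtain ⟨v, hvS, hv, hφv⟩ := exists_degree_one_char_ne_one _ hφne hS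
  refine hφv ?_
  have hmem : ClassGroup.mk0 (FA.Ext.primeIdeal v) ∈ H := Subgroup.subset_closure ⟨v, hvS, hv, rfl⟩
  rw [MonoidHom.comp_apply, QuotientGroup.mk'_apply, (QuotientGroup.eq_one_iff _).mpr hmem, map_one]

section

variable (p : ℕ) [Fact p.Prime] (K) [IsCyclotomicExtension {p} ℚ K]

/-- A relation holding at the degree one primes prime to `p` holds for every class. -/
theorem prod_sigmaCl_pow_eq_one (e : (ZMod p)ˣ → ℕ)
    (h : ∀ v : HeightOneSpectrum (𝓞 K), (p : 𝓞 K) ∉ v.asIdeal → (Ideal.absNorm v.asIdeal).Prime →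
      ∏ d : (ZMod p)ˣ, FA.Ext.sigmaCl p K d (ClassGroup.mk0 (FA.Ext.primeIdeal v)) ^ e d = 1)
    (C : ClassGroup (𝓞 K)) : ∏ d : (ZMod p)ˣ, FA.Ext.sigmaCl p K d C ^ e d = 1 := by
  have hp : p.Prime := Fact.out
  have : NeZero p := ⟨hp.ne_zero⟩
  let Θ : ClassGroup (𝓞 K) →* ClassGroup (𝓞 K) :=
    { toFun := fun C => ∏ d : (ZMod p)ˣ, FA.Ext.sigmaCl p K d C ^ e d
      map_one' := Finset.prod_eq_one fun d _ => by rw [map_one, one_pow]
      map_mul' := fun C D => by
        rw [← Finset.prod_mul_distrib]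
        exact Finset.prod_congr rfl fun d _ => by rw [map_mul, mul_pow] }
  have hfin : {v : HeightOneSpectrum (𝓞 K) | (p : 𝓞 K) ∈ v.asIdeal}.Finite := by
    refine (Ideal.finite_factors (I := Ideal.span {(p : 𝓞 K)}) ?_).subset
      fun v hv => Ideal.dvd_span_singleton.mpr hv
    simp [hp.ne_zero]
  have hle : Subgroup.closure (degreeOneClasses {v : HeightOneSpectrum (𝓞 K) | (p : 𝓞 K) ∈ v.asIdeal}) ≤ Θ.ker :=
    (Subgroup.closure_le _).mpr fun D ⟨v, hvS, hv, hD⟩ => by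
      rw [SetLike.mem_coe, MonoidHom.mem_ker, hD]
      exact h v hvS hv
  rw [closure_degreeOneClasses hfin] at hle
  exact MonoidHom.mem_ker.mp (hle (Subgroup.mem_top C))

/-- Stickelberger's relation at a degree one prime, in the action on classes. -/
theorem prod_sigmaCl_stick_prime (v : HeightOneSpectrum (𝓞 K)) (hvp : (p : 𝓞 K) ∉ v.asIdeal)
    (hv : (Ideal.absNorm v.asIdeal).Prime) (b : ℕ) (hb : b < p) :
    ∏ d : (ZMod p)ˣ, FA.Ext.sigmaCl p K d (ClassGroup.mk0 (FA.Ext.primeIdeal v)) ^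
      (b * ((d⁻¹ : (ZMod p)ˣ) : ZMod p).val / p) = 1 := by
  have : NeZero p := ⟨(Fact.out : p.Prime).ne_zero⟩
  refine Eq.trans (Fintype.prod_equiv (Equiv.inv _) _ _ fun d => ?_) (FA.Ext.stickelberger_relation p K v hvp hv b hb)
  rw [Equiv.inv_apply, FA.Ext.conjClass, inv_inv,
    FA.Ext.sigmaCl_mk0 p K d (FA.Ext.primeIdeal v) (FA.Ext.primeIdeal (FA.Ext.conjPrime (FA.Ext.sigma p K d) v)) rfl]

/-- The norm of a degree one prime is principal. -/
theorem prod_sigmaCl_prime (v : HeightOneSpectrum (𝓞 K)) (hvp : (p : 𝓞 K) ∉ v.asIdeal)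
    (hv : (Ideal.absNorm v.asIdeal).Prime) :
    ∏ d : (ZMod p)ˣ, FA.Ext.sigmaCl p K d (ClassGroup.mk0 (FA.Ext.primeIdeal v)) = 1 := by
  have : NeZero p := ⟨(Fact.out : p.Prime).ne_zero⟩
  rw [Finset.prod_congr rfl fun d _ => FA.Ext.sigmaCl_mk0 p K d (FA.Ext.primeIdeal v)
    (FA.Ext.primeIdeal (FA.Ext.conjPrime (FA.Ext.sigma p K d) v)) rfl, ← map_prod]
  set J : (Ideal (𝓞 K))⁰ := ∏ d : (ZMod p)ˣ, FA.Ext.primeIdeal (FA.Ext.conjPrime (FA.Ext.sigma p K d) v) with hJ
  have hJv : (J : Ideal (𝓞 K)) = Ideal.span {((Ideal.absNorm v.asIdeal : ℕ) : 𝓞 K)} := by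
    rw [hJ, Submonoid.coe_finsetProd]
    exact FA.Ext.prod_conjPrime p v hvp hv
  exact (ClassGroup.mk0_eq_one_iff J.2).mpr ⟨⟨_, hJv.trans Ideal.submodule_span_eq.symm⟩⟩

end

end FA.Catalan
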