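import Fermat.Agent.ExtVanish.Thaine

/-!
# The congruence behind Thaine's relation for any cyclotomic unit

As `FA.Ext.exponent_congruence`, with `ζ^a` in the place of `ζ^2`.
-/

set_option autoImplicit false

noncomputable section

open NumberField IsDedekindDomain Polynomial FA.Ext
open scoped Classical nonZeroDivisors

namespace FA.Catalan

variable {K : Type*} [Field K] [NumberField K]
variable (p : ℕ) [Fact p.Prime] [IsCyclotomicExtension {p} ℚ K]

/-- `c^k (ζ^a - 1)/(ζ - 1) ≡ 1`. -/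
theorem exponent_congruence_gen {F : Type*} [Field F] [NumberField F] [Algebra K F] {q : ℕ}
    [Fact q.Prime] [IsCyclotomicExtension {q} K F] (hirr : Irreducible (cyclotomic q K))
    (hdeg : Module.finrank K F = q - 1)
    (v : HeightOneSpectrum (𝓞 K)) (hvp : (p : 𝓞 K) ∉ v.asIdeal)
    (hv : Ideal.absNorm v.asIdeal = q) {g : (ZMod q)ˣ} {θ η : 𝓞 F} (hθ0 : θ ≠ 0)
    (hθ : auxInt K F hirr g θ * η = θ)
    {a₀ : ℕ} (hη : (algebraMap (𝓞 K) (𝓞 F) (zetaInt p K) * auxZeta K F q - 1) * η =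
      algebraMap (𝓞 K) (𝓞 F) (zetaInt p K ^ a₀) * auxZeta K F q - 1)
    {x : 𝓞 K}
    (hx : (Ideal.span {x}).map (algebraMap (𝓞 K) (𝓞 F)) = Ideal.span {θ} ^ (q - 1))
    {k : ℕ} {C : Ideal (𝓞 K)} (hC : ¬ v.asIdeal ∣ C) (hk : Ideal.span {x} = v.asIdeal ^ k * C) :
    ((g : ZMod q).val : 𝓞 K) ^ k * (∑ i ∈ Finset.range a₀, zetaInt p K ^ i) - 1 ∈ v.asIdeal := by
  have hq : q.Prime := Fact.out
  have hq1 : q - 1 ≠ 0 := by have := hq.two_le; omega
  obtain ⟨-, V, hV, hVN⟩ := aux_degree (F := F) p v hvp hv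
  set f := algebraMap (𝓞 K) (𝓞 F) with hf
  set lam := auxZeta K F q - 1
  have hVv : ∀ y : 𝓞 K, f y ∈ V.asIdeal ↔ y ∈ v.asIdeal := by
    have hle : v.asIdeal ≤ V.asIdeal.comap f := Ideal.map_le_iff_le_comap.mp
      (hV.le.trans (Ideal.pow_le_self hq1))
    have heq := v.isMaximal.eq_of_le (Ideal.comap_ne_top _ V.isPrime.ne_top) hle
    exact fun y => by rw [← Ideal.mem_comap, ← heq]
  have hqV : (q : 𝓞 F) ∈ V.asIdeal := natCast_mem_of_absNorm_eq hVN
  have : NeZero q := ⟨hq.ne_zero⟩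
  have hΛ : Associated (lam ^ (q - 1)) (q : 𝓞 F) :=
    IsCyclotomicExtension.Rat.associated_zeta_sub_one_pow_prime q
      (IsCyclotomicExtension.zeta_spec q K F)
  have hlamV : lam ∈ V.asIdeal :=
    V.isPrime.mem_of_pow_mem (q - 1) (Ideal.mem_of_dvd _ hΛ.symm.dvd hqV)
  -- `V` exactly divides `lam`
  have hsplit : Ideal.span {(q : 𝓞 F)} = V.asIdeal ^ (q - 1) *
      ∏ d ∈ (Finset.univ.erase (1 : (ZMod p)ˣ)),
        (conjPrime (sigma p K d) v).asIdeal.map f := by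
    have h2 := congrArg (Ideal.map f) (prod_conjPrime p v hvp (hv.symm ▸ hq))
    rw [← Ideal.mapHom_apply, map_prod,
      ← Finset.mul_prod_erase Finset.univ _ (Finset.mem_univ (1 : (ZMod p)ˣ))] at h2
    simp only [Ideal.mapHom_apply, Ideal.map_span, Set.image_singleton, map_natCast, hv] at h2
    have h1 : (conjPrime (sigma p K 1) v).asIdeal = v.asIdeal := by
      ext y
      rw [mem_conjPrime, sigma_symm_apply, inv_one, sigma_one_apply]
    rw [h1, hV] at h2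
    exact h2.symm
  have hlam2 : lam ∉ V.asIdeal ^ 2 := fun h => by
    have h3 : V.asIdeal ^ (q - 1) * V.asIdeal ∣ Ideal.span {(q : 𝓞 F)} := by
      rw [Ideal.dvd_span_singleton, ← pow_succ]
      refine Ideal.pow_le_pow_right (by omega : q - 1 + 1 ≤ 2 * (q - 1)) ?_
      rw [pow_mul]
      exact Ideal.mem_of_dvd _ hΛ.dvd (Ideal.pow_mem_pow h _)
    rw [hsplit] at h3
    obtain ⟨d, hd, hdd⟩ := V.prime.exists_mem_finset_dvd
      ((mul_dvd_mul_iff_left (pow_ne_zero _ V.ne_bot)).mp h3)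
    have hle : (conjPrime (sigma p K d) v).asIdeal ≤ v.asIdeal := fun y hy =>
      (hVv y).mp (Ideal.dvd_iff_le.mp hdd (Ideal.mem_map_of_mem f hy))
    have h2 : conjPrime (sigma p K d) v = conjPrime (sigma p K 1) v := by
      refine HeightOneSpectrum.ext (((conjPrime (sigma p K d) v).isMaximal.eq_of_le
        v.isPrime.ne_top hle).trans ?_)
      ext y
      rw [mem_conjPrime, sigma_symm_apply, inv_one, sigma_one_apply]
    exact Finset.ne_of_mem_erase hd (conjPrime_injective p v hvp (hv.symm ▸ hq) h2)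
  -- the exponent of `V` in `θ` is `k`
  have hθs : Ideal.span {θ} ≠ 0 := by simpa using hθ0
  obtain ⟨j, E, hE, hθE⟩ := WfDvdMonoid.max_power_factor hθs V.irreducible
  have hkj : k = j := by
    rw [hk, Ideal.map_mul, Ideal.map_pow, hV, hθE, mul_pow, ← pow_mul, ← pow_mul] at hx
    have h1 : ¬ V.asIdeal ∣ C.map f := fun hd => hC (Ideal.dvd_iff_le.mpr fun y hy =>
      (hVv y).mp (Ideal.dvd_iff_le.mp hd (Ideal.mem_map_of_mem f hy)))
    obtain ⟨h2, -⟩ := pow_mul_unique V.prime h1 (fun hd => hE (V.prime.dvd_of_dvd_pow hd)) hx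
    exact Nat.eq_of_mul_eq_mul_left (Nat.pos_of_ne_zero hq1) (h2.trans (mul_comm _ _))
  subst hkj
  have hθk : θ ∈ V.asIdeal ^ k := Ideal.dvd_span_singleton.mp ⟨E, hθE⟩
  have hθk1 : θ ∉ V.asIdeal ^ (k + 1) := fun h => by
    obtain ⟨D, hD⟩ := Ideal.dvd_span_singleton.mpr h
    rw [hθE, pow_succ, mul_assoc] at hD
    exact hE ⟨D, mul_left_cancel₀ (pow_ne_zero _ V.ne_bot) hD⟩
  obtain ⟨r, hr⟩ := exists_eq_map_span_pow_sup V hlamV hlam2 k hθk
  obtain ⟨a, ha⟩ := exists_nat_sub_mem hq hVN r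
  have hθa : θ - (a : 𝓞 F) * lam ^ k ∈ V.asIdeal ^ (k + 1) := by
    have h1 : (r - (a : 𝓞 F)) * lam ^ k ∈ V.asIdeal ^ (k + 1) := by
      rw [pow_succ']
      exact Ideal.mul_mem_mul ha (Ideal.pow_mem_pow hlamV k)
    simpa [sub_mul, sub_add_sub_cancel] using (V.asIdeal ^ (k + 1)).add_mem hr h1
  have haV : (a : 𝓞 F) ∉ V.asIdeal := fun h => hθk1 (by
    have h1 : (a : 𝓞 F) * lam ^ k ∈ V.asIdeal ^ (k + 1) := by
      rw [pow_succ']; exact Ideal.mul_mem_mul h (Ideal.pow_mem_pow hlamV k)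
    simpa using (V.asIdeal ^ (k + 1)).add_mem hθa h1)
  -- the automorphism fixes `V`
  set s := auxInt K F hirr g
  set gn := (g : ZMod q).val
  have hsV : ∀ y ∈ V.asIdeal, s y ∈ V.asIdeal := by
    intro y hy
    refine V.isPrime.mem_of_pow_mem (q - 1) ?_
    have h1 : (V.asIdeal ^ (q - 1)).map (s : 𝓞 F →+* 𝓞 F) = V.asIdeal ^ (q - 1) := by
      rw [← hV, Ideal.map_map]
      congr 1
      exact RingHom.ext fun z => auxInt_algebraMap hirr g z
    refine Ideal.pow_le_self hq1 ?_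
    rw [← h1, ← map_pow]
    exact Ideal.mem_map_of_mem _ (Ideal.pow_mem_pow hy _)
  have hsVk : ∀ y ∈ V.asIdeal ^ (k + 1), s y ∈ V.asIdeal ^ (k + 1) := fun y hy => by
    have h1 : (V.asIdeal).map (s : 𝓞 F →+* 𝓞 F) ≤ V.asIdeal := Ideal.map_le_iff_le_comap.mpr hsV
    exact (Ideal.pow_right_mono h1 (k + 1)) (Ideal.map_pow (s : 𝓞 F →+* 𝓞 F) _ (k + 1) ▸
      Ideal.mem_map_of_mem (s : 𝓞 F →+* 𝓞 F) hy)
  -- congruences
  set G := ∑ i ∈ Finset.range gn, auxZeta K F q ^ i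
  have hslam : s lam = lam * G := by
    rw [map_sub, map_one, auxInt_zeta, mul_comm, geom_sum_mul]
  let π := Ideal.Quotient.mk V.asIdeal
  have hπ1 : π (auxZeta K F q) = 1 := by
    rw [← sub_eq_zero, ← map_one π, ← map_sub]
    exact Ideal.Quotient.eq_zero_iff_mem.mpr hlamV
  have hπG : π G = (gn : 𝓞 F ⧸ V.asIdeal) := by simp [G, hπ1]
  have hπη : π η = π (f (∑ i ∈ Finset.range a₀, zetaInt p K ^ i)) := by
    have h1 := congrArg π hη
    simp only [map_mul, map_sub, map_one, hπ1, mul_one, map_pow] at h1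
    have hne : π (f (zetaInt p K)) - 1 ≠ 0 := by
      rw [← map_one π, ← map_sub, ← map_one f, ← map_sub]
      exact fun h => hvp (natCast_mem_of_primitiveRoot_sub_one_mem (zetaInt_spec p K)
        ((hVv _).mp (Ideal.Quotient.eq_zero_iff_mem.mp h)))
    refine mul_left_cancel₀ hne (h1.trans ?_)
    simp only [map_sum, map_pow]
    rw [mul_geom_sum]
  have key : lam ^ k * ((a : 𝓞 F) * (G ^ k * η - 1)) ∈ V.asIdeal ^ (k + 1) := by
    have h1 : s (θ - (a : 𝓞 F) * lam ^ k) * η ∈ V.asIdeal ^ (k + 1) :=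
      (V.asIdeal ^ (k + 1)).mul_mem_right _ (hsVk _ hθa)
    rw [map_sub, map_mul, map_natCast, map_pow, hslam, sub_mul, hθ] at h1
    have h2 := (V.asIdeal ^ (k + 1)).sub_mem hθa h1
    convert h2 using 1
    rw [mul_pow]
    ring
  have key2 : G ^ k * η - 1 ∈ V.asIdeal := by
    obtain ⟨Y, hY⟩ := Ideal.dvd_span_singleton.mpr key
    obtain ⟨W, hW⟩ := Ideal.dvd_span_singleton.mpr hlamV
    rw [← Ideal.span_singleton_mul_span_singleton, ← Ideal.span_singleton_pow, hW, mul_pow,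
      pow_succ, mul_assoc, mul_assoc] at hY
    have h3 := mul_left_cancel₀ (pow_ne_zero _ V.ne_bot) hY
    rcases V.prime.dvd_or_dvd ⟨Y, h3⟩ with h4 | h4
    · exfalso
      refine hlam2 (Ideal.dvd_span_singleton.mp ?_)
      rw [hW, pow_two]
      exact mul_dvd_mul_left _ (V.prime.dvd_of_dvd_pow h4)
    · exact (V.isPrime.mem_or_mem (Ideal.dvd_span_singleton.mp h4)).resolve_left haV
  refine (hVv _).mp (Ideal.Quotient.eq_zero_iff_mem.mp ?_)
  have h5 := Ideal.Quotient.eq_zero_iff_mem.mpr key2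
  rw [map_sub, map_mul, map_pow, hπG, hπη, map_one] at h5
  simp only [map_sub, map_mul, map_pow, map_natCast, map_one]
  exact h5

end FA.Catalan
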