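import Fermat.Agent.Catalan.PlusClass
import Fermat.Agent.Catalan.StickelbergerAll
import Fermat.Agent.Regular.CyclotomicUnitIndex
import Fermat.Agent.Regular.MinusFormula

/-!
# Thaine's theorem for `ℚ(ζ_p)` at primes `q ≠ p`

Let `q` be odd, `q ∤ p (p - 1)`. An irreducible `π` killing a nontrivial class of exponent `q` makes the
`π`-part of units modulo cyclotomic units and `q`-th powers nonzero; so if `q` does not divide the index of
the cyclotomic units it does not divide the class number of the real field.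
-/

set_option autoImplicit false

noncomputable section

open NumberField Polynomial FA.Ext
open scoped nonZeroDivisors

namespace FA.Catalan

/-- A vector killed by `P(T)` has a multiple killed by an irreducible factor. -/
theorem exists_irreducible_killed {F : Type*} [Field F] {V : Type*} [AddCommGroup V] [Module F V]
    (T : Module.End F V) {v : V} (hv : v ≠ 0) :
    ∀ {P : F[X]}, P ≠ 0 → aeval T P v = 0 →
      ∃ π g : F[X], Irreducible π ∧ π ∣ P ∧ aeval T g v ≠ 0 ∧ aeval T π (aeval T g v) = 0 := by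
  intro P
  induction P using UniqueFactorizationMonoid.induction_on_prime with
  | h₁ => exact fun h => absurd rfl h
  | h₂ u hu =>
    intro _ h
    obtain ⟨w, hw⟩ := hu.exists_left_inv
    have h1 := congrArg (aeval T w) h
    rw [map_zero, ← Module.End.mul_apply, ← map_mul, hw, map_one, Module.End.one_apply] at h1
    exact absurd h1 hv
  | h₃ A π hA hπ ih =>
    intro _ h
    by_cases hAv : aeval T A v = 0
    · obtain ⟨π', g, h1, h2, h3⟩ := ih hA hAv
      exact ⟨π', g, h1, h2.mul_left π, h3⟩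
    · exact ⟨π, A, hπ.irreducible, dvd_mul_right π A, hAv, by rwa [← Module.End.mul_apply, ← map_mul]⟩

variable {p : ℕ} [Fact p.Prime] {K : Type*} [Field K] [NumberField K] [IsCyclotomicExtension {p} ℚ K]
  {q : ℕ} [Fact q.Prime]

/-- The norm of a class is trivial. -/
theorem prod_sigmaCl_eq_one (C : ClassGroup (𝓞 K)) : ∏ d : (ZMod p)ˣ, sigmaCl p K d C = 1 := by
  have h := prod_sigmaCl_pow_eq_one K p (fun _ => 1) (fun v hvp hv => by
    simpa using prod_sigmaCl_prime K p v hvp hv) C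
  simpa using h

theorem aeval_unitEnd_cycU_eq_zero (h5 : 5 ≤ p) (hq3 : 3 ≤ q) (hne : q ≠ p) (hqp : ((p - 1 : ℕ) : ZMod q) ≠ 0)
    {γ : (ZMod p)ˣ} (hγ : ∀ a, a ∈ Subgroup.zpowers γ) {N : ℕ} (hN : 2 ≤ N) (hp : p = 2 * N + 1)
    (hγN : γ ^ N = -1) {π h : (ZMod q)[X]} (hπ : Irreducible π) (hπh : π * h = (unitEnd p K q γ).charpoly)
    {c : ClassGroup (𝓞 K)} (hcq : c ^ q = 1) (hc : c ≠ 1) (hkill : polProd (sigmaCl p K γ) π c = 1)
    {u : (𝓞 K)ˣ} (hu : u ∈ FA.Regular.cycloUnits p K) :
    aeval (unitEnd p K q γ) h (unitModP q u) = 0 := by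
  have hQ : q.Prime := Fact.out
  have : NeZero q := ⟨hQ.ne_zero⟩
  set T := unitEnd p K q γ with hT
  have hchar : T.charpoly * (X - 1) = X ^ N - 1 := charpoly_unitEnd hγ hN hp
  have hf : π * h * (X - 1) = X ^ N - 1 := by rw [hπh, hchar]
  obtain ⟨Ψ, hΨ, hΨk⟩ := exists_killed_char hqp (π := π) (c := c) (by
    rw [show p - 1 = 2 * N by omega]
    exact ⟨h * (X - 1) * (X ^ N + 1), by
      rw [show π * (h * (X - 1) * (X ^ N + 1)) = π * h * (X - 1) * (X ^ N + 1) by ring, hf]; ring⟩) hcq hc hkill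
  -- the homomorphism `u ↦ h [u]`
  let S : Subgroup (𝓞 K)ˣ :=
    { carrier := {u | aeval T h (unitModP q u) = 0}
      one_mem' := by
        show aeval T h (unitModP q 1) = 0
        rw [(unitModP_eq_zero_iff (p := p) (by omega) (by omega) hne).mpr ⟨1, (one_pow q).symm⟩, map_zero]
      mul_mem' := fun {a b} ha hb => by
        show aeval T h (unitModP q (a * b)) = 0
        rw [unitModP_mul, map_add, ha, hb, add_zero]
      inv_mem' := fun {a} ha => by
        show aeval T h (unitModP q a⁻¹) = 0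
        have h1 : aeval T h (unitModP q (a * a⁻¹)) = 0 := by
          rw [mul_inv_cancel, (unitModP_eq_zero_iff (p := p) (by omega) (by omega) hne).mpr ⟨1, (one_pow q).symm⟩,
            map_zero]
        rwa [unitModP_mul, map_add, ha, zero_add] at h1 }
  suffices hle : FA.Regular.cycloUnits p K ≤ S from hle hu
  refine sup_le (fun t ht => ?_) ((Subgroup.closure_le _).mpr ?_)
  · show aeval T h (unitModP q t) = 0
    rw [(unitModP_eq_zero_iff (p := p) (by omega) (by omega) hne).mpr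
      (exists_pow_eq_of_torsion (p := p) (by omega) (by omega) hne ht), map_zero]
  rintro - ⟨⟨a, ha⟩, rfl⟩
  show aeval T h (unitModP q (FA.Regular.cycU p K ha)) = 0
  have h0 := unitModP_eq_zero_of_char_gen h5 hq3 hne hqp hγ hp hγN hπ hf hΨ hΨk ha (FA.Regular.cycU p K ha)
    (IsUnit.unit_spec _)
  rw [apply_polProd (unitModP q) (fun a b => unitModP_mul q a b) (fun y => unitModP_sigmaU γ y), unitModP_mul,
    unitModP_sigmaU, ← hγN] at h0
  have hpow : unitEnd p K q (γ ^ N) (unitModP q (FA.Regular.cycU p K ha)) = unitModP q (FA.Regular.cycU p K ha) := by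
    have h1 : ∀ (n : ℕ) (v : (𝓞 K)ˣ), unitEnd p K q (γ ^ n) (unitModP q v) = (T ^ n) (unitModP q v) := by
      intro n
      induction n with
      | zero =>
        intro v
        rw [pow_zero, pow_zero, Module.End.one_apply, ← unitModP_sigmaU,
          show sigmaU p K 1 v = v from Units.ext (by rw [sigmaU_coe, sigma_one_apply])]
      | succ n ih =>
        intro v
        rw [pow_succ, pow_succ, Module.End.mul_apply, hT, ← unitModP_sigmaU, ← unitModP_sigmaU, ← hT, ← ih,
          ← unitModP_sigmaU]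
        exact congrArg (unitModP q) (Units.ext (by simp only [sigmaU_coe, sigma_mul_apply]))
    rw [h1, ← sub_eq_zero, show (T ^ N) (unitModP q (FA.Regular.cycU p K ha)) - unitModP q (FA.Regular.cycU p K ha) =
      aeval T (X ^ N - 1 : (ZMod q)[X]) (unitModP q (FA.Regular.cycU p K ha)) by
        rw [map_sub, map_pow, aeval_X, map_one, LinearMap.sub_apply, Module.End.one_apply], ← hchar, mul_comm,
      map_mul, Module.End.mul_apply, LinearMap.aeval_self_charpoly, LinearMap.zero_apply, map_zero]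
  rw [hpow, map_add, ← two_smul (ZMod q), smul_eq_zero] at h0
  refine h0.resolve_left fun e => ?_
  have e' : ((2 : ℕ) : ZMod q) = 0 := by simpa using e
  have := Nat.le_of_dvd two_pos ((ZMod.natCast_eq_zero_iff 2 q).mp e')
  omega

/-- **Thaine's theorem**, componentwise: the component of a class is seen in units modulo cyclotomic units. -/
theorem exists_not_mem_cyclo (h5 : 5 ≤ p) (hq3 : 3 ≤ q) (hne : q ≠ p) (hqp : ((p - 1 : ℕ) : ZMod q) ≠ 0)
    {γ : (ZMod p)ˣ} (hγ : ∀ a, a ∈ Subgroup.zpowers γ) {N : ℕ} (hN : 2 ≤ N) (hp : p = 2 * N + 1)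
    (hγN : γ ^ N = -1) {π h : (ZMod q)[X]} (hπ : Irreducible π) (hπh : π * h = (unitEnd p K q γ).charpoly)
    {c : ClassGroup (𝓞 K)} (hcq : c ^ q = 1) (hc : c ≠ 1) (hkill : polProd (sigmaCl p K γ) π c = 1) :
    ∃ u : (𝓞 K)ˣ, ∀ e ∈ FA.Regular.cycloUnits p K, ∀ w : (𝓞 K)ˣ, u ≠ e * w ^ q := by
  by_contra hall
  push Not at hall
  set T := unitEnd p K q γ
  have hqN : (N : ZMod q) ≠ 0 := fun e => hqp (by
    rw [show p - 1 = 2 * N by omega, Nat.cast_mul, e, mul_zero])
  have h0 : aeval T h = 0 := LinearMap.ext fun v => by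
    obtain ⟨u, rfl⟩ := exists_unitModP_eq (q := q) v
    obtain ⟨e, he, w, rfl⟩ := hall u
    rw [unitModP_mul, map_add, aeval_unitEnd_cycU_eq_zero h5 hq3 hne hqp hγ hN hp hγN hπ hπh hcq hc hkill he,
      zero_add, (unitModP_eq_zero_iff (p := p) (by omega) (by omega) hne).mpr ⟨w, rfl⟩, map_zero,
      LinearMap.zero_apply]
  have hne0 : π * h ≠ 0 := hπh ▸ T.charpoly_monic.ne_zero
  have h1 := finrank_le_natDegree T (separable_charpoly_unitEnd hγ hN hp hqN) (right_ne_zero_of_mul hne0) h0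
  have h2 := natDegree_mul hπ.ne_zero (right_ne_zero_of_mul hne0)
  rw [hπh, LinearMap.charpoly_natDegree] at h2
  have := hπ.natDegree_pos
  omega

/-- **Thaine's theorem**: if `q` does not divide the index of the cyclotomic units, no real class has order `q`. -/
theorem eq_one_of_real_of_index (h5 : 5 ≤ p) (hq3 : 3 ≤ q) (hne : q ≠ p) (hqp : ¬ q ∣ p - 1)
    (hidx : ¬ q ∣ (FA.Regular.cycloUnits p K).index) {c : ClassGroup (𝓞 K)} (hcq : c ^ q = 1)
    (hfix : sigmaCl p K (-1) c = c) : c = 1 := by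
  have hQ : q.Prime := Fact.out
  have hP : p.Prime := Fact.out
  have : NeZero p := ⟨hP.ne_zero⟩
  have : NeZero q := ⟨hQ.ne_zero⟩
  by_contra hc
  have hqp' : ((p - 1 : ℕ) : ZMod q) ≠ 0 := fun e => hqp ((ZMod.natCast_eq_zero_iff _ _).mp e)
  obtain ⟨N, hp⟩ := hP.odd_of_ne_two (by omega)
  have hN : 2 ≤ N := by omega
  obtain ⟨γ, hγ⟩ := IsCyclic.exists_generator (α := (ZMod p)ˣ)
  have hord : orderOf γ = 2 * N := by
    rw [orderOf_eq_card_of_forall_mem_zpowers hγ, Nat.card_eq_fintype_card, ZMod.card_units p]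
    omega
  have hγN : γ ^ N = -1 := by
    have h1 : ((γ ^ N : (ZMod p)ˣ) : ZMod p) * ((γ ^ N : (ZMod p)ˣ) : ZMod p) = 1 := by
      rw [← Units.val_mul, ← pow_add, ← two_mul, ← hord, pow_orderOf_eq_one, Units.val_one]
    refine Units.ext ?_
    rw [Units.val_neg, Units.val_one]
    refine (mul_self_eq_one_iff.mp h1).resolve_left fun e => ?_
    have h2 := orderOf_dvd_of_pow_eq_one (Units.ext (e.trans Units.val_one.symm) : γ ^ N = 1)
    rw [hord] at h2
    have := Nat.le_of_dvd (by omega) h2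
    omega
  set sc := sigmaCl p K γ with hsc
  have hsc1 : ∀ D, sigmaCl p K 1 D = D := fun D => by
    obtain ⟨I, rfl⟩ := ClassGroup.mk0_surjective D
    exact sigmaCl_mk0 p K 1 I I (by rw [map_one]; exact (Ideal.map_id _).symm)
  have hiter : ∀ (n : ℕ) D, sc^[n] D = sigmaCl p K (γ ^ n) D := by
    intro n D
    induction n with
    | zero => rw [Function.iterate_zero_apply, pow_zero, hsc1]
    | succ n ih => rw [Function.iterate_succ_apply', ih, pow_succ', sigmaCl_mul]
  -- classes killed by `q`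
  let Tq : Subgroup (ClassGroup (𝓞 K)) := (powMonoidHom q).ker
  have hTmem : ∀ D ∈ Tq, sc D ∈ Tq := fun D hD => by
    rw [MonoidHom.mem_ker, powMonoidHom_apply] at hD ⊢
    rw [← map_pow, hD, map_one]
  let sT : Tq →* Tq := (sc.comp Tq.subtype).codRestrict Tq fun D => hTmem D.1 D.2
  let TT : Module.End (ZMod q) (TorClass q K) := (MonoidHom.toAdditive sT).toZModLinearMap q
  let cT : Tq := ⟨c, hcq⟩
  have hA : ∀ (P : (ZMod q)[X]) (D : Tq),
      Additive.ofMul (polProd sT P D) = aeval TT P (Additive.ofMul D) := fun P D =>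
    apply_polProd (V := TorClass q K) (T := TT) (fun y : Tq => Additive.ofMul y) (fun _ _ => rfl) (fun _ => rfl) P D
  have hT0 : aeval TT (X ^ N - 1 : (ZMod q)[X]) (Additive.ofMul cT) = 0 := by
    rw [map_sub, map_pow, aeval_X, map_one, LinearMap.sub_apply, Module.End.one_apply, sub_eq_zero,
      Module.End.pow_apply, ← (Function.Semiconj.iterate_right (f := fun y : Tq => Additive.ofMul y)
        (ga := sT) (gb := TT) (fun y => rfl) N).eq cT]
    refine congrArg Additive.ofMul (Subtype.ext ?_)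
    refine ((Function.Semiconj.iterate_right (f := fun y : Tq => (y : ClassGroup (𝓞 K))) (ga := sT) (gb := sc)
      (fun y => rfl) N).eq cT).trans ?_
    show sc^[N] c = c
    rw [hiter, hγN, hfix]
  obtain ⟨π, g, hπ, hπdvd, hg0, hgπ⟩ := exists_irreducible_killed TT (v := Additive.ofMul cT)
    (fun e => hc (congrArg Subtype.val (ofMul_eq_zero.mp e)))
    (by rw [← C_1]; exact (monic_X_pow_sub_C (1 : ZMod q) (by omega : N ≠ 0)).ne_zero) hT0
  set d : Tq := polProd sT g cT with hd
  rw [← hA, ← hd] at hg0 hgπ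
  have hd1 : (d : ClassGroup (𝓞 K)) ≠ 1 := fun e => hg0 (ofMul_eq_zero.mpr (Subtype.ext e))
  have hdq : (d : ClassGroup (𝓞 K)) ^ q = 1 := d.2
  rcases eq_or_ne (aeval TT (X - 1 : (ZMod q)[X]) (Additive.ofMul d)) 0 with hx1 | hx1
  · -- the trivial component: the norm
    rw [map_sub, aeval_X, map_one, LinearMap.sub_apply, Module.End.one_apply, sub_eq_zero] at hx1
    have hs : sc (d : ClassGroup (𝓞 K)) = d :=
      congrArg (fun y : TorClass q K => ((Additive.toMul y : Tq) : ClassGroup (𝓞 K))) hx1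
    have hall : ∀ e : (ZMod p)ˣ, sigmaCl p K e (d : ClassGroup (𝓞 K)) = d := fun e => by
      obtain ⟨i, rfl⟩ := mem_powers_iff_mem_zpowers.mpr (hγ e)
      show sigmaCl p K (γ ^ i) _ = _
      rw [← hiter]
      exact Function.iterate_fixed hs i
    have h1 := prod_sigmaCl_eq_one (p := p) (d : ClassGroup (𝓞 K))
    rw [Finset.prod_congr rfl fun e _ => hall e, Finset.prod_const, Finset.card_univ, ZMod.card_units p] at h1
    have h2 := pow_gcd_eq_one.mpr ⟨hdq, h1⟩
    rw [hQ.coprime_iff_not_dvd.mpr hqp, pow_one] at h2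
    exact hd1 h2
  · have hchar : (unitEnd p K q γ).charpoly * (X - 1) = X ^ N - 1 := charpoly_unitEnd hγ hN hp
    have hπf : π ∣ (unitEnd p K q γ).charpoly := (hπ.prime.dvd_or_dvd (hchar ▸ hπdvd)).resolve_right fun e => by
      obtain ⟨w, hw⟩ := e
      refine hx1 ?_
      rw [hw, mul_comm, map_mul, Module.End.mul_apply, hgπ, map_zero]
    obtain ⟨h, hh⟩ := hπf
    have hkill : polProd sc π (d : ClassGroup (𝓞 K)) = 1 := by
      show polProd sc π (Tq.subtype d) = 1
      rw [← map_polProd Tq.subtype (s := sT) (s' := sc) (fun y => rfl) π d]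
      exact congrArg (fun y : TorClass q K => ((Additive.toMul y : Tq) : ClassGroup (𝓞 K))) ((hA π d).trans hgπ)
    obtain ⟨u, hu⟩ := exists_not_mem_cyclo h5 hq3 hne hqp' hγ hN hp hγN hπ hh.symm hdq hd1 hkill
    set n := (FA.Regular.cycloUnits p K).index with hn
    obtain ⟨a, b, hab⟩ : ∃ a b : ℤ, a * (q : ℤ) + b * (n : ℤ) = 1 :=
      Int.isCoprime_iff_nat_coprime.mpr (by
        rw [Int.natAbs_natCast, Int.natAbs_natCast]; exact hQ.coprime_iff_not_dvd.mpr hidx)
    refine hu ((u ^ n) ^ b) (zpow_mem (Subgroup.pow_index_mem _ u) b) (u ^ a) ?_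
    rw [← zpow_natCast u n, ← zpow_mul, ← zpow_natCast (u ^ a) q, ← zpow_mul, ← zpow_add, add_comm, mul_comm (n : ℤ),
      hab, zpow_one]

/-- Hence `q` does not divide the class number of the real field. -/
theorem not_dvd_classNumber_real [IsCMField K] (h5 : 5 ≤ p) (hq3 : 3 ≤ q) (hne : q ≠ p) (hqp : ¬ q ∣ p - 1)
    (hidx : ¬ q ∣ (FA.Regular.cycloUnits p K).index) : ¬ q ∣ classNumber (maximalRealSubfield K) := by
  have hQ : q.Prime := Fact.out
  intro hdvd
  set L := maximalRealSubfield K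
  obtain ⟨x, hx⟩ := exists_prime_orderOf_dvd_card (p := q) hdvd
  obtain ⟨J, rfl⟩ := ClassGroup.mk0_surjective x
  set f := algebraMap (𝓞 L) (𝓞 K) with hf
  have hinj : Function.Injective f := FaithfulSMul.algebraMap_injective (𝓞 L) (𝓞 K)
  let ext : (Ideal (𝓞 L))⁰ →* (Ideal (𝓞 K))⁰ :=
    { toFun := fun I => ⟨I.1.map f, mem_nonZeroDivisors_iff_ne_zero.mpr fun e =>
        nonZeroDivisors.ne_zero I.2 ((Ideal.map_eq_bot_iff_of_injective hinj).mp e)⟩
      map_one' := Subtype.ext (by simp [Ideal.one_eq_top, Ideal.map_top])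
      map_mul' := fun I I' => Subtype.ext (Ideal.map_mul _ _ _) }
  have hsig : ∀ y : 𝓞 L, sigma p K (-1) (f y) = f y := fun y => RingOfIntegers.ext (by
    show sigmaK p K (-1) ((f y : 𝓞 K) : K) = _
    rw [FA.Regular.sigmaK_neg_one_eq]
    exact IsCMField.complexConj_apply_eq_self K (y : L))
  have hq1 : (ClassGroup.mk0 J) ^ q = 1 := by rw [← hx]; exact pow_orderOf_eq_one _
  have hc : ClassGroup.mk0 (ext J) = 1 := by
    refine eq_one_of_real_of_index (p := p) (q := q) h5 hq3 hne hqp hidx ?_ ?_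
    · rw [← map_pow, ← map_pow, ClassGroup.mk0_eq_one_iff]
      rw [← map_pow, ClassGroup.mk0_eq_one_iff] at hq1
      obtain ⟨⟨a, ha⟩⟩ := hq1
      refine ⟨⟨f a, ?_⟩⟩
      show Ideal.map f ((J ^ q : (Ideal (𝓞 L))⁰) : Ideal (𝓞 L)) = _
      rw [ha, Ideal.submodule_span_eq, Ideal.map_span, Set.image_singleton, Ideal.submodule_span_eq]
    · refine sigmaCl_mk0 p K (-1) _ _ ?_
      show J.1.map f = (J.1.map f).map (sigma p K (-1) : 𝓞 K →+* 𝓞 K)
      rw [Ideal.map_map]
      congr 1
      exact RingHom.ext fun y => (hsig y).symm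
  obtain ⟨⟨b, hb⟩⟩ := (ClassGroup.mk0_eq_one_iff (ext J).2).mp hc
  have h2 : ClassGroup.mk0 J ^ 2 = 1 := by
    rw [← map_pow, ClassGroup.mk0_eq_one_iff]
    refine ⟨⟨Algebra.intNorm (𝓞 L) (𝓞 K) b, ?_⟩⟩
    have h1 := congrArg (Ideal.relNorm (𝓞 L)) (show J.1.map f = Ideal.span {b} from hb.trans Ideal.submodule_span_eq)
    rw [Ideal.relNorm_algebraMap, Ideal.relNorm_singleton, ← IsFractionRing.finrank_eq (𝓞 L) L (𝓞 K) K,
      Algebra.IsQuadraticExtension.finrank_eq_two L K] at h1
    rw [SubmonoidClass.coe_pow, h1, Ideal.submodule_span_eq]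
  have h3 := orderOf_dvd_of_pow_eq_one h2
  rw [hx] at h3
  have := Nat.le_of_dvd two_pos h3
  omega

end FA.Catalan
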