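import Fermat.Agent.Catalan.ThaineExponent
import Fermat.Agent.ExtVanish.EigenPrincipal
import Fermat.Agent.ExtVanish.SplitBound

/-!
# Thaine's relation modulo a prime `l ≠ p`

For a degree one prime of `ℚ(ζ_p)` of norm `1 (mod l)` the discrete logarithms of the conjugates of
`1 + ζ` are the exponents of a relation in the class group modulo `l`. If a unit is no `l`-th power and a
character of order `l` of the class group is given, some such prime has both symbols nontrivial.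
-/

set_option autoImplicit false

noncomputable section

open NumberField IsDedekindDomain Polynomial
open scoped Classical nonZeroDivisors

namespace FA.Catalan

open FA.Ext

variable {K : Type*} [Field K] [NumberField K]
variable (p : ℕ) [Fact p.Prime] [IsCyclotomicExtension {p} ℚ K]

/-- **Thaine's relation**, modulo `l`, for the cyclotomic unit `(ζ^a - 1)/(ζ - 1)`. -/
theorem exists_thaine_relation_gen (h5 : 5 ≤ p) {a : ℕ} (ha : (a : ZMod p) ≠ 0) {l : ℕ} [Fact l.Prime] (v : HeightOneSpectrum (𝓞 K))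
    (hvp : (p : 𝓞 K) ∉ v.asIdeal) (hv : (Ideal.absNorm v.asIdeal).Prime)
    (hl : l ∣ Ideal.absNorm v.asIdeal - 1) :
    ∃ (c : ℕ) (k : (ZMod p)ˣ → ℕ),
      (∀ d : (ZMod p)ˣ, (c : 𝓞 K) ^ k d * sigma p K d⁻¹ (∑ i ∈ Finset.range a, zetaInt p K ^ i) - 1 ∈ v.asIdeal) ∧
      (∀ n : ℕ, (c : 𝓞 K) ^ n - 1 ∈ v.asIdeal → l ∣ n) ∧
      ∀ φ : ClassGroup (𝓞 K) →* Multiplicative (ZMod l),
        ∑ d : (ZMod p)ˣ, (k d : ZMod l) *
          Multiplicative.toAdd (φ (sigmaCl p K d (ClassGroup.mk0 (primeIdeal v)))) = 0 := by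
  have hp : p.Prime := Fact.out
  set q := Ideal.absNorm v.asIdeal with hq
  have : Fact q.Prime := ⟨hv⟩
  have : NeZero q := ⟨hv.ne_zero⟩
  have hpq : p ∣ q - 1 := dvd_absNorm_sub_one (zetaInt_spec p K) v hvp
  have hq2 : q ≠ 2 := fun h => by
    rw [h] at hpq
    have := Nat.le_of_dvd (by norm_num) hpq
    omega
  let F := CyclotomicField q K
  have : NumberField F := IsCyclotomicExtension.numberField {q} K F
  obtain ⟨hirr, V₀, hV₀, hV₀N⟩ := aux_degree (F := F) p v hvp rfl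
  have hdeg : Module.finrank K F = q - 1 := by
    rw [IsCyclotomicExtension.finrank F hirr, Nat.totient_prime hv]
  have hgal : IsGalois K F := IsCyclotomicExtension.isGalois {q} K F
  obtain ⟨g, hg⟩ := IsCyclic.exists_generator (α := (ZMod q)ˣ)
  set z := zetaInt p K
  set f := algebraMap (𝓞 K) (𝓞 F)
  -- the norm one unit
  obtain ⟨m, hm⟩ := hpq
  have hzq : z ^ (q - 1) = 1 := by rw [hm, pow_mul, (zetaInt_spec p K).pow_eq_one, one_pow]
  have hz1 : z ≠ 1 := (zetaInt_spec p K).ne_one hp.one_lt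
  have hz2 : z ^ a ≠ 1 := fun e => ha ((ZMod.natCast_eq_zero_iff a p).mpr
    ((zetaInt_spec p K).pow_eq_one_iff_dvd a |>.mp e))
  have hA := prod_auxInt_eq_one (F := F) hirr hq2 (c := z ^ a)
    (by rw [← pow_mul, mul_comm, pow_mul, hzq, one_pow]) hz2
  have hB := prod_auxInt_eq_one (F := F) hirr hq2 (c := z) hzq hz1
  obtain ⟨b, hb⟩ : ∃ b, (f z * auxZeta K F q - 1) * b = 1 := by
    refine ⟨∏ a ∈ Finset.univ.erase (1 : (ZMod q)ˣ),
      auxInt K F hirr a (f z * auxZeta K F q - 1), ?_⟩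
    nth_rewrite 1 [← auxInt_one hirr (f z * auxZeta K F q - 1)]
    rw [Finset.mul_prod_erase Finset.univ
      (fun a => auxInt K F hirr a (f z * auxZeta K F q - 1)) (Finset.mem_univ 1)]
    exact hB
  set η := (f (z ^ a) * auxZeta K F q - 1) * b
  have hηeq : (f z * auxZeta K F q - 1) * η = f (z ^ a) * auxZeta K F q - 1 := by
    rw [mul_left_comm, hb, mul_one]
  have hη : ∏ a : (ZMod q)ˣ, auxInt K F hirr a η = 1 := by
    have h1 := Finset.prod_congr (s₁ := (Finset.univ : Finset (ZMod q)ˣ)) rfl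
      fun a _ => congrArg (auxInt K F hirr a) hηeq
    simp only [map_mul] at h1
    rwa [Finset.prod_mul_distrib, hB, one_mul, hA] at h1
  obtain ⟨θ, hθ0, hθ⟩ := exists_hilbert90 hirr hg hη
  -- the norm
  set x := RingOfIntegers.norm K θ
  have hgen : ∀ i : ℕ, Ideal.span {auxInt K F hirr (g ^ i) θ} = Ideal.span {θ} := by
    intro i
    induction i with
    | zero => rw [pow_zero, auxInt_one]
    | succ i ih =>
      rw [pow_succ', auxInt_mul]
      have h1 := congrArg (Ideal.map (auxInt K F hirr g : 𝓞 F →+* 𝓞 F)) ih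
      simp only [Ideal.map_span, Set.image_singleton, RingHom.coe_coe] at h1
      rw [h1]
      refine Ideal.span_singleton_eq_span_singleton.mpr ?_
      have hu : IsUnit η := by
        refine IsUnit.of_mul_eq_one (∏ a ∈ Finset.univ.erase (1 : (ZMod q)ˣ),
          auxInt K F hirr a η) ?_
        nth_rewrite 1 [← auxInt_one hirr η]
        rw [Finset.mul_prod_erase Finset.univ (fun a => auxInt K F hirr a η) (Finset.mem_univ 1)]
        exact hη
      exact ⟨hu.unit, hθ⟩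
  have hxmap : (Ideal.span {x}).map f = Ideal.span {θ} ^ (q - 1) := by
    rw [Ideal.map_span, Set.image_singleton]
    have h1 : f x = ∏ a : (ZMod q)ˣ, auxInt K F hirr a θ := by
      refine RingOfIntegers.ext ?_
      rw [RingOfIntegers.coe_eq_algebraMap, RingOfIntegers.coe_eq_algebraMap, map_prod]
      refine Eq.trans (b := algebraMap K F (Algebra.norm K (θ : F))) rfl ?_
      rw [Algebra.norm_eq_prod_automorphisms]
      exact (Fintype.prod_equiv (IsCyclotomicExtension.autEquivPow F hirr).symm.toEquiv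
        (fun a => (auxInt K F hirr a θ : F)) (fun σ => σ (θ : F)) fun a => rfl).symm
    rw [h1, ← Ideal.prod_span_singleton, Finset.prod_congr rfl fun a _ => ?_, Finset.prod_const,
      Finset.card_univ, ZMod.card_units q]
    obtain ⟨i, rfl⟩ := mem_powers_iff_mem_zpowers.mpr (hg a)
    exact hgen i
  have hx0 : x ≠ 0 := fun h => by
    rw [h, Ideal.span_singleton_eq_bot.mpr rfl, Ideal.map_bot] at hxmap
    exact hθ0 (Ideal.span_singleton_eq_bot.mp ((pow_eq_zero_iff (by have := hv.two_le; omega)).mp hxmap.symm))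
  -- decomposition at the primes over `q`
  set P := fun d : (ZMod p)ˣ => (conjPrime (sigma p K d) v).asIdeal
  have hPinj : Set.InjOn P (Finset.univ : Finset (ZMod p)ˣ) :=
    fun d _ e _ h => conjPrime_injective p v hvp hv (HeightOneSpectrum.ext h)
  obtain ⟨k, R, hkR, hR⟩ := exists_prime_decomposition Finset.univ P
    (fun d _ => (conjPrime _ v).prime) hPinj (I := Ideal.span {x}) (by simpa using hx0)
  have hvpd : ∀ d, (p : 𝓞 K) ∉ P d := fun d h => hvp (by
    have := mem_conjPrime.mp h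
    rwa [map_natCast] at this)
  have hcong : ∀ d, ((g : ZMod q).val : 𝓞 K) ^ k d * (∑ i ∈ Finset.range a, z ^ i) - 1 ∈ P d := by
    intro d
    refine exponent_congruence_gen p hirr hdeg (conjPrime (sigma p K d) v) (hvpd d)
      (absNorm_conjPrime _ v) hθ0 hθ hηeq hxmap
      (C := (∏ e ∈ Finset.univ.erase d, P e ^ k e) * R) ?_ ?_
    · intro hd
      rcases (conjPrime _ v).prime.dvd_or_dvd hd with h1 | h1
      · obtain ⟨e, he, hde⟩ := (conjPrime _ v).prime.exists_mem_finset_dvd h1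
        have h2 : P e ≤ P d := Ideal.dvd_iff_le.mp ((conjPrime _ v).prime.dvd_of_dvd_pow hde)
        exact Finset.ne_of_mem_erase he (hPinj (Finset.mem_univ e) (Finset.mem_univ d)
          ((conjPrime _ v).isMaximal.eq_of_le (conjPrime (sigma p K d) v).isPrime.ne_top h2))
      · exact hR d (Finset.mem_univ d) h1
    · rw [hkR, ← Finset.mul_prod_erase Finset.univ _ (Finset.mem_univ d), mul_assoc]
  -- the rest is a `p`-th power
  have hR0 : R ≠ 0 := fun h => hx0 (Ideal.span_singleton_eq_bot.mp (by rw [hkR, h, mul_zero]; rfl))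
  obtain ⟨J, hJ0, hRJ⟩ : ∃ J : Ideal (𝓞 K), J ≠ 0 ∧ R = J ^ l := by
    refine exists_eq_pow_of_forall_dvd hR0 fun W C i hW hWC hRW => ?_
    rcases Nat.eq_zero_or_pos i with rfl | hi
    · exact dvd_zero l
    let w : HeightOneSpectrum (𝓞 K) := ⟨W, Ideal.isPrime_of_prime hW, hW.ne_zero⟩
    have hWR : W ∣ R := hRW ▸ Dvd.dvd.mul_right (dvd_pow_self W hi.ne') C
    have hWP : ∀ d, W ≠ P d := fun d h => hR d (Finset.mem_univ d) (h ▸ hWR)
    have hqW : (q : 𝓞 K) ∉ W := fun hmem => by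
      have h1 : W ∣ ∏ d : (ZMod p)ˣ, P d := by
        rw [prod_conjPrime p v hvp hv, Ideal.dvd_span_singleton]; exact hmem
      obtain ⟨d, -, hd⟩ := hW.exists_mem_finset_dvd h1
      exact hWP d (associated_iff_eq.mp (hW.associated_of_dvd (conjPrime _ v).prime hd))
    have hWtop : W.map f ≠ ⊤ := fun h => by
      have h1 := congrArg Ideal.absNorm h
      rw [Ideal.absNorm_algebraMap, Ideal.absNorm_top, pow_eq_one_iff] at h1
      refine w.isPrime.ne_top (Ideal.absNorm_eq_one_iff.mp (h1.resolve_right ?_))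
      rw [← IsFractionRing.finrank_eq (𝓞 K) K (𝓞 F) F]
      exact Module.finrank_pos.ne' 
    obtain ⟨Q, hQ, hWQ⟩ := Ideal.exists_le_maximal _ hWtop
    have : Q.IsPrime := hQ.isPrime
    have : Q.LiesOver w.asIdeal :=
      ⟨w.isMaximal.eq_of_le (Ideal.comap_ne_top _ hQ.ne_top) (Ideal.map_le_iff_le_comap.mp hWQ)⟩
    have hine : ∀ σ ∈ Q.inertia (F ≃ₐ[K] F), σ = 1 := by
      intro σ hσ
      obtain ⟨a, rfl⟩ : ∃ a, auxAut K F hirr a = σ :=
        ⟨IsCyclotomicExtension.autEquivPow F hirr σ, MulEquiv.symm_apply_apply _ σ⟩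
      have h1 : auxInt K F hirr a (auxZeta K F q) - auxZeta K F q ∈ Q :=
        hσ (auxZeta K F q)
      rw [auxInt_zeta] at h1
      have hqQ : (q : 𝓞 F) ∉ Q := fun h => hqW (by
        have h2 : (q : 𝓞 K) ∈ Q.comap f := by rw [Ideal.mem_comap, map_natCast]; exact h
        rwa [← Ideal.under_def, ← Q.over_def w.asIdeal] at h2)
      have h2 := pow_eq_of_sub_mem (auxZeta_spec (K := K)) hqQ (ZMod.val_lt _) hv.one_lt
        (j := 1) (by rwa [pow_one])
      have ha : a = 1 := Units.ext (by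
        rw [← ZMod.natCast_zmod_val (a : ZMod q), h2, Nat.cast_one, Units.val_one])
      rw [ha]
      exact AlgEquiv.ext fun y => auxAut_one hirr y
    have hB : Ideal.span {θ} ≠ ⊥ := by simpa using hθ0
    refine dvd_trans hl
      (dvd_exponent_of_map_eq_pow w Q hine (I := Ideal.span {x})
        (C := (∏ d, P d ^ k d) * C) ?_ ?_ hB hxmap)
    · intro hd
      rcases hW.dvd_or_dvd hd with h1 | h1
      · obtain ⟨d, -, hd'⟩ := hW.exists_mem_finset_dvd h1
        exact hWP d (associated_iff_eq.mp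
          (hW.associated_of_dvd (conjPrime _ v).prime (hW.dvd_of_dvd_pow hd')))
      · exact hWC h1
    · rw [hkR, hRW]
      exact mul_left_comm _ _ _
  -- evaluate the character
  have hIP : ∀ d, P d ∈ (Ideal (𝓞 K))⁰ := fun d =>
    mem_nonZeroDivisors_iff_ne_zero.mpr (conjPrime _ v).ne_bot
  refine ⟨(g : ZMod q).val, k, fun d => ?_, fun n hn => ?_, fun φ => ?_⟩
  · have h1 := mem_conjPrime.mp (hcong d)
    rw [sigma_symm_apply, map_sub, map_mul, map_pow, map_natCast, map_one] at h1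
    exact h1
  · refine hl.trans ?_
    have hg1 : g ^ n = 1 := by
      refine Units.ext ?_
      rw [Units.val_pow_eq_pow_val, Units.val_one, ← ZMod.natCast_zmod_val (g : ZMod q)]
      by_contra hne
      have hnd : ¬ (q : ℤ) ∣ (((g : ZMod q).val : ℤ) ^ n - 1) := fun e => hne (sub_eq_zero.mp (by
        have := (ZMod.intCast_zmod_eq_zero_iff_dvd _ q).mpr e
        push_cast at this
        exact this))
      obtain ⟨a, b, hab⟩ := (Nat.prime_iff_prime_int.mp hv).coprime_iff_not_dvd.mpr hnd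
      have hab' := congrArg (Int.cast : ℤ → 𝓞 K) hab
      push_cast at hab'
      exact v.isPrime.ne_top ((Ideal.eq_top_iff_one _).mpr
        (hab' ▸ v.asIdeal.add_mem (v.asIdeal.mul_mem_left _ (natCast_mem_of_absNorm_eq rfl))
          (v.asIdeal.mul_mem_left _ hn)))
    have h2 := orderOf_dvd_of_pow_eq_one hg1
    rwa [orderOf_eq_card_of_forall_mem_zpowers hg, Nat.card_eq_fintype_card, ZMod.card_units q] at h2
  have hprinc : ClassGroup.mk0 (⟨Ideal.span {x}, mem_nonZeroDivisors_iff_ne_zero.mpr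
      (by simpa using hx0)⟩ : (Ideal (𝓞 K))⁰) = 1 :=
    (ClassGroup.mk0_eq_one_iff _).mpr ⟨x, rfl⟩
  have h1 : (⟨Ideal.span {x}, mem_nonZeroDivisors_iff_ne_zero.mpr
      (by simpa using hx0)⟩ : (Ideal (𝓞 K))⁰) =
      (∏ d, (⟨P d, hIP d⟩ : (Ideal (𝓞 K))⁰) ^ k d) *
        ⟨J, mem_nonZeroDivisors_iff_ne_zero.mpr hJ0⟩ ^ l := by
    refine Subtype.ext ?_
    simp only [Submonoid.coe_mul, Submonoid.coe_finsetProd, SubmonoidClass.coe_pow]
    exact hkR.trans (by rw [hRJ])
  have h2 := congrArg (fun I => Multiplicative.toAdd (φ (ClassGroup.mk0 I))) h1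
  simp only [hprinc, map_one, toAdd_one, map_mul, map_pow, map_prod, mult_zmod_pow, mul_one,
    mult_toAdd_prod] at h2
  refine Eq.trans ?_ h2.symm
  refine Finset.sum_congr rfl fun d _ => ?_
  rw [sigmaCl_mk0 p K d (primeIdeal v) ⟨P d, hIP d⟩ rfl, toAdd_pow, nsmul_eq_mul]

/-- **Thaine's relation** for `1 + ζ`. -/
theorem exists_thaine_relation (h5 : 5 ≤ p) {l : ℕ} [Fact l.Prime] (v : HeightOneSpectrum (𝓞 K))
    (hvp : (p : 𝓞 K) ∉ v.asIdeal) (hv : (Ideal.absNorm v.asIdeal).Prime)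
    (hl : l ∣ Ideal.absNorm v.asIdeal - 1) :
    ∃ (c : ℕ) (k : (ZMod p)ˣ → ℕ),
      (∀ d : (ZMod p)ˣ, (c : 𝓞 K) ^ k d * sigma p K d⁻¹ (1 + zetaInt p K) - 1 ∈ v.asIdeal) ∧
      (∀ n : ℕ, (c : 𝓞 K) ^ n - 1 ∈ v.asIdeal → l ∣ n) ∧
      ∀ φ : ClassGroup (𝓞 K) →* Multiplicative (ZMod l),
        ∑ d : (ZMod p)ˣ, (k d : ZMod l) *
          Multiplicative.toAdd (φ (sigmaCl p K d (ClassGroup.mk0 (primeIdeal v)))) = 0 := by
  have h := exists_thaine_relation_gen p h5 (a := 2)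
    (by rw [Nat.cast_ofNat]; exact two_ne_zero_of_five_le p h5) v hvp hv hl
  simpa [Finset.sum_range_succ] using h

omit [Fact p.Prime] [IsCyclotomicExtension {p} ℚ K] in
/-- A class character composed with the relative norm. -/
theorem exists_norm_char {L : Type*} [Field L] [NumberField L] [Algebra K L] {l : ℕ} [Fact l.Prime]
    (φ : ClassGroup (𝓞 K) →* Multiplicative (ZMod l)) :
    ∃ ψ : ClassGroup (𝓞 L) →* Multiplicative (ZMod l), ∀ (I : (Ideal (𝓞 L))⁰) (J : (Ideal (𝓞 K))⁰),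
      J.1 = Ideal.relNorm (𝓞 K) I.1 → ψ (ClassGroup.mk0 I) = φ (ClassGroup.mk0 J) := by
  let N : (Ideal (𝓞 L))⁰ → (Ideal (𝓞 K))⁰ := fun I => ⟨Ideal.relNorm (𝓞 K) I.1,
    mem_nonZeroDivisors_iff_ne_zero.mpr fun e => nonZeroDivisors.ne_zero I.2 (Ideal.relNorm_eq_bot_iff.mp e)⟩
  have hN : ∀ I J, N (I * J) = N I * N J := fun I J => Subtype.ext (map_mul (Ideal.relNorm (𝓞 K)) I.1 J.1)
  have hwell : ∀ I J, ClassGroup.mk0 I = ClassGroup.mk0 J → φ (ClassGroup.mk0 (N I)) = φ (ClassGroup.mk0 (N J)) := by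
    intro I J h
    obtain ⟨a, b, ha, hb, hab⟩ := ClassGroup.mk0_eq_mk0_iff.mp h
    have h2 : ClassGroup.mk0 (N I) = ClassGroup.mk0 (N J) := by
      rw [ClassGroup.mk0_eq_mk0_iff]
      refine ⟨Algebra.intNorm (𝓞 K) (𝓞 L) a, Algebra.intNorm (𝓞 K) (𝓞 L) b, Algebra.intNorm_ne_zero.mpr ha,
        Algebra.intNorm_ne_zero.mpr hb, ?_⟩
      rw [← Ideal.relNorm_singleton, ← Ideal.relNorm_singleton, ← map_mul, ← map_mul, hab]
    rw [h2]
  refine ⟨{ toFun := fun C => φ (ClassGroup.mk0 (N (Function.surjInv ClassGroup.mk0_surjective C)))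
            map_one' := ?_
            map_mul' := fun C D => ?_ }, fun I J hJ => ?_⟩
  · have h1 : N 1 = 1 := Subtype.ext (map_one (Ideal.relNorm (𝓞 K)))
    rw [hwell _ 1 (by rw [Function.surjInv_eq ClassGroup.mk0_surjective, map_one]), h1, map_one, map_one]
  · rw [← map_mul, ← map_mul, ← hN]
    exact hwell _ _ (by rw [map_mul, Function.surjInv_eq ClassGroup.mk0_surjective,
      Function.surjInv_eq ClassGroup.mk0_surjective, Function.surjInv_eq ClassGroup.mk0_surjective])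
  · show φ (ClassGroup.mk0 (N _)) = _
    rw [hwell _ I (Function.surjInv_eq ClassGroup.mk0_surjective _)]
    exact congrArg (fun t => φ (ClassGroup.mk0 t)) (Subtype.ext hJ.symm)

omit [IsCyclotomicExtension {p} ℚ K] in
set_option backward.isDefEq.respectTransparency false in
/-- Some prime is seen by the character and by the unit. -/
theorem exists_prime_char_nonresidue {l : ℕ} [Fact l.Prime] (hl3 : 3 ≤ l) {ε : (𝓞 K)ˣ}
    (hε : ∀ y : K, y ^ l ≠ ((ε : 𝓞 K) : K)) (φ : ClassGroup (𝓞 K) →* Multiplicative (ZMod l)) (hφ : φ ≠ 1) :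
    ∃ v : HeightOneSpectrum (𝓞 K), (p : 𝓞 K) ∉ v.asIdeal ∧ (Ideal.absNorm v.asIdeal).Prime ∧
      l ∣ Ideal.absNorm v.asIdeal - 1 ∧ φ (ClassGroup.mk0 (primeIdeal v)) ≠ 1 ∧
      ∀ a : 𝓞 K, (ε : 𝓞 K) - a ^ l ∉ v.asIdeal := by
  by_contra hall
  push Not at hall
  have hlP : l.Prime := Fact.out
  have : NeZero l := ⟨hlP.ne_zero⟩
  let L := CyclotomicField l K
  have : IsCyclotomicExtension {l} K L := inferInstanceAs (IsCyclotomicExtension {l} K (CyclotomicField l K))
  have : NumberField L := IsCyclotomicExtension.numberField {l} K L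
  have hz := IsCyclotomicExtension.zeta_spec l K L
  have hcop : Nat.Coprime (Module.finrank K L) l := by
    have hle : Module.finrank K L ≤ l - 1 := by
      rw [(hz.powerBasis K).finrank, IsPrimitiveRoot.powerBasis_dim, ← Nat.totient_prime hlP,
        ← natDegree_cyclotomic l K]
      exact Polynomial.natDegree_le_of_dvd (minpoly.dvd K _ (by
        rw [← IsRoot.def.mp ((isRoot_cyclotomic_iff (R := L)).mpr hz), ← map_cyclotomic l (algebraMap K L), eval_map_algebraMap]))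
        (cyclotomic_ne_zero l K)
    have hpos : 0 < Module.finrank K L := Module.finrank_pos
    exact ((Nat.Prime.coprime_iff_not_dvd hlP).mpr fun e => by
      have := Nat.le_of_dvd hpos e
      omega).symm
  set f := algebraMap (𝓞 K) (𝓞 L) with hf
  -- `ε` stays a non-power
  have hε' : ∀ y : L, y ^ l ≠ ((f (ε : 𝓞 K) : 𝓞 L) : L) := by
    intro y hy
    have hy' : y ^ l = algebraMap K L ((ε : 𝓞 K) : K) := hy
    have h := congrArg (Algebra.norm K) hy'
    rw [map_pow, Algebra.norm_algebraMap] at h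
    obtain ⟨a, b, hab⟩ : ∃ a b : ℤ, a * (Module.finrank K L : ℤ) + b * (l : ℤ) = 1 :=
      Int.isCoprime_iff_nat_coprime.mpr (by simpa using hcop)
    have he0 : ((ε : 𝓞 K) : K) ≠ 0 := RingOfIntegers.coe_ne_zero_iff.mpr ε.ne_zero
    refine hε (Algebra.norm K y ^ a * ((ε : 𝓞 K) : K) ^ b) ?_
    set n := Module.finrank K L
    rw [mul_pow, ← zpow_natCast _ l, ← zpow_natCast _ l, ← zpow_mul, ← zpow_mul, mul_comm a, zpow_mul,
      zpow_natCast, h, ← zpow_natCast _ n, ← zpow_mul, ← zpow_add₀ he0, mul_comm (n : ℤ) a, hab, zpow_one]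
  obtain ⟨ψ, hψ⟩ := exists_norm_char (L := L) φ
  have hψne : ψ ≠ 1 := by
    obtain ⟨C, hC⟩ : ∃ C, φ C ≠ 1 := by
      by_contra h
      push Not at h
      exact hφ (MonoidHom.ext h)
    obtain ⟨I, rfl⟩ := ClassGroup.mk0_surjective C
    intro e
    let I' : (Ideal (𝓞 L))⁰ := ⟨I.1.map f, mem_nonZeroDivisors_iff_ne_zero.mpr fun h =>
      nonZeroDivisors.ne_zero I.2 ((Ideal.map_eq_bot_iff_of_injective
        (FaithfulSMul.algebraMap_injective (𝓞 K) (𝓞 L))).mp h)⟩
    have h1 := hψ I' (I ^ Module.finrank K L) (by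
      rw [SubmonoidClass.coe_pow, Ideal.relNorm_algebraMap, IsFractionRing.finrank_eq (𝓞 K) K (𝓞 L) L])
    rw [e, MonoidHom.one_apply, map_pow, map_pow] at h1
    refine hC ?_
    have h2 : φ (ClassGroup.mk0 I) ^ l = 1 := mult_zmod_pow l _
    have := pow_gcd_eq_one.mpr ⟨h1.symm, h2⟩
    rwa [hcop, pow_one] at this
  obtain ⟨M₁, hM₁⟩ := exists_sum_ker_le ψ hψne
  obtain ⟨M₂, hM₂⟩ := exists_sum_residue_le (K := L) (hz.toInteger_isPrimitiveRoot) hε'
  obtain ⟨M₀, hM₀⟩ := exists_lower_bound L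
  have hne0 : ((p : 𝓞 L) * (l : 𝓞 L)) ≠ 0 :=
    mul_ne_zero (Nat.cast_ne_zero.mpr (Fact.out : p.Prime).ne_zero) (Nat.cast_ne_zero.mpr hlP.ne_zero)
  have hfin : {w : HeightOneSpectrum (𝓞 L) | (p : 𝓞 L) * (l : 𝓞 L) ∈ w.asIdeal}.Finite :=
    (Ideal.finite_factors (I := Ideal.span {(p : 𝓞 L) * (l : 𝓞 L)}) (by simpa using hne0)).subset
      fun v hv => Ideal.dvd_span_singleton.mpr hv
  set c : ℝ := (hfin.toFinset.card : ℝ)
  set B : ℝ := max 0 ((l * M₀ + M₁ + M₂ + l * c) / (l - 2) + 1)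
  set s : ℝ := 1 + Real.exp (-B)
  have hs : s ∈ Set.Ioc (1 : ℝ) 2 := ⟨lt_add_of_pos_right _ (Real.exp_pos _), by
    have : Real.exp (-B) ≤ 1 := Real.exp_le_one_iff.mpr (neg_nonpos.mpr (le_max_left _ _))
    linarith⟩
  have hlog : Real.log (1 / (s - 1)) = B := by
    simp [s, Real.log_inv, Real.log_exp]
  obtain ⟨T, hT, hTsum⟩ := hM₀ s hs
  set T₁ := T.filter fun v => ψ (ClassGroup.mk0 (primeIdeal v)) = 1
  set T₃ := (T.filter fun v => ¬ ψ (ClassGroup.mk0 (primeIdeal v)) = 1).filter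
    fun v => (p : 𝓞 L) * (l : 𝓞 L) ∈ v.asIdeal
  set T₂ := (T.filter fun v => ¬ ψ (ClassGroup.mk0 (primeIdeal v)) = 1).filter
    fun v => ¬ (p : 𝓞 L) * (l : 𝓞 L) ∈ v.asIdeal
  have h1 := hM₁ s hs T₁ fun v hv => (Finset.mem_filter.mp hv).2
  have h2 := hM₂ s hs T₂ fun w hw => by
    obtain ⟨hw', hwpl⟩ := Finset.mem_filter.mp hw
    obtain ⟨hwT, hwψ⟩ := Finset.mem_filter.mp hw'
    have hwl : (l : 𝓞 L) ∉ w.asIdeal := fun h => hwpl (w.asIdeal.mul_mem_left _ h)
    have hwp : (p : 𝓞 L) ∉ w.asIdeal := fun h => hwpl (w.asIdeal.mul_mem_right _ h)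
    refine ⟨hwl, fun h => w.isPrime.ne_top (Ideal.eq_top_of_isUnit_mem _ h (ε.isUnit.map f)), hT w hwT, ?_⟩
    have hcP : (w.asIdeal.comap f).IsPrime := Ideal.comap_isPrime f _
    have hmem : ((Ideal.absNorm w.asIdeal : ℕ) : 𝓞 K) ∈ w.asIdeal.comap f := by
      rw [Ideal.mem_comap, map_natCast]; exact natCast_mem_of_absNorm_eq rfl
    have hc0 : w.asIdeal.comap f ≠ ⊥ := fun e => by
      rw [e, Ideal.mem_bot, Nat.cast_eq_zero] at hmem
      exact (hT w hwT).ne_zero hmem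
    set v : HeightOneSpectrum (𝓞 K) := ⟨w.asIdeal.comap f, hcP, hc0⟩ with hv
    have hN : Ideal.absNorm v.asIdeal = Ideal.absNorm w.asIdeal := by
      have hinj := Ideal.quotientMap_injective (I := w.asIdeal) (f := f)
      have hdvd : Nat.card (𝓞 K ⧸ w.asIdeal.comap f) ∣ Nat.card (𝓞 L ⧸ w.asIdeal) :=
        AddSubgroup.card_dvd_of_injective (Ideal.quotientMap w.asIdeal f le_rfl).toAddMonoidHom hinj
      rw [Ideal.absNorm_apply, Submodule.cardQuot_apply, Ideal.absNorm_apply, Submodule.cardQuot_apply]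
      have hne1 : Nat.card (𝓞 K ⧸ w.asIdeal.comap f) ≠ 1 := by
        rw [← Submodule.cardQuot_apply, ← Ideal.absNorm_apply, Ne, Ideal.absNorm_eq_one_iff]
        exact hcP.ne_top
      have hwPr := hT w hwT
      rw [Ideal.absNorm_apply, Submodule.cardQuot_apply] at hwPr
      exact (hwPr.eq_one_or_self_of_dvd _ hdvd).resolve_left hne1
    have hvp : (p : 𝓞 K) ∉ v.asIdeal := fun h => hwp (by
      have h' : f (p : 𝓞 K) ∈ w.asIdeal := h
      rwa [map_natCast] at h')
    have hl1 : l ∣ Ideal.absNorm v.asIdeal - 1 := hN ▸ dvd_absNorm_sub_one hz.toInteger_isPrimitiveRoot w hwl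
    have hφv : φ (ClassGroup.mk0 (primeIdeal v)) ≠ 1 := fun e => hwψ (by
      have : w.asIdeal.LiesOver v.asIdeal := ⟨rfl⟩
      have : v.asIdeal.IsPrime := v.isPrime
      obtain ⟨r, hr⟩ := Ideal.exists_relNorm_eq_pow_of_isPrime w.asIdeal v.asIdeal
      rw [hψ (primeIdeal w) (primeIdeal v ^ r) hr.symm, map_pow, map_pow, e, one_pow])
    obtain ⟨a, ha⟩ := hall v hvp (hN ▸ hT w hwT) hl1 hφv
    refine ⟨f a, ?_⟩
    rw [← map_pow, ← map_sub]
    exact ha
  have h3 : ∑ v ∈ T₃, zN s (primeIdeal v) ≤ c := by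
    refine (Finset.sum_le_card_nsmul T₃ _ 1 fun v _ =>
      (zN_primeIdeal_le_half hs.1.le v).trans (by norm_num)).trans ?_
    rw [nsmul_eq_mul, mul_one]
    exact Nat.cast_le.mpr (Finset.card_le_card fun v hv =>
      hfin.mem_toFinset.mpr (Finset.mem_filter.mp hv).2)
  rw [← Finset.sum_filter_add_sum_filter_not T (fun v => ψ (ClassGroup.mk0 (primeIdeal v)) = 1),
    ← Finset.sum_filter_add_sum_filter_not (T.filter fun v => ¬ ψ (ClassGroup.mk0 (primeIdeal v)) = 1)
      (fun v => (p : 𝓞 L) * (l : 𝓞 L) ∈ v.asIdeal), hlog] at hTsum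
  rw [hlog] at h1 h2
  have hl' : (3 : ℝ) ≤ l := by exact_mod_cast hl3
  have hl2 : (0 : ℝ) < (l : ℝ) - 2 := by linarith
  have hB : (l * M₀ + M₁ + M₂ + l * c) / ((l : ℝ) - 2) + 1 ≤ B := le_max_right _ _
  rw [div_add_one hl2.ne', div_le_iff₀ hl2] at hB
  nlinarith [mul_le_mul_of_nonneg_left hTsum (show (0 : ℝ) ≤ l by linarith),
    mul_le_mul_of_nonneg_left h3 (show (0 : ℝ) ≤ l by linarith)]

end FA.Catalan
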